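import Mathlib

namespace Fermat.Agent.FLTP

open NumberField NumberField.Units NumberField.InfinitePlace

theorem units_rank_add_one (p : ℕ) [Fact p.Prime] (hp : p ≠ 2) (K : Type) [Field K]
    [NumberField K] [IsCyclotomicExtension {p} ℚ K] :
    NumberField.Units.rank K + 1 = (p - 1) / 2 := by
  have hpp : p.Prime := Fact.out
  have hp3 : 2 < p := lt_of_le_of_ne hpp.two_le (Ne.symm hp)
  have h1 : nrRealPlaces K = 0 := IsCyclotomicExtension.Rat.nrRealPlaces_eq_zero K hp3
  have h2 : nrComplexPlaces K = Nat.totient p / 2 :=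
    IsCyclotomicExtension.Rat.nrComplexPlaces_eq_totient_div_two p K
  have h3 : Fintype.card (InfinitePlace K) = nrRealPlaces K + nrComplexPlaces K :=
    card_eq_nrRealPlaces_add_nrComplexPlaces K
  rw [Nat.totient_prime hpp] at h2
  unfold NumberField.Units.rank
  rw [h3, h1, h2]
  have : 1 ≤ (p - 1) / 2 := by omega
  omega

theorem exists_units_generators (p : ℕ) [Fact p.Prime] (hp : p ≠ 2) (K : Type) [Field K]
    [NumberField K] [IsCyclotomicExtension {p} ℚ K] :
    ∃ g : Fin ((p - 1) / 2) → (𝓞 K)ˣ, Subgroup.closure (Set.range g) = ⊤ := by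
  obtain ⟨t, ht⟩ := IsCyclic.exists_generator (α := torsion K)
  have hr := units_rank_add_one p hp K
  let g0 : Fin (NumberField.Units.rank K + 1) → (𝓞 K)ˣ :=
    Fin.cons (t : (𝓞 K)ˣ) (fundSystem K)
  refine ⟨g0 ∘ Fin.cast hr.symm, ?_⟩
  have hrange : Set.range (g0 ∘ Fin.cast hr.symm) = Set.range g0 := by
    apply (Fin.castOrderIso hr.symm).surjective.range_comp
  rw [hrange, eq_top_iff, ← closure_fundSystem_sup_torsion_eq_top K, sup_le_iff]
  constructor
  · apply Subgroup.closure_mono
    rintro _ ⟨i, rfl⟩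
    exact ⟨i.succ, by simp [g0]⟩
  · intro x hx
    have hx' := ht ⟨x, hx⟩
    obtain ⟨k, hk⟩ := Subgroup.mem_zpowers_iff.mp hx'
    have hxk : x = (t : (𝓞 K)ˣ) ^ k := by
      have := congrArg Subtype.val hk
      simpa using this.symm
    rw [hxk]
    apply Subgroup.zpow_mem
    apply Subgroup.subset_closure
    exact ⟨0, by simp [g0]⟩

end Fermat.Agent.FLTP
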