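import Mathlib
import Fermat.Agent.FLTP.KummerGen

set_option autoImplicit false

namespace Fermat.Agent.FLTP

open Polynomial NumberField

/-- Every element of a commutative group generated by a finite family is a product of
integer powers of the family. -/
theorem h24_exists_zpow_prod {E : Type*} [CommGroup E] {m : ℕ} (gen : Fin m → E)
    (hgen : Subgroup.closure (Set.range gen) = ⊤) (u : E) :
    ∃ a : Fin m → ℤ, u = ∏ i, gen i ^ a i := by
  have hu : u ∈ Subgroup.closure (Set.range gen) := by rw [hgen]; exact Subgroup.mem_top u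
  induction hu using Subgroup.closure_induction with
  | mem x hx =>
    obtain ⟨i, rfl⟩ := hx
    classical
    refine ⟨Pi.single i 1, ?_⟩
    rw [Finset.prod_eq_single i]
    · simp
    · intro j _ hj
      simp [Pi.single_eq_of_ne hj]
    · intro h
      exact absurd (Finset.mem_univ i) h
  | one => exact ⟨0, by simp⟩
  | mul x y _ _ hx hy =>
    obtain ⟨a, rfl⟩ := hx
    obtain ⟨b, rfl⟩ := hy
    refine ⟨a + b, ?_⟩
    rw [← Finset.prod_mul_distrib]
    refine Finset.prod_congr rfl fun i _ => ?_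
    rw [Pi.add_apply, zpow_add]
  | inv x _ hx =>
    obtain ⟨a, rfl⟩ := hx
    refine ⟨-a, ?_⟩
    rw [← Finset.prod_inv_distrib]
    refine Finset.prod_congr rfl fun i _ => ?_
    rw [Pi.neg_apply, zpow_neg]

/-- Abstract counting lemma behind Kummer's lemma. -/
theorem h24_exists_pow_eq_of_linearIndependent {p : ℕ} [Fact p.Prime] {E V : Type*}
    [CommGroup E] [AddCommGroup V] [Module (ZMod p) V] {m : ℕ} (gen : Fin m → E)
    (hgen : Subgroup.closure (Set.range gen) = ⊤) (Ψ : E →* Multiplicative V)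
    (g : Fin m → E)
    (hg : LinearIndependent (ZMod p) fun j => Multiplicative.toAdd (Ψ (g j)))
    (u : E) (hu : Ψ u = 1) : ∃ v : E, u = v ^ p := by
  classical
  -- additive version of Ψ
  let ψ : E → V := fun x => Multiplicative.toAdd (Ψ x)
  have hψ_mul : ∀ x y, ψ (x * y) = ψ x + ψ y := fun x y => by
    simp only [ψ, map_mul, toAdd_mul]
  have hψ_one : ψ 1 = 0 := by simp [ψ]
  have hψ_zpow : ∀ (x : E) (n : ℤ), ψ (x ^ n) = (n : ZMod p) • ψ x := fun x n => by
    simp only [ψ, map_zpow, toAdd_zpow]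
    exact (Int.cast_smul_eq_zsmul (ZMod p) n _).symm
  have hψ_prod : ∀ a : Fin m → ℤ, ψ (∏ i, gen i ^ a i) = ∑ i, (a i : ZMod p) • ψ (gen i) := by
    intro a
    have : ∀ s : Finset (Fin m), ψ (∏ i ∈ s, gen i ^ a i) = ∑ i ∈ s, (a i : ZMod p) • ψ (gen i) := by
      intro s
      induction s using Finset.induction_on with
      | empty => simpa using hψ_one
      | insert i s hi ih =>
        rw [Finset.prod_insert hi, Finset.sum_insert hi, hψ_mul, ih, hψ_zpow]
    exact this Finset.univ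
  -- the span of the images of the generators
  let W : Submodule (ZMod p) V := Submodule.span (ZMod p) (Set.range fun i => ψ (gen i))
  have hmemW : ∀ x : E, ψ x ∈ W := by
    intro x
    obtain ⟨a, rfl⟩ := h24_exists_zpow_prod gen hgen x
    rw [hψ_prod]
    exact Submodule.sum_mem _ fun i _ =>
      Submodule.smul_mem _ _ (Submodule.subset_span ⟨i, rfl⟩)
  -- the family ψ ∘ g lives in W and is independent, so finrank W ≥ m
  have hfin : Module.Finite (ZMod p) W := Module.Finite.span_of_finite _ (Set.finite_range _)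
  let g' : Fin m → W := fun j => ⟨ψ (g j), hmemW (g j)⟩
  have hg' : LinearIndependent (ZMod p) g' := by
    apply LinearIndependent.of_comp W.subtype
    exact hg
  have h1 : m ≤ Module.finrank (ZMod p) W := by
    have := hg'.fintype_card_le_finrank
    simpa using this
  have h2 : Module.finrank (ZMod p) W ≤ m := by
    have := finrank_range_le_card (R := ZMod p) (fun i => ψ (gen i))
    simpa [W, Set.finrank] using this
  have hgenLI : LinearIndependent (ZMod p) fun i => ψ (gen i) := by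
    rw [linearIndependent_iff_card_eq_finrank_span]
    simp only [Fintype.card_fin, Set.finrank]
    exact le_antisymm h1 h2
  -- conclude
  obtain ⟨a, rfl⟩ := h24_exists_zpow_prod gen hgen u
  have hu' : ψ (∏ i, gen i ^ a i) = 0 := by simp [ψ, hu]
  rw [hψ_prod] at hu'
  have hzero := Fintype.linearIndependent_iff.mp hgenLI (fun i => (a i : ZMod p)) hu'
  have hdvd : ∀ i, (p : ℤ) ∣ a i := fun i =>
    (ZMod.intCast_zmod_eq_zero_iff_dvd (a i) p).mp (hzero i)
  choose b hb using hdvd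
  refine ⟨∏ i, gen i ^ b i, ?_⟩
  rw [← Finset.prod_pow]
  refine Finset.prod_congr rfl fun i _ => ?_
  rw [hb i, ← zpow_natCast, ← zpow_mul, mul_comm]

/-- The truncated polynomial ring `F_p[T]/(T^(p-2))`. -/
abbrev h24A (p : ℕ) : Type := (ZMod p)[X] ⧸ Ideal.span {(X : (ZMod p)[X]) ^ (p - 2)}

/-- The class of `T`. -/
noncomputable def h24T (p : ℕ) : h24A p := Ideal.Quotient.mk _ X

theorem h24T_pow (p : ℕ) : h24T p ^ (p - 2) = 0 := by
  rw [h24T, ← map_pow]
  exact Ideal.Quotient.eq_zero_iff_mem.mpr (Ideal.subset_span rfl)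

/-- The image of `ζ` in the dual numbers over `F_p[T]/(T^(p-2))`: `(1+T)(1+ε)`. -/
noncomputable def h24y (p : ℕ) : DualNumber (h24A p) :=
  TrivSqZeroExt.inl (1 + h24T p) + TrivSqZeroExt.inr (1 + h24T p)

@[simp] theorem h24y_fst (p : ℕ) : TrivSqZeroExt.fst (h24y p) = 1 + h24T p := by
  simp [h24y]

@[simp] theorem h24y_snd (p : ℕ) : TrivSqZeroExt.snd (h24y p) = 1 + h24T p := by
  simp [h24y]

theorem h24_natCast_dual (p : ℕ) [Fact p.Prime] : ((p : ℕ) : DualNumber (h24A p)) = 0 := by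
  have h : ((p : ℕ) : h24A p) = 0 := by
    rw [← map_natCast (algebraMap (ZMod p) (h24A p)) p, ZMod.natCast_self, map_zero]
  apply TrivSqZeroExt.ext
  · simp [h]
  · simp

/-- In characteristic `p`, the `p`-th cyclotomic polynomial is `(X-1)^(p-1)`. -/
theorem h24_geom_sum_eq (p : ℕ) [Fact p.Prime] :
    (∑ i ∈ Finset.range p, (X : (ZMod p)[X]) ^ i) = (X - 1) ^ (p - 1) := by
  have hp : p.Prime := Fact.out
  have h1 : (∑ i ∈ Finset.range p, (X : (ZMod p)[X]) ^ i) * (X - 1) = (X - 1) ^ (p - 1) * (X - 1) := by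
    rw [geom_sum_mul, ← pow_succ, Nat.sub_add_cancel hp.one_le, sub_pow_char, one_pow]
  have hne : (X - 1 : (ZMod p)[X]) ≠ 0 := by
    have := X_sub_C_ne_zero (1 : ZMod p)
    simpa using this
  exact mul_right_cancel₀ hne h1

theorem h24y_cyclo (p : ℕ) [Fact p.Prime] (hp2 : p ≠ 2) :
    ∑ i ∈ Finset.range p, h24y p ^ i = 0 := by
  have hp : p.Prime := Fact.out
  have h3 : 3 ≤ p := by
    have := hp.two_le
    omega
  have h := congrArg (aeval (h24y p)) (h24_geom_sum_eq p)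
  simp only [map_sum, map_pow, aeval_X, map_sub, map_one] at h
  rw [h]
  apply TrivSqZeroExt.ext
  · rw [TrivSqZeroExt.fst_pow]
    simp only [TrivSqZeroExt.fst_sub, h24y_fst, TrivSqZeroExt.fst_one, add_sub_cancel_left,
      TrivSqZeroExt.fst_zero]
    have : p - 1 = (p - 2) + 1 := by omega
    rw [this, pow_succ, h24T_pow, zero_mul]
  · rw [TrivSqZeroExt.snd_pow]
    simp only [TrivSqZeroExt.fst_sub, h24y_fst, TrivSqZeroExt.fst_one, add_sub_cancel_left,
      TrivSqZeroExt.snd_zero]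
    have : (p - 1).pred = p - 2 := by
      rw [Nat.pred_eq_sub_one]; omega
    rw [this, h24T_pow]
    simp

section Theta

variable (p : ℕ) [Fact p.Prime] (K : Type) [Field K] [NumberField K]
  [IsCyclotomicExtension {p} ℚ K]

/-- The chosen primitive root, as an algebraic integer. -/
noncomputable def h24zeta : 𝓞 K := (IsCyclotomicExtension.zeta_spec p ℚ K).toInteger

theorem h24zeta_isPrimitiveRoot : IsPrimitiveRoot (h24zeta p K) p :=
  (IsCyclotomicExtension.zeta_spec p ℚ K).toInteger_isPrimitiveRoot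

theorem h24_minpoly_gen :
    minpoly ℤ (IsCyclotomicExtension.zeta_spec p ℚ K).integralPowerBasis.gen = cyclotomic p ℤ := by
  rw [IsPrimitiveRoot.integralPowerBasis_gen]
  have hζ := IsCyclotomicExtension.zeta_spec p ℚ K
  rw [cyclotomic_eq_minpoly hζ (NeZero.pos p)]
  exact (minpoly.algebraMap_eq (A := ℤ) (B := 𝓞 K) (B' := K) RingOfIntegers.coe_injective
    hζ.toInteger).symm

/-- The ring hom `𝓞 K → (F_p[T]/(T^(p-2)))[ε]` sending `ζ` to `(1+T)(1+ε)`. -/
noncomputable def h24Theta (hp2 : p ≠ 2) : 𝓞 K →ₐ[ℤ] DualNumber (h24A p) :=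
  (IsCyclotomicExtension.zeta_spec p ℚ K).integralPowerBasis.lift (h24y p) (by
    rw [h24_minpoly_gen, cyclotomic_prime]
    simp only [map_sum, map_pow, aeval_X]
    exact h24y_cyclo p hp2)

theorem h24Theta_zeta (hp2 : p ≠ 2) : h24Theta p K hp2 (h24zeta p K) = h24y p := by
  have h := (IsCyclotomicExtension.zeta_spec p ℚ K).integralPowerBasis_gen
  unfold h24zeta
  rw [← h]
  exact PowerBasis.lift_gen _ _ _

/-- The first component of `Θ`, as a ring hom to `F_p[T]/(T^(p-2))`. -/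
noncomputable def h24fst (hp2 : p ≠ 2) : 𝓞 K →+* h24A p :=
  (TrivSqZeroExt.fstHom ℤ (h24A p) (h24A p) : DualNumber (h24A p) →+* h24A p).comp
    (h24Theta p K hp2 : 𝓞 K →+* DualNumber (h24A p))

theorem h24fst_apply (hp2 : p ≠ 2) (x : 𝓞 K) :
    h24fst p K hp2 x = TrivSqZeroExt.fst (h24Theta p K hp2 x) := rfl

/-- The logarithmic derivative `dlog u = snd (Θ u) / fst (Θ u)`. -/
noncomputable def h24dlog (hp2 : p ≠ 2) : (𝓞 K)ˣ →* Multiplicative (h24A p) where
  toFun u := Multiplicative.ofAdd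
    (TrivSqZeroExt.snd (h24Theta p K hp2 (u : 𝓞 K)) *
      ((Units.map (h24fst p K hp2 : 𝓞 K →* h24A p) u)⁻¹ : (h24A p)ˣ))
  map_one' := by
    simp
  map_mul' u v := by
    rw [← ofAdd_add]
    congr 1
    have hu : h24fst p K hp2 (u : 𝓞 K) * ((Units.map (h24fst p K hp2 : 𝓞 K →* h24A p) u)⁻¹ : (h24A p)ˣ) = 1 :=
      (Units.map (h24fst p K hp2 : 𝓞 K →* h24A p) u).mul_inv
    have hv : h24fst p K hp2 (v : 𝓞 K) * ((Units.map (h24fst p K hp2 : 𝓞 K →* h24A p) v)⁻¹ : (h24A p)ˣ) = 1 :=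
      (Units.map (h24fst p K hp2 : 𝓞 K →* h24A p) v).mul_inv
    rw [h24fst_apply] at hu hv
    rw [Units.val_mul, map_mul, DualNumber.snd_mul, map_mul,
      mul_inv ((Units.map (h24fst p K hp2 : 𝓞 K →* h24A p)) u), Units.val_mul]
    generalize ((Units.map (h24fst p K hp2 : 𝓞 K →* h24A p) u)⁻¹ : (h24A p)ˣ).val = a at hu ⊢
    generalize ((Units.map (h24fst p K hp2 : 𝓞 K →* h24A p) v)⁻¹ : (h24A p)ˣ).val = b at hv ⊢
    generalize TrivSqZeroExt.fst (h24Theta p K hp2 (u : 𝓞 K)) = f at hu ⊢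
    generalize TrivSqZeroExt.fst (h24Theta p K hp2 (v : 𝓞 K)) = g at hv ⊢
    generalize TrivSqZeroExt.snd (h24Theta p K hp2 (u : 𝓞 K)) = s
    generalize TrivSqZeroExt.snd (h24Theta p K hp2 (v : 𝓞 K)) = t
    linear_combination (t * b) * hu + (s * a) * hv

theorem h24dlog_toAdd (hp2 : p ≠ 2) (u : (𝓞 K)ˣ) :
    Multiplicative.toAdd (h24dlog p K hp2 u) =
      TrivSqZeroExt.snd (h24Theta p K hp2 (u : 𝓞 K)) *
        ((Units.map (h24fst p K hp2 : 𝓞 K →* h24A p) u)⁻¹ : (h24A p)ˣ) := rfl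

theorem h24dlog_eq_of_mul_eq (hp2 : p ≠ 2) (u : (𝓞 K)ˣ) (w : h24A p)
    (h : TrivSqZeroExt.fst (h24Theta p K hp2 (u : 𝓞 K)) * w =
      TrivSqZeroExt.snd (h24Theta p K hp2 (u : 𝓞 K))) :
    Multiplicative.toAdd (h24dlog p K hp2 u) = w := by
  have hu : h24fst p K hp2 (u : 𝓞 K) *
      ((Units.map (h24fst p K hp2 : 𝓞 K →* h24A p) u)⁻¹ : (h24A p)ˣ) = 1 :=
    (Units.map (h24fst p K hp2 : 𝓞 K →* h24A p) u).mul_inv
  rw [h24fst_apply] at hu
  rw [h24dlog_toAdd, ← h]
  generalize ((Units.map (h24fst p K hp2 : 𝓞 K →* h24A p) u)⁻¹ : (h24A p)ˣ).val = a at hu ⊢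
  generalize TrivSqZeroExt.fst (h24Theta p K hp2 (u : 𝓞 K)) = f at hu ⊢
  linear_combination w * hu

/-- `dlog` kills units congruent to a rational integer modulo `p`. -/
theorem h24dlog_eq_one_of_int (hp2 : p ≠ 2) (u : (𝓞 K)ˣ)
    (hu : ∃ n : ℤ, (p : 𝓞 K) ∣ (u : 𝓞 K) - n) : h24dlog p K hp2 u = 1 := by
  obtain ⟨n, x, hx⟩ := hu
  have h1 : (u : 𝓞 K) = n + p * x := by rw [← hx]; ring
  have h2 : h24Theta p K hp2 (u : 𝓞 K) = (n : DualNumber (h24A p)) := by
    rw [h1, map_add, map_mul, map_intCast, map_natCast, h24_natCast_dual, zero_mul, add_zero]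
  have h3 : Multiplicative.toAdd (h24dlog p K hp2 u) = 0 := by
    apply h24dlog_eq_of_mul_eq
    rw [h2]
    simp
  exact Multiplicative.toAdd.injective h3

theorem h24Theta_zeta_pow_fst (hp2 : p ≠ 2) (i : ℕ) :
    TrivSqZeroExt.fst (h24Theta p K hp2 (h24zeta p K ^ i)) = (1 + h24T p) ^ i := by
  rw [map_pow, h24Theta_zeta, TrivSqZeroExt.fst_pow, h24y_fst]

theorem h24Theta_zeta_pow_snd (hp2 : p ≠ 2) (i : ℕ) :
    TrivSqZeroExt.snd (h24Theta p K hp2 (h24zeta p K ^ i)) = (i : h24A p) * (1 + h24T p) ^ i := by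
  rw [map_pow, h24Theta_zeta, TrivSqZeroExt.snd_pow, h24y_fst, h24y_snd]
  cases i with
  | zero => simp
  | succ j =>
    rw [Nat.pred_succ, smul_eq_mul, nsmul_eq_mul, pow_succ]

/-- `dlog ζ = 1`. -/
theorem h24dlog_zeta (hp2 : p ≠ 2) (u : (𝓞 K)ˣ) (hu : (u : 𝓞 K) = h24zeta p K) :
    Multiplicative.toAdd (h24dlog p K hp2 u) = 1 := by
  apply h24dlog_eq_of_mul_eq
  have h1 := h24Theta_zeta_pow_fst p K hp2 1
  have h2 := h24Theta_zeta_pow_snd p K hp2 1
  rw [pow_one] at h1 h2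
  rw [hu, h1, h2]
  simp

/-- `S_a * dlog (1 + ζ + ... + ζ^(a-1)) = D_a`. -/
theorem h24dlog_geom_sum (hp2 : p ≠ 2) (a : ℕ) (u : (𝓞 K)ˣ)
    (hu : (u : 𝓞 K) = ∑ i ∈ Finset.range a, h24zeta p K ^ i) :
    Ideal.Quotient.mk (Ideal.span {(X : (ZMod p)[X]) ^ (p - 2)})
        (∑ i ∈ Finset.range a, (1 + X) ^ i) * Multiplicative.toAdd (h24dlog p K hp2 u) =
      Ideal.Quotient.mk (Ideal.span {(X : (ZMod p)[X]) ^ (p - 2)})
        (∑ i ∈ Finset.range a, (i : (ZMod p)[X]) * (1 + X) ^ i) := by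
  have hfst : TrivSqZeroExt.fst (h24Theta p K hp2 (u : 𝓞 K)) =
      Ideal.Quotient.mk (Ideal.span {(X : (ZMod p)[X]) ^ (p - 2)})
        (∑ i ∈ Finset.range a, (1 + X) ^ i) := by
    rw [hu, map_sum, TrivSqZeroExt.fst_sum, map_sum]
    refine Finset.sum_congr rfl fun i _ => ?_
    rw [h24Theta_zeta_pow_fst, map_pow, map_add, map_one]
    rfl
  have hsnd : TrivSqZeroExt.snd (h24Theta p K hp2 (u : 𝓞 K)) =
      Ideal.Quotient.mk (Ideal.span {(X : (ZMod p)[X]) ^ (p - 2)})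
        (∑ i ∈ Finset.range a, (i : (ZMod p)[X]) * (1 + X) ^ i) := by
    rw [hu, map_sum, TrivSqZeroExt.snd_sum, map_sum]
    refine Finset.sum_congr rfl fun i _ => ?_
    rw [h24Theta_zeta_pow_snd, map_mul, map_pow, map_add, map_one, map_natCast]
    rfl
  have hu' : h24fst p K hp2 (u : 𝓞 K) *
      ((Units.map (h24fst p K hp2 : 𝓞 K →* h24A p) u)⁻¹ : (h24A p)ˣ) = 1 :=
    (Units.map (h24fst p K hp2 : 𝓞 K →* h24A p) u).mul_inv
  rw [h24fst_apply] at hu'
  rw [← hfst, ← hsnd, h24dlog_toAdd]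
  generalize ((Units.map (h24fst p K hp2 : 𝓞 K →* h24A p) u)⁻¹ : (h24A p)ˣ).val = b at hu' ⊢
  generalize TrivSqZeroExt.fst (h24Theta p K hp2 (u : 𝓞 K)) = f at hu' ⊢
  generalize TrivSqZeroExt.snd (h24Theta p K hp2 (u : 𝓞 K)) = s
  linear_combination s * hu'

end Theta

/-- Kummer's lemma from a finite `F_p`-independence certificate. -/
theorem h24_kummer_of_cert (p : ℕ) [Fact p.Prime] (hp : p ≠ 2) (K : Type) [Field K]
    [NumberField K] [IsCyclotomicExtension {p} ℚ K]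
    (hcert : ∀ w : ℕ → (ZMod p)[X] ⧸ Ideal.span {(X : (ZMod p)[X]) ^ (p - 2)}, w 1 = 1 →
      (∀ a ∈ Finset.Icc 2 ((p - 1) / 2),
        Ideal.Quotient.mk _ (∑ i ∈ Finset.range a, (1 + X) ^ i) * w a =
          Ideal.Quotient.mk _ (∑ i ∈ Finset.range a, (i : (ZMod p)[X]) * (1 + X) ^ i)) →
      ∀ c : ℕ → ZMod p, ∑ a ∈ Finset.Icc 1 ((p - 1) / 2), c a • w a = 0 →
        ∀ a ∈ Finset.Icc 1 ((p - 1) / 2), c a = 0) :
    ∀ u : (NumberField.RingOfIntegers K)ˣ,
      (∃ n : ℤ, (p : NumberField.RingOfIntegers K) ∣ (u : NumberField.RingOfIntegers K) - n) →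
        ∃ v : (NumberField.RingOfIntegers K)ˣ, u = v ^ p := by
  intro u hu
  have hpp : p.Prime := Fact.out
  obtain ⟨gen, hgen⟩ := exists_units_generators p hp K
  have hζ := h24zeta_isPrimitiveRoot p K
  have hunit : ∀ a : ℕ, a ∈ Finset.Icc 2 ((p - 1) / 2) →
      IsUnit (∑ i ∈ Finset.range a, h24zeta p K ^ i) := by
    intro a ha
    rw [Finset.mem_Icc] at ha
    apply hζ.geom_sum_isUnit hpp.two_le
    exact (Nat.coprime_of_lt_prime (by omega) (by omega) hpp).symm
  classical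
  let G : ℕ → (𝓞 K)ˣ := fun a =>
    if a = 1 then (hζ.isUnit (NeZero.ne p)).unit
    else if h : a ∈ Finset.Icc 2 ((p - 1) / 2) then (hunit a h).unit else 1
  let w : ℕ → h24A p := fun a => Multiplicative.toAdd (h24dlog p K hp (G a))
  have hw1 : w 1 = 1 := by
    apply h24dlog_zeta
    simp [G]
  have hwa : ∀ a ∈ Finset.Icc 2 ((p - 1) / 2),
      Ideal.Quotient.mk (Ideal.span {(X : (ZMod p)[X]) ^ (p - 2)})
          (∑ i ∈ Finset.range a, (1 + X) ^ i) * w a =
        Ideal.Quotient.mk (Ideal.span {(X : (ZMod p)[X]) ^ (p - 2)})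
          (∑ i ∈ Finset.range a, (i : (ZMod p)[X]) * (1 + X) ^ i) := by
    intro a ha
    apply h24dlog_geom_sum
    have ha1 : a ≠ 1 := by
      rw [Finset.mem_Icc] at ha
      omega
    have hG : G a = (hunit a ha).unit := by
      simp only [G, if_neg ha1, dif_pos ha]
    rw [hG]
    rfl
  have hindep := hcert w hw1 hwa
  have hLI : LinearIndependent (ZMod p)
      (fun j : Fin ((p - 1) / 2) => Multiplicative.toAdd (h24dlog p K hp (G (j + 1)))) := by
    rw [Fintype.linearIndependent_iff]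
    intro c hc j
    let c' : ℕ → ZMod p := fun a => if h : a - 1 < (p - 1) / 2 then c ⟨a - 1, h⟩ else 0
    have hsum : ∑ a ∈ Finset.Icc 1 ((p - 1) / 2), c' a • w a = 0 := by
      rw [← Finset.Ico_add_one_right_eq_Icc, ← zero_add 1,
        ← Finset.sum_Ico_add' (fun a => c' a • w a) 0 ((p - 1) / 2) 1, ← Finset.range_eq_Ico,
        ← Fin.sum_univ_eq_sum_range (fun x => c' (x + 1) • w (x + 1))]
      rw [← hc]
      refine Finset.sum_congr rfl fun i _ => ?_
      have hi : (i : ℕ) + 1 - 1 < (p - 1) / 2 := by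
        rw [Nat.add_sub_cancel]; exact i.2
      simp only [c', hi, dite_true, w]
      congr 2
    have hj := hindep c' hsum (j + 1) (by
      rw [Finset.mem_Icc]
      have := j.2
      omega)
    have hj' : (j : ℕ) + 1 - 1 < (p - 1) / 2 := by
      rw [Nat.add_sub_cancel]; exact j.2
    simp only [c', hj', dite_true] at hj
    exact hj
  exact h24_exists_pow_eq_of_linearIndependent gen hgen (h24dlog p K hp)
    (fun j : Fin ((p - 1) / 2) => G (j + 1)) hLI u (h24dlog_eq_one_of_int p K hp u hu)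

end Fermat.Agent.FLTP
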