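import Mathlib

set_option autoImplicit false
set_option linter.unusedSectionVars false

namespace Fermat.Agent.FLTP

open Finset

section Basic

variable {R : Type*} [CommRing R] [IsDomain R] {p : ℕ} {ζ : R}

lemma h9_pow_add_pow_eq_prod_range (hp : p.Prime) (hodd : p ≠ 2) (hζ : IsPrimitiveRoot ζ p)
    (x y : R) : x ^ p + y ^ p = ∏ i ∈ range p, (x + ζ ^ i * y) := by
  have hodd' : Odd p := hp.odd_of_ne_two hodd
  have : NeZero p := ⟨hp.ne_zero⟩
  rw [hζ.pow_add_pow_eq_prod_add_mul x y hodd']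
  symm
  refine Finset.prod_nbij (fun i => ζ ^ i) ?_ ?_ ?_ ?_
  · intro i _
    rw [Polynomial.mem_nthRootsFinset hp.pos, ← pow_mul, mul_comm, pow_mul, hζ.pow_eq_one, one_pow]
  · intro i hi j hj hij
    exact hζ.pow_inj (by simpa using hi) (by simpa using hj) hij
  · intro η hη
    rw [Finset.mem_coe, Polynomial.mem_nthRootsFinset hp.pos] at hη
    obtain ⟨i, hi, rfl⟩ := hζ.eq_pow_of_pow_eq_one hη
    exact ⟨i, by simpa using hi, rfl⟩
  · intro i _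
    rfl

lemma h9_sub_one_dvd_pow_sub_one' (ζ : R) (i : ℕ) : ζ - 1 ∣ ζ ^ i - 1 := by
  simpa using sub_dvd_pow_sub_pow ζ 1 i

lemma h9_sub_one_dvd_geom_sum_sub (ζ : R) (i : ℕ) : ζ - 1 ∣ (∑ j ∈ range i, ζ ^ j) - (i : R) := by
  have : (∑ j ∈ range i, ζ ^ j) - (i : R) = ∑ j ∈ range i, (ζ ^ j - 1) := by
    simp [Finset.sum_sub_distrib]
  rw [this]
  exact Finset.dvd_sum fun j _ => h9_sub_one_dvd_pow_sub_one' ζ j

end Basic

section Descent

variable {R : Type*} [CommRing R] [IsDomain R] [IsPrincipalIdealRing R] {p : ℕ} {ζ : R}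
  (hp : p.Prime) (hodd : p ≠ 2) (hζ : IsPrimitiveRoot ζ p) (hlam : Prime (ζ - 1))
  (hres : ∀ x : R, ∃ n : ℤ, ζ - 1 ∣ x - n)
  (hpow : ∀ x : R, ∃ n : ℤ, (p : R) ∣ x ^ p - n)
  (hassoc : Associated ((ζ - 1) ^ (p - 1)) (p : R))
  (hdvd : ∀ n : ℤ, ζ - 1 ∣ (n : R) ↔ (p : ℤ) ∣ n)
  (hkum : ∀ u : Rˣ, (∃ n : ℤ, (p : R) ∣ (u : R) - n) → ∃ v : Rˣ, u = v ^ p)

include hp hres hdvd in
/-- Some twist `x + ζ ^ i * y` is divisible by `(ζ - 1) ^ 2`. -/
lemma h9_exists_sq_dvd {x y : R} (hy : ¬ ζ - 1 ∣ y) (hxy : ζ - 1 ∣ x + y) :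
    ∃ i : ℕ, (ζ - 1) ^ 2 ∣ x + ζ ^ i * y := by
  have : Fact p.Prime := ⟨hp⟩
  obtain ⟨c, hc⟩ := hxy
  obtain ⟨b, hb⟩ := hres y
  obtain ⟨n, hn⟩ := hres c
  have hpb : ¬ (p : ℤ) ∣ b := by
    intro h
    apply hy
    have := (hdvd b).2 h
    have h2 := dvd_add hb this
    simpa using h2
  have hb0 : (b : ZMod p) ≠ 0 := by
    rwa [Ne, ZMod.intCast_zmod_eq_zero_iff_dvd]
  set i : ℕ := (-(n : ZMod p) / (b : ZMod p)).val with hi
  have hcast : ((n + i * b : ℤ) : ZMod p) = 0 := by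
    push_cast
    rw [hi, ZMod.natCast_zmod_val]
    field_simp
    ring
  have hdiv : (p : ℤ) ∣ n + i * b := (ZMod.intCast_zmod_eq_zero_iff_dvd _ _).1 hcast
  have h1 : ζ - 1 ∣ ((n + i * b : ℤ) : R) := (hdvd _).2 hdiv
  refine ⟨i, ?_⟩
  have hgeom : (ζ - 1) * (∑ j ∈ range i, ζ ^ j) = ζ ^ i - 1 := mul_geom_sum ζ i
  have hG := h9_sub_one_dvd_geom_sum_sub ζ i
  set G := ∑ j ∈ range i, ζ ^ j with hGdef
  have key : x + ζ ^ i * y = (ζ - 1) * (c + G * y) := by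
    linear_combination hc - y * hgeom
  have h3 : ζ - 1 ∣ c + G * y := by
    have e : c + G * y = (c - n) + (G - i) * y + i * (y - b) + ((n + i * b : ℤ) : R) := by
      push_cast; ring
    rw [e]
    exact dvd_add (dvd_add (dvd_add hn (Dvd.dvd.mul_right hG _)) (Dvd.dvd.mul_left hb _)) h1
  rw [key, sq]
  exact mul_dvd_mul_left _ h3


include hp hodd hζ hlam hpow hassoc hdvd hkum in
/-- The descent step, assuming `(ζ - 1) ^ 2 ∣ x + y`. -/
lemma h9_descent_step {x y z : R} {ε : Rˣ} {m : ℕ} (hxy : IsCoprime x y) (hy : ¬ ζ - 1 ∣ y)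
    (hz : ¬ ζ - 1 ∣ z) (h : x ^ p + y ^ p = ε * ((ζ - 1) ^ (m + 1) * z) ^ p)
    (h2 : (ζ - 1) ^ 2 ∣ x + y) :
    ∃ m' : ℕ, m = m' + 1 ∧ ∃ (x' y' z' : R) (ε' : Rˣ), IsCoprime x' y' ∧ ¬ ζ - 1 ∣ y' ∧
      ¬ ζ - 1 ∣ z' ∧ x' ^ p + y' ^ p = ε' * ((ζ - 1) ^ (m' + 1) * z') ^ p := by
  set lam := ζ - 1 with hlamdef
  clear_value lam
  have hlam0 : lam ≠ 0 := hlam.ne_zero
  have hp0 : p ≠ 0 := hp.ne_zero
  have hp1 : 1 < p := hp.one_lt
  have hp3 : 3 ≤ p := by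
    have := hp.two_le; omega
  -- B1
  have hdiv : ∀ i : ℕ, lam ∣ x + ζ ^ i * y := by
    intro i
    have e : x + ζ ^ i * y = (x + y) + (ζ ^ i - 1) * y := by ring
    rw [e]
    exact dvd_add (dvd_trans (dvd_pow_self lam two_ne_zero) h2)
      (Dvd.dvd.mul_right (hlamdef ▸ h9_sub_one_dvd_pow_sub_one' ζ i) _)
  choose a ha using hdiv
  -- B2
  have ha0 : lam ∣ a 0 := by
    have e : lam * a 0 = x + y := by rw [← ha 0]; simp
    rw [← e, sq] at h2
    exact (mul_dvd_mul_iff_left hlam0).1 h2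
  -- B3
  have hani : ∀ i, 0 < i → i < p → ¬ lam ∣ a i := by
    intro i hi0 hip hdvdi
    have hcop : i.Coprime p := (Nat.coprime_of_lt_prime hi0.ne' hip hp).symm
    obtain ⟨u, hu⟩ := hζ.associated_sub_one_pow_sub_one_of_coprime hcop
    rw [← hlamdef] at hu
    have e : lam * a i = lam * a 0 + lam * (u * y) := by
      have h1 := ha i
      have h0 := ha 0
      simp only [pow_zero, one_mul] at h0
      linear_combination h0 - h1 - y * hu
    have e' : a i = a 0 + u * y := by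
      apply mul_left_cancel₀ hlam0
      rw [e]; ring
    rw [e'] at hdvdi
    have h3 : lam ∣ (u : R) * y := (dvd_add_right ha0).1 hdvdi
    rcases hlam.dvd_or_dvd h3 with h4 | h4
    · exact hlam.not_isUnit (isUnit_of_dvd_unit h4 u.isUnit)
    · exact hy h4
  -- B4
  have hcop : ∀ i j, j < i → i < p → IsCoprime (a i) (a j) := by
    intro i j hji hip
    have hc : (i - j).Coprime p := (Nat.coprime_of_lt_prime (by omega) (by omega) hp).symm
    obtain ⟨w, hw⟩ := hζ.associated_pow_add_sub_sub_one hp.two_le j hc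
    rw [Nat.add_sub_cancel' hji.le, ← hlamdef] at hw
    obtain ⟨s, t, hst⟩ := hxy
    have e1 : a i - a j = w * y := by
      apply mul_left_cancel₀ hlam0
      linear_combination ha j - ha i - y * hw
    have e2 : ζ ^ j * a i - ζ ^ i * a j = -(w * x) := by
      apply mul_left_cancel₀ hlam0
      linear_combination -ζ ^ j * ha i + ζ ^ i * ha j + x * hw
    have hwinv : (w : R) * ((w⁻¹ : Rˣ) : R) = 1 := by simp
    refine ⟨((w⁻¹ : Rˣ) : R) * (t - s * ζ ^ j), ((w⁻¹ : Rˣ) : R) * (s * ζ ^ i - t), ?_⟩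
    linear_combination ((w⁻¹ : Rˣ) : R) * t * e1 - ((w⁻¹ : Rˣ) : R) * s * e2 +
      (t * y + s * x) * hwinv + hst
  have hcop' : ∀ i j, i < p → j < p → i ≠ j → IsCoprime (a i) (a j) := by
    intro i j hi hj hij
    rcases lt_or_gt_of_ne hij with h1 | h1
    · exact (hcop j i h1 hj).symm
    · exact hcop i j h1 hi
  -- B5
  have hprod : ∏ i ∈ range p, a i = ε * lam ^ (p * m) * z ^ p := by
    have h1 : ∏ i ∈ range p, (x + ζ ^ i * y) = lam ^ p * ∏ i ∈ range p, a i := by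
      rw [Finset.prod_congr rfl (fun i _ => ha i), Finset.prod_mul_distrib, Finset.prod_const,
        Finset.card_range]
    rw [h9_pow_add_pow_eq_prod_range hp hodd hζ, h1] at h
    apply mul_left_cancel₀ (pow_ne_zero p hlam0)
    rw [h]; ring
  -- B6
  have hm : m ≠ 0 := by
    rintro rfl
    simp only [mul_zero, pow_zero, mul_one] at hprod
    have h3 : lam ∣ ∏ i ∈ range p, a i :=
      dvd_trans ha0 (Finset.dvd_prod_of_mem a (Finset.mem_range.2 hp.pos))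
    rw [hprod] at h3
    have h4 : lam ∣ z ^ p := (Units.dvd_mul_left).1 h3
    exact hz (hlam.dvd_of_dvd_pow h4)
  obtain ⟨m', rfl⟩ := Nat.exists_eq_succ_of_ne_zero hm
  -- B7
  have hcoprod : ∀ i, i < p → IsCoprime (a i) (∏ j ∈ (range p).erase i, a j) := by
    intro i hi
    apply IsCoprime.prod_right
    intro j hj
    rw [Finset.mem_erase, Finset.mem_range] at hj
    exact hcop' i j hi hj.2 (Ne.symm hj.1)
  have hsplit : ∀ i, i < p →
      a i * ∏ j ∈ (range p).erase i, a j = ε * lam ^ (p * (m' + 1)) * z ^ p := by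
    intro i hi
    rw [Finset.mul_prod_erase _ _ (Finset.mem_range.2 hi), hprod]
  have hεinv : ((ε⁻¹ : Rˣ) : R) * (ε : R) = 1 := by simp
  have hpow_i : ∀ i, 0 < i → i < p → ∃ (d : R) (u : Rˣ), a i = u * d ^ p ∧ ¬ lam ∣ d := by
    intro i hi0 hi
    have e : a i * (((ε⁻¹ : Rˣ) : R) * ∏ j ∈ (range p).erase i, a j) =
        (lam ^ (m' + 1) * z) ^ p := by
      have h3 := hsplit i hi
      linear_combination ((ε⁻¹ : Rˣ) : R) * h3 + (lam ^ (m' + 1) * z) ^ p * hεinv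
    have hc : IsCoprime (a i) (((ε⁻¹ : Rˣ) : R) * ∏ j ∈ (range p).erase i, a j) :=
      (isCoprime_mul_unit_left_right (ε⁻¹).isUnit _ _).2 (hcoprod i hi)
    obtain ⟨d, hd⟩ := exists_associated_pow_of_mul_eq_pow' hc e
    obtain ⟨u, hu⟩ := hd
    refine ⟨d, u, by rw [← hu]; ring, ?_⟩
    intro hdd
    apply hani i hi0 hi
    rw [← hu]
    exact Dvd.dvd.mul_right (dvd_pow hdd hp0) _
  have hB0 : ¬ lam ∣ ∏ j ∈ (range p).erase 0, a j := by
    rw [hlam.dvd_finsetProd_iff]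
    rintro ⟨j, hj, hjd⟩
    rw [Finset.mem_erase, Finset.mem_range] at hj
    exact hani j (Nat.pos_of_ne_zero hj.1) hj.2 hjd
  have h0split := hsplit 0 hp.pos
  have hpowdvd : lam ^ (p * (m' + 1)) ∣ a 0 := by
    apply hlam.pow_dvd_of_dvd_mul_right _ hB0
    rw [h0split]
    exact Dvd.dvd.mul_right (Dvd.intro_left _ rfl) _
  obtain ⟨c0, hc0⟩ := hpowdvd
  have e0 : c0 * (((ε⁻¹ : Rˣ) : R) * ∏ j ∈ (range p).erase 0, a j) = z ^ p := by
    apply mul_left_cancel₀ (pow_ne_zero (p * (m' + 1)) hlam0)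
    rw [hc0] at h0split
    linear_combination ((ε⁻¹ : Rˣ) : R) * h0split + (lam ^ (p * (m' + 1)) * z ^ p) * hεinv
  have hc0cop : IsCoprime c0 (((ε⁻¹ : Rˣ) : R) * ∏ j ∈ (range p).erase 0, a j) := by
    refine (isCoprime_mul_unit_left_right (ε⁻¹).isUnit _ _).2 ?_
    exact IsCoprime.of_isCoprime_of_dvd_left (hcoprod 0 hp.pos)
      ⟨lam ^ (p * (m' + 1)), by rw [hc0]; ring⟩
  obtain ⟨d0, hd0⟩ := exists_associated_pow_of_mul_eq_pow' hc0cop e0
  obtain ⟨u0, hu0⟩ := hd0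
  have hd0lam : ¬ lam ∣ d0 := by
    intro hdd
    apply hz
    apply hlam.dvd_of_dvd_pow (n := p)
    rw [← e0, ← hu0]
    exact Dvd.dvd.mul_right (Dvd.dvd.mul_right (dvd_pow hdd hp0) _) _
  obtain ⟨d1, u1, hd1, hd1lam⟩ := hpow_i 1 one_pos hp1
  obtain ⟨d2, u2, hd2, hd2lam⟩ := hpow_i (p - 1) (by omega) (by omega)
  -- B9
  have hrel : a 1 + ζ * a (p - 1) = (1 + ζ) * a 0 := by
    apply mul_left_cancel₀ hlam0
    have h1 := ha 1
    have h2' := ha (p - 1)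
    have h0 := ha 0
    have hζp : ζ * ζ ^ (p - 1) = 1 := by
      rw [← pow_succ', Nat.sub_add_cancel hp.one_le, hζ.pow_eq_one]
    simp only [pow_zero, one_mul, pow_one] at h0 h1
    linear_combination -h1 - ζ * h2' + (1 + ζ) * h0 + y * hζp
  have hunit : IsUnit (1 + ζ) := by
    have h3 := hζ.geom_sum_isUnit hp.two_le (j := 2)
      ((Nat.coprime_primes Nat.prime_two hp).2 (Ne.symm hodd))
    simpa [Finset.sum_range_succ] using h3
  obtain ⟨uζ, huζ⟩ := hζ.isUnit hp0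
  obtain ⟨w, hw⟩ := hunit
  set η : Rˣ := uζ * u2 * u1⁻¹ with hη
  set ε' : Rˣ := w * u0 * u1⁻¹ with hε'
  have heq : d1 ^ p + η * d2 ^ p = ε' * (lam ^ (m' + 1) * d0) ^ p := by
    have hu1 : (u1 : R) * ((u1⁻¹ : Rˣ) : R) = 1 := by simp
    have hrel' : (u1 : R) * d1 ^ p + (uζ : R) * ((u2 : R) * d2 ^ p) =
        (w : R) * (lam ^ (p * (m' + 1)) * (d0 ^ p * (u0 : R))) := by
      rw [huζ, hw, hu0, ← hc0, ← hd1, ← hd2]; exact hrel
    simp only [hη, hε', Units.val_mul]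
    linear_combination ((u1⁻¹ : Rˣ) : R) * hrel' - d1 ^ p * hu1
  -- B12
  have hlamp : lam ∣ (p : R) := by
    obtain ⟨v, hv⟩ := hassoc
    rw [← hv]
    exact Dvd.dvd.mul_right (dvd_pow_self _ (by omega)) _
  have hpdvd : (p : R) ∣ d1 ^ p + η * d2 ^ p := by
    rw [heq]
    obtain ⟨v, hv⟩ := hassoc
    rw [← hv]
    have h3 : lam ^ (p - 1) ∣ (lam ^ (m' + 1) * d0) ^ p := by
      rw [mul_pow, ← pow_mul]
      refine Dvd.dvd.mul_right (pow_dvd_pow _ ?_) _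
      calc p - 1 ≤ p := Nat.sub_le _ _
        _ ≤ (m' + 1) * p := Nat.le_mul_of_pos_left _ (Nat.succ_pos _)
    exact (Units.mul_right_dvd).2 (Dvd.dvd.mul_left h3 _)
  obtain ⟨n1, hn1⟩ := hpow d1
  obtain ⟨n2, hn2⟩ := hpow d2
  have hpn2 : ¬ (p : ℤ) ∣ n2 := by
    intro hdv
    apply hd2lam
    apply hlam.dvd_of_dvd_pow (n := p)
    have h1 : lam ∣ (n2 : R) := (hdvd n2).2 hdv
    have h3 := dvd_add (dvd_trans hlamp hn2) h1
    simpa using h3
  obtain ⟨k, hk⟩ : ∃ k : ℤ, (p : ℤ) ∣ n2 * k - 1 := by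
    have hcop2 : IsCoprime (p : ℤ) n2 :=
      ((Nat.prime_iff_prime_int.1 hp).coprime_iff_not_dvd).2 hpn2
    obtain ⟨s, t, hst⟩ := hcop2
    exact ⟨t, ⟨-s, by linear_combination hst⟩⟩
  have hη_int : ∃ n : ℤ, (p : R) ∣ (η : R) - n := by
    refine ⟨-(n1 * k), ?_⟩
    have h1 : (p : R) ∣ (n1 : R) + η * n2 := by
      have e : (n1 : R) + η * n2 = (d1 ^ p + η * d2 ^ p) - (d1 ^ p - n1) - η * (d2 ^ p - n2) := by
        ring
      rw [e]
      exact dvd_sub (dvd_sub hpdvd hn1) (Dvd.dvd.mul_left hn2 _)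
    have h3 : (p : R) ∣ ((n2 * k - 1 : ℤ) : R) := by
      obtain ⟨c, hc⟩ := hk
      rw [hc]; push_cast; exact dvd_mul_right _ _
    have e : (η : R) - ((-(n1 * k) : ℤ) : R) =
        k * ((n1 : R) + η * n2) - η * ((n2 * k - 1 : ℤ) : R) := by
      push_cast; ring
    rw [e]
    exact dvd_sub (Dvd.dvd.mul_left h1 _) (Dvd.dvd.mul_left h3 _)
  obtain ⟨v, hv⟩ := hkum η hη_int
  refine ⟨m', rfl, d1, v * d2, d0, ε', ?_, ?_, hd0lam, ?_⟩
  · have h11 : IsCoprime (a 1) (a (p - 1)) := hcop' 1 (p - 1) hp1 (by omega) (by omega)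
    have hd1dvd : d1 ∣ a 1 := by rw [hd1]; exact Dvd.dvd.mul_left (dvd_pow_self _ hp0) _
    have hd2dvd : d2 ∣ a (p - 1) := by rw [hd2]; exact Dvd.dvd.mul_left (dvd_pow_self _ hp0) _
    have h12 : IsCoprime d1 d2 :=
      (h11.of_isCoprime_of_dvd_left hd1dvd).of_isCoprime_of_dvd_right hd2dvd
    exact (isCoprime_mul_unit_left_right v.isUnit _ _).2 h12
  · intro hdv
    rcases hlam.dvd_or_dvd hdv with h4 | h4
    · exact hlam.not_isUnit (isUnit_of_dvd_unit h4 v.isUnit)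
    · exact hd2lam h4
  · rw [mul_pow, ← Units.val_pow_eq_pow_val, ← hv]; exact heq


include hp hodd hζ hlam hres hpow hassoc hdvd hkum in
/-- The descent step in general. -/
lemma h9_descent_step' {x y z : R} {ε : Rˣ} {m : ℕ} (hxy : IsCoprime x y) (hy : ¬ ζ - 1 ∣ y)
    (hz : ¬ ζ - 1 ∣ z) (h : x ^ p + y ^ p = ε * ((ζ - 1) ^ (m + 1) * z) ^ p) :
    ∃ m' : ℕ, m = m' + 1 ∧ ∃ (x' y' z' : R) (ε' : Rˣ), IsCoprime x' y' ∧ ¬ ζ - 1 ∣ y' ∧
      ¬ ζ - 1 ∣ z' ∧ x' ^ p + y' ^ p = ε' * ((ζ - 1) ^ (m' + 1) * z') ^ p := by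
  have hp0 : p ≠ 0 := hp.ne_zero
  have h1 : ζ - 1 ∣ x + y := by
    have h3 : ζ - 1 ∣ x ^ p + y ^ p := by
      rw [h, mul_pow, ← pow_mul]
      exact Dvd.dvd.mul_left (Dvd.dvd.mul_right (dvd_pow_self _ (by positivity)) _) _
    rw [h9_pow_add_pow_eq_prod_range hp hodd hζ, hlam.dvd_finsetProd_iff] at h3
    obtain ⟨i, -, hi⟩ := h3
    have e : x + y = (x + ζ ^ i * y) - (ζ ^ i - 1) * y := by ring
    rw [e]
    exact dvd_sub hi (Dvd.dvd.mul_right (h9_sub_one_dvd_pow_sub_one' ζ i) _)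
  obtain ⟨i, hi⟩ := h9_exists_sq_dvd hp hres hdvd hy h1
  obtain ⟨uζ, huζ⟩ := hζ.isUnit hp0
  have hunit : IsUnit (ζ ^ i) := (hζ.isUnit hp0).pow i
  refine h9_descent_step hp hodd hζ hlam hpow hassoc hdvd hkum (x := x) (y := ζ ^ i * y) (z := z)
    (ε := ε) (m := m) ?_ ?_ hz ?_ hi
  · exact (isCoprime_mul_unit_left_right hunit _ _).2 hxy
  · intro hdv
    rcases hlam.dvd_or_dvd hdv with h4 | h4
    · exact hlam.not_isUnit (isUnit_of_dvd_unit h4 hunit)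
    · exact hy h4
  · rw [mul_pow, ← pow_mul, mul_comm i p, pow_mul, hζ.pow_eq_one, one_pow, one_mul, h]

include hp hodd hζ hlam hres hpow hassoc hdvd hkum in
/-- The generalized Fermat equation has no solution. -/
theorem h9_no_solution (m : ℕ) : ∀ (x y z : R) (ε : Rˣ), IsCoprime x y → ¬ ζ - 1 ∣ y → ¬ ζ - 1 ∣ z →
    x ^ p + y ^ p ≠ ε * ((ζ - 1) ^ (m + 1) * z) ^ p := by
  induction m with
  | zero =>
    intro x y z ε hxy hy hz h
    obtain ⟨m', hm', -⟩ := h9_descent_step' hp hodd hζ hlam hres hpow hassoc hdvd hkum hxy hy hz h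
    omega
  | succ m ih =>
    intro x y z ε hxy hy hz h
    obtain ⟨m', hm', x', y', z', ε', hxy', hy', hz', h'⟩ :=
      h9_descent_step' hp hodd hζ hlam hres hpow hassoc hdvd hkum hxy hy hz h
    obtain rfl : m = m' := by omega
    exact ih x' y' z' ε' hxy' hy' hz' h'

include hp hodd hζ hlam hres hpow hassoc hdvd hkum in
/-- Case II for integers, with `p ∣ c`. -/
theorem h9_caseII_aux {a b c : ℤ} (hab : IsCoprime a b) (hc : c ≠ 0) (hpc : (p : ℤ) ∣ c)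
    (h : a ^ p + b ^ p = c ^ p) : False := by
  have hp0 : p ≠ 0 := hp.ne_zero
  have hpZ : Prime (p : ℤ) := Nat.prime_iff_prime_int.1 hp
  have hpb : ¬ (p : ℤ) ∣ b := by
    intro hb
    have h1 : (p : ℤ) ∣ a ^ p := by
      have e : a ^ p = c ^ p - b ^ p := by rw [← h]; ring
      rw [e]
      exact dvd_sub (dvd_pow hpc hp0) (dvd_pow hb hp0)
    exact hpZ.not_isUnit (hab.isUnit_of_dvd' (hpZ.dvd_of_dvd_pow h1) hb)
  obtain ⟨k, c', hc', hcc'⟩ := WfDvdMonoid.max_power_factor hc hpZ.irreducible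
  have hk : k ≠ 0 := by
    rintro rfl
    rw [pow_zero, one_mul] at hcc'
    exact hc' (hcc' ▸ hpc)
  obtain ⟨v, hv⟩ := hassoc
  have hm : (p - 1) * k = ((p - 1) * k - 1) + 1 := by
    have h1 : 1 ≤ p - 1 := by have := hp.two_le; omega
    have h2 : 1 ≤ k := Nat.pos_of_ne_zero hk
    have : 1 ≤ (p - 1) * k := Nat.mul_le_mul h1 h2
    omega
  refine h9_no_solution hp hodd hζ hlam hres hpow ⟨v, hv⟩ hdvd hkum ((p - 1) * k - 1) (a : R) (b : R)
    (c' : R) (v ^ (k * p)) hab.intCast ((hdvd b).not.2 hpb) ((hdvd c').not.2 hc') ?_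
  rw [← hm]
  have h1 : ((a ^ p + b ^ p : ℤ) : R) = ((c ^ p : ℤ) : R) := by rw [h]
  push_cast at h1
  rw [h1, hcc']
  push_cast
  rw [← hv]
  ring

end Descent

end Fermat.Agent.FLTP
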