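import Mathlib
import Fermat.Agent.FLTP.H9Descent

set_option autoImplicit false
set_option linter.unusedSectionVars false

namespace Fermat.Agent.FLTP

open NumberField

section

variable {p : ℕ} [hp : Fact p.Prime] {K : Type*} [Field K] [NumberField K]
  [hK : IsCyclotomicExtension {p} ℚ K] {ζ : K} (hζ : IsPrimitiveRoot ζ p)

lemma h9_adjoin_toInteger_eq_top : Algebra.adjoin ℤ {hζ.toInteger} = ⊤ := by
  have h := hζ.integralPowerBasis.adjoin_gen_eq_top
  rwa [hζ.integralPowerBasis_gen] at h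

/-- Every integer of `K` is congruent to a rational integer modulo `ζ - 1`. -/
lemma h9_exists_int_sub_dvd (x : 𝓞 K) : ∃ n : ℤ, hζ.toInteger - 1 ∣ x - n := by
  have hx : x ∈ Algebra.adjoin ℤ {hζ.toInteger} := by
    rw [h9_adjoin_toInteger_eq_top hζ]; trivial
  induction hx using Algebra.adjoin_induction with
  | mem y hy =>
    rw [Set.mem_singleton_iff] at hy
    subst hy
    exact ⟨1, by simp⟩
  | algebraMap r => exact ⟨r, by simp⟩
  | add y z _ _ hy hz =>
    obtain ⟨a, ha⟩ := hy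
    obtain ⟨b, hb⟩ := hz
    refine ⟨a + b, ?_⟩
    have e : y + z - ((a + b : ℤ) : 𝓞 K) = (y - a) + (z - b) := by push_cast; ring
    rw [e]
    exact dvd_add ha hb
  | mul y z _ _ hy hz =>
    obtain ⟨a, ha⟩ := hy
    obtain ⟨b, hb⟩ := hz
    refine ⟨a * b, ?_⟩
    have e : y * z - ((a * b : ℤ) : 𝓞 K) = (y - a) * z + a * (z - b) := by push_cast; ring
    rw [e]
    exact dvd_add (Dvd.dvd.mul_right ha _) (Dvd.dvd.mul_left hb _)

include hζ in
/-- Every `p`-th power in `𝓞 K` is congruent to a rational integer modulo `p`. -/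
lemma h9_exists_int_pow_sub_dvd (x : 𝓞 K) : ∃ n : ℤ, (p : 𝓞 K) ∣ x ^ p - n := by
  have hx : x ∈ Algebra.adjoin ℤ {hζ.toInteger} := by
    rw [h9_adjoin_toInteger_eq_top hζ]; trivial
  induction hx using Algebra.adjoin_induction with
  | mem y hy =>
    rw [Set.mem_singleton_iff] at hy
    subst hy
    exact ⟨1, by simp [hζ.toInteger_isPrimitiveRoot.pow_eq_one]⟩
  | algebraMap r => exact ⟨r ^ p, by simp⟩
  | add y z _ _ hy hz =>
    obtain ⟨a, ha⟩ := hy
    obtain ⟨b, hb⟩ := hz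
    obtain ⟨r, hr⟩ := exists_add_pow_prime_eq hp.out y z
    refine ⟨a + b, ?_⟩
    have e : (y + z) ^ p - ((a + b : ℤ) : 𝓞 K) = (y ^ p - a) + (z ^ p - b) + p * (y * z * r) := by
      rw [hr]; push_cast; ring
    rw [e]
    exact dvd_add (dvd_add ha hb) (dvd_mul_right _ _)
  | mul y z _ _ hy hz =>
    obtain ⟨a, ha⟩ := hy
    obtain ⟨b, hb⟩ := hz
    refine ⟨a * b, ?_⟩
    have e : (y * z) ^ p - ((a * b : ℤ) : 𝓞 K) = (y ^ p - a) * z ^ p + a * (z ^ p - b) := by
      push_cast; ring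
    rw [e]
    exact dvd_add (Dvd.dvd.mul_right ha _) (Dvd.dvd.mul_left hb _)

include hζ in
/-- Case II when `p ∣ c`. -/
theorem h9_caseII_c (hp2 : p ≠ 2) (hpid : IsPrincipalIdealRing (𝓞 K))
    (hk : ∀ u : (𝓞 K)ˣ, (∃ n : ℤ, (p : 𝓞 K) ∣ (u : 𝓞 K) - n) → ∃ v : (𝓞 K)ˣ, u = v ^ p)
    {a b c : ℤ} (hab : IsCoprime a b) (hc : c ≠ 0) (hpc : (p : ℤ) ∣ c)
    (h : a ^ p + b ^ p = c ^ p) : False :=
  h9_caseII_aux hp.out hp2 hζ.toInteger_isPrimitiveRoot hζ.zeta_sub_one_prime'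
    (h9_exists_int_sub_dvd hζ) (h9_exists_int_pow_sub_dvd hζ)
    (IsCyclotomicExtension.Rat.associated_zeta_sub_one_pow_prime p hζ)
    (fun _ => IsCyclotomicExtension.Rat.zeta_sub_one_dvd_intCast_iff' p hζ) hk hab hc hpc h

end

lemma h9_isCoprime_of_eq {p : ℕ} (hp0 : p ≠ 0) {a b c : ℤ} (hab : IsCoprime a b)
    (h : a ^ p + b ^ p = c ^ p) : IsCoprime a c := by
  refine isCoprime_of_prime_dvd ?_ ?_
  · rintro ⟨rfl, rfl⟩
    rw [zero_pow hp0, zero_add] at h
    have hb : b = 0 := by simpa [hp0] using h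
    subst hb
    exact not_isUnit_zero (isCoprime_self.1 hab)
  · intro q hq hqa hqc
    have hqb : q ∣ b := by
      apply hq.dvd_of_dvd_pow (n := p)
      have e : b ^ p = c ^ p - a ^ p := by rw [← h]; ring
      rw [e]
      exact dvd_sub (dvd_pow hqc hp0) (dvd_pow hqa hp0)
    exact hq.not_isUnit (hab.isUnit_of_dvd' hqa hqb)

/-- Case II of Fermat's Last Theorem for an odd prime `p` such that the `p`-th cyclotomic ring
of integers is a PID and satisfies Kummer's lemma. -/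
theorem h9_caseII (p : ℕ) [Fact p.Prime] (hp2 : p ≠ 2) (K : Type) [Field K] [NumberField K]
    [IsCyclotomicExtension {p} ℚ K] (hpid : IsPrincipalIdealRing (NumberField.RingOfIntegers K))
    (hk : ∀ u : (NumberField.RingOfIntegers K)ˣ,
      (∃ n : ℤ, (p : NumberField.RingOfIntegers K) ∣ (u : NumberField.RingOfIntegers K) - n) →
      ∃ v : (NumberField.RingOfIntegers K)ˣ, u = v ^ p)
    (a b c : ℤ) (hab : IsCoprime a b) (h : a ^ p + b ^ p = c ^ p) (habc : a * b * c ≠ 0)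
    (hdvd : (p : ℤ) ∣ a * b * c) : False := by
  have hp : p.Prime := Fact.out
  have hp0 : p ≠ 0 := hp.ne_zero
  have hodd : Odd p := hp.odd_of_ne_two hp2
  have hpZ : Prime (p : ℤ) := Nat.prime_iff_prime_int.1 hp
  have hζ := IsCyclotomicExtension.zeta_spec p ℚ K
  have ha0 : a ≠ 0 := fun h0 => habc (by simp [h0])
  have hb0 : b ≠ 0 := fun h0 => habc (by simp [h0])
  have hc0 : c ≠ 0 := fun h0 => habc (by simp [h0])
  have hac : IsCoprime a c := h9_isCoprime_of_eq hp0 hab h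
  have hbc : IsCoprime b c := h9_isCoprime_of_eq hp0 hab.symm (by rw [add_comm]; exact h)
  rcases hpZ.dvd_or_dvd hdvd with hd | hd
  · rcases hpZ.dvd_or_dvd hd with hd | hd
    · -- p ∣ a : c ^ p + (-b) ^ p = a ^ p
      refine h9_caseII_c hζ hp2 hpid hk (a := c) (b := -b) (c := a) hbc.symm.neg_right ha0 hd ?_
      rw [hodd.neg_pow, ← h]; ring
    · -- p ∣ b : c ^ p + (-a) ^ p = b ^ p
      refine h9_caseII_c hζ hp2 hpid hk (a := c) (b := -a) (c := b) hac.symm.neg_right hb0 hd ?_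
      rw [hodd.neg_pow, ← h]; ring
  · exact h9_caseII_c hζ hp2 hpid hk hab hc0 hd h

end Fermat.Agent.FLTP
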