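import Fermat.Agent.FLTP.KummerCert

set_option autoImplicit false
set_option linter.unusedSimpArgs false

namespace Fermat.Agent.FLTP

open Polynomial

def kcertM11 (a k : ℕ) : ZMod 11 :=
  (((([[10, 6, 9, 0, 0, 1, 10, 10, 2], [5, 0, 2, 9, 1, 0, 0, 10, 1], [10, 9, 6, 10, 5, 0, 10, 10, 1], [4, 5, 1, 4, 10, 0, 2, 6, 3], [9, 10, 9, 10, 0, 10, 8, 5, 5]] : List (List ℕ)).getD (a - 1) []).getD k 0 : ℕ) : ZMod 11)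

def kcertN11 (k b : ℕ) : ZMod 11 :=
  (((([[0, 8, 1, 7, 0], [5, 3, 10, 8, 5], [0, 0, 0, 0, 0], [10, 9, 5, 3, 10], [0, 0, 0, 0, 0], [6, 0, 2, 10, 5], [0, 0, 0, 0, 0], [2, 10, 6, 7, 2], [0, 0, 0, 0, 0]] : List (List ℕ)).getD k []).getD (b - 1) 0 : ℕ) : ZMod 11)

theorem kcertMN11 : ∀ a ∈ Finset.Icc 1 5, ∀ b ∈ Finset.Icc 1 5,
    ∑ k ∈ Finset.range (11 - 2), kcertM11 a k * kcertN11 k b = if a = b then 1 else 0 := by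
  decide

theorem kcertS11_2 : kcertS 11 2 = 2 + X := by
  simp only [kcertS, Finset.sum_range_succ, Finset.sum_range_zero]; ring

theorem kcertD11_2 : kcertD 11 2 = 1 + X := by
  simp only [kcertD, Finset.sum_range_succ, Finset.sum_range_zero, Nat.cast_zero, Nat.cast_one, Nat.cast_ofNat]; ring

theorem kcertS11_3 : kcertS 11 3 = 3 + 3 * X + X ^ 2 := by
  simp only [kcertS, Finset.sum_range_succ, Finset.sum_range_zero]; ring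

theorem kcertD11_3 : kcertD 11 3 = 3 + 5 * X + 2 * X ^ 2 := by
  simp only [kcertD, Finset.sum_range_succ, Finset.sum_range_zero, Nat.cast_zero, Nat.cast_one, Nat.cast_ofNat]; ring

theorem kcertS11_4 : kcertS 11 4 = 4 + 6 * X + 4 * X ^ 2 + X ^ 3 := by
  simp only [kcertS, Finset.sum_range_succ, Finset.sum_range_zero]; ring

theorem kcertD11_4 : kcertD 11 4 = 6 + 14 * X + 11 * X ^ 2 + 3 * X ^ 3 := by
  simp only [kcertD, Finset.sum_range_succ, Finset.sum_range_zero, Nat.cast_zero, Nat.cast_one, Nat.cast_ofNat]; ring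

theorem kcertS11_5 : kcertS 11 5 = 5 + 10 * X + 10 * X ^ 2 + 5 * X ^ 3 + X ^ 4 := by
  simp only [kcertS, Finset.sum_range_succ, Finset.sum_range_zero]; ring

theorem kcertD11_5 : kcertD 11 5 = 10 + 30 * X + 35 * X ^ 2 + 19 * X ^ 3 + 4 * X ^ 4 := by
  simp only [kcertD, Finset.sum_range_succ, Finset.sum_range_zero, Nat.cast_zero, Nat.cast_one, Nat.cast_ofNat]; ring

theorem kcertLow11_1 : ∑ k ∈ Finset.range (11 - 2), C (kcertM11 1 k) * X ^ k =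
    (10 + 6 * X + 9 * X ^ 2 + 0 * X ^ 3 + 0 * X ^ 4 + 1 * X ^ 5 + 10 * X ^ 6 + 10 * X ^ 7 + 2 * X ^ 8 : (ZMod 11)[X]) := by
  simp [Finset.sum_range_succ, kcertM11]

theorem kcertLow11_2 : ∑ k ∈ Finset.range (11 - 2), C (kcertM11 2 k) * X ^ k =
    (5 + 0 * X + 2 * X ^ 2 + 9 * X ^ 3 + 1 * X ^ 4 + 0 * X ^ 5 + 0 * X ^ 6 + 10 * X ^ 7 + 1 * X ^ 8 : (ZMod 11)[X]) := by
  simp [Finset.sum_range_succ, kcertM11]

theorem kcertLow11_3 : ∑ k ∈ Finset.range (11 - 2), C (kcertM11 3 k) * X ^ k =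
    (10 + 9 * X + 6 * X ^ 2 + 10 * X ^ 3 + 5 * X ^ 4 + 0 * X ^ 5 + 10 * X ^ 6 + 10 * X ^ 7 + 1 * X ^ 8 : (ZMod 11)[X]) := by
  simp [Finset.sum_range_succ, kcertM11]

theorem kcertLow11_4 : ∑ k ∈ Finset.range (11 - 2), C (kcertM11 4 k) * X ^ k =
    (4 + 5 * X + 1 * X ^ 2 + 4 * X ^ 3 + 10 * X ^ 4 + 0 * X ^ 5 + 2 * X ^ 6 + 6 * X ^ 7 + 3 * X ^ 8 : (ZMod 11)[X]) := by
  simp [Finset.sum_range_succ, kcertM11]

theorem kcertLow11_5 : ∑ k ∈ Finset.range (11 - 2), C (kcertM11 5 k) * X ^ k =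
    (9 + 10 * X + 9 * X ^ 2 + 10 * X ^ 3 + 0 * X ^ 4 + 10 * X ^ 5 + 8 * X ^ 6 + 5 * X ^ 7 + 5 * X ^ 8 : (ZMod 11)[X]) := by
  simp [Finset.sum_range_succ, kcertM11]

theorem kcert_indep_eleven (w : ℕ → kcertA 11) (h1 : w 1 = 1)
    (h : ∀ a ∈ Finset.Icc 2 5, Ideal.Quotient.mk _ (kcertS 11 a) * w a =
      Ideal.Quotient.mk _ (kcertD 11 a))
    (c : ℕ → ZMod 11) (hc : ∑ a ∈ Finset.Icc 1 5, c a • w a = 0) :
    ∀ a ∈ Finset.Icc 1 5, c a = 0 := by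
  refine kcert_indep_of_cert 11 5 w c ((2 + X) * (3 + 3 * X + X ^ 2) * (4 + 6 * X + 4 * X ^ 2 + X ^ 3) * (5 + 10 * X + 10 * X ^ 2 + 5 * X ^ 3 + X ^ 4)) kcertM11 kcertN11 ?_ kcertMN11 hc
  intro a ha
  have ha' : a = 1 ∨ a = 2 ∨ a = 3 ∨ a = 4 ∨ a = 5 := by
    rw [Finset.mem_Icc] at ha; omega
  rcases ha' with rfl | rfl | rfl | rfl | rfl
  · rw [h1, mul_one, kcertLow11_1]
    exact kcert_mk_eq 11 (11 - 2) _ _ (14 + X) (10 + 54 * X + 131 * X ^ 2 + 200 * X ^ 3 + 209 * X ^ 4 + 156 * X ^ 5 + 83 * X ^ 6 + 31 * X ^ 7 + 8 * X ^ 8) (by ring)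
  · have h2 := h 2 (by decide)
    rw [kcertS11_2, kcertD11_2] at h2
    have e1 : Ideal.Quotient.mk (Ideal.span {(X : (ZMod 11)[X]) ^ (11 - 2)}) ((2 + X) * (3 + 3 * X + X ^ 2) * (4 + 6 * X + 4 * X ^ 2 + X ^ 3) * (5 + 10 * X + 10 * X ^ 2 + 5 * X ^ 3 + X ^ 4)) * w 2 =
        Ideal.Quotient.mk _ ((3 + 3 * X + X ^ 2) * (4 + 6 * X + 4 * X ^ 2 + X ^ 3) * (5 + 10 * X + 10 * X ^ 2 + 5 * X ^ 3 + X ^ 4)) * (Ideal.Quotient.mk _ (2 + X) * w 2) := by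
      have e0 : (((2 + X) * (3 + 3 * X + X ^ 2) * (4 + 6 * X + 4 * X ^ 2 + X ^ 3) * (5 + 10 * X + 10 * X ^ 2 + 5 * X ^ 3 + X ^ 4)) : (ZMod 11)[X]) = ((3 + 3 * X + X ^ 2) * (4 + 6 * X + 4 * X ^ 2 + X ^ 3) * (5 + 10 * X + 10 * X ^ 2 + 5 * X ^ 3 + X ^ 4)) * (2 + X) := by ring
      conv_lhs => rw [e0, map_mul, mul_assoc]
    rw [e1, h2, ← map_mul, kcertLow11_2]
    exact kcert_mk_eq 11 (11 - 2) _ _ (13 + X) (5 + 30 * X + 78 * X ^ 2 + 126 * X ^ 3 + 141 * X ^ 4 + 112 * X ^ 5 + 64 * X ^ 6 + 25 * X ^ 7 + 7 * X ^ 8) (by ring)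
  · have h2 := h 3 (by decide)
    rw [kcertS11_3, kcertD11_3] at h2
    have e1 : Ideal.Quotient.mk (Ideal.span {(X : (ZMod 11)[X]) ^ (11 - 2)}) ((2 + X) * (3 + 3 * X + X ^ 2) * (4 + 6 * X + 4 * X ^ 2 + X ^ 3) * (5 + 10 * X + 10 * X ^ 2 + 5 * X ^ 3 + X ^ 4)) * w 3 =
        Ideal.Quotient.mk _ ((2 + X) * (4 + 6 * X + 4 * X ^ 2 + X ^ 3) * (5 + 10 * X + 10 * X ^ 2 + 5 * X ^ 3 + X ^ 4)) * (Ideal.Quotient.mk _ (3 + 3 * X + X ^ 2) * w 3) := by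
      have e0 : (((2 + X) * (3 + 3 * X + X ^ 2) * (4 + 6 * X + 4 * X ^ 2 + X ^ 3) * (5 + 10 * X + 10 * X ^ 2 + 5 * X ^ 3 + X ^ 4)) : (ZMod 11)[X]) = ((2 + X) * (4 + 6 * X + 4 * X ^ 2 + X ^ 3) * (5 + 10 * X + 10 * X ^ 2 + 5 * X ^ 3 + X ^ 4)) * (3 + 3 * X + X ^ 2) := by ring
      conv_lhs => rw [e0, map_mul, mul_assoc]
    rw [e1, h2, ← map_mul, kcertLow11_3]
    exact kcert_mk_eq 11 (11 - 2) _ _ (27 + 2 * X) (10 + 61 * X + 164 * X ^ 2 + 270 * X ^ 3 + 304 * X ^ 4 + 243 * X ^ 5 + 138 * X ^ 6 + 55 * X ^ 7 + 15 * X ^ 8) (by ring)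
  · have h2 := h 4 (by decide)
    rw [kcertS11_4, kcertD11_4] at h2
    have e1 : Ideal.Quotient.mk (Ideal.span {(X : (ZMod 11)[X]) ^ (11 - 2)}) ((2 + X) * (3 + 3 * X + X ^ 2) * (4 + 6 * X + 4 * X ^ 2 + X ^ 3) * (5 + 10 * X + 10 * X ^ 2 + 5 * X ^ 3 + X ^ 4)) * w 4 =
        Ideal.Quotient.mk _ ((2 + X) * (3 + 3 * X + X ^ 2) * (5 + 10 * X + 10 * X ^ 2 + 5 * X ^ 3 + X ^ 4)) * (Ideal.Quotient.mk _ (4 + 6 * X + 4 * X ^ 2 + X ^ 3) * w 4) := by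
      have e0 : (((2 + X) * (3 + 3 * X + X ^ 2) * (4 + 6 * X + 4 * X ^ 2 + X ^ 3) * (5 + 10 * X + 10 * X ^ 2 + 5 * X ^ 3 + X ^ 4)) : (ZMod 11)[X]) = ((2 + X) * (3 + 3 * X + X ^ 2) * (5 + 10 * X + 10 * X ^ 2 + 5 * X ^ 3 + X ^ 4)) * (4 + 6 * X + 4 * X ^ 2 + X ^ 3) := by ring
      conv_lhs => rw [e0, map_mul, mul_assoc]
    rw [e1, h2, ← map_mul, kcertLow11_4]
    exact kcert_mk_eq 11 (11 - 2) _ _ (41 + 3 * X) (16 + 95 * X + 259 * X ^ 2 + 431 * X ^ 3 + 486 * X ^ 4 + 388 * X ^ 5 + 220 * X ^ 6 + 87 * X ^ 7 + 23 * X ^ 8) (by ring)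
  · have h2 := h 5 (by decide)
    rw [kcertS11_5, kcertD11_5] at h2
    have e1 : Ideal.Quotient.mk (Ideal.span {(X : (ZMod 11)[X]) ^ (11 - 2)}) ((2 + X) * (3 + 3 * X + X ^ 2) * (4 + 6 * X + 4 * X ^ 2 + X ^ 3) * (5 + 10 * X + 10 * X ^ 2 + 5 * X ^ 3 + X ^ 4)) * w 5 =
        Ideal.Quotient.mk _ ((2 + X) * (3 + 3 * X + X ^ 2) * (4 + 6 * X + 4 * X ^ 2 + X ^ 3)) * (Ideal.Quotient.mk _ (5 + 10 * X + 10 * X ^ 2 + 5 * X ^ 3 + X ^ 4) * w 5) := by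
      have e0 : (((2 + X) * (3 + 3 * X + X ^ 2) * (4 + 6 * X + 4 * X ^ 2 + X ^ 3) * (5 + 10 * X + 10 * X ^ 2 + 5 * X ^ 3 + X ^ 4)) : (ZMod 11)[X]) = ((2 + X) * (3 + 3 * X + X ^ 2) * (4 + 6 * X + 4 * X ^ 2 + X ^ 3)) * (5 + 10 * X + 10 * X ^ 2 + 5 * X ^ 3 + X ^ 4) := by ring
      conv_lhs => rw [e0, map_mul, mul_assoc]
    rw [e1, h2, ← map_mul, kcertLow11_5]
    exact kcert_mk_eq 11 (11 - 2) _ _ (55 + 4 * X) (21 + 130 * X + 361 * X ^ 2 + 606 * X ^ 3 + 684 * X ^ 4 + 540 * X ^ 5 + 303 * X ^ 6 + 119 * X ^ 7 + 31 * X ^ 8) (by ring)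

/-- The certificate in the exact shape consumed by `kummer_of_cert`. -/
theorem kcert_hcert_eleven :
    ∀ w : ℕ → (ZMod 11)[X] ⧸ Ideal.span {(X : (ZMod 11)[X]) ^ (11 - 2)}, w 1 = 1 →
      (∀ a ∈ Finset.Icc 2 ((11 - 1) / 2),
        Ideal.Quotient.mk _ (∑ i ∈ Finset.range a, (1 + X) ^ i) * w a =
          Ideal.Quotient.mk _ (∑ i ∈ Finset.range a, (i : (ZMod 11)[X]) * (1 + X) ^ i)) →
      ∀ c : ℕ → ZMod 11, ∑ a ∈ Finset.Icc 1 ((11 - 1) / 2), c a • w a = 0 →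
        ∀ a ∈ Finset.Icc 1 ((11 - 1) / 2), c a = 0 :=
  fun w h1 h c hc => kcert_indep_eleven w h1 h c hc

end Fermat.Agent.FLTP
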