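import Fermat.Agent.FLTP.KummerCert

set_option autoImplicit false
set_option linter.unusedSimpArgs false

namespace Fermat.Agent.FLTP

open Polynomial

def kcertM13 (a k : ℕ) : ZMod 13 :=
  (((([[5, 5, 2, 0, 0, 0, 12, 2, 0, 8, 2], [9, 7, 0, 1, 6, 10, 1, 0, 1, 10, 0], [5, 4, 8, 6, 10, 1, 12, 1, 2, 7, 12], [1, 4, 11, 7, 3, 10, 8, 6, 1, 4, 11], [10, 7, 9, 11, 1, 11, 7, 3, 5, 1, 6], [6, 0, 2, 1, 6, 1, 6, 4, 11, 5, 3]] : List (List ℕ)).getD (a - 1) []).getD k 0 : ℕ) : ZMod 13)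

def kcertN13 (k b : ℕ) : ZMod 13 :=
  (((([[10, 12, 12, 10, 11, 11], [6, 1, 10, 5, 3, 1], [0, 0, 0, 0, 0, 0], [10, 5, 5, 6, 2, 6], [0, 0, 0, 0, 0, 0], [11, 9, 5, 12, 5, 4], [0, 0, 0, 0, 0, 0], [8, 3, 7, 7, 0, 10], [0, 0, 0, 0, 0, 0], [6, 9, 4, 10, 1, 3], [0, 0, 0, 0, 0, 0]] : List (List ℕ)).getD k []).getD (b - 1) 0 : ℕ) : ZMod 13)

theorem kcertMN13 : ∀ a ∈ Finset.Icc 1 6, ∀ b ∈ Finset.Icc 1 6,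
    ∑ k ∈ Finset.range (13 - 2), kcertM13 a k * kcertN13 k b = if a = b then 1 else 0 := by
  decide

theorem kcertS13_2 : kcertS 13 2 = 2 + X := by
  simp only [kcertS, Finset.sum_range_succ, Finset.sum_range_zero]; ring

theorem kcertD13_2 : kcertD 13 2 = 1 + X := by
  simp only [kcertD, Finset.sum_range_succ, Finset.sum_range_zero, Nat.cast_zero, Nat.cast_one, Nat.cast_ofNat]; ring

theorem kcertS13_3 : kcertS 13 3 = 3 + 3 * X + X ^ 2 := by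
  simp only [kcertS, Finset.sum_range_succ, Finset.sum_range_zero]; ring

theorem kcertD13_3 : kcertD 13 3 = 3 + 5 * X + 2 * X ^ 2 := by
  simp only [kcertD, Finset.sum_range_succ, Finset.sum_range_zero, Nat.cast_zero, Nat.cast_one, Nat.cast_ofNat]; ring

theorem kcertS13_4 : kcertS 13 4 = 4 + 6 * X + 4 * X ^ 2 + X ^ 3 := by
  simp only [kcertS, Finset.sum_range_succ, Finset.sum_range_zero]; ring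

theorem kcertD13_4 : kcertD 13 4 = 6 + 14 * X + 11 * X ^ 2 + 3 * X ^ 3 := by
  simp only [kcertD, Finset.sum_range_succ, Finset.sum_range_zero, Nat.cast_zero, Nat.cast_one, Nat.cast_ofNat]; ring

theorem kcertS13_5 : kcertS 13 5 = 5 + 10 * X + 10 * X ^ 2 + 5 * X ^ 3 + X ^ 4 := by
  simp only [kcertS, Finset.sum_range_succ, Finset.sum_range_zero]; ring

theorem kcertD13_5 : kcertD 13 5 = 10 + 30 * X + 35 * X ^ 2 + 19 * X ^ 3 + 4 * X ^ 4 := by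
  simp only [kcertD, Finset.sum_range_succ, Finset.sum_range_zero, Nat.cast_zero, Nat.cast_one, Nat.cast_ofNat]; ring

theorem kcertS13_6 : kcertS 13 6 = 6 + 15 * X + 20 * X ^ 2 + 15 * X ^ 3 + 6 * X ^ 4 + X ^ 5 := by
  simp only [kcertS, Finset.sum_range_succ, Finset.sum_range_zero]; ring

theorem kcertD13_6 : kcertD 13 6 = 15 + 55 * X + 85 * X ^ 2 + 69 * X ^ 3 + 29 * X ^ 4 + 5 * X ^ 5 := by
  simp only [kcertD, Finset.sum_range_succ, Finset.sum_range_zero, Nat.cast_zero, Nat.cast_one, Nat.cast_ofNat]; ring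

theorem kcertLow13_1 : ∑ k ∈ Finset.range (13 - 2), C (kcertM13 1 k) * X ^ k =
    (5 + 5 * X + 2 * X ^ 2 + 0 * X ^ 3 + 0 * X ^ 4 + 0 * X ^ 5 + 12 * X ^ 6 + 2 * X ^ 7 + 0 * X ^ 8 + 8 * X ^ 9 + 2 * X ^ 10 : (ZMod 13)[X]) := by
  simp [Finset.sum_range_succ, kcertM13]

theorem kcertLow13_2 : ∑ k ∈ Finset.range (13 - 2), C (kcertM13 2 k) * X ^ k =
    (9 + 7 * X + 0 * X ^ 2 + 1 * X ^ 3 + 6 * X ^ 4 + 10 * X ^ 5 + 1 * X ^ 6 + 0 * X ^ 7 + 1 * X ^ 8 + 10 * X ^ 9 + 0 * X ^ 10 : (ZMod 13)[X]) := by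
  simp [Finset.sum_range_succ, kcertM13]

theorem kcertLow13_3 : ∑ k ∈ Finset.range (13 - 2), C (kcertM13 3 k) * X ^ k =
    (5 + 4 * X + 8 * X ^ 2 + 6 * X ^ 3 + 10 * X ^ 4 + 1 * X ^ 5 + 12 * X ^ 6 + 1 * X ^ 7 + 2 * X ^ 8 + 7 * X ^ 9 + 12 * X ^ 10 : (ZMod 13)[X]) := by
  simp [Finset.sum_range_succ, kcertM13]

theorem kcertLow13_4 : ∑ k ∈ Finset.range (13 - 2), C (kcertM13 4 k) * X ^ k =
    (1 + 4 * X + 11 * X ^ 2 + 7 * X ^ 3 + 3 * X ^ 4 + 10 * X ^ 5 + 8 * X ^ 6 + 6 * X ^ 7 + 1 * X ^ 8 + 4 * X ^ 9 + 11 * X ^ 10 : (ZMod 13)[X]) := by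
  simp [Finset.sum_range_succ, kcertM13]

theorem kcertLow13_5 : ∑ k ∈ Finset.range (13 - 2), C (kcertM13 5 k) * X ^ k =
    (10 + 7 * X + 9 * X ^ 2 + 11 * X ^ 3 + 1 * X ^ 4 + 11 * X ^ 5 + 7 * X ^ 6 + 3 * X ^ 7 + 5 * X ^ 8 + 1 * X ^ 9 + 6 * X ^ 10 : (ZMod 13)[X]) := by
  simp [Finset.sum_range_succ, kcertM13]

theorem kcertLow13_6 : ∑ k ∈ Finset.range (13 - 2), C (kcertM13 6 k) * X ^ k =
    (6 + 0 * X + 2 * X ^ 2 + 1 * X ^ 3 + 6 * X ^ 4 + 1 * X ^ 5 + 6 * X ^ 6 + 4 * X ^ 7 + 11 * X ^ 8 + 5 * X ^ 9 + 3 * X ^ 10 : (ZMod 13)[X]) := by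
  simp [Finset.sum_range_succ, kcertM13]

theorem kcert_indep_thirteen (w : ℕ → kcertA 13) (h1 : w 1 = 1)
    (h : ∀ a ∈ Finset.Icc 2 6, Ideal.Quotient.mk _ (kcertS 13 a) * w a =
      Ideal.Quotient.mk _ (kcertD 13 a))
    (c : ℕ → ZMod 13) (hc : ∑ a ∈ Finset.Icc 1 6, c a • w a = 0) :
    ∀ a ∈ Finset.Icc 1 6, c a = 0 := by
  refine kcert_indep_of_cert 13 6 w c ((2 + X) * (3 + 3 * X + X ^ 2) * (4 + 6 * X + 4 * X ^ 2 + X ^ 3) * (5 + 10 * X + 10 * X ^ 2 + 5 * X ^ 3 + X ^ 4) * (6 + 15 * X + 20 * X ^ 2 + 15 * X ^ 3 + 6 * X ^ 4 + X ^ 5)) kcertM13 kcertN13 ?_ kcertMN13 hc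
  intro a ha
  have ha' : a = 1 ∨ a = 2 ∨ a = 3 ∨ a = 4 ∨ a = 5 ∨ a = 6 := by
    rw [Finset.mem_Icc] at ha; omega
  rcases ha' with rfl | rfl | rfl | rfl | rfl | rfl
  · rw [h1, mul_one, kcertLow13_1]
    exact kcert_mk_eq 13 (13 - 2) _ _ (4674 + 1121 * X + 189 * X ^ 2 + 20 * X ^ 3 + X ^ 4) (55 + 415 * X + 1546 * X ^ 2 + 3750 * X ^ 3 + 6578 * X ^ 4 + 8789 * X ^ 5 + 9197 * X ^ 6 + 7648 * X ^ 7 + 5078 * X ^ 8 + 2684 * X ^ 9 + 1118 * X ^ 10) (by ring)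
  · have h2 := h 2 (by decide)
    rw [kcertS13_2, kcertD13_2] at h2
    have e1 : Ideal.Quotient.mk (Ideal.span {(X : (ZMod 13)[X]) ^ (13 - 2)}) ((2 + X) * (3 + 3 * X + X ^ 2) * (4 + 6 * X + 4 * X ^ 2 + X ^ 3) * (5 + 10 * X + 10 * X ^ 2 + 5 * X ^ 3 + X ^ 4) * (6 + 15 * X + 20 * X ^ 2 + 15 * X ^ 3 + 6 * X ^ 4 + X ^ 5)) * w 2 =
        Ideal.Quotient.mk _ ((3 + 3 * X + X ^ 2) * (4 + 6 * X + 4 * X ^ 2 + X ^ 3) * (5 + 10 * X + 10 * X ^ 2 + 5 * X ^ 3 + X ^ 4) * (6 + 15 * X + 20 * X ^ 2 + 15 * X ^ 3 + 6 * X ^ 4 + X ^ 5)) * (Ideal.Quotient.mk _ (2 + X) * w 2) := by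
      have e0 : (((2 + X) * (3 + 3 * X + X ^ 2) * (4 + 6 * X + 4 * X ^ 2 + X ^ 3) * (5 + 10 * X + 10 * X ^ 2 + 5 * X ^ 3 + X ^ 4) * (6 + 15 * X + 20 * X ^ 2 + 15 * X ^ 3 + 6 * X ^ 4 + X ^ 5)) : (ZMod 13)[X]) = ((3 + 3 * X + X ^ 2) * (4 + 6 * X + 4 * X ^ 2 + X ^ 3) * (5 + 10 * X + 10 * X ^ 2 + 5 * X ^ 3 + X ^ 4) * (6 + 15 * X + 20 * X ^ 2 + 15 * X ^ 3 + 6 * X ^ 4 + X ^ 5)) * (2 + X) := by ring
      conv_lhs => rw [e0, map_mul, mul_assoc]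
    rw [e1, h2, ← map_mul, kcertLow13_2]
    exact kcert_mk_eq 13 (13 - 2) _ _ (3859 + 968 * X + 171 * X ^ 2 + 19 * X ^ 3 + X ^ 4) (27 + 221 * X + 870 * X ^ 2 + 2213 * X ^ 3 + 4057 * X ^ 4 + 5654 * X ^ 5 + 6166 * X ^ 6 + 5340 * X ^ 7 + 3693 * X ^ 8 + 2034 * X ^ 9 + 884 * X ^ 10) (by ring)
  · have h2 := h 3 (by decide)
    rw [kcertS13_3, kcertD13_3] at h2
    have e1 : Ideal.Quotient.mk (Ideal.span {(X : (ZMod 13)[X]) ^ (13 - 2)}) ((2 + X) * (3 + 3 * X + X ^ 2) * (4 + 6 * X + 4 * X ^ 2 + X ^ 3) * (5 + 10 * X + 10 * X ^ 2 + 5 * X ^ 3 + X ^ 4) * (6 + 15 * X + 20 * X ^ 2 + 15 * X ^ 3 + 6 * X ^ 4 + X ^ 5)) * w 3 =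
        Ideal.Quotient.mk _ ((2 + X) * (4 + 6 * X + 4 * X ^ 2 + X ^ 3) * (5 + 10 * X + 10 * X ^ 2 + 5 * X ^ 3 + X ^ 4) * (6 + 15 * X + 20 * X ^ 2 + 15 * X ^ 3 + 6 * X ^ 4 + X ^ 5)) * (Ideal.Quotient.mk _ (3 + 3 * X + X ^ 2) * w 3) := by
      have e0 : (((2 + X) * (3 + 3 * X + X ^ 2) * (4 + 6 * X + 4 * X ^ 2 + X ^ 3) * (5 + 10 * X + 10 * X ^ 2 + 5 * X ^ 3 + X ^ 4) * (6 + 15 * X + 20 * X ^ 2 + 15 * X ^ 3 + 6 * X ^ 4 + X ^ 5)) : (ZMod 13)[X]) = ((2 + X) * (4 + 6 * X + 4 * X ^ 2 + X ^ 3) * (5 + 10 * X + 10 * X ^ 2 + 5 * X ^ 3 + X ^ 4) * (6 + 15 * X + 20 * X ^ 2 + 15 * X ^ 3 + 6 * X ^ 4 + X ^ 5)) * (3 + 3 * X + X ^ 2) := by ring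
      conv_lhs => rw [e0, map_mul, mul_assoc]
    rw [e1, h2, ← map_mul, kcertLow13_3]
    exact kcert_mk_eq 13 (13 - 2) _ _ (8278 + 2056 * X + 358 * X ^ 2 + 39 * X ^ 3 + 2 * X ^ 4) (55 + 452 * X + 1804 * X ^ 2 + 4648 * X ^ 3 + 8608 * X ^ 4 + 12094 * X ^ 5 + 13267 * X ^ 6 + 11538 * X ^ 7 + 7996 * X ^ 8 + 4404 * X ^ 9 + 1907 * X ^ 10) (by ring)
  · have h2 := h 4 (by decide)
    rw [kcertS13_4, kcertD13_4] at h2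
    have e1 : Ideal.Quotient.mk (Ideal.span {(X : (ZMod 13)[X]) ^ (13 - 2)}) ((2 + X) * (3 + 3 * X + X ^ 2) * (4 + 6 * X + 4 * X ^ 2 + X ^ 3) * (5 + 10 * X + 10 * X ^ 2 + 5 * X ^ 3 + X ^ 4) * (6 + 15 * X + 20 * X ^ 2 + 15 * X ^ 3 + 6 * X ^ 4 + X ^ 5)) * w 4 =
        Ideal.Quotient.mk _ ((2 + X) * (3 + 3 * X + X ^ 2) * (5 + 10 * X + 10 * X ^ 2 + 5 * X ^ 3 + X ^ 4) * (6 + 15 * X + 20 * X ^ 2 + 15 * X ^ 3 + 6 * X ^ 4 + X ^ 5)) * (Ideal.Quotient.mk _ (4 + 6 * X + 4 * X ^ 2 + X ^ 3) * w 4) := by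
      have e0 : (((2 + X) * (3 + 3 * X + X ^ 2) * (4 + 6 * X + 4 * X ^ 2 + X ^ 3) * (5 + 10 * X + 10 * X ^ 2 + 5 * X ^ 3 + X ^ 4) * (6 + 15 * X + 20 * X ^ 2 + 15 * X ^ 3 + 6 * X ^ 4 + X ^ 5)) : (ZMod 13)[X]) = ((2 + X) * (3 + 3 * X + X ^ 2) * (5 + 10 * X + 10 * X ^ 2 + 5 * X ^ 3 + X ^ 4) * (6 + 15 * X + 20 * X ^ 2 + 15 * X ^ 3 + 6 * X ^ 4 + X ^ 5)) * (4 + 6 * X + 4 * X ^ 2 + X ^ 3) := by ring
      conv_lhs => rw [e0, map_mul, mul_assoc]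
    rw [e1, h2, ← map_mul, kcertLow13_4]
    exact kcert_mk_eq 13 (13 - 2) _ _ (12905 + 3174 * X + 547 * X ^ 2 + 59 * X ^ 3 + 3 * X ^ 4) (83 + 692 * X + 2803 * X ^ 2 + 7301 * X ^ 3 + 13626 * X ^ 4 + 19236 * X ^ 5 + 21153 * X ^ 6 + 18394 * X ^ 7 + 12717 * X ^ 8 + 6972 * X ^ 9 + 2999 * X ^ 10) (by ring)
  · have h2 := h 5 (by decide)
    rw [kcertS13_5, kcertD13_5] at h2
    have e1 : Ideal.Quotient.mk (Ideal.span {(X : (ZMod 13)[X]) ^ (13 - 2)}) ((2 + X) * (3 + 3 * X + X ^ 2) * (4 + 6 * X + 4 * X ^ 2 + X ^ 3) * (5 + 10 * X + 10 * X ^ 2 + 5 * X ^ 3 + X ^ 4) * (6 + 15 * X + 20 * X ^ 2 + 15 * X ^ 3 + 6 * X ^ 4 + X ^ 5)) * w 5 =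
        Ideal.Quotient.mk _ ((2 + X) * (3 + 3 * X + X ^ 2) * (4 + 6 * X + 4 * X ^ 2 + X ^ 3) * (6 + 15 * X + 20 * X ^ 2 + 15 * X ^ 3 + 6 * X ^ 4 + X ^ 5)) * (Ideal.Quotient.mk _ (5 + 10 * X + 10 * X ^ 2 + 5 * X ^ 3 + X ^ 4) * w 5) := by
      have e0 : (((2 + X) * (3 + 3 * X + X ^ 2) * (4 + 6 * X + 4 * X ^ 2 + X ^ 3) * (5 + 10 * X + 10 * X ^ 2 + 5 * X ^ 3 + X ^ 4) * (6 + 15 * X + 20 * X ^ 2 + 15 * X ^ 3 + 6 * X ^ 4 + X ^ 5)) : (ZMod 13)[X]) = ((2 + X) * (3 + 3 * X + X ^ 2) * (4 + 6 * X + 4 * X ^ 2 + X ^ 3) * (6 + 15 * X + 20 * X ^ 2 + 15 * X ^ 3 + 6 * X ^ 4 + X ^ 5)) * (5 + 10 * X + 10 * X ^ 2 + 5 * X ^ 3 + X ^ 4) := by ring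
      conv_lhs => rw [e0, map_mul, mul_assoc]
    rw [e1, h2, ← map_mul, kcertLow13_5]
    exact kcert_mk_eq 13 (13 - 2) _ _ (17575 + 4295 * X + 736 * X ^ 2 + 79 * X ^ 3 + 4 * X ^ 4) (110 + 941 * X + 3867 * X ^ 2 + 10165 * X ^ 3 + 19071 * X ^ 4 + 26973 * X ^ 5 + 29633 * X ^ 6 + 25684 * X ^ 7 + 17667 * X ^ 8 + 9626 * X ^ 9 + 4113 * X ^ 10) (by ring)
  · have h2 := h 6 (by decide)
    rw [kcertS13_6, kcertD13_6] at h2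
    have e1 : Ideal.Quotient.mk (Ideal.span {(X : (ZMod 13)[X]) ^ (13 - 2)}) ((2 + X) * (3 + 3 * X + X ^ 2) * (4 + 6 * X + 4 * X ^ 2 + X ^ 3) * (5 + 10 * X + 10 * X ^ 2 + 5 * X ^ 3 + X ^ 4) * (6 + 15 * X + 20 * X ^ 2 + 15 * X ^ 3 + 6 * X ^ 4 + X ^ 5)) * w 6 =
        Ideal.Quotient.mk _ ((2 + X) * (3 + 3 * X + X ^ 2) * (4 + 6 * X + 4 * X ^ 2 + X ^ 3) * (5 + 10 * X + 10 * X ^ 2 + 5 * X ^ 3 + X ^ 4)) * (Ideal.Quotient.mk _ (6 + 15 * X + 20 * X ^ 2 + 15 * X ^ 3 + 6 * X ^ 4 + X ^ 5) * w 6) := by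
      have e0 : (((2 + X) * (3 + 3 * X + X ^ 2) * (4 + 6 * X + 4 * X ^ 2 + X ^ 3) * (5 + 10 * X + 10 * X ^ 2 + 5 * X ^ 3 + X ^ 4) * (6 + 15 * X + 20 * X ^ 2 + 15 * X ^ 3 + 6 * X ^ 4 + X ^ 5)) : (ZMod 13)[X]) = ((2 + X) * (3 + 3 * X + X ^ 2) * (4 + 6 * X + 4 * X ^ 2 + X ^ 3) * (5 + 10 * X + 10 * X ^ 2 + 5 * X ^ 3 + X ^ 4)) * (6 + 15 * X + 20 * X ^ 2 + 15 * X ^ 3 + 6 * X ^ 4 + X ^ 5) := by ring
      conv_lhs => rw [e0, map_mul, mul_assoc]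
    rw [e1, h2, ← map_mul, kcertLow13_6]
    exact kcert_mk_eq 13 (13 - 2) _ _ (22249 + 5416 * X + 925 * X ^ 2 + 99 * X ^ 3 + 5 * X ^ 4) (138 + 1200 * X + 4996 * X ^ 2 + 13233 * X ^ 3 + 24893 * X ^ 4 + 35173 * X ^ 5 + 38503 * X ^ 6 + 33204 * X ^ 7 + 22711 * X ^ 8 + 12305 * X ^ 9 + 5231 * X ^ 10) (by ring)

/-- The certificate in the exact shape consumed by `kummer_of_cert`. -/
theorem kcert_hcert_thirteen :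
    ∀ w : ℕ → (ZMod 13)[X] ⧸ Ideal.span {(X : (ZMod 13)[X]) ^ (13 - 2)}, w 1 = 1 →
      (∀ a ∈ Finset.Icc 2 ((13 - 1) / 2),
        Ideal.Quotient.mk _ (∑ i ∈ Finset.range a, (1 + X) ^ i) * w a =
          Ideal.Quotient.mk _ (∑ i ∈ Finset.range a, (i : (ZMod 13)[X]) * (1 + X) ^ i)) →
      ∀ c : ℕ → ZMod 13, ∑ a ∈ Finset.Icc 1 ((13 - 1) / 2), c a • w a = 0 →
        ∀ a ∈ Finset.Icc 1 ((13 - 1) / 2), c a = 0 :=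
  fun w h1 h c hc => kcert_indep_thirteen w h1 h c hc

end Fermat.Agent.FLTP
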