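import Fermat.Agent.FLTP.KummerCert

set_option autoImplicit false
set_option linter.unusedSimpArgs false

namespace Fermat.Agent.FLTP

open Polynomial

def kcertM5 (a k : ℕ) : ZMod 5 :=
  (((([[2, 1, 0], [1, 1, 0]] : List (List ℕ)).getD (a - 1) []).getD k 0 : ℕ) : ZMod 5)

def kcertN5 (k b : ℕ) : ZMod 5 :=
  (((([[1, 4], [4, 2], [0, 0]] : List (List ℕ)).getD k []).getD (b - 1) 0 : ℕ) : ZMod 5)

theorem kcertMN5 : ∀ a ∈ Finset.Icc 1 2, ∀ b ∈ Finset.Icc 1 2,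
    ∑ k ∈ Finset.range (5 - 2), kcertM5 a k * kcertN5 k b = if a = b then 1 else 0 := by
  decide

theorem kcertS5_2 : kcertS 5 2 = 2 + X := by
  simp only [kcertS, Finset.sum_range_succ, Finset.sum_range_zero]; ring

theorem kcertD5_2 : kcertD 5 2 = 1 + X := by
  simp only [kcertD, Finset.sum_range_succ, Finset.sum_range_zero, Nat.cast_zero, Nat.cast_one, Nat.cast_ofNat]; ring

theorem kcertLow5_1 : ∑ k ∈ Finset.range (5 - 2), C (kcertM5 1 k) * X ^ k =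
    (2 + 1 * X + 0 * X ^ 2 : (ZMod 5)[X]) := by
  simp [Finset.sum_range_succ, kcertM5]

theorem kcertLow5_2 : ∑ k ∈ Finset.range (5 - 2), C (kcertM5 2 k) * X ^ k =
    (1 + 1 * X + 0 * X ^ 2 : (ZMod 5)[X]) := by
  simp [Finset.sum_range_succ, kcertM5]

theorem kcert_indep_five (w : ℕ → kcertA 5) (h1 : w 1 = 1)
    (h : ∀ a ∈ Finset.Icc 2 2, Ideal.Quotient.mk _ (kcertS 5 a) * w a =
      Ideal.Quotient.mk _ (kcertD 5 a))
    (c : ℕ → ZMod 5) (hc : ∑ a ∈ Finset.Icc 1 2, c a • w a = 0) :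
    ∀ a ∈ Finset.Icc 1 2, c a = 0 := by
  refine kcert_indep_of_cert 5 2 w c ((2 + X)) kcertM5 kcertN5 ?_ kcertMN5 hc
  intro a ha
  have ha' : a = 1 ∨ a = 2 := by
    rw [Finset.mem_Icc] at ha; omega
  rcases ha' with rfl | rfl
  · rw [h1, mul_one, kcertLow5_1]
    exact kcert_mk_eq 5 (5 - 2) _ _ (0) (0) (by ring)
  · have h2 := h 2 (by decide)
    rw [kcertS5_2, kcertD5_2] at h2
    have e1 : Ideal.Quotient.mk (Ideal.span {(X : (ZMod 5)[X]) ^ (5 - 2)}) ((2 + X)) * w 2 =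
        Ideal.Quotient.mk _ (1) * (Ideal.Quotient.mk _ (2 + X) * w 2) := by
      have e0 : (((2 + X)) : (ZMod 5)[X]) = (1) * (2 + X) := by ring
      conv_lhs => rw [e0, map_mul, mul_assoc]
    rw [e1, h2, ← map_mul, kcertLow5_2]
    exact kcert_mk_eq 5 (5 - 2) _ _ (0) (0) (by ring)

/-- The certificate in the exact shape consumed by `kummer_of_cert`. -/
theorem kcert_hcert_five :
    ∀ w : ℕ → (ZMod 5)[X] ⧸ Ideal.span {(X : (ZMod 5)[X]) ^ (5 - 2)}, w 1 = 1 →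
      (∀ a ∈ Finset.Icc 2 ((5 - 1) / 2),
        Ideal.Quotient.mk _ (∑ i ∈ Finset.range a, (1 + X) ^ i) * w a =
          Ideal.Quotient.mk _ (∑ i ∈ Finset.range a, (i : (ZMod 5)[X]) * (1 + X) ^ i)) →
      ∀ c : ℕ → ZMod 5, ∑ a ∈ Finset.Icc 1 ((5 - 1) / 2), c a • w a = 0 →
        ∀ a ∈ Finset.Icc 1 ((5 - 1) / 2), c a = 0 :=
  fun w h1 h c hc => kcert_indep_five w h1 h c hc

end Fermat.Agent.FLTP
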