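import Fermat.Agent.FLTP.KummerCert

set_option autoImplicit false
set_option linter.unusedSimpArgs false

namespace Fermat.Agent.FLTP

open Polynomial

def kcertM7 (a k : ℕ) : ZMod 7 :=
  (((([[6, 2, 5, 1, 0], [3, 6, 4, 1, 0], [6, 6, 2, 2, 0]] : List (List ℕ)).getD (a - 1) []).getD k 0 : ℕ) : ZMod 7)

def kcertN7 (k b : ℕ) : ZMod 7 :=
  (((([[5, 4, 6], [0, 5, 1], [0, 0, 0], [6, 1, 4], [0, 0, 0]] : List (List ℕ)).getD k []).getD (b - 1) 0 : ℕ) : ZMod 7)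

theorem kcertMN7 : ∀ a ∈ Finset.Icc 1 3, ∀ b ∈ Finset.Icc 1 3,
    ∑ k ∈ Finset.range (7 - 2), kcertM7 a k * kcertN7 k b = if a = b then 1 else 0 := by
  decide

theorem kcertS7_2 : kcertS 7 2 = 2 + X := by
  simp only [kcertS, Finset.sum_range_succ, Finset.sum_range_zero]; ring

theorem kcertD7_2 : kcertD 7 2 = 1 + X := by
  simp only [kcertD, Finset.sum_range_succ, Finset.sum_range_zero, Nat.cast_zero, Nat.cast_one, Nat.cast_ofNat]; ring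

theorem kcertS7_3 : kcertS 7 3 = 3 + 3 * X + X ^ 2 := by
  simp only [kcertS, Finset.sum_range_succ, Finset.sum_range_zero]; ring

theorem kcertD7_3 : kcertD 7 3 = 3 + 5 * X + 2 * X ^ 2 := by
  simp only [kcertD, Finset.sum_range_succ, Finset.sum_range_zero, Nat.cast_zero, Nat.cast_one, Nat.cast_ofNat]; ring

theorem kcertLow7_1 : ∑ k ∈ Finset.range (7 - 2), C (kcertM7 1 k) * X ^ k =
    (6 + 2 * X + 5 * X ^ 2 + 1 * X ^ 3 + 0 * X ^ 4 : (ZMod 7)[X]) := by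
  simp [Finset.sum_range_succ, kcertM7]

theorem kcertLow7_2 : ∑ k ∈ Finset.range (7 - 2), C (kcertM7 2 k) * X ^ k =
    (3 + 6 * X + 4 * X ^ 2 + 1 * X ^ 3 + 0 * X ^ 4 : (ZMod 7)[X]) := by
  simp [Finset.sum_range_succ, kcertM7]

theorem kcertLow7_3 : ∑ k ∈ Finset.range (7 - 2), C (kcertM7 3 k) * X ^ k =
    (6 + 6 * X + 2 * X ^ 2 + 2 * X ^ 3 + 0 * X ^ 4 : (ZMod 7)[X]) := by
  simp [Finset.sum_range_succ, kcertM7]

theorem kcert_indep_seven (w : ℕ → kcertA 7) (h1 : w 1 = 1)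
    (h : ∀ a ∈ Finset.Icc 2 3, Ideal.Quotient.mk _ (kcertS 7 a) * w a =
      Ideal.Quotient.mk _ (kcertD 7 a))
    (c : ℕ → ZMod 7) (hc : ∑ a ∈ Finset.Icc 1 3, c a • w a = 0) :
    ∀ a ∈ Finset.Icc 1 3, c a = 0 := by
  refine kcert_indep_of_cert 7 3 w c ((2 + X) * (3 + 3 * X + X ^ 2)) kcertM7 kcertN7 ?_ kcertMN7 hc
  intro a ha
  have ha' : a = 1 ∨ a = 2 ∨ a = 3 := by
    rw [Finset.mem_Icc] at ha; omega
  rcases ha' with rfl | rfl | rfl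
  · rw [h1, mul_one, kcertLow7_1]
    exact kcert_mk_eq 7 (7 - 2) _ _ (0) (X) (by ring)
  · have h2 := h 2 (by decide)
    rw [kcertS7_2, kcertD7_2] at h2
    have e1 : Ideal.Quotient.mk (Ideal.span {(X : (ZMod 7)[X]) ^ (7 - 2)}) ((2 + X) * (3 + 3 * X + X ^ 2)) * w 2 =
        Ideal.Quotient.mk _ ((3 + 3 * X + X ^ 2)) * (Ideal.Quotient.mk _ (2 + X) * w 2) := by
      have e0 : (((2 + X) * (3 + 3 * X + X ^ 2)) : (ZMod 7)[X]) = ((3 + 3 * X + X ^ 2)) * (2 + X) := by ring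
      conv_lhs => rw [e0, map_mul, mul_assoc]
    rw [e1, h2, ← map_mul, kcertLow7_2]
    exact kcert_mk_eq 7 (7 - 2) _ _ (0) (0) (by ring)
  · have h2 := h 3 (by decide)
    rw [kcertS7_3, kcertD7_3] at h2
    have e1 : Ideal.Quotient.mk (Ideal.span {(X : (ZMod 7)[X]) ^ (7 - 2)}) ((2 + X) * (3 + 3 * X + X ^ 2)) * w 3 =
        Ideal.Quotient.mk _ ((2 + X)) * (Ideal.Quotient.mk _ (3 + 3 * X + X ^ 2) * w 3) := by
      have e0 : (((2 + X) * (3 + 3 * X + X ^ 2)) : (ZMod 7)[X]) = ((2 + X)) * (3 + 3 * X + X ^ 2) := by ring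
      conv_lhs => rw [e0, map_mul, mul_assoc]
    rw [e1, h2, ← map_mul, kcertLow7_3]
    exact kcert_mk_eq 7 (7 - 2) _ _ (0) (X + X ^ 2) (by ring)

/-- The certificate in the exact shape consumed by `kummer_of_cert`. -/
theorem kcert_hcert_seven :
    ∀ w : ℕ → (ZMod 7)[X] ⧸ Ideal.span {(X : (ZMod 7)[X]) ^ (7 - 2)}, w 1 = 1 →
      (∀ a ∈ Finset.Icc 2 ((7 - 1) / 2),
        Ideal.Quotient.mk _ (∑ i ∈ Finset.range a, (1 + X) ^ i) * w a =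
          Ideal.Quotient.mk _ (∑ i ∈ Finset.range a, (i : (ZMod 7)[X]) * (1 + X) ^ i)) →
      ∀ c : ℕ → ZMod 7, ∑ a ∈ Finset.Icc 1 ((7 - 1) / 2), c a • w a = 0 →
        ∀ a ∈ Finset.Icc 1 ((7 - 1) / 2), c a = 0 :=
  fun w h1 h c hc => kcert_indep_seven w h1 h c hc

end Fermat.Agent.FLTP
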