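import Mathlib

set_option autoImplicit false

namespace Fermat.Agent.FLTP

open NumberField Polynomial Ideal Module InfinitePlace Nat Real

/-- Upper bound for the floor of the Minkowski bound of the `p`-th cyclotomic field. -/
theorem pidc_floor_minkowski_le (p : ℕ) [hp : Fact p.Prime] (K : Type) [Field K] [NumberField K]
    [IsCyclotomicExtension {p} ℚ K] (B s : ℕ) (hs : p ^ (p - 2) ≤ s ^ 2)
    (hB : ((4 : ℝ) / 3.14) ^ ((p - 1) / 2) *
      (((p - 1)! : ℝ) / ((p - 1 : ℕ) : ℝ) ^ (p - 1) * (s : ℝ)) < B + 1) :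
    ⌊(4 / π) ^ nrComplexPlaces K *
      ((finrank ℚ K)! / (finrank ℚ K) ^ (finrank ℚ K) * √|discr K|)⌋₊ ≤ B := by
  have hfin : finrank ℚ K = p - 1 := by
    rw [IsCyclotomicExtension.finrank (n := p) K
      (Polynomial.cyclotomic.irreducible_rat hp.out.pos), Nat.totient_prime hp.out]
  have hr2 : nrComplexPlaces K = (p - 1) / 2 := by
    rw [IsCyclotomicExtension.Rat.nrComplexPlaces_eq_totient_div_two p K,
      Nat.totient_prime hp.out]
  have hdisc : |((discr K : ℤ) : ℝ)| = (p : ℝ) ^ (p - 2) := by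
    rw [IsCyclotomicExtension.Rat.discr_prime p K]
    push_cast
    rw [abs_mul, abs_pow, abs_neg, abs_one, one_pow, one_mul, abs_pow, Nat.abs_cast]
  rw [hfin, hr2, hdisc]
  have hsqrt : √((p : ℝ) ^ (p - 2)) ≤ (s : ℝ) := by
    rw [Real.sqrt_le_left (Nat.cast_nonneg s)]
    exact_mod_cast hs
  have hpi : (4 : ℝ) / π ≤ 4 / 3.14 := by
    apply div_le_div_of_nonneg_left (by norm_num) (by norm_num) pi_gt_d2.le
  have h1 : (4 / π) ^ ((p - 1) / 2) ≤ ((4 : ℝ) / 3.14) ^ ((p - 1) / 2) :=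
    pow_le_pow_left₀ (by positivity) hpi _
  have hlt : (4 / π) ^ ((p - 1) / 2) *
      (((p - 1)! : ℝ) / ((p - 1 : ℕ) : ℝ) ^ (p - 1) * √((p : ℝ) ^ (p - 2))) < B + 1 := by
    refine lt_of_le_of_lt ?_ hB
    gcongr
  have hnn : (0 : ℝ) ≤ (4 / π) ^ ((p - 1) / 2) *
      (((p - 1)! : ℝ) / ((p - 1 : ℕ) : ℝ) ^ (p - 1) * √((p : ℝ) ^ (p - 2))) := by positivity
  exact Nat.lt_succ_iff.mp ((Nat.floor_lt hnn).mpr (by exact_mod_cast hlt))

/-- If no power `q ^ k` with `0 < k ≤ L` is `1` modulo `p` and `B < q ^ (L + 1)`, then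
`B < q ^ orderOf (q : ZMod p)`. -/
theorem pidc_lt_pow_orderOf (p q B L : ℕ) (hq : 1 < q)
    (h : ∀ k ∈ Finset.Icc 1 L, ((q : ZMod p)) ^ k ≠ 1) (hB : B < q ^ (L + 1))
    (hfin : 0 < orderOf (q : ZMod p)) :
    B < q ^ orderOf (q : ZMod p) := by
  have hL : L < orderOf (q : ZMod p) := by
    by_contra hcon
    exact h _ (Finset.mem_Icc.mpr ⟨hfin, not_lt.mp hcon⟩) (pow_orderOf_eq_one _)
  exact lt_of_lt_of_le hB (Nat.pow_le_pow_right hq.le hL)

/-- A principal prime of residue degree one above `q` in the `p`-th cyclotomic field, from an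
explicit generator `α` with `α ∣ q`, `α ∣ ζ - r` and `α ∈ (q, ζ - r)`. -/
theorem pidc_exists_principal_prime_linear (p q : ℕ) [hp : Fact p.Prime] [hq : Fact q.Prime]
    (K : Type) [Field K] [NumberField K] [IsCyclotomicExtension {p} ℚ K]
    (θ : 𝓞 K) (hθ : θ = (IsCyclotomicExtension.zeta_spec p ℚ K).toInteger)
    (r : ℤ) (hr : (∑ i ∈ Finset.range p, (r : ZMod q) ^ i) = 0)
    (α β γ ε δ : 𝓞 K)
    (h1 : α * β = (q : 𝓞 K))
    (h2 : α * γ = θ - (r : 𝓞 K))
    (h3 : α = (q : 𝓞 K) * δ + (θ - (r : 𝓞 K)) * ε) :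
    ∃ P ∈ primesOver (span {(q : ℤ)}) (𝓞 K), Submodule.IsPrincipal P := by
  have h₁ : ¬ q ∣ RingOfIntegers.exponent θ := by
    rw [hθ, RingOfIntegers.exponent_eq_one_iff.mpr <|
      IsCyclotomicExtension.Rat.adjoin_singleton_eq_top (IsCyclotomicExtension.zeta_spec p ℚ K)]
    exact hq.out.not_dvd_one
  have hmin : (minpoly ℤ θ).map (Int.castRingHom (ZMod q)) = cyclotomic p (ZMod q) := by
    rw [← map_cyclotomic_int]
    congr 1
    have h := cyclotomic_eq_minpoly (IsCyclotomicExtension.zeta_spec p ℚ K) hp.out.pos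
    rw [h, ← (IsCyclotomicExtension.zeta_spec p ℚ K).coe_toInteger, ← hθ]
    exact (RingOfIntegers.minpoly_coe θ).symm
  have hQ : (X - C r : ℤ[X]).map (Int.castRingHom (ZMod q)) ∈
      RingOfIntegers.monicFactorsMod θ q := by
    have hmap : (X - C r : ℤ[X]).map (Int.castRingHom (ZMod q)) = X - C (r : ZMod q) := by
      simp
    rw [hmap, Multiset.mem_toFinset, Polynomial.mem_normalizedFactors_iff
      (map_monic_ne_zero (minpoly.monic θ.isIntegral))]
    refine ⟨irreducible_X_sub_C _, monic_X_sub_C _, ?_⟩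
    rw [hmin, dvd_iff_isRoot, IsRoot.def, cyclotomic_prime, eval_finsetSum]
    simpa using hr
  have hP := ((NumberField.Ideal.primesOverSpanEquivMonicFactorsMod h₁).symm
      ⟨_, hQ⟩).prop
  rw [NumberField.Ideal.primesOverSpanEquivMonicFactorsMod_symm_apply_eq_span h₁ hQ] at hP
  refine ⟨_, hP, ⟨α, ?_⟩⟩
  have haev : (aeval θ) (X - C r : ℤ[X]) = θ - (r : 𝓞 K) := by simp
  rw [haev]
  apply le_antisymm
  · rw [Ideal.span_le]
    rintro x (rfl | rfl)
    · exact Ideal.mem_span_singleton.mpr ⟨β, h1.symm⟩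
    · exact Ideal.mem_span_singleton.mpr ⟨γ, h2.symm⟩
  · rw [Ideal.submodule_span_eq, Ideal.span_singleton_le_iff_mem, h3]
    exact Ideal.add_mem _ (Ideal.mul_mem_right _ _ (Ideal.subset_span (by simp)))
      (Ideal.mul_mem_right _ _ (Ideal.subset_span (by simp)))

/-- Generic PID criterion for the `p`-th cyclotomic field: Minkowski bound `≤ B`, a finite set
of primes with an explicitly principal prime above them, and an order check for the others. -/
theorem pidc_pid_of_checks (p : ℕ) [hp : Fact p.Prime] (K : Type) [Field K] [NumberField K]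
    [IsCyclotomicExtension {p} ℚ K] (B s : ℕ) (hs : p ^ (p - 2) ≤ s ^ 2)
    (hB : ((4 : ℝ) / 3.14) ^ ((p - 1) / 2) *
      (((p - 1)! : ℝ) / ((p - 1 : ℕ) : ℝ) ^ (p - 1) * (s : ℝ)) < B + 1)
    (L : ℕ → ℕ) (special : Finset ℕ)
    (hspecial : ∀ q ∈ special, q.Prime →
      ∃ P ∈ primesOver (span {(q : ℤ)}) (𝓞 K), Submodule.IsPrincipal P)
    (hcheck : ∀ q ∈ Finset.Icc 2 B, q.Prime → q ≠ p → q ∉ special →
      B < q ^ (L q + 1) ∧ ∀ k ∈ Finset.Icc 1 (L q), ((q : ℕ) : ZMod p) ^ k ≠ 1) :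
    IsPrincipalIdealRing (𝓞 K) := by
  have : IsGalois ℚ K := IsCyclotomicExtension.isGalois {p} ℚ K
  have hM := pidc_floor_minkowski_le p K B s hs hB
  apply RingOfIntegers.isPrincipalIdealRing_of_isPrincipal_of_lt_or_isPrincipal_of_mem_primesOver_of_mem_Icc
  intro q hq hqprime
  have hqB : q ≤ B := (Finset.mem_Icc.mp hq).2.trans hM
  have : Fact q.Prime := ⟨hqprime⟩
  obtain ⟨⟨P, hP1, hP2⟩⟩ := (span {(q : ℤ)}).nonempty_primesOver (S := 𝓞 K)
  by_cases hqp : q = p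
  · subst hqp
    refine ⟨P, ⟨hP1, hP2⟩, Or.inr ?_⟩
    rw [IsCyclotomicExtension.Rat.eq_span_zeta_sub_one_of_liesOver' q K
      (IsCyclotomicExtension.zeta_spec q ℚ K) P]
    exact ⟨_, rfl⟩
  by_cases hsp : q ∈ special
  · obtain ⟨P', hP', hprinc⟩ := hspecial q hsp hqprime
    exact ⟨P', hP', Or.inr hprinc⟩
  refine ⟨P, ⟨hP1, hP2⟩, Or.inl ?_⟩
  have hqp' : ¬ q ∣ p := by
    intro h
    exact hqp ((Nat.prime_dvd_prime_iff_eq hqprime hp.out).mp h)
  rw [IsCyclotomicExtension.Rat.inertiaDeg_eq_of_not_dvd q K P hqp']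
  refine lt_of_le_of_lt hM ?_
  have hfin : 0 < orderOf ((q : ZMod p)) := by
    have hcop : Nat.Coprime q p := (Nat.Prime.coprime_iff_not_dvd hqprime).mpr hqp'
    exact ((ZMod.isUnit_iff_coprime q p).mpr hcop).isOfFinOrder.orderOf_pos
  obtain ⟨h1, h2⟩ := hcheck q (Finset.mem_Icc.mpr ⟨hqprime.two_le, hqB⟩) hqprime hqp hsp
  exact pidc_lt_pow_orderOf p q B (L q) hqprime.one_lt h2 h1 hfin

end Fermat.Agent.FLTP
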