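import Mathlib
import Fermat.Agent.FLTP.PIDCommon

set_option autoImplicit false

namespace Fermat.Agent.FLTP

open NumberField Polynomial Ideal Module InfinitePlace Nat Real

theorem pid11_root : (∑ i ∈ Finset.range 11, ((4 : ℤ) : ZMod 23) ^ i) = 0 := by
  decide

theorem pid11_identities (R : Type) [CommRing R] (ζ : R)
    (hΦ : 1 + ζ + ζ ^ 2 + ζ ^ 3 + ζ ^ 4 + ζ ^ 5 + ζ ^ 6 + ζ ^ 7 + ζ ^ 8 + ζ ^ 9 + ζ ^ 10 = 0) :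
    (1 + ζ + ζ ^ 3) * (-2 - 14 * ζ - 17 * ζ ^ 2 - 12 * ζ ^ 3 - 5 * ζ ^ 4 - 9 * ζ ^ 5 - 10 * ζ ^ 6
        - 16 * ζ ^ 7 - 6 * ζ ^ 8 - 15 * ζ ^ 9) = 23 ∧
    (1 + ζ + ζ ^ 3) * (1 + 3 * ζ + 3 * ζ ^ 2 + 2 * ζ ^ 3 + ζ ^ 4 + 2 * ζ ^ 5 + 2 * ζ ^ 6
        + 3 * ζ ^ 7 + ζ ^ 8 + 3 * ζ ^ 9) = ζ - 4 ∧
    1 + ζ + ζ ^ 3 = 23 * 3 + (ζ - 4) * (17 + 4 * ζ + ζ ^ 2) := by
  refine ⟨?_, ?_, ?_⟩
  · linear_combination (-25 + 9 * ζ - 15 * ζ ^ 2) * hΦ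
  · linear_combination (5 - 2 * ζ + 3 * ζ ^ 2) * hΦ
  · ring

theorem pid11_exists_principal_23 (K : Type) [Field K] [NumberField K]
    [IsCyclotomicExtension {11} ℚ K] :
    ∃ P ∈ primesOver (span {((23 : ℕ) : ℤ)}) (𝓞 K), Submodule.IsPrincipal P := by
  have : Fact (Nat.Prime 11) := ⟨by norm_num⟩
  have : Fact (Nat.Prime 23) := ⟨by norm_num⟩
  obtain ⟨ζ, hζ⟩ : ∃ ζ : 𝓞 K, ζ = (IsCyclotomicExtension.zeta_spec 11 ℚ K).toInteger := ⟨_, rfl⟩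
  have hprim : IsPrimitiveRoot ζ 11 :=
    hζ ▸ (IsCyclotomicExtension.zeta_spec 11 ℚ K).toInteger_isPrimitiveRoot
  have hΦ := hprim.geom_sum_eq_zero (by norm_num)
  simp only [Finset.sum_range_succ, Finset.sum_range_zero, zero_add, pow_zero, pow_one] at hΦ
  obtain ⟨h1, h2, h3⟩ := pid11_identities (𝓞 K) ζ hΦ
  refine pidc_exists_principal_prime_linear 11 23 K ζ hζ 4 pid11_root (1 + ζ + ζ ^ 3)
    (-2 - 14 * ζ - 17 * ζ ^ 2 - 12 * ζ ^ 3 - 5 * ζ ^ 4 - 9 * ζ ^ 5 - 10 * ζ ^ 6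
        - 16 * ζ ^ 7 - 6 * ζ ^ 8 - 15 * ζ ^ 9)
    (1 + 3 * ζ + 3 * ζ ^ 2 + 2 * ζ ^ 3 + ζ ^ 4 + 2 * ζ ^ 5 + 2 * ζ ^ 6
        + 3 * ζ ^ 7 + ζ ^ 8 + 3 * ζ ^ 9)
    (17 + 4 * ζ + ζ ^ 2) 3 ?_ ?_ ?_
  · rw [h1]; norm_num
  · rw [h2]; norm_num
  · rw [h3]; norm_num

def pid11_L (q : ℕ) : ℕ := if q = 2 then 5 else if q = 3 then 3 else if q ≤ 7 then 2 else 1

theorem pid11_key : ∀ q ∈ Finset.Icc 2 59, q % 11 ≠ 1 → q ≠ 11 →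
    59 < q ^ (pid11_L q + 1) ∧
      ∀ k ∈ Finset.Icc 1 (pid11_L q), ((q : ℕ) : ZMod 11) ^ k ≠ 1 := by
  decide

theorem pid11_key' : ∀ q ∈ Finset.Icc 2 59, q % 11 = 1 → q = 23 ∨ q % 2 = 0 ∨ q % 3 = 0 := by
  decide

/-- The ring of integers of the 11-th cyclotomic field is a PID. -/
theorem pid_eleven (K : Type) [Field K] [NumberField K] [IsCyclotomicExtension {11} ℚ K] :
    IsPrincipalIdealRing (𝓞 K) := by
  have : Fact (Nat.Prime 11) := ⟨by norm_num⟩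
  refine pidc_pid_of_checks 11 K 59 48559 (by norm_num) (by norm_num [Nat.factorial])
    pid11_L {23} ?_ ?_
  · intro q hq _
    obtain rfl : q = 23 := Finset.mem_singleton.mp hq
    exact pid11_exists_principal_23 K
  · intro q hq hqprime hq11 hq23
    refine pid11_key q hq ?_ hq11
    intro h1
    rcases pid11_key' q hq h1 with h | h | h
    · exact hq23 (Finset.mem_singleton.mpr h)
    · have h2 : 2 ∣ q := Nat.dvd_of_mod_eq_zero h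
      have := (Nat.prime_dvd_prime_iff_eq (by norm_num) hqprime).mp h2
      omega
    · have h3 : 3 ∣ q := Nat.dvd_of_mod_eq_zero h
      have := (Nat.prime_dvd_prime_iff_eq (by norm_num) hqprime).mp h3
      omega

end Fermat.Agent.FLTP
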