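import Mathlib
import Fermat.Agent.FLTP.PIDCommon

set_option autoImplicit false

namespace Fermat.Agent.FLTP

open NumberField Polynomial Ideal Module InfinitePlace Nat Real

/-- A principal prime above `q` in the `p`-th cyclotomic field attached to a monic factor `g`
of the cyclotomic polynomial that is irreducible modulo `q`, from an explicit generator `α`
with `α ∣ q`, `α ∣ g(ζ)` and `α ∈ (q, g(ζ))`. -/
theorem pidc_exists_principal_prime_factor (p q : ℕ) [hp : Fact p.Prime] [hq : Fact q.Prime]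
    (K : Type) [Field K] [NumberField K] [IsCyclotomicExtension {p} ℚ K]
    (θ : 𝓞 K) (hθ : θ = (IsCyclotomicExtension.zeta_spec p ℚ K).toInteger)
    (g : ℤ[X]) (hmonic : (g.map (Int.castRingHom (ZMod q))).Monic)
    (hirr : Irreducible (g.map (Int.castRingHom (ZMod q))))
    (hdvd : g.map (Int.castRingHom (ZMod q)) ∣ cyclotomic p (ZMod q))
    (α β γ ε δ : 𝓞 K)
    (h1 : α * β = (q : 𝓞 K))
    (h2 : α * γ = aeval θ g)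
    (h3 : α = (q : 𝓞 K) * δ + aeval θ g * ε) :
    ∃ P ∈ primesOver (span {(q : ℤ)}) (𝓞 K), Submodule.IsPrincipal P := by
  have h₁ : ¬ q ∣ RingOfIntegers.exponent θ := by
    rw [hθ, RingOfIntegers.exponent_eq_one_iff.mpr <|
      IsCyclotomicExtension.Rat.adjoin_singleton_eq_top (IsCyclotomicExtension.zeta_spec p ℚ K)]
    exact hq.out.not_dvd_one
  have hmin : (minpoly ℤ θ).map (Int.castRingHom (ZMod q)) = cyclotomic p (ZMod q) := by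
    rw [← map_cyclotomic_int]
    congr 1
    have h := cyclotomic_eq_minpoly (IsCyclotomicExtension.zeta_spec p ℚ K) hp.out.pos
    rw [h, ← (IsCyclotomicExtension.zeta_spec p ℚ K).coe_toInteger, ← hθ]
    exact (RingOfIntegers.minpoly_coe θ).symm
  have hQ : g.map (Int.castRingHom (ZMod q)) ∈ RingOfIntegers.monicFactorsMod θ q := by
    rw [Multiset.mem_toFinset, Polynomial.mem_normalizedFactors_iff
      (map_monic_ne_zero (minpoly.monic θ.isIntegral))]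
    exact ⟨hirr, hmonic, hmin ▸ hdvd⟩
  have hP := ((NumberField.Ideal.primesOverSpanEquivMonicFactorsMod h₁).symm
      ⟨_, hQ⟩).prop
  rw [NumberField.Ideal.primesOverSpanEquivMonicFactorsMod_symm_apply_eq_span h₁ hQ] at hP
  refine ⟨_, hP, ⟨α, ?_⟩⟩
  apply le_antisymm
  · rw [Ideal.span_le]
    rintro x (rfl | rfl)
    · exact Ideal.mem_span_singleton.mpr ⟨β, h1.symm⟩
    · exact Ideal.mem_span_singleton.mpr ⟨γ, h2.symm⟩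
  · rw [Ideal.submodule_span_eq, Ideal.span_singleton_le_iff_mem, h3]
    exact Ideal.add_mem _ (Ideal.mul_mem_right _ _ (Ideal.subset_span (by simp)))
      (Ideal.mul_mem_right _ _ (Ideal.subset_span (by simp)))

theorem pid13_root_53 : (∑ i ∈ Finset.range 13, ((36 : ℤ) : ZMod 53) ^ i) = 0 := by
  decide

theorem pid13_identities_53 (R : Type) [CommRing R] (ζ : R)
    (hΦ : 1 + ζ + ζ ^ 2 + ζ ^ 3 + ζ ^ 4 + ζ ^ 5 + ζ ^ 6 + ζ ^ 7 + ζ ^ 8 + ζ ^ 9 + ζ ^ 10 + ζ ^ 11 + ζ ^ 12 = 0) :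
    (1 + ζ + ζ ^ 3) * (1 - 24 * ζ - 35 * ζ ^ 2 - 25 * ζ ^ 3 - 10 * ζ ^ 4 - 14 * ζ ^ 5 - 20 * ζ ^ 6 - 29 * ζ ^ 7 - 16 * ζ ^ 8 - 23 * ζ ^ 9 - 7 * ζ ^ 10 - 36 * ζ ^ 11) = 53 ∧
    (1 + ζ + ζ ^ 3) * (17 * ζ + 24 * ζ ^ 2 + 17 * ζ ^ 3 + 7 * ζ ^ 4 + 10 * ζ ^ 5 + 14 * ζ ^ 6 + 20 * ζ ^ 7 + 11 * ζ ^ 8 + 16 * ζ ^ 9 + 5 * ζ ^ 10 + 25 * ζ ^ 11) = ζ - 36 ∧
    1 + ζ + ζ ^ 3 = 53 * (881) + (ζ - 36) * (1297 + 36 * ζ + ζ ^ 2) := by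
  refine ⟨?_, ?_, ?_⟩
  · linear_combination (-52 + 29 * ζ - 36 * ζ ^ 2) * hΦ
  · linear_combination (36 - 20 * ζ + 25 * ζ ^ 2) * hΦ
  · ring

theorem pid13_exists_principal_53 (K : Type) [Field K] [NumberField K]
    [IsCyclotomicExtension {13} ℚ K] :
    ∃ P ∈ primesOver (span {((53 : ℕ) : ℤ)}) (𝓞 K), Submodule.IsPrincipal P := by
  have : Fact (Nat.Prime 13) := ⟨by norm_num⟩
  have : Fact (Nat.Prime 53) := ⟨by norm_num⟩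
  obtain ⟨ζ, hζ⟩ : ∃ ζ : 𝓞 K, ζ = (IsCyclotomicExtension.zeta_spec 13 ℚ K).toInteger := ⟨_, rfl⟩
  have hprim : IsPrimitiveRoot ζ 13 :=
    hζ ▸ (IsCyclotomicExtension.zeta_spec 13 ℚ K).toInteger_isPrimitiveRoot
  have hΦ := hprim.geom_sum_eq_zero (by norm_num)
  simp only [Finset.sum_range_succ, Finset.sum_range_zero, zero_add, pow_zero, pow_one] at hΦ
  obtain ⟨h1, h2, h3⟩ := pid13_identities_53 (𝓞 K) ζ hΦ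
  refine pidc_exists_principal_prime_linear 13 53 K ζ hζ 36 pid13_root_53 (1 + ζ + ζ ^ 3)
    (1 - 24 * ζ - 35 * ζ ^ 2 - 25 * ζ ^ 3 - 10 * ζ ^ 4 - 14 * ζ ^ 5 - 20 * ζ ^ 6 - 29 * ζ ^ 7 - 16 * ζ ^ 8 - 23 * ζ ^ 9 - 7 * ζ ^ 10 - 36 * ζ ^ 11)
    (17 * ζ + 24 * ζ ^ 2 + 17 * ζ ^ 3 + 7 * ζ ^ 4 + 10 * ζ ^ 5 + 14 * ζ ^ 6 + 20 * ζ ^ 7 + 11 * ζ ^ 8 + 16 * ζ ^ 9 + 5 * ζ ^ 10 + 25 * ζ ^ 11)
    (1297 + 36 * ζ + ζ ^ 2) (881) ?_ ?_ ?_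
  · rw [h1]; norm_num
  · rw [h2]; norm_num
  · rw [h3]; norm_num

theorem pid13_root_79 : (∑ i ∈ Finset.range 13, ((64 : ℤ) : ZMod 79) ^ i) = 0 := by
  decide

theorem pid13_identities_79 (R : Type) [CommRing R] (ζ : R)
    (hΦ : 1 + ζ + ζ ^ 2 + ζ ^ 3 + ζ ^ 4 + ζ ^ 5 + ζ ^ 6 + ζ ^ 7 + ζ ^ 8 + ζ ^ 9 + ζ ^ 10 + ζ ^ 11 + ζ ^ 12 = 0) :
    (1 + ζ - ζ ^ 4) * (24 - 25 * ζ - 27 * ζ ^ 2 + 10 * ζ ^ 3 - 3 * ζ ^ 4 - 39 * ζ ^ 5 - 5 * ζ ^ 6 - 2 * ζ ^ 7 - 18 * ζ ^ 8 - 38 * ζ ^ 9 + 16 * ζ ^ 10 - 35 * ζ ^ 11) = 79 ∧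
    (1 + ζ - ζ ^ 4) * (-19 + 21 * ζ + 22 * ζ ^ 2 - 8 * ζ ^ 3 + 3 * ζ ^ 4 + 32 * ζ ^ 5 + 4 * ζ ^ 6 + 2 * ζ ^ 7 + 15 * ζ ^ 8 + 31 * ζ ^ 9 - 13 * ζ ^ 10 + 29 * ζ ^ 11) = ζ - 64 ∧
    1 + ζ - ζ ^ 4 = 79 * (-212369) + (ζ - 64) * (-262143 - 4096 * ζ - 64 * ζ ^ 2 - ζ ^ 3) := by
  refine ⟨?_, ?_, ?_⟩
  · linear_combination (-55 + 54 * ζ - 51 * ζ ^ 2 + 35 * ζ ^ 3) * hΦ
  · linear_combination (45 - 44 * ζ + 42 * ζ ^ 2 - 29 * ζ ^ 3) * hΦ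
  · ring

theorem pid13_exists_principal_79 (K : Type) [Field K] [NumberField K]
    [IsCyclotomicExtension {13} ℚ K] :
    ∃ P ∈ primesOver (span {((79 : ℕ) : ℤ)}) (𝓞 K), Submodule.IsPrincipal P := by
  have : Fact (Nat.Prime 13) := ⟨by norm_num⟩
  have : Fact (Nat.Prime 79) := ⟨by norm_num⟩
  obtain ⟨ζ, hζ⟩ : ∃ ζ : 𝓞 K, ζ = (IsCyclotomicExtension.zeta_spec 13 ℚ K).toInteger := ⟨_, rfl⟩
  have hprim : IsPrimitiveRoot ζ 13 :=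
    hζ ▸ (IsCyclotomicExtension.zeta_spec 13 ℚ K).toInteger_isPrimitiveRoot
  have hΦ := hprim.geom_sum_eq_zero (by norm_num)
  simp only [Finset.sum_range_succ, Finset.sum_range_zero, zero_add, pow_zero, pow_one] at hΦ
  obtain ⟨h1, h2, h3⟩ := pid13_identities_79 (𝓞 K) ζ hΦ
  refine pidc_exists_principal_prime_linear 13 79 K ζ hζ 64 pid13_root_79 (1 + ζ - ζ ^ 4)
    (24 - 25 * ζ - 27 * ζ ^ 2 + 10 * ζ ^ 3 - 3 * ζ ^ 4 - 39 * ζ ^ 5 - 5 * ζ ^ 6 - 2 * ζ ^ 7 - 18 * ζ ^ 8 - 38 * ζ ^ 9 + 16 * ζ ^ 10 - 35 * ζ ^ 11)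
    (-19 + 21 * ζ + 22 * ζ ^ 2 - 8 * ζ ^ 3 + 3 * ζ ^ 4 + 32 * ζ ^ 5 + 4 * ζ ^ 6 + 2 * ζ ^ 7 + 15 * ζ ^ 8 + 31 * ζ ^ 9 - 13 * ζ ^ 10 + 29 * ζ ^ 11)
    (-262143 - 4096 * ζ - 64 * ζ ^ 2 - ζ ^ 3) (-212369) ?_ ?_ ?_
  · rw [h1]; norm_num
  · rw [h2]; norm_num
  · rw [h3]; norm_num

theorem pid13_root_131 : (∑ i ∈ Finset.range 13, ((80 : ℤ) : ZMod 131) ^ i) = 0 := by
  decide

theorem pid13_identities_131 (R : Type) [CommRing R] (ζ : R)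
    (hΦ : 1 + ζ + ζ ^ 2 + ζ ^ 3 + ζ ^ 4 + ζ ^ 5 + ζ ^ 6 + ζ ^ 7 + ζ ^ 8 + ζ ^ 9 + ζ ^ 10 + ζ ^ 11 + ζ ^ 12 = 0) :
    (1 - ζ - ζ ^ 3) * (111 + 78 * ζ + 17 * ζ ^ 2 + 67 * ζ ^ 3 + 84 * ζ ^ 4 + 40 * ζ ^ 5 + 46 * ζ ^ 6 + 69 * ζ ^ 7 + 48 * ζ ^ 8 + 33 * ζ ^ 9 + 41 * ζ ^ 10 + 28 * ζ ^ 11) = 131 ∧
    (1 - ζ - ζ ^ 3) * (-68 - 47 * ζ - 10 * ζ ^ 2 - 41 * ζ ^ 3 - 51 * ζ ^ 4 - 24 * ζ ^ 5 - 28 * ζ ^ 6 - 42 * ζ ^ 7 - 29 * ζ ^ 8 - 20 * ζ ^ 9 - 25 * ζ ^ 10 - 17 * ζ ^ 11) = ζ - 80 ∧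
    1 - ζ - ζ ^ 3 = 131 * (-3909) + (ζ - 80) * (-6401 - 80 * ζ - ζ ^ 2) := by
  refine ⟨?_, ?_, ?_⟩
  · linear_combination (-20 - 13 * ζ - 28 * ζ ^ 2) * hΦ
  · linear_combination (12 + 8 * ζ + 17 * ζ ^ 2) * hΦ
  · ring

theorem pid13_exists_principal_131 (K : Type) [Field K] [NumberField K]
    [IsCyclotomicExtension {13} ℚ K] :
    ∃ P ∈ primesOver (span {((131 : ℕ) : ℤ)}) (𝓞 K), Submodule.IsPrincipal P := by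
  have : Fact (Nat.Prime 13) := ⟨by norm_num⟩
  have : Fact (Nat.Prime 131) := ⟨by norm_num⟩
  obtain ⟨ζ, hζ⟩ : ∃ ζ : 𝓞 K, ζ = (IsCyclotomicExtension.zeta_spec 13 ℚ K).toInteger := ⟨_, rfl⟩
  have hprim : IsPrimitiveRoot ζ 13 :=
    hζ ▸ (IsCyclotomicExtension.zeta_spec 13 ℚ K).toInteger_isPrimitiveRoot
  have hΦ := hprim.geom_sum_eq_zero (by norm_num)
  simp only [Finset.sum_range_succ, Finset.sum_range_zero, zero_add, pow_zero, pow_one] at hΦ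
  obtain ⟨h1, h2, h3⟩ := pid13_identities_131 (𝓞 K) ζ hΦ
  refine pidc_exists_principal_prime_linear 13 131 K ζ hζ 80 pid13_root_131 (1 - ζ - ζ ^ 3)
    (111 + 78 * ζ + 17 * ζ ^ 2 + 67 * ζ ^ 3 + 84 * ζ ^ 4 + 40 * ζ ^ 5 + 46 * ζ ^ 6 + 69 * ζ ^ 7 + 48 * ζ ^ 8 + 33 * ζ ^ 9 + 41 * ζ ^ 10 + 28 * ζ ^ 11)
    (-68 - 47 * ζ - 10 * ζ ^ 2 - 41 * ζ ^ 3 - 51 * ζ ^ 4 - 24 * ζ ^ 5 - 28 * ζ ^ 6 - 42 * ζ ^ 7 - 29 * ζ ^ 8 - 20 * ζ ^ 9 - 25 * ζ ^ 10 - 17 * ζ ^ 11)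
    (-6401 - 80 * ζ - ζ ^ 2) (-3909) ?_ ?_ ?_
  · rw [h1]; norm_num
  · rw [h2]; norm_num
  · rw [h3]; norm_num

theorem pid13_root_157 : (∑ i ∈ Finset.range 13, ((75 : ℤ) : ZMod 157) ^ i) = 0 := by
  decide

theorem pid13_identities_157 (R : Type) [CommRing R] (ζ : R)
    (hΦ : 1 + ζ + ζ ^ 2 + ζ ^ 3 + ζ ^ 4 + ζ ^ 5 + ζ ^ 6 + ζ ^ 7 + ζ ^ 8 + ζ ^ 9 + ζ ^ 10 + ζ ^ 11 + ζ ^ 12 = 0) :
    (1 - ζ + ζ ^ 2 + ζ ^ 4) * (89 + 86 * ζ + 42 * ζ ^ 2 + 77 * ζ ^ 3 + 67 * ζ ^ 4 + 25 * ζ ^ 5 + 37 * ζ ^ 6 + 56 * ζ ^ 7 + 73 * ζ ^ 8 + 113 * ζ ^ 9 + 124 * ζ ^ 10 + 76 * ζ ^ 11) = 157 ∧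
    (1 - ζ + ζ ^ 2 + ζ ^ 4) * (-43 - 41 * ζ - 20 * ζ ^ 2 - 37 * ζ ^ 3 - 32 * ζ ^ 4 - 12 * ζ ^ 5 - 18 * ζ ^ 6 - 27 * ζ ^ 7 - 35 * ζ ^ 8 - 54 * ζ ^ 9 - 59 * ζ ^ 10 - 36 * ζ ^ 11) = ζ - 75 ∧
    1 - ζ + ζ ^ 2 + ζ ^ 4 = 157 * (201568) + (ζ - 75) * (421949 + 5626 * ζ + 75 * ζ ^ 2 + ζ ^ 3) := by
  refine ⟨?_, ?_, ?_⟩
  · linear_combination (-68 + 65 * ζ + 48 * ζ ^ 2 + 76 * ζ ^ 3) * hΦ
  · linear_combination (32 - 31 * ζ - 23 * ζ ^ 2 - 36 * ζ ^ 3) * hΦ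
  · ring

theorem pid13_exists_principal_157 (K : Type) [Field K] [NumberField K]
    [IsCyclotomicExtension {13} ℚ K] :
    ∃ P ∈ primesOver (span {((157 : ℕ) : ℤ)}) (𝓞 K), Submodule.IsPrincipal P := by
  have : Fact (Nat.Prime 13) := ⟨by norm_num⟩
  have : Fact (Nat.Prime 157) := ⟨by norm_num⟩
  obtain ⟨ζ, hζ⟩ : ∃ ζ : 𝓞 K, ζ = (IsCyclotomicExtension.zeta_spec 13 ℚ K).toInteger := ⟨_, rfl⟩
  have hprim : IsPrimitiveRoot ζ 13 :=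
    hζ ▸ (IsCyclotomicExtension.zeta_spec 13 ℚ K).toInteger_isPrimitiveRoot
  have hΦ := hprim.geom_sum_eq_zero (by norm_num)
  simp only [Finset.sum_range_succ, Finset.sum_range_zero, zero_add, pow_zero, pow_one] at hΦ
  obtain ⟨h1, h2, h3⟩ := pid13_identities_157 (𝓞 K) ζ hΦ
  refine pidc_exists_principal_prime_linear 13 157 K ζ hζ 75 pid13_root_157 (1 - ζ + ζ ^ 2 + ζ ^ 4)
    (89 + 86 * ζ + 42 * ζ ^ 2 + 77 * ζ ^ 3 + 67 * ζ ^ 4 + 25 * ζ ^ 5 + 37 * ζ ^ 6 + 56 * ζ ^ 7 + 73 * ζ ^ 8 + 113 * ζ ^ 9 + 124 * ζ ^ 10 + 76 * ζ ^ 11)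
    (-43 - 41 * ζ - 20 * ζ ^ 2 - 37 * ζ ^ 3 - 32 * ζ ^ 4 - 12 * ζ ^ 5 - 18 * ζ ^ 6 - 27 * ζ ^ 7 - 35 * ζ ^ 8 - 54 * ζ ^ 9 - 59 * ζ ^ 10 - 36 * ζ ^ 11)
    (421949 + 5626 * ζ + 75 * ζ ^ 2 + ζ ^ 3) (201568) ?_ ?_ ?_
  · rw [h1]; norm_num
  · rw [h2]; norm_num
  · rw [h3]; norm_num

theorem pid13_identities_3 (R : Type) [CommRing R] (ζ : R)
    (hΦ : 1 + ζ + ζ ^ 2 + ζ ^ 3 + ζ ^ 4 + ζ ^ 5 + ζ ^ 6 + ζ ^ 7 + ζ ^ 8 + ζ ^ 9 + ζ ^ 10 + ζ ^ 11 + ζ ^ 12 = 0) :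
    (1 + ζ - ζ ^ 3) * (-1 - ζ ^ 2 - ζ ^ 3 - 2 * ζ ^ 5 - ζ ^ 7 - 2 * ζ ^ 8 + ζ ^ 9 - 3 * ζ ^ 10) = 3 := by
  linear_combination (-4 + 3 * ζ) * hΦ

theorem pid13_cubic_not_isRoot : ∀ x : ZMod 3, x ^ 3 - (x + 1) ≠ 0 := by
  decide

theorem pid13_cubic_dvd :
    (X ^ 3 - (X + 1) : ℤ[X]).map (Int.castRingHom (ZMod 3)) ∣ cyclotomic 13 (ZMod 3) := by
  have : Fact (Nat.Prime 13) := ⟨by norm_num⟩
  have hcyc : cyclotomic 13 ℤ = (X ^ 3 - (X + 1)) *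
      (20 + 15 * X + 11 * X ^ 2 + 8 * X ^ 3 + 6 * X ^ 4 + 4 * X ^ 5 + 3 * X ^ 6 + 2 * X ^ 7
        + X ^ 8 + X ^ 9) + C 3 * (7 + 12 * X + 9 * X ^ 2) := by
    rw [cyclotomic_prime]
    simp only [Finset.sum_range_succ, Finset.sum_range_zero, zero_add, pow_zero, pow_one]
    simp only [map_ofNat]
    ring
  rw [← map_cyclotomic_int 13 (ZMod 3), hcyc, Polynomial.map_add, Polynomial.map_mul,
    Polynomial.map_mul, Polynomial.map_C]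
  have h3 : (Int.castRingHom (ZMod 3)) 3 = 0 := by decide
  rw [h3, C_0, zero_mul, add_zero]
  exact dvd_mul_right _ _

theorem pid13_exists_principal_3 (K : Type) [Field K] [NumberField K]
    [IsCyclotomicExtension {13} ℚ K] :
    ∃ P ∈ primesOver (span {((3 : ℕ) : ℤ)}) (𝓞 K), Submodule.IsPrincipal P := by
  have : Fact (Nat.Prime 13) := ⟨by norm_num⟩
  have : Fact (Nat.Prime 3) := ⟨by norm_num⟩
  obtain ⟨ζ, hζ⟩ : ∃ ζ : 𝓞 K, ζ = (IsCyclotomicExtension.zeta_spec 13 ℚ K).toInteger := ⟨_, rfl⟩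
  have hprim : IsPrimitiveRoot ζ 13 :=
    hζ ▸ (IsCyclotomicExtension.zeta_spec 13 ℚ K).toInteger_isPrimitiveRoot
  have hΦ := hprim.geom_sum_eq_zero (by norm_num)
  simp only [Finset.sum_range_succ, Finset.sum_range_zero, zero_add, pow_zero, pow_one] at hΦ
  have h1 := pid13_identities_3 (𝓞 K) ζ hΦ
  have hmap : (X ^ 3 - (X + 1) : ℤ[X]).map (Int.castRingHom (ZMod 3)) = X ^ 3 - (X + 1) := by
    simp
  have hmonic : ((X ^ 3 - (X + 1) : ℤ[X]).map (Int.castRingHom (ZMod 3))).Monic := by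
    rw [hmap]
    have h1C : (X + 1 : (ZMod 3)[X]) = X + C 1 := by simp
    exact monic_X_pow_sub (by
      rw [h1C, degree_X_add_C]
      norm_num)
  have hdeg : ((X ^ 3 - (X + 1) : ℤ[X]).map (Int.castRingHom (ZMod 3))).natDegree = 3 := by
    rw [hmap]
    compute_degree!
  have hirr : Irreducible ((X ^ 3 - (X + 1) : ℤ[X]).map (Int.castRingHom (ZMod 3))) := by
    apply irreducible_of_degree_le_three_of_not_isRoot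
    · rw [hdeg]; decide
    · intro x
      rw [hmap, IsRoot.def]
      have hx := pid13_cubic_not_isRoot x
      simp only [eval_sub, eval_pow, eval_X, eval_add, eval_one]
      exact hx
  refine pidc_exists_principal_prime_factor 13 3 K ζ hζ (X ^ 3 - (X + 1)) hmonic hirr
    pid13_cubic_dvd (1 + ζ - ζ ^ 3)
    (-1 - ζ ^ 2 - ζ ^ 3 - 2 * ζ ^ 5 - ζ ^ 7 - 2 * ζ ^ 8 + ζ ^ 9 - 3 * ζ ^ 10)
    (-1) (-1) 0 ?_ ?_ ?_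
  · rw [h1]; norm_num
  · simp; ring
  · simp; ring

def pid13_L (q : ℕ) : ℕ :=
  if q = 2 then 8 else if q = 4 then 4 else if q ≤ 6 then 3 else if q ≤ 17 then 2 else 1

set_option maxRecDepth 100000 in
theorem pid13_key : ∀ q ∈ Finset.Icc 2 307, q % 13 ≠ 1 → q ≠ 13 → q ≠ 3 → q ≠ 12 →
    307 < q ^ (pid13_L q + 1) ∧
      ∀ k ∈ Finset.Icc 1 (pid13_L q), ((q : ℕ) : ZMod 13) ^ k ≠ 1 := by
  decide

set_option maxRecDepth 100000 in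
theorem pid13_key' : ∀ q ∈ Finset.Icc 2 307, q % 13 = 1 →
    (q = 53 ∨ q = 79 ∨ q = 131 ∨ q = 157) ∨
      q % 2 = 0 ∨ q % 3 = 0 ∨ q % 5 = 0 ∨ q % 7 = 0 ∨ q % 11 = 0 := by
  decide

theorem pid13_not_prime_of_mod (q d : ℕ) (hq : q.Prime) (hd : d.Prime) (h : q % d = 0)
    (h1 : d % 13 ≠ 1) : q % 13 ≠ 1 := by
  have hdq : d ∣ q := Nat.dvd_of_mod_eq_zero h
  have := (Nat.prime_dvd_prime_iff_eq hd hq).mp hdq
  subst this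
  exact h1

/-- The ring of integers of the 13-th cyclotomic field is a PID. -/
theorem pid_thirteen (K : Type) [Field K] [NumberField K] [IsCyclotomicExtension {13} ℚ K] :
    IsPrincipalIdealRing (𝓞 K) := by
  have : Fact (Nat.Prime 13) := ⟨by norm_num⟩
  refine pidc_pid_of_checks 13 K 307 1338717 (by norm_num) (by norm_num [Nat.factorial])
    pid13_L {3, 53, 79, 131, 157} ?_ ?_
  · intro q hq _
    simp only [Finset.mem_insert, Finset.mem_singleton] at hq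
    rcases hq with rfl | rfl | rfl | rfl | rfl
    · exact pid13_exists_principal_3 K
    · exact pid13_exists_principal_53 K
    · exact pid13_exists_principal_79 K
    · exact pid13_exists_principal_131 K
    · exact pid13_exists_principal_157 K
  · intro q hq hqprime hq13 hqsp
    simp only [Finset.mem_insert, Finset.mem_singleton, not_or] at hqsp
    obtain ⟨hq3, hq53, hq79, hq131, hq157⟩ := hqsp
    refine pid13_key q hq ?_ hq13 hq3 ?_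
    · intro h1
      rcases pid13_key' q hq h1 with (h | h | h | h) | h | h | h | h | h
      · exact hq53 h
      · exact hq79 h
      · exact hq131 h
      · exact hq157 h
      · exact pid13_not_prime_of_mod q 2 hqprime (by norm_num) h (by norm_num) h1
      · exact pid13_not_prime_of_mod q 3 hqprime (by norm_num) h (by norm_num) h1
      · exact pid13_not_prime_of_mod q 5 hqprime (by norm_num) h (by norm_num) h1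
      · exact pid13_not_prime_of_mod q 7 hqprime (by norm_num) h (by norm_num) h1
      · exact pid13_not_prime_of_mod q 11 hqprime (by norm_num) h (by norm_num) h1
    · rintro rfl
      exact absurd hqprime (by norm_num)

end Fermat.Agent.FLTP
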