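import Mathlib
import Fermat.Agent.FLTP.PIDCommon

set_option autoImplicit false

namespace Fermat.Agent.FLTP

open NumberField Polynomial Ideal Module InfinitePlace Nat Real

theorem pid7_key : ∀ q ∈ Finset.Icc 2 4, q % 7 ≠ 1 →
    4 < q ^ ((if q = 2 then 2 else 1) + 1) ∧
      ∀ k ∈ Finset.Icc 1 (if q = 2 then 2 else 1), ((q : ℕ) : ZMod 7) ^ k ≠ 1 := by
  decide

/-- The ring of integers of the 7-th cyclotomic field is a PID. -/
theorem pid_seven (K : Type) [Field K] [NumberField K] [IsCyclotomicExtension {7} ℚ K] :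
    IsPrincipalIdealRing (𝓞 K) := by
  have : Fact (Nat.Prime 7) := ⟨by norm_num⟩
  refine pidc_pid_of_checks 7 K 4 130 (by norm_num) (by norm_num [Nat.factorial])
    (fun q => if q = 2 then 2 else 1) ∅ (fun q hq => absurd hq (Finset.notMem_empty q)) ?_
  intro q hq hqprime hq7 _
  refine pid7_key q hq ?_
  have hq4 : q ≤ 4 := (Finset.mem_Icc.mp hq).2
  have hq2 : 2 ≤ q := hqprime.two_le
  omega

end Fermat.Agent.FLTP
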