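import Mathlib

set_option autoImplicit false

namespace Fermat.Agent.FLTP

open Finset

/-- The cofactor of `x + y` in `x ^ p + y ^ p` (for odd `p`). -/
def sgCofactor (p : ℕ) (x y : ℤ) : ℤ := ∑ i ∈ range p, x ^ i * (-y) ^ (p - 1 - i)

lemma sgCofactor_mul (p : ℕ) (hp : Odd p) (x y : ℤ) :
    sgCofactor p x y * (x + y) = x ^ p + y ^ p := by
  have h := geom_sum₂_mul x (-y) p
  rw [sub_neg_eq_add, hp.neg_pow, sub_neg_eq_add] at h
  exact h

lemma sgCofactor_sub_dvd (p : ℕ) (x y : ℤ) :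
    (x + y) ∣ sgCofactor p x y - p * x ^ (p - 1) := by
  have hsum : ∑ i ∈ range p, x ^ i * x ^ (p - 1 - i) = p * x ^ (p - 1) := by
    rw [Finset.sum_congr rfl (fun i hi => by
      rw [← pow_add, Nat.add_sub_cancel' (by have := Finset.mem_range.mp hi; omega)])]
    simp
  have : sgCofactor p x y - p * x ^ (p - 1) =
      ∑ i ∈ range p, x ^ i * ((-y) ^ (p - 1 - i) - x ^ (p - 1 - i)) := by
    unfold sgCofactor
    simp_rw [mul_sub]
    rw [Finset.sum_sub_distrib, hsum]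
  rw [this]
  apply Finset.dvd_sum
  intro i _
  apply dvd_mul_of_dvd_right
  have h1 : (-y - x) ∣ (-y) ^ (p - 1 - i) - x ^ (p - 1 - i) := sub_dvd_pow_sub_pow _ _ _
  have h2 : (x + y) ∣ (-y - x) := ⟨-1, by ring⟩
  exact h2.trans h1

lemma sg_isCoprime (p : ℕ) (hp : p.Prime) (x y : ℤ) (hxy : IsCoprime x y)
    (hpxy : ¬ (p : ℤ) ∣ x + y) : IsCoprime (x + y) (sgCofactor p x y) := by
  obtain ⟨k, hk⟩ := sgCofactor_sub_dvd p x y
  have hT : sgCofactor p x y = p * x ^ (p - 1) + (x + y) * k := by linarith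
  rw [hT]
  apply IsCoprime.add_mul_left_right
  apply IsCoprime.mul_right
  · have hpp : Prime (p : ℤ) := Nat.prime_iff_prime_int.mp hp
    exact (hpp.coprime_iff_not_dvd.mpr hpxy).symm
  · apply IsCoprime.pow_right
    have h1 : IsCoprime (y + x * 1) x := hxy.symm.add_mul_left_left 1
    have h2 : y + x * 1 = x + y := by ring
    rwa [h2] at h1

lemma sg_pow_left (p : ℕ) (hp : p.Prime) (hodd : p ≠ 2) (x y z : ℤ) (hxy : IsCoprime x y)
    (hsum : x ^ p + y ^ p + z ^ p = 0) (hpz : ¬ (p : ℤ) ∣ z) :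
    (∃ A : ℤ, x + y = A ^ p) ∧ ∃ T : ℤ, sgCofactor p x y = T ^ p := by
  have hoddp : Odd p := hp.odd_of_ne_two hodd
  have hprod : (x + y) * sgCofactor p x y = (-z) ^ p := by
    rw [mul_comm, sgCofactor_mul p hoddp, hoddp.neg_pow]; linarith
  have hpxy : ¬ (p : ℤ) ∣ x + y := by
    intro hdvd
    apply hpz
    have h3 : (p : ℤ) ∣ (-z) ^ p := hprod ▸ dvd_mul_of_dvd_left hdvd _
    have hpp : Prime (p : ℤ) := Nat.prime_iff_prime_int.mp hp
    exact dvd_neg.mp (hpp.dvd_of_dvd_pow h3)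
  have hcop := sg_isCoprime p hp x y hxy hpxy
  exact ⟨Int.eq_pow_of_mul_eq_pow_odd_left hcop hoddp hprod,
    Int.eq_pow_of_mul_eq_pow_odd_right hcop hoddp hprod⟩

lemma sg_key (p q : ℕ) (hp : p.Prime) (hodd : p ≠ 2) (hq : q.Prime)
    (h1 : ∀ x y z : ZMod q, x ^ p + y ^ p + z ^ p = 0 → x = 0 ∨ y = 0 ∨ z = 0)
    (h2 : ∀ n : ZMod q, n ^ p ≠ (p : ZMod q))
    (x y z : ℤ) (hxy : IsCoprime x y) (hxz : IsCoprime x z) (hyz : IsCoprime y z)
    (hsum : x ^ p + y ^ p + z ^ p = 0)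
    (hpx : ¬ (p : ℤ) ∣ x) (hpy : ¬ (p : ℤ) ∣ y) (hpz : ¬ (p : ℤ) ∣ z)
    (hqx : (q : ℤ) ∣ x) : False := by
  have : Fact q.Prime := ⟨hq⟩
  have hoddp : Odd p := hp.odd_of_ne_two hodd
  have hqq : Prime (q : ℤ) := Nat.prime_iff_prime_int.mp hq
  obtain ⟨⟨A, hA⟩, -⟩ := sg_pow_left p hp hodd x y z hxy hsum hpz
  obtain ⟨⟨C, hC⟩, -⟩ := sg_pow_left p hp hodd z x y hxz.symm (by linarith) hpy
  obtain ⟨⟨B, hB⟩, ⟨R, hR⟩⟩ := sg_pow_left p hp hodd y z x hyz (by linarith) hpx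
  have hx0 : (x : ZMod q) = 0 := (ZMod.intCast_zmod_eq_zero_iff_dvd x q).mpr hqx
  have hqy : (y : ZMod q) ≠ 0 := by
    intro h
    have hqy' : (q : ℤ) ∣ y := (ZMod.intCast_zmod_eq_zero_iff_dvd y q).mp h
    exact hqq.not_isUnit (hxy.isUnit_of_dvd' hqx hqy')
  have hqz : (z : ZMod q) ≠ 0 := by
    intro h
    have hqz' : (q : ℤ) ∣ z := (ZMod.intCast_zmod_eq_zero_iff_dvd z q).mp h
    exact hqq.not_isUnit (hxz.isUnit_of_dvd' hqx hqz')
  have hAc : (x : ZMod q) + (y : ZMod q) = (A : ZMod q) ^ p := by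
    have := congrArg (Int.cast : ℤ → ZMod q) hA
    push_cast at this
    exact this
  have hCc : (z : ZMod q) + (x : ZMod q) = (C : ZMod q) ^ p := by
    have := congrArg (Int.cast : ℤ → ZMod q) hC
    push_cast at this
    exact this
  have hBc : (y : ZMod q) + (z : ZMod q) = (B : ZMod q) ^ p := by
    have := congrArg (Int.cast : ℤ → ZMod q) hB
    push_cast at this
    exact this
  rw [hx0, zero_add] at hAc
  rw [hx0, add_zero] at hCc
  have hACB : (A : ZMod q) ^ p + (C : ZMod q) ^ p + (-(B : ZMod q)) ^ p = 0 := by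
    rw [hoddp.neg_pow, ← hAc, ← hCc, ← hBc]; ring
  rcases h1 _ _ _ hACB with hA0 | hC0 | hB0
  · apply hqy
    rw [hAc, hA0, zero_pow hp.ne_zero]
  · apply hqz
    rw [hCc, hC0, zero_pow hp.ne_zero]
  · have hB0' : (B : ZMod q) = 0 := neg_eq_zero.mp hB0
    have hzy : (z : ZMod q) = -(y : ZMod q) := by
      rw [hB0', zero_pow hp.ne_zero] at hBc
      linear_combination hBc
    have hR' : (R : ZMod q) ^ p = (p : ZMod q) * (y : ZMod q) ^ (p - 1) := by
      have h3 := congrArg (Int.cast : ℤ → ZMod q) hR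
      unfold sgCofactor at h3
      push_cast at h3
      rw [← h3, hzy, neg_neg]
      rw [Finset.sum_congr rfl (fun i hi => by
        rw [← pow_add, Nat.add_sub_cancel' (by have := Finset.mem_range.mp hi; omega)])]
      simp
    have hA_ne : (A : ZMod q) ≠ 0 := by
      intro h0; apply hqy; rw [hAc, h0, zero_pow hp.ne_zero]
    apply h2 ((R : ZMod q) * ((A : ZMod q) ^ (p - 1))⁻¹)
    rw [mul_pow, hR', hAc, inv_pow]
    have h4 : ((A : ZMod q) ^ p) ^ (p - 1) = ((A : ZMod q) ^ (p - 1)) ^ p := by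
      rw [← pow_mul, ← pow_mul, mul_comm]
    rw [h4, mul_assoc, mul_inv_cancel₀ (pow_ne_zero _ (pow_ne_zero _ hA_ne)), mul_one]

/-- Sophie Germain's theorem: first case of Fermat's Last Theorem for the odd prime `p`
from an auxiliary prime `q`. -/
theorem sophie_germain (p q : ℕ) (hp : p.Prime) (hodd : p ≠ 2) (hq : q.Prime)
    (h1 : ∀ x y z : ZMod q, x ^ p + y ^ p + z ^ p = 0 → x = 0 ∨ y = 0 ∨ z = 0)
    (h2 : ∀ n : ZMod q, n ^ p ≠ (p : ZMod q))
    (a b c : ℤ) (hab : IsCoprime a b) (h : a ^ p + b ^ p = c ^ p) : (p : ℤ) ∣ a * b * c := by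
  by_contra hndvd
  have hoddp : Odd p := hp.odd_of_ne_two hodd
  have hpa : ¬ (p : ℤ) ∣ a := fun h' => hndvd (dvd_mul_of_dvd_left (dvd_mul_of_dvd_left h' _) _)
  have hpb : ¬ (p : ℤ) ∣ b := fun h' => hndvd (dvd_mul_of_dvd_left (dvd_mul_of_dvd_right h' _) _)
  have hpc : ¬ (p : ℤ) ∣ -c := fun h' => hndvd (dvd_mul_of_dvd_right (dvd_neg.mp h') _)
  have hsum : a ^ p + b ^ p + (-c) ^ p = 0 := by rw [hoddp.neg_pow]; linarith
  have hac : IsCoprime a (-c) := by
    have h3 : IsCoprime a (b ^ p) := hab.pow_right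
    have h4 : IsCoprime a (b ^ p + a * a ^ (p - 1)) := h3.add_mul_left_right _
    have h5 : b ^ p + a * a ^ (p - 1) = c ^ p := by
      rw [← pow_succ', Nat.sub_add_cancel hp.one_le]; linarith
    rw [h5] at h4
    exact ((IsCoprime.pow_right_iff hp.pos).mp h4).neg_right
  have hbc : IsCoprime b (-c) := by
    have h3 : IsCoprime b (a ^ p) := hab.symm.pow_right
    have h4 : IsCoprime b (a ^ p + b * b ^ (p - 1)) := h3.add_mul_left_right _
    have h5 : a ^ p + b * b ^ (p - 1) = c ^ p := by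
      rw [← pow_succ', Nat.sub_add_cancel hp.one_le]; linarith
    rw [h5] at h4
    exact ((IsCoprime.pow_right_iff hp.pos).mp h4).neg_right
  have hmod : (a : ZMod q) ^ p + (b : ZMod q) ^ p + ((-c : ℤ) : ZMod q) ^ p = 0 := by
    have h3 := congrArg (Int.cast : ℤ → ZMod q) hsum
    push_cast at h3 ⊢
    exact h3
  rcases h1 _ _ _ hmod with h0 | h0 | h0
  · exact sg_key p q hp hodd hq h1 h2 a b (-c) hab hac hbc hsum hpa hpb hpc
      ((ZMod.intCast_zmod_eq_zero_iff_dvd a q).mp h0)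
  · exact sg_key p q hp hodd hq h1 h2 b a (-c) hab.symm hbc hac (by linarith) hpb hpa hpc
      ((ZMod.intCast_zmod_eq_zero_iff_dvd b q).mp h0)
  · exact sg_key p q hp hodd hq h1 h2 (-c) a b hac.symm hbc.symm hab (by linarith) hpc hpa hpb
      ((ZMod.intCast_zmod_eq_zero_iff_dvd (-c) q).mp h0)

/-- Reduction of the first Sophie Germain hypothesis to a finite set of `p`-th powers. -/
lemma sg_h1_of_finset (p q : ℕ) (S : Finset (ZMod q))
    (hS : ∀ x : ZMod q, x ≠ 0 → x ^ p ∈ S)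
    (hsum : ∀ u ∈ S, ∀ v ∈ S, ∀ w ∈ S, u + v + w ≠ 0) :
    ∀ x y z : ZMod q, x ^ p + y ^ p + z ^ p = 0 → x = 0 ∨ y = 0 ∨ z = 0 := by
  intro x y z h
  by_contra hne
  push Not at hne
  exact hsum _ (hS x hne.1) _ (hS y hne.2.1) _ (hS z hne.2.2) h

theorem caseI_five (a b c : ℤ) (hab : IsCoprime a b) (h : a ^ 5 + b ^ 5 = c ^ 5) :
    (5 : ℤ) ∣ a * b * c := by
  have := sophie_germain 5 11 (by norm_num) (by norm_num) (by norm_num)
    (sg_h1_of_finset 5 11 {1, 10} (by decide) (by decide)) (by decide) a b c hab h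
  exact_mod_cast this

theorem caseI_seven (a b c : ℤ) (hab : IsCoprime a b) (h : a ^ 7 + b ^ 7 = c ^ 7) :
    (7 : ℤ) ∣ a * b * c := by
  have := sophie_germain 7 29 (by norm_num) (by norm_num) (by norm_num)
    (sg_h1_of_finset 7 29 {1, 28, 12, 17} (by decide +kernel) (by decide +kernel))
    (by decide +kernel) a b c hab h
  exact_mod_cast this

theorem caseI_eleven (a b c : ℤ) (hab : IsCoprime a b) (h : a ^ 11 + b ^ 11 = c ^ 11) :
    (11 : ℤ) ∣ a * b * c := by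
  have := sophie_germain 11 23 (by norm_num) (by norm_num) (by norm_num)
    (sg_h1_of_finset 11 23 {1, 22} (by decide) (by decide)) (by decide) a b c hab h
  exact_mod_cast this

theorem caseI_thirteen (a b c : ℤ) (hab : IsCoprime a b) (h : a ^ 13 + b ^ 13 = c ^ 13) :
    (13 : ℤ) ∣ a * b * c := by
  have := sophie_germain 13 53 (by norm_num) (by norm_num) (by norm_num)
    (sg_h1_of_finset 13 53 {1, 52, 23, 30} (by decide +kernel) (by decide +kernel))
    (by decide +kernel) a b c hab h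
  exact_mod_cast this

end Fermat.Agent.FLTP
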