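import Mathlib
import Fermat.Prelude.Def_FLTPrelim_FreyPackage

set_option autoImplicit false

namespace Fermat.Agent.FLTP

/-- Symmetric core: a solution of `x ^ p + y ^ p + z ^ p = 0` with `p ∣ z` contradicts case II. -/
theorem h31_false_of_sum_eq_zero_of_dvd {p : ℕ} (hp : p.Prime) (hodd : p ≠ 2)
    (h2 : ∀ a b c : ℤ, c ≠ 0 → ¬ (p : ℤ) ∣ a → ¬ (p : ℤ) ∣ b → (p : ℤ) ∣ c → IsCoprime a b →
      a ^ p + b ^ p ≠ c ^ p)
    {x y z : ℤ} (hz : z ≠ 0) (hxy : IsCoprime x y) (hxz : IsCoprime x z) (hyz : IsCoprime y z)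
    (HF : x ^ p + y ^ p + z ^ p = 0) (hpz : (p : ℤ) ∣ z) : False := by
  have hpodd : Odd p := hp.odd_of_ne_two hodd
  have hpprime : Prime (p : ℤ) := Nat.prime_iff_prime_int.mp hp
  have hpx : ¬ (p : ℤ) ∣ x := fun h => hpprime.not_isUnit (IsCoprime.isUnit_of_dvd' hxz h hpz)
  have hpy : ¬ (p : ℤ) ∣ y := fun h => hpprime.not_isUnit (IsCoprime.isUnit_of_dvd' hyz h hpz)
  refine h2 x y (-z) (neg_ne_zero.mpr hz) hpx hpy ((dvd_neg).mpr hpz) hxy ?_
  rw [hpodd.neg_pow]
  linarith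

/-- Fermat's Last Theorem for an odd prime exponent `p` from case I and case II over `ℤ`. -/
theorem fermatLastTheoremFor_of_caseI_of_caseII {p : ℕ} (hp : p.Prime) (hodd : p ≠ 2)
    (h1 : ∀ a b c : ℤ, IsCoprime a b → a ^ p + b ^ p = c ^ p → (p : ℤ) ∣ a * b * c)
    (h2 : ∀ a b c : ℤ, c ≠ 0 → ¬ (p : ℤ) ∣ a → ¬ (p : ℤ) ∣ b → (p : ℤ) ∣ c → IsCoprime a b →
      a ^ p + b ^ p ≠ c ^ p) :
    FermatLastTheoremFor p := by
  have hpodd : Odd p := hp.odd_of_ne_two hodd
  have hpprime : Prime (p : ℤ) := Nat.prime_iff_prime_int.mp hp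
  rw [fermatLastTheoremFor_iff_int]
  refine fermatLastTheoremWith_of_fermatLastTheoremWith_coprime (fun a b c ha hb hc Hgcd hF => ?_)
  have HF : a ^ p + b ^ p + (-c) ^ p = 0 := by rw [hpodd.neg_pow]; linarith
  have Hgcd' : Finset.gcd {a, b, -c} id = 1 := by
    simp only [← Hgcd, Finset.gcd_insert, Finset.gcd_singleton, id_eq, ← Int.abs_eq_normalize,
      abs_neg]
  have hab : IsCoprime a b := isCoprime_of_gcd_eq_one_of_FLT Hgcd' HF
  have hac : IsCoprime a (-c) := by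
    refine isCoprime_of_gcd_eq_one_of_FLT (n := p) (c := b) ?_ (by linarith)
    rw [Finset.pair_comm (-c) b]
    exact Hgcd'
  have hbc : IsCoprime b (-c) := by
    refine isCoprime_of_gcd_eq_one_of_FLT (n := p) (c := a) ?_ (by linarith)
    rw [Finset.pair_comm (-c) a, Finset.insert_comm b a]
    exact Hgcd'
  have hdvd := h1 a b c hab hF
  rcases (hpprime.dvd_mul.mp hdvd) with hab' | hc'
  · rcases (hpprime.dvd_mul.mp hab') with ha' | hb'
    · exact h31_false_of_sum_eq_zero_of_dvd hp hodd h2 ha hbc hab.symm hac.symm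
        (by linarith) ha'
    · exact h31_false_of_sum_eq_zero_of_dvd hp hodd h2 hb hac hab hbc.symm
        (by linarith) hb'
  · exact h31_false_of_sum_eq_zero_of_dvd hp hodd h2 (neg_ne_zero.mpr hc) hab hac hbc HF
      ((dvd_neg).mpr hc')

/-- A Frey package with exponent `p` contradicts Fermat's Last Theorem for `p`. -/
theorem h31_freyPackage_false (P : FreyPackage) (h : FermatLastTheoremFor P.p) : False :=
  (fermatLastTheoremFor_iff_int.mp h) P.a P.b P.c P.ha0 P.hb0 P.hc0 P.hFLT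

/-- Variant: the exponent is given by an equation. -/
theorem h31_freyPackage_false_of_eq (P : FreyPackage) {p : ℕ} (hp : P.p = p)
    (h : FermatLastTheoremFor p) : False :=
  h31_freyPackage_false P (hp ▸ h)

/-- Variant avoiding the general reduction: a Frey package already has coprime `a`, `b`. -/
theorem h31_freyPackage_false_of_cases (P : FreyPackage)
    (h1 : ∀ a b c : ℤ, IsCoprime a b → a ^ P.p + b ^ P.p = c ^ P.p → (P.p : ℤ) ∣ a * b * c)
    (h2 : ∀ a b c : ℤ, IsCoprime a b → a ^ P.p + b ^ P.p = c ^ P.p → a * b * c ≠ 0 →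
      (P.p : ℤ) ∣ a * b * c → False) : False := by
  have hab : IsCoprime P.a P.b := by
    rw [Int.isCoprime_iff_gcd_eq_one]
    have h := P.hgcdab
    rw [← Int.coe_gcd] at h
    exact_mod_cast h
  exact h2 P.a P.b P.c hab P.hFLT P.habc0 (h1 P.a P.b P.c hab P.hFLT)

end Fermat.Agent.FLTP
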