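import Mathlib
import Fermat.Agent.FLTP.H24Kummer
import Fermat.Agent.FLTP.KummerCert5
import Fermat.Agent.FLTP.KummerCert7
import Fermat.Agent.FLTP.KummerCert11
import Fermat.Agent.FLTP.KummerCert13
import Fermat.Agent.FLTP.PID7
import Fermat.Agent.FLTP.PID11
import Fermat.Agent.FLTP.PID13
import Fermat.Agent.FLTP.SophieGermain
import Fermat.Agent.FLTP.H9CaseII
import Fermat.Agent.FLTP.helper31_Reduction

set_option autoImplicit false

namespace Fermat.Agent.FLTP

open NumberField

/-- A Frey package cannot have exponent `11`. -/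
theorem h24_freyPackage_ne_eleven (P : FreyPackage) (hp : P.p = 11) : False := by
  have : Fact (Nat.Prime 11) := ⟨by norm_num⟩
  have : IsCyclotomicExtension {11} ℚ (CyclotomicField 11 ℚ) :=
    CyclotomicField.isCyclotomicExtension 11 ℚ
  refine h31_freyPackage_false_of_cases P ?_ ?_
  · rw [hp]
    exact_mod_cast caseI_eleven
  · rw [hp]
    intro a b c hab h habc hdvd
    exact h9_caseII 11 (by norm_num) (CyclotomicField 11 ℚ) (pid_eleven _)
      (h24_kummer_of_cert 11 (by norm_num) (CyclotomicField 11 ℚ) kcert_hcert_eleven)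
      a b c hab h habc hdvd

/-- A Frey package cannot have exponent `5`. -/
theorem h24_freyPackage_ne_five (P : FreyPackage) (hp : P.p = 5) : False := by
  have : Fact (Nat.Prime 5) := ⟨by norm_num⟩
  have : IsCyclotomicExtension {5} ℚ (CyclotomicField 5 ℚ) :=
    CyclotomicField.isCyclotomicExtension 5 ℚ
  refine h31_freyPackage_false_of_cases P ?_ ?_
  · rw [hp]
    exact_mod_cast caseI_five
  · rw [hp]
    intro a b c hab h habc hdvd
    exact h9_caseII 5 (by norm_num) (CyclotomicField 5 ℚ)
      (IsCyclotomicExtension.Rat.five_pid _)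
      (h24_kummer_of_cert 5 (by norm_num) (CyclotomicField 5 ℚ) kcert_hcert_five)
      a b c hab h habc hdvd

/-- A Frey package cannot have exponent `7`. -/
theorem h24_freyPackage_ne_seven (P : FreyPackage) (hp : P.p = 7) : False := by
  have : Fact (Nat.Prime 7) := ⟨by norm_num⟩
  have : IsCyclotomicExtension {7} ℚ (CyclotomicField 7 ℚ) :=
    CyclotomicField.isCyclotomicExtension 7 ℚ
  refine h31_freyPackage_false_of_cases P ?_ ?_
  · rw [hp]
    exact_mod_cast caseI_seven
  · rw [hp]
    intro a b c hab h habc hdvd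
    exact h9_caseII 7 (by norm_num) (CyclotomicField 7 ℚ) (pid_seven _)
      (h24_kummer_of_cert 7 (by norm_num) (CyclotomicField 7 ℚ) kcert_hcert_seven)
      a b c hab h habc hdvd

/-- A Frey package cannot have exponent `13`. -/
theorem h24_freyPackage_ne_thirteen (P : FreyPackage) (hp : P.p = 13) : False := by
  have : Fact (Nat.Prime 13) := ⟨by norm_num⟩
  have : IsCyclotomicExtension {13} ℚ (CyclotomicField 13 ℚ) :=
    CyclotomicField.isCyclotomicExtension 13 ℚ
  refine h31_freyPackage_false_of_cases P ?_ ?_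
  · rw [hp]
    exact_mod_cast caseI_thirteen
  · rw [hp]
    intro a b c hab h habc hdvd
    exact h9_caseII 13 (by norm_num) (CyclotomicField 13 ℚ) (pid_thirteen _)
      (h24_kummer_of_cert 13 (by norm_num) (CyclotomicField 13 ℚ) kcert_hcert_thirteen)
      a b c hab h habc hdvd

end Fermat.Agent.FLTP
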