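import Mathlib

set_option autoImplicit false

namespace Fermat.Agent.FLTP

open NumberField Polynomial

theorem h25_exists_int_dvd_sub {R : Type*} [CommRing R] (ζ : R)
    (htop : Algebra.adjoin ℤ {ζ} = ⊤) (r : ℤ) (x : R) :
    ∃ n : ℤ, (ζ - (r : R)) ∣ x - (n : R) := by
  have hx : x ∈ Algebra.adjoin ℤ {ζ} := htop ▸ Algebra.mem_top
  induction hx using Algebra.adjoin_induction with
  | mem x hx =>
    rw [Set.mem_singleton_iff] at hx
    exact ⟨r, by rw [hx]⟩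
  | algebraMap z => exact ⟨z, by simp⟩
  | add x y _ _ hx hy =>
    obtain ⟨n, hn⟩ := hx
    obtain ⟨m, hm⟩ := hy
    refine ⟨n + m, ?_⟩
    have := dvd_add hn hm
    convert this using 1
    push_cast
    ring
  | mul x y _ _ hx hy =>
    obtain ⟨n, hn⟩ := hx
    obtain ⟨m, hm⟩ := hy
    refine ⟨n * m, ?_⟩
    have := dvd_add (Dvd.dvd.mul_left hm x) (Dvd.dvd.mul_left hn (m : R))
    convert this using 1
    push_cast
    ring

theorem h25_ker_eq_span {R : Type*} [CommRing R] (ζ : R) (htop : Algebra.adjoin ℤ {ζ} = ⊤)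
    (q : ℕ) (φ : R →+* ZMod q) (r : ℤ) (hφ : φ ζ = (r : ZMod q))
    (α β γ : R) (h1 : α * β = (q : R)) (h2 : α * γ = ζ - (r : R)) (h3 : φ α = 0) :
    RingHom.ker φ = Ideal.span {α} := by
  apply le_antisymm
  · intro x hx
    rw [RingHom.mem_ker] at hx
    obtain ⟨n, y, hy⟩ := h25_exists_int_dvd_sub ζ htop r x
    have hx' : x = (n : R) + (ζ - (r : R)) * y := by rw [← hy]; ring
    have hn : (n : ZMod q) = 0 := by
      have := hx
      rw [hx', map_add, map_mul, map_sub, hφ, map_intCast, map_intCast, sub_self, zero_mul,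
        add_zero] at this
      exact this
    obtain ⟨k, rfl⟩ := (ZMod.intCast_zmod_eq_zero_iff_dvd n q).mp hn
    rw [Ideal.mem_span_singleton]
    refine ⟨β * (k : R) + γ * y, ?_⟩
    rw [hx']
    push_cast
    linear_combination (-(k : R)) * h1 - y * h2
  · rw [Ideal.span_singleton_le_iff_mem, RingHom.mem_ker]
    exact h3

theorem h25_principal_prime_over (K : Type) [Field K] [NumberField K]
    [IsCyclotomicExtension {13} ℚ K]
    (q : ℕ) [Fact q.Prime] (r : ℤ)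
    (hr : (q : ℤ) ∣ ∑ i ∈ Finset.range 13, r ^ i)
    (hcert : ∀ η : 𝓞 K, ∑ i ∈ Finset.range 13, η ^ i = 0 →
      ∃ α β γ u v : 𝓞 K, α * β = (q : 𝓞 K) ∧ α * γ = η - (r : 𝓞 K) ∧
        α = (q : 𝓞 K) * u + (η - (r : 𝓞 K)) * v) :
    ∃ P ∈ Ideal.primesOver (Ideal.span {(q : ℤ)}) (𝓞 K), Submodule.IsPrincipal P := by
  have : Fact (Nat.Prime 13) := ⟨by norm_num⟩
  have hζ := IsCyclotomicExtension.zeta_spec 13 ℚ K
  set η := hζ.toInteger with hη_def
  have hη : ∑ i ∈ Finset.range 13, η ^ i = 0 :=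
    hζ.toInteger_isPrimitiveRoot.geom_sum_eq_zero (by norm_num)
  have htop : Algebra.adjoin ℤ {η} = ⊤ := IsCyclotomicExtension.Rat.adjoin_singleton_eq_top hζ
  have hmin : minpoly ℤ hζ.integralPowerBasis.gen = cyclotomic 13 ℤ := by
    rw [hζ.integralPowerBasis_gen, ← RingOfIntegers.minpoly_coe]
    exact (cyclotomic_eq_minpoly hζ (by norm_num)).symm
  have hy : aeval (r : ZMod q) (minpoly ℤ hζ.integralPowerBasis.gen) = 0 := by
    rw [hmin, cyclotomic_prime, map_sum]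
    have h0 := (ZMod.intCast_zmod_eq_zero_iff_dvd _ q).mpr hr
    push_cast at h0
    simpa using h0
  let φ : 𝓞 K →+* ZMod q := (hζ.integralPowerBasis.lift (r : ZMod q) hy).toRingHom
  have hφ : φ η = (r : ZMod q) := by
    have := hζ.integralPowerBasis.lift_gen (r : ZMod q) hy
    rw [hζ.integralPowerBasis_gen] at this
    exact this
  obtain ⟨α, β, γ, u, v, h1, h2, h3⟩ := hcert η hη
  have h4 : φ α = 0 := by
    rw [h3, map_add, map_mul, map_mul, map_sub, hφ, map_intCast, sub_self, zero_mul, add_zero,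
      map_natCast, ZMod.natCast_self, zero_mul]
  have hker := h25_ker_eq_span η htop q φ r hφ α β γ h1 h2 h4
  refine ⟨RingHom.ker φ, ⟨RingHom.ker_isPrime φ, ?_⟩, ⟨α, hker⟩⟩
  rw [Ideal.liesOver_iff]
  ext n
  rw [Ideal.mem_span_singleton, Ideal.under, Ideal.mem_comap, RingHom.mem_ker]
  rw [show algebraMap ℤ (𝓞 K) n = (n : 𝓞 K) from rfl, map_intCast]
  exact (ZMod.intCast_zmod_eq_zero_iff_dvd n q).symm

theorem h25_principal_fiftyThree (K : Type) [Field K] [NumberField K]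
    [IsCyclotomicExtension {13} ℚ K] :
    ∃ P ∈ Ideal.primesOver (Ideal.span {(((53 : ℕ) : ℤ))}) (𝓞 K), Submodule.IsPrincipal P := by
  have hr : (((53 : ℕ) : ℤ)) ∣ ∑ i ∈ Finset.range 13, (16 : ℤ) ^ i := by decide
  have : Fact (Nat.Prime 53) := ⟨by norm_num⟩
  refine h25_principal_prime_over K 53 16 hr ?_
  intro η hη
  have h : 1 + η + η ^ 2 + η ^ 3 + η ^ 4 + η ^ 5 + η ^ 6 + η ^ 7 + η ^ 8 + η ^ 9 + η ^ 10
      + η ^ 11 + η ^ 12 = 0 := by
    simpa [Finset.sum_range_succ] using hη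
  refine ⟨(1 - η + η ^ 3),
    (25 + 10 * η + 19 * η ^ 2 + 3 * η ^ 3 + 2 * η ^ 4 - 8 * η ^ 5 - 2 * η ^ 6 + 5 * η ^ 7 + 22 * η ^ 8 + 33 * η ^ 9 + 37 * η ^ 10 + 24 * η ^ 11),
    (-8 - 3 * η - 6 * η ^ 2 - η ^ 3 - η ^ 4 + 2 * η ^ 5 - 2 * η ^ 7 - 7 * η ^ 8 - 10 * η ^ 9 - 11 * η ^ 10 - 7 * η ^ 11),
    77, (255 + 16 * η + η ^ 2), ?_, ?_, ?_⟩
  · push_cast
    linear_combination (-28 + 13 * η + 24 * η ^ 2) * h
  · push_cast
    linear_combination (8 - 4 * η - 7 * η ^ 2) * h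
  · push_cast
    ring

theorem h25_principal_seventyNine (K : Type) [Field K] [NumberField K]
    [IsCyclotomicExtension {13} ℚ K] :
    ∃ P ∈ Ideal.primesOver (Ideal.span {(((79 : ℕ) : ℤ))}) (𝓞 K), Submodule.IsPrincipal P := by
  have hr : (((79 : ℕ) : ℤ)) ∣ ∑ i ∈ Finset.range 13, (62 : ℤ) ^ i := by decide
  have : Fact (Nat.Prime 79) := ⟨by norm_num⟩
  refine h25_principal_prime_over K 79 62 hr ?_
  intro η hη
  have h : 1 + η + η ^ 2 + η ^ 3 + η ^ 4 + η ^ 5 + η ^ 6 + η ^ 7 + η ^ 8 + η ^ 9 + η ^ 10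
      + η ^ 11 + η ^ 12 = 0 := by
    simpa [Finset.sum_range_succ] using hη
  refine ⟨(1 - η - η ^ 4),
    (62 + 63 * η + 49 * η ^ 2 + 8 * η ^ 3 + 29 * η ^ 4 + 51 * η ^ 5 + 59 * η ^ 6 + 26 * η ^ 7 + 14 * η ^ 8 + 24 * η ^ 9 + 42 * η ^ 10 + 27 * η ^ 11),
    (-49 - 49 * η - 38 * η ^ 2 - 6 * η ^ 3 - 23 * η ^ 4 - 40 * η ^ 5 - 46 * η ^ 6 - 20 * η ^ 7 - 11 * η ^ 8 - 19 * η ^ 9 - 33 * η ^ 10 - 21 * η ^ 11),
    -187043, (-238329 - 3844 * η - 62 * η ^ 2 - η ^ 3), ?_, ?_, ?_⟩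
  · push_cast
    linear_combination (-17 + 18 * η - 15 * η ^ 2 - 27 * η ^ 3) * h
  · push_cast
    linear_combination (13 - 14 * η + 12 * η ^ 2 + 21 * η ^ 3) * h
  · push_cast
    ring

theorem h25_principal_oneThirtyOne (K : Type) [Field K] [NumberField K]
    [IsCyclotomicExtension {13} ℚ K] :
    ∃ P ∈ Ideal.primesOver (Ideal.span {(((131 : ℕ) : ℤ))}) (𝓞 K), Submodule.IsPrincipal P := by
  have hr : (((131 : ℕ) : ℤ)) ∣ ∑ i ∈ Finset.range 13, (80 : ℤ) ^ i := by decide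
  have : Fact (Nat.Prime 131) := ⟨by norm_num⟩
  refine h25_principal_prime_over K 131 80 hr ?_
  intro η hη
  have h : 1 + η + η ^ 2 + η ^ 3 + η ^ 4 + η ^ 5 + η ^ 6 + η ^ 7 + η ^ 8 + η ^ 9 + η ^ 10
      + η ^ 11 + η ^ 12 = 0 := by
    simpa [Finset.sum_range_succ] using hη
  refine ⟨(1 - η - η ^ 3),
    (111 + 78 * η + 17 * η ^ 2 + 67 * η ^ 3 + 84 * η ^ 4 + 40 * η ^ 5 + 46 * η ^ 6 + 69 * η ^ 7 + 48 * η ^ 8 + 33 * η ^ 9 + 41 * η ^ 10 + 28 * η ^ 11),
    (-68 - 47 * η - 10 * η ^ 2 - 41 * η ^ 3 - 51 * η ^ 4 - 24 * η ^ 5 - 28 * η ^ 6 - 42 * η ^ 7 - 29 * η ^ 8 - 20 * η ^ 9 - 25 * η ^ 10 - 17 * η ^ 11),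
    -3909, (-6401 - 80 * η - η ^ 2), ?_, ?_, ?_⟩
  · push_cast
    linear_combination (-20 - 13 * η - 28 * η ^ 2) * h
  · push_cast
    linear_combination (12 + 8 * η + 17 * η ^ 2) * h
  · push_cast
    ring

theorem h25_principal_oneFiftySeven (K : Type) [Field K] [NumberField K]
    [IsCyclotomicExtension {13} ℚ K] :
    ∃ P ∈ Ideal.primesOver (Ideal.span {(((157 : ℕ) : ℤ))}) (𝓞 K), Submodule.IsPrincipal P := by
  have hr : (((157 : ℕ) : ℤ)) ∣ ∑ i ∈ Finset.range 13, (75 : ℤ) ^ i := by decide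
  have : Fact (Nat.Prime 157) := ⟨by norm_num⟩
  refine h25_principal_prime_over K 157 75 hr ?_
  intro η hη
  have h : 1 + η + η ^ 2 + η ^ 3 + η ^ 4 + η ^ 5 + η ^ 6 + η ^ 7 + η ^ 8 + η ^ 9 + η ^ 10
      + η ^ 11 + η ^ 12 = 0 := by
    simpa [Finset.sum_range_succ] using hη
  refine ⟨(1 - η + η ^ 2 + η ^ 4),
    (89 + 86 * η + 42 * η ^ 2 + 77 * η ^ 3 + 67 * η ^ 4 + 25 * η ^ 5 + 37 * η ^ 6 + 56 * η ^ 7 + 73 * η ^ 8 + 113 * η ^ 9 + 124 * η ^ 10 + 76 * η ^ 11),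
    (-43 - 41 * η - 20 * η ^ 2 - 37 * η ^ 3 - 32 * η ^ 4 - 12 * η ^ 5 - 18 * η ^ 6 - 27 * η ^ 7 - 35 * η ^ 8 - 54 * η ^ 9 - 59 * η ^ 10 - 36 * η ^ 11),
    201568, (421949 + 5626 * η + 75 * η ^ 2 + η ^ 3), ?_, ?_, ?_⟩
  · push_cast
    linear_combination (-68 + 65 * η + 48 * η ^ 2 + 76 * η ^ 3) * h
  · push_cast
    linear_combination (32 - 31 * η - 23 * η ^ 2 - 36 * η ^ 3) * h
  · push_cast
    ring

theorem h25_irreducible_cubic :
    Irreducible ((X ^ 3 - X - 1 : (ZMod 3)[X])) := by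
  have hdeg : (X ^ 3 - X - 1 : (ZMod 3)[X]).natDegree = 3 := by
    compute_degree!
  apply irreducible_of_degree_le_three_of_not_isRoot
  · rw [hdeg]; decide
  · intro x
    rw [IsRoot.def]
    simp only [eval_sub, eval_pow, eval_X, eval_one]
    revert x
    decide

theorem h25_principal_three (K : Type) [Field K] [NumberField K]
    [IsCyclotomicExtension {13} ℚ K] :
    ∃ P ∈ Ideal.primesOver (Ideal.span {(((3 : ℕ) : ℤ))}) (𝓞 K), Submodule.IsPrincipal P := by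
  have : Fact (Nat.Prime 13) := ⟨by norm_num⟩
  have : Fact (Nat.Prime 3) := ⟨by norm_num⟩
  have hζ := IsCyclotomicExtension.zeta_spec 13 ℚ K
  set η := hζ.toInteger with hη_def
  have hη : ∑ i ∈ Finset.range 13, η ^ i = 0 :=
    hζ.toInteger_isPrimitiveRoot.geom_sum_eq_zero (by norm_num)
  have h : 1 + η + η ^ 2 + η ^ 3 + η ^ 4 + η ^ 5 + η ^ 6 + η ^ 7 + η ^ 8 + η ^ 9 + η ^ 10
      + η ^ 11 + η ^ 12 = 0 := by
    simpa [Finset.sum_range_succ] using hη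
  have h₁ : ¬ 3 ∣ RingOfIntegers.exponent η := by
    rw [RingOfIntegers.exponent_eq_one_iff.mpr
      (IsCyclotomicExtension.Rat.adjoin_singleton_eq_top hζ)]
    norm_num
  have hmin : minpoly ℤ η = cyclotomic 13 ℤ := by
    rw [← RingOfIntegers.minpoly_coe]
    exact (cyclotomic_eq_minpoly hζ (by norm_num)).symm
  have hmapQ : (X ^ 3 - X - 1 : ℤ[X]).map (Int.castRingHom (ZMod 3)) = X ^ 3 - X - 1 := by
    simp
  have hQ : (X ^ 3 - X - 1 : ℤ[X]).map (Int.castRingHom (ZMod 3)) ∈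
      RingOfIntegers.monicFactorsMod η 3 := by
    rw [Multiset.mem_toFinset, Polynomial.mem_normalizedFactors_iff
      (map_monic_ne_zero (minpoly.monic η.isIntegral)), hmapQ]
    refine ⟨h25_irreducible_cubic, ?_, ?_⟩
    · monicity!
    · rw [hmin, map_cyclotomic, cyclotomic_prime]
      refine ⟨20 + 15 * X + 11 * X ^ 2 + 8 * X ^ 3 + 6 * X ^ 4 + 4 * X ^ 5 + 3 * X ^ 6
        + 2 * X ^ 7 + X ^ 8 + X ^ 9, ?_⟩
      have h3 : (3 : (ZMod 3)[X]) = 0 := by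
        exact_mod_cast CharP.cast_eq_zero ((ZMod 3)[X]) 3
      simp only [Finset.sum_range_succ, Finset.range_zero, Finset.sum_empty]
      linear_combination (7 + 12 * X + 9 * X ^ 2 : (ZMod 3)[X]) * h3
  have hP := ((NumberField.Ideal.primesOverSpanEquivMonicFactorsMod h₁).symm ⟨_, hQ⟩).prop
  rw [NumberField.Ideal.primesOverSpanEquivMonicFactorsMod_symm_apply_eq_span h₁ hQ] at hP
  refine ⟨_, hP, ⟨1 + η - η ^ 3, ?_⟩⟩
  have hα : (1 + η - η ^ 3) * (-1 - η ^ 2 - η ^ 3 - 2 * η ^ 5 - η ^ 7 - 2 * η ^ 8 + η ^ 9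
      - 3 * η ^ 10) = 3 := by
    linear_combination (-4 + 3 * η) * h
  have haev : aeval η (X ^ 3 - X - 1 : ℤ[X]) = -(1 + η - η ^ 3) := by
    simp
    ring
  rw [haev]
  apply le_antisymm
  · rw [Ideal.span_le]
    intro x hx
    rcases hx with rfl | rfl
    · rw [SetLike.mem_coe]
      exact Ideal.mem_span_singleton.mpr ⟨_, by rw [hα]; norm_num⟩
    · rw [SetLike.mem_coe]
      exact Ideal.mem_span_singleton.mpr ⟨-1, by ring⟩
  · rw [Ideal.span_le, Set.singleton_subset_iff, SetLike.mem_coe]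
    have : (1 + η - η ^ 3) = (-1 : 𝓞 K) * (-(1 + η - η ^ 3)) := by ring
    rw [this]
    exact Ideal.mul_mem_left _ _ (Ideal.subset_span (by simp))

theorem h25_prime_pow_cases (q f : ℕ) (hq : q.Prime) (hf : 0 < f) (hle : q ^ f ≤ 306)
    (hmod : q ^ f % 13 = 1) : q = 3 ∨ q = 53 ∨ q = 79 ∨ q = 131 ∨ q = 157 := by
  have hq2 : 2 ≤ q := hq.two_le
  have hf9 : f < 9 := by
    by_contra hcon
    have h9 : 9 ≤ f := not_lt.mp hcon
    have h1 : 2 ^ 9 ≤ q ^ f :=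
      le_trans (Nat.pow_le_pow_right (by norm_num) h9) (Nat.pow_le_pow_left hq2 f)
    omega
  rcases Nat.lt_or_ge f 2 with h1 | h2
  · have hf1 : f = 1 := by omega
    subst hf1
    rw [pow_one] at hle hmod
    have hk : q = 13 * (q / 13) + 1 := by omega
    have hk23 : q / 13 ≤ 23 := by omega
    generalize q / 13 = k at hk hk23
    subst hk
    interval_cases k <;> first | (exfalso; revert hq; norm_num; done) | simp
  · have hq17 : q ≤ 17 := by
      by_contra hcon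
      have h18 : 18 ≤ q := by omega
      have h1 : 18 ^ 2 ≤ q ^ f :=
        le_trans (Nat.pow_le_pow_left h18 2) (Nat.pow_le_pow_right (by omega) h2)
      omega
    interval_cases q <;> first | (exfalso; revert hq; norm_num; done) | (interval_cases f <;> omega)

section

open InfinitePlace Nat Real

theorem h25_minkowski_floor_le (K : Type) [Field K] [NumberField K]
    [IsCyclotomicExtension {13} ℚ K] :
    ⌊(4 / π) ^ nrComplexPlaces K *
      ((Module.finrank ℚ K)! / (Module.finrank ℚ K) ^ (Module.finrank ℚ K) * √|discr K|)⌋₊ ≤ 306 := by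
  have : Fact (Nat.Prime 13) := ⟨by norm_num⟩
  rw [IsCyclotomicExtension.Rat.discr_prime 13 K, IsCyclotomicExtension.finrank (n := 13) K
    (Polynomial.cyclotomic.irreducible_rat (by norm_num)),
    IsCyclotomicExtension.Rat.nrComplexPlaces_eq_totient_div_two 13,
    totient_prime (by norm_num : Nat.Prime 13)]
  have h12 : (12 : ℕ)! = 479001600 := by decide
  have hd : |(((-1 : ℤ) ^ ((13 - 1) / 2) * ((13 : ℕ) : ℤ) ^ (13 - 2) : ℤ) : ℝ)| = 1792160394037 := by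
    norm_num
  rw [hd]
  have hs : √(1792160394037 : ℝ) ≤ 1338717 := by
    rw [Real.sqrt_le_left (by norm_num)]
    norm_num
  have hπ : (4 / π) ^ 6 ≤ (4 / 3.1415 : ℝ) ^ 6 := by
    gcongr
    exact pi_gt_d4.le
  have hpos : (0 : ℝ) ≤ (4 / π) ^ 6 := by positivity
  apply Nat.le_of_lt_succ
  rw [Nat.floor_lt (by positivity)]
  simp only [show (13 - 1) / 2 = 6 by norm_num, show 13 - 1 = 12 by norm_num, h12]
  calc (4 / π) ^ 6 * (((479001600 : ℕ) : ℝ) / ((12 : ℕ) : ℝ) ^ 12 * √(1792160394037 : ℝ))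
      ≤ (4 / 3.1415 : ℝ) ^ 6 * (((479001600 : ℕ) : ℝ) / ((12 : ℕ) : ℝ) ^ 12 * 1338717) := by gcongr
    _ < ((306 + 1 : ℕ) : ℝ) := by norm_num

theorem h25_orderOf_pos (q : ℕ) (hq : q.Prime) (h13 : q ≠ 13) :
    0 < orderOf ((q : ℕ) : ZMod 13) := by
  have : Fact (Nat.Prime 13) := ⟨by norm_num⟩
  have hne : ((q : ℕ) : ZMod 13) ≠ 0 := by
    rw [Ne, ZMod.natCast_eq_zero_iff]
    intro hdvd
    exact h13 ((Nat.prime_dvd_prime_iff_eq (by norm_num) hq).mp hdvd).symm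
  rw [orderOf_pos_iff, isOfFinOrder_iff_pow_eq_one]
  exact ⟨12, by norm_num, ZMod.pow_card_sub_one_eq_one hne⟩

theorem h25_pid_thirteen (K : Type) [Field K] [NumberField K] [IsCyclotomicExtension {13} ℚ K] :
    IsPrincipalIdealRing (NumberField.RingOfIntegers K) := by
  have : Fact (Nat.Prime 13) := ⟨by norm_num⟩
  have : IsGalois ℚ K := IsCyclotomicExtension.isGalois {13} ℚ K
  have hM := h25_minkowski_floor_le K
  apply RingOfIntegers.isPrincipalIdealRing_of_isPrincipal_of_lt_or_isPrincipal_of_mem_primesOver_of_mem_Icc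
  intro p hp hprime
  have hp306 : p ≤ 306 := (Finset.mem_Icc.mp hp).2.trans hM
  have : Fact p.Prime := ⟨hprime⟩
  by_cases h13 : p = 13
  · subst h13
    obtain ⟨⟨P, hP1, hP2⟩⟩ := (Ideal.span {(((13 : ℕ) : ℤ))}).nonempty_primesOver (S := 𝓞 K)
    refine ⟨P, ⟨hP1, hP2⟩, Or.inr ?_⟩
    have hζ := IsCyclotomicExtension.zeta_spec 13 ℚ K
    rw [IsCyclotomicExtension.Rat.eq_span_zeta_sub_one_of_liesOver' 13 K hζ P]
    exact ⟨⟨_, rfl⟩⟩
  · by_cases hsp : p = 3 ∨ p = 53 ∨ p = 79 ∨ p = 131 ∨ p = 157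
    · rcases hsp with rfl | rfl | rfl | rfl | rfl
      · obtain ⟨P, hP, hPp⟩ := h25_principal_three K
        exact ⟨P, hP, Or.inr hPp⟩
      · obtain ⟨P, hP, hPp⟩ := h25_principal_fiftyThree K
        exact ⟨P, hP, Or.inr hPp⟩
      · obtain ⟨P, hP, hPp⟩ := h25_principal_seventyNine K
        exact ⟨P, hP, Or.inr hPp⟩
      · obtain ⟨P, hP, hPp⟩ := h25_principal_oneThirtyOne K
        exact ⟨P, hP, Or.inr hPp⟩
      · obtain ⟨P, hP, hPp⟩ := h25_principal_oneFiftySeven K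
        exact ⟨P, hP, Or.inr hPp⟩
    · obtain ⟨⟨P, hP1, hP2⟩⟩ := (Ideal.span {(p : ℤ)}).nonempty_primesOver (S := 𝓞 K)
      refine ⟨P, ⟨hP1, hP2⟩, Or.inl ?_⟩
      have hndvd : ¬ p ∣ 13 := by
        intro hdvd
        exact h13 ((Nat.prime_dvd_prime_iff_eq hprime (by norm_num)).mp hdvd)
      rw [IsCyclotomicExtension.Rat.inertiaDeg_eq_of_not_dvd (m := 13) p K P hndvd]
      by_contra hcon
      have hle : p ^ orderOf ((p : ℕ) : ZMod 13) ≤ 306 := le_trans (not_lt.mp hcon) hM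
      have h1 : ((p ^ orderOf ((p : ℕ) : ZMod 13) : ℕ) : ZMod 13) = ((1 : ℕ) : ZMod 13) := by
        push_cast
        exact pow_orderOf_eq_one _
      have hmod : p ^ orderOf ((p : ℕ) : ZMod 13) % 13 = 1 := by
        have := (ZMod.natCast_eq_natCast_iff' _ _ _).mp h1
        simpa using this
      exact hsp (h25_prime_pow_cases p _ hprime (h25_orderOf_pos p hprime h13) hle hmod)

end

end Fermat.Agent.FLTP
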