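import Mathlib

set_option autoImplicit false

open Polynomial Finset

namespace Fermat.Agent.FLTP

section Abstract

variable {R : Type*} [CommRing R] [IsDomain R]

theorem h28_exists_associated_pow [IsBezout R]
    {a b c : R} {u : Rˣ} {k : ℕ} (hab : IsCoprime a b) (h : a * b = u * c ^ k) :
    ∃ d, Associated (d ^ k) a := by
  have h' : a * (((u⁻¹ : Rˣ) : R) * b) = c ^ k := by
    rw [mul_left_comm, h, ← mul_assoc, Units.inv_mul, one_mul]
  exact exists_associated_pow_of_mul_eq_pow'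
    ((isCoprime_mul_unit_left_right (u⁻¹).isUnit a b).mpr hab) h'

omit [IsDomain R] in
theorem h28_not_dvd_of_isCoprime {l a b : R} (hl : Prime l) (hab : IsCoprime a b)
    (h : l ∣ a + b) : ¬ l ∣ b := by
  intro hb
  have ha : l ∣ a := by
    have := dvd_sub h hb
    simpa using this
  exact hl.not_isUnit (hab.isUnit_of_dvd' ha hb)

variable {p : ℕ} {η : R}

/-- Pigeonhole: one of the factors `a + η' * b` is divisible by `λ ^ 2`. -/
theorem h28_exists_sq_dvd (hp : p.Prime) (hη : IsPrimitiveRoot η p) (hlam : Prime (η - 1))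
    (hcard : Nat.card (R ⧸ Ideal.span {η - 1}) = p) {a b : R}
    (hdiv : ∀ η' ∈ nthRootsFinset p (1 : R), η - 1 ∣ a + η' * b)
    (hb : ¬ η - 1 ∣ b) :
    ∃ η' ∈ nthRootsFinset p (1 : R), (η - 1) ^ 2 ∣ a + η' * b := by
  classical
  choose! x hx using hdiv
  have hfin : Finite (R ⧸ Ideal.span {η - 1}) :=
    Nat.finite_of_card_ne_zero (by rw [hcard]; exact hp.ne_zero)
  let _ : Fintype (R ⧸ Ideal.span {η - 1}) := Fintype.ofFinite _
  let f : R → R ⧸ Ideal.span {η - 1} := fun η' => Ideal.Quotient.mk _ (x η')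
  have hinj : Set.InjOn f (nthRootsFinset p (1 : R) : Set R) := by
    intro η₁ h₁ η₂ h₂ h12
    by_contra hne
    apply hb
    obtain ⟨u, hu⟩ := hη.nthRootsFinset_pairwise_associated_sub_one_sub_of_prime hp h₁ h₂ hne
    have h3 : η - 1 ∣ x η₁ - x η₂ := by
      rw [← Ideal.mem_span_singleton, ← Ideal.Quotient.eq]
      exact h12
    have h4 : (η - 1) * (x η₁ - x η₂) = (η - 1) * (u * b) := by
      rw [mul_sub, ← hx η₁ h₁, ← hx η₂ h₂, ← mul_assoc, hu]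
      ring
    have h5 : x η₁ - x η₂ = u * b := mul_left_cancel₀ hlam.ne_zero h4
    rw [h5] at h3
    exact (hlam.dvd_or_dvd h3).resolve_left
      (fun h => hlam.not_isUnit (isUnit_of_dvd_unit h u.isUnit))
  have himg : (nthRootsFinset p (1 : R)).image f = Finset.univ := by
    apply Finset.eq_univ_of_card
    rw [Finset.card_image_of_injOn hinj, hη.card_nthRootsFinset, ← Nat.card_eq_fintype_card, hcard]
  have h0 : (0 : R ⧸ Ideal.span {η - 1}) ∈ (nthRootsFinset p (1 : R)).image f := by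
    rw [himg]; exact Finset.mem_univ _
  obtain ⟨η', hημ, hη0⟩ := Finset.mem_image.mp h0
  refine ⟨η', hημ, ?_⟩
  have h6 : η - 1 ∣ x η' := by
    rw [← Ideal.mem_span_singleton, ← Ideal.Quotient.eq_zero_iff_mem]
    exact hη0
  rw [hx η' hημ, pow_two]
  exact mul_dvd_mul_left _ h6

/-- WLOG step: after multiplying `b` by a root of unity, `λ ^ 2 ∣ a + b`. -/
theorem h28_wlog (hp : p.Prime) (hp2 : p ≠ 2) (hη : IsPrimitiveRoot η p) (hlam : Prime (η - 1))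
    (hcard : Nat.card (R ⧸ Ideal.span {η - 1}) = p)
    {a b c : R} {u : Rˣ} {n : ℕ} (hn : 1 ≤ n)
    (hab : IsCoprime a b)
    (h : a ^ p + b ^ p = u * ((η - 1) ^ n * c) ^ p) :
    ∃ b' : R, IsCoprime a b' ∧ a ^ p + b' ^ p = u * ((η - 1) ^ n * c) ^ p ∧
      (η - 1) ^ 2 ∣ a + b' := by
  have hodd : Odd p := hp.odd_of_ne_two hp2
  have hpos : 0 < p := hp.pos
  have hprod := hη.pow_add_pow_eq_prod_add_mul a b hodd
  have h1 : η - 1 ∣ ∏ η' ∈ nthRootsFinset p (1 : R), (a + η' * b) := by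
    rw [← hprod, h, mul_pow, ← pow_mul]
    refine Dvd.dvd.mul_left (Dvd.dvd.mul_right (dvd_pow_self _ ?_) _) _
    exact Nat.mul_ne_zero (by omega) hpos.ne'
  obtain ⟨η₁, hη₁, h2⟩ := (hlam.dvd_finsetProd_iff _).mp h1
  have hdiv : ∀ η' ∈ nthRootsFinset p (1 : R), η - 1 ∣ a + η' * b := by
    intro η' hημ
    have h3 : η - 1 ∣ η' - η₁ := hη.sub_one_dvd_sub hp hημ hη₁
    have : a + η' * b = (a + η₁ * b) + (η' - η₁) * b := by ring
    rw [this]
    exact dvd_add h2 (Dvd.dvd.mul_right h3 _)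
  have hb : ¬ η - 1 ∣ b := by
    have := hdiv 1 (one_mem_nthRootsFinset hpos)
    rw [one_mul] at this
    exact h28_not_dvd_of_isCoprime hlam hab this
  obtain ⟨η₀, hη₀, h4⟩ := h28_exists_sq_dvd hp hη hlam hcard hdiv hb
  have hη₀p : η₀ ^ p = 1 := (mem_nthRootsFinset hpos 1).mp hη₀
  have hη₀u : IsUnit η₀ := IsUnit.of_pow_eq_one hη₀p hpos.ne'
  refine ⟨η₀ * b, (isCoprime_mul_unit_left_right hη₀u a b).mpr hab, ?_, h4⟩
  rw [mul_pow, hη₀p, one_mul, h]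

/-- Descent step: a solution at level `n` with `λ ^ 2 ∣ a + b` forces `n ≥ 2` and yields a
solution at level `n - 1`. -/
theorem h28_step [IsPrincipalIdealRing R] (hp : p.Prime) (hp2 : p ≠ 2) (hη : IsPrimitiveRoot η p)
    (hlam : Prime (η - 1))
    (hassoc : Associated ((η - 1) ^ (p - 1)) (p : R))
    (hpow : ∀ x : R, ∃ m : ℤ, (p : R) ∣ x ^ p - m)
    (hK : ∀ u : Rˣ, (∃ m : ℤ, (p : R) ∣ (u : R) - m) → ∃ v : Rˣ, u = v ^ p)
    {a b c : R} {u : Rˣ} {n : ℕ} (hn : 1 ≤ n)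
    (hab : IsCoprime a b) (hc : ¬ η - 1 ∣ c)
    (h : a ^ p + b ^ p = u * ((η - 1) ^ n * c) ^ p)
    (hsq : (η - 1) ^ 2 ∣ a + b) :
    2 ≤ n ∧ ∃ (a' b' c' : R) (u' : Rˣ), IsCoprime a' b' ∧ ¬ η - 1 ∣ c' ∧
      a' ^ p + b' ^ p = u' * ((η - 1) ^ (n - 1) * c') ^ p := by
  classical
  have hodd : Odd p := hp.odd_of_ne_two hp2
  have hpos : 0 < p := hp.pos
  have hp3 : 3 ≤ p := by have := hp.two_le; omega
  generalize hlamdef : η - 1 = lam at *
  set μ := nthRootsFinset p (1 : R) with hμ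
  have h1μ : (1 : R) ∈ μ := one_mem_nthRootsFinset hpos
  have hημ : η ∈ μ := hη.mem_nthRootsFinset hpos
  have hη2μ : η ^ 2 ∈ μ := by
    rw [hμ, mem_nthRootsFinset hpos, ← pow_mul, mul_comm, pow_mul, hη.pow_eq_one, one_pow]
  have hη1 : η ≠ 1 := hη.ne_one hp.one_lt
  have hη21 : η ^ 2 ≠ 1 := hη.pow_ne_one_of_pos_of_lt (by norm_num) (by omega)
  have hη0 : η ≠ 0 := hη.ne_zero hpos.ne'
  have hη2η : η ^ 2 ≠ η := by
    intro h
    apply hη1
    have : η * η = η * 1 := by rw [mul_one, ← pow_two, h]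
    exact mul_left_cancel₀ hη0 this
  have hlamab : lam ∣ a + b := dvd_trans (dvd_pow_self lam two_ne_zero) hsq
  have hb : ¬ lam ∣ b := h28_not_dvd_of_isCoprime hlam hab hlamab
  -- all factors are divisible by `lam`
  have hdiv : ∀ η' ∈ μ, ∃ x, a + η' * b = lam * x := by
    intro η' hη'
    have h3 : lam ∣ η' - 1 := by
      rw [← hlamdef]; exact hη.sub_one_dvd_sub hp hη' h1μ
    have : a + η' * b = (a + b) + (η' - 1) * b := by ring
    rw [this]
    exact dvd_add hlamab (Dvd.dvd.mul_right h3 _)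
  choose! x hx using hdiv
  -- differences of the quotients
  have hdiff : ∀ η₁ ∈ μ, ∀ η₂ ∈ μ, η₁ ≠ η₂ → ∃ v : Rˣ, x η₁ - x η₂ = v * b ∧
      η₂ * x η₁ - η₁ * x η₂ = - (v * a) := by
    intro η₁ h₁ η₂ h₂ hne
    obtain ⟨v, hv⟩ := hη.nthRootsFinset_pairwise_associated_sub_one_sub_of_prime hp h₁ h₂ hne
    rw [hlamdef] at hv
    refine ⟨v, ?_, ?_⟩
    · apply mul_left_cancel₀ hlam.ne_zero
      rw [mul_sub, ← hx η₁ h₁, ← hx η₂ h₂, ← mul_assoc, hv]; ring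
    · apply mul_left_cancel₀ hlam.ne_zero
      have e1 : lam * (η₂ * x η₁ - η₁ * x η₂) = η₂ * (lam * x η₁) - η₁ * (lam * x η₂) := by ring
      rw [e1, ← hx η₁ h₁, ← hx η₂ h₂, mul_neg, ← mul_assoc, hv]; ring
  -- pairwise coprimality
  have hcop : ∀ η₁ ∈ μ, ∀ η₂ ∈ μ, η₁ ≠ η₂ → IsCoprime (x η₁) (x η₂) := by
    intro η₁ h₁ η₂ h₂ hne
    obtain ⟨v, hv1, hv2⟩ := hdiff η₁ h₁ η₂ h₂ hne
    obtain ⟨s, t, hst⟩ := hab
    refine ⟨(↑v⁻¹ : R) * (t - s * η₂), (↑v⁻¹ : R) * (s * η₁ - t), ?_⟩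
    have e1 : (↑v⁻¹ : R) * (t - s * η₂) * x η₁ + (↑v⁻¹ : R) * (s * η₁ - t) * x η₂ =
        (↑v⁻¹ : R) * (t * (x η₁ - x η₂) - s * (η₂ * x η₁ - η₁ * x η₂)) := by ring
    rw [e1, hv1, hv2]
    have e2 : (↑v⁻¹ : R) * (t * (↑v * b) - s * -(↑v * a)) =
        ((↑v⁻¹ : R) * ↑v) * (s * a + t * b) := by ring
    rw [e2, hst, Units.inv_mul, one_mul]
  -- `x 1` is divisible by `lam`, the others are not
  have hx1 : lam ∣ x 1 := by
    have := hx 1 h1μ
    rw [one_mul] at this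
    rw [this, pow_two] at hsq
    exact (mul_dvd_mul_iff_left hlam.ne_zero).mp hsq
  have hxne : ∀ η' ∈ μ, η' ≠ 1 → ¬ lam ∣ x η' := by
    intro η' hη' hne hdvd
    obtain ⟨v, hv1, -⟩ := hdiff η' hη' 1 h1μ hne
    have : lam ∣ ↑v * b := by rw [← hv1]; exact dvd_sub hdvd hx1
    exact hb ((hlam.dvd_or_dvd this).resolve_left
      (fun h => hlam.not_isUnit (isUnit_of_dvd_unit h v.isUnit)))
  -- the product of the quotients
  have hprod : ∏ η' ∈ μ, x η' = u * (lam ^ (n - 1) * c) ^ p := by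
    have e1 := hη.pow_add_pow_eq_prod_add_mul a b hodd
    have e2 : ∏ η' ∈ μ, (a + η' * b) = lam ^ p * ∏ η' ∈ μ, x η' := by
      rw [Finset.prod_congr rfl (fun η' hη' => hx η' hη'), Finset.prod_mul_distrib,
        Finset.prod_const, hμ, hη.card_nthRootsFinset]
    rw [e1, e2] at h
    apply mul_left_cancel₀ (pow_ne_zero p hlam.ne_zero)
    rw [h]
    obtain ⟨k, rfl⟩ : ∃ k, n = k + 1 := ⟨n - 1, by omega⟩
    simp only [Nat.add_sub_cancel]
    ring

  -- `n ≥ 2`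
  have hn2 : 2 ≤ n := by
    by_contra hlt
    have hn1 : n = 1 := by omega
    subst hn1
    have h7 : lam ∣ ∏ η' ∈ μ, x η' := by
      rw [← Finset.mul_prod_erase μ x h1μ]; exact Dvd.dvd.mul_right hx1 _
    rw [hprod] at h7
    simp only [Nat.sub_self, pow_zero, one_mul] at h7
    rcases hlam.dvd_or_dvd h7 with h8 | h8
    · exact hlam.not_isUnit (isUnit_of_dvd_unit h8 u.isUnit)
    · exact hc (hlam.dvd_of_dvd_pow h8)
  refine ⟨hn2, ?_⟩
  -- every quotient is a unit times a `p`-th power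
  have hpw : ∀ η₁ ∈ μ, ∃ d, Associated (d ^ p) (x η₁) := by
    intro η₁ h₁
    have hc' : IsCoprime (x η₁) (∏ η' ∈ μ.erase η₁, x η') :=
      IsCoprime.prod_right (fun η' hη' => hcop η₁ h₁ η' (Finset.mem_of_mem_erase hη')
        (Finset.ne_of_mem_erase hη').symm)
    have heq : x η₁ * ∏ η' ∈ μ.erase η₁, x η' = u * (lam ^ (n - 1) * c) ^ p := by
      rw [Finset.mul_prod_erase μ x h₁, hprod]
    exact h28_exists_associated_pow hc' heq
  obtain ⟨r₀, e₀, he₀⟩ := hpw 1 h1μ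
  obtain ⟨r₁, e₁, he₁⟩ := hpw η hημ
  obtain ⟨r₂, e₂, he₂⟩ := hpw (η ^ 2) hη2μ
  -- the `lam`-adic valuation of `r₀`
  have hnd : ¬ lam ∣ ∏ η' ∈ μ.erase 1, x η' := by
    intro hd
    obtain ⟨η', hη', hd'⟩ := (hlam.dvd_finsetProd_iff _).mp hd
    exact hxne η' (Finset.mem_of_mem_erase hη') (Finset.ne_of_mem_erase hη') hd'
  have hr0 : lam ^ (n - 1) ∣ r₀ := by
    have h9 : lam ^ ((n - 1) * p) ∣ x 1 * ∏ η' ∈ μ.erase 1, x η' := by
      rw [Finset.mul_prod_erase μ x h1μ, hprod, mul_pow, ← pow_mul]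
      exact Dvd.dvd.mul_left (Dvd.dvd.mul_right dvd_rfl _) _
    have h10 : lam ^ ((n - 1) * p) ∣ x 1 := hlam.pow_dvd_of_dvd_mul_right _ hnd h9
    rw [← he₀] at h10
    have h11 : (lam ^ (n - 1)) ^ p ∣ r₀ ^ p := by
      rw [← pow_mul]
      exact (Units.dvd_mul_right).mp h10
    exact (UniqueFactorizationMonoid.pow_dvd_pow_iff_dvd hpos.ne').mp h11
  obtain ⟨c₀, hc₀⟩ := hr0
  have hc₀' : ¬ lam ∣ c₀ := by
    rintro ⟨c₁, hc₁⟩
    have h12 : lam ^ (n * p) ∣ u * (lam ^ (n - 1) * c) ^ p := by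
      rw [← hprod, ← Finset.mul_prod_erase μ x h1μ, ← he₀, hc₀, hc₁]
      refine Dvd.dvd.mul_right (Dvd.dvd.mul_right ?_ _) _
      have : lam ^ (n - 1) * (lam * c₁) = lam ^ n * c₁ := by
        obtain ⟨k, rfl⟩ : ∃ k, n = k + 1 := ⟨n - 1, by omega⟩
        simp only [Nat.add_sub_cancel]; ring
      rw [this, mul_pow, ← pow_mul]
      exact Dvd.intro _ rfl
    have h13 : lam ^ (n * p) ∣ lam ^ ((n - 1) * p) * c ^ p := by
      have : (u : R) * (lam ^ (n - 1) * c) ^ p = (lam ^ ((n - 1) * p) * c ^ p) * u := by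
        rw [mul_pow, ← pow_mul]; ring
      rw [this] at h12
      exact (Units.dvd_mul_right).mp h12
    have h14 : lam ^ p ∣ c ^ p := by
      have : lam ^ (n * p) = lam ^ ((n - 1) * p) * lam ^ p := by
        rw [← pow_add]; congr 1
        obtain ⟨k, rfl⟩ : ∃ k, n = k + 1 := ⟨n - 1, by omega⟩
        simp only [Nat.add_sub_cancel]; ring
      rw [this] at h13
      exact (mul_dvd_mul_iff_left (pow_ne_zero _ hlam.ne_zero)).mp h13
    exact hc (hlam.dvd_of_dvd_pow (dvd_trans (dvd_pow_self lam hpos.ne') h14))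
  -- the linear relation between three of the quotients
  have hrel : x η * (1 + η) - x (η ^ 2) = η * x 1 := by
    apply mul_left_cancel₀ hlam.ne_zero
    have e1 : lam * (x η * (1 + η) - x (η ^ 2)) = (lam * x η) * (1 + η) - lam * x (η ^ 2) := by
      ring
    have e2 : lam * (η * x 1) = η * (lam * x 1) := by ring
    rw [e1, e2, ← hx η hημ, ← hx (η ^ 2) hη2μ, ← hx 1 h1μ]; ring
  -- units
  have hwu : IsUnit (1 + η) := by
    have hcop2 : (2 : ℕ).Coprime p := by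
      rw [Nat.coprime_comm]
      exact (Nat.coprime_primes hp Nat.prime_two).mpr hp2
    have := hη.geom_sum_isUnit hp.two_le hcop2
    simpa [Finset.sum_range_succ] using this
  obtain ⟨w, hw⟩ := hwu
  obtain ⟨ηu, hηu⟩ := hη.isUnit hpos.ne'
  set E : Rˣ := e₁ * w with hE
  set κ : Rˣ := -(e₂ * E⁻¹) with hκ
  set u' : Rˣ := ηu * e₀ * E⁻¹ with hu'
  have hEinv : ((E⁻¹ : Rˣ) : R) * (E : R) = 1 := Units.inv_mul E
  have hkey : r₁ ^ p + (κ : R) * r₂ ^ p = (u' : R) * (lam ^ (n - 1) * c₀) ^ p := by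
    have e1 : r₁ ^ p + (κ : R) * r₂ ^ p =
        ((E⁻¹ : Rˣ) : R) * (r₁ ^ p * e₁ * (1 + η) - r₂ ^ p * e₂) := by
      rw [hκ, Units.val_neg, Units.val_mul, ← hw]
      have : (E : R) = e₁ * w := by rw [hE, Units.val_mul]
      linear_combination (-(r₁ ^ p)) * hEinv + (r₁ ^ p * ((E⁻¹ : Rˣ) : R)) * this
    rw [e1, he₁, he₂, hrel, ← he₀, hc₀, hu', Units.val_mul, Units.val_mul, hηu]
    ring
  -- Kummer's lemma applies to `κ`
  have hn1' : 1 ≤ n - 1 := by omega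
  have hpdvd : (p : R) ∣ (lam ^ (n - 1) * c₀) ^ p := by
    have h15 : (p : R) ∣ lam ^ (p - 1) := hassoc.symm.dvd
    have h16 : lam ^ (p - 1) ∣ lam ^ ((n - 1) * p) := by
      apply pow_dvd_pow
      calc p - 1 ≤ p := Nat.sub_le _ _
        _ = 1 * p := (one_mul p).symm
        _ ≤ (n - 1) * p := Nat.mul_le_mul_right p hn1'
    rw [mul_pow, ← pow_mul]
    exact Dvd.dvd.mul_right (dvd_trans h15 h16) _
  obtain ⟨m₁, hm₁⟩ := hpow r₁
  obtain ⟨m₂, hm₂⟩ := hpow r₂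
  have hpd2 : (p : R) ∣ (m₁ : R) + κ * m₂ := by
    have : (m₁ : R) + κ * m₂ = (r₁ ^ p + (κ : R) * r₂ ^ p) - (r₁ ^ p - m₁) - κ * (r₂ ^ p - m₂) := by
      ring
    rw [this, hkey]
    exact dvd_sub (dvd_sub (Dvd.dvd.mul_left hpdvd _) hm₁) (Dvd.dvd.mul_left hm₂ _)
  have hlamp : lam ∣ (p : R) := by
    refine dvd_trans (dvd_pow_self lam ?_) hassoc.dvd
    omega
  have hm₂' : ¬ (p : ℤ) ∣ m₂ := by
    intro hd
    have h17 : (p : R) ∣ (m₂ : R) := by
      have := map_dvd (Int.castRingHom R) hd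
      simpa using this
    have h18 : (p : R) ∣ r₂ ^ p := by
      have : r₂ ^ p = (r₂ ^ p - m₂) + m₂ := by ring
      rw [this]; exact dvd_add hm₂ h17
    have h19 : lam ∣ r₂ := hlam.dvd_of_dvd_pow (dvd_trans hlamp h18)
    apply hxne (η ^ 2) hη2μ hη21
    rw [← he₂]
    exact Dvd.dvd.mul_right (dvd_pow h19 hpos.ne') _
  have hcopZ : IsCoprime (p : ℤ) m₂ :=
    (Nat.prime_iff_prime_int.mp hp).irreducible.coprime_iff_not_dvd.mpr hm₂'
  obtain ⟨s, t, hst⟩ := hcopZ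
  have hstR : (s : R) * (p : R) + (t : R) * (m₂ : R) = 1 := by
    have := congrArg (Int.cast : ℤ → R) hst
    push_cast at this
    exact this
  obtain ⟨v, hv⟩ := hK κ ⟨-(t * m₁), by
    obtain ⟨q, hq⟩ := hpd2
    refine ⟨(κ : R) * s + t * q, ?_⟩
    push_cast
    linear_combination (-(κ : R)) * hstR + (t : R) * hq⟩
  refine ⟨r₁, v * r₂, c₀, u', ?_, hc₀', ?_⟩
  · have h20 : IsCoprime (x η) (x (η ^ 2)) := hcop η hημ (η ^ 2) hη2μ (Ne.symm hη2η)
    rw [← he₁, ← he₂] at h20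
    have h21 : IsCoprime r₁ r₂ :=
      (h20.of_isCoprime_of_dvd_left (Dvd.dvd.mul_right (dvd_pow_self r₁ hpos.ne') _)
        ).of_isCoprime_of_dvd_right (Dvd.dvd.mul_right (dvd_pow_self r₂ hpos.ne') _)
    exact (isCoprime_mul_unit_left_right v.isUnit r₁ r₂).mpr h21
  · rw [mul_pow, ← Units.val_pow_eq_pow_val, ← hv, hkey]


/-- Case II of Fermat's Last Theorem (Kummer's descent) in an abstract principal ideal domain
with the arithmetic of the `p`-th cyclotomic integers. -/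
theorem h28_noSol [IsPrincipalIdealRing R] (hp : p.Prime) (hp2 : p ≠ 2)
    (hη : IsPrimitiveRoot η p) (hlam : Prime (η - 1))
    (hassoc : Associated ((η - 1) ^ (p - 1)) (p : R))
    (hcard : Nat.card (R ⧸ Ideal.span {η - 1}) = p)
    (hpow : ∀ x : R, ∃ m : ℤ, (p : R) ∣ x ^ p - m)
    (hK : ∀ u : Rˣ, (∃ m : ℤ, (p : R) ∣ (u : R) - m) → ∃ v : Rˣ, u = v ^ p) :
    ∀ n : ℕ, 1 ≤ n → ∀ (a b c : R) (u : Rˣ), IsCoprime a b → ¬ η - 1 ∣ c →
      a ^ p + b ^ p ≠ u * ((η - 1) ^ n * c) ^ p := by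
  intro n
  induction n with
  | zero => intro h; omega
  | succ k ih =>
    intro _ a b c u hab hc h
    obtain ⟨b', hab', h', hsq⟩ :=
      h28_wlog hp hp2 hη hlam hcard (Nat.succ_le_succ (Nat.zero_le k)) hab h
    obtain ⟨hk2, a'', b'', c'', u'', hab'', hc'', h''⟩ :=
      h28_step hp hp2 hη hlam hassoc hpow hK (Nat.succ_le_succ (Nat.zero_le k)) hab' hc h' hsq
    exact ih (by omega) a'' b'' c'' u'' hab'' hc'' (by simpa using h'')

end Abstract

section Cyclo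

open NumberField

variable {p : ℕ} [hp : Fact p.Prime] {K : Type*} [Field K] [NumberField K]
  [IsCyclotomicExtension {p} ℚ K] {ζ : K} (hζ : IsPrimitiveRoot ζ p)

include hζ in
/-- Every `p`-th power in the cyclotomic integers is congruent to a rational integer mod `p`. -/
theorem h28_exists_int_sub_pow_dvd (x : 𝓞 K) : ∃ m : ℤ, (p : 𝓞 K) ∣ x ^ p - m := by
  have htop : Algebra.adjoin ℤ {hζ.toInteger} = ⊤ := by
    rw [← hζ.integralPowerBasis_gen]
    exact hζ.integralPowerBasis.adjoin_gen_eq_top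
  have hx : x ∈ Algebra.adjoin ℤ {hζ.toInteger} := by rw [htop]; trivial
  induction hx using Algebra.adjoin_induction with
  | mem y hy =>
    rw [Set.mem_singleton_iff] at hy
    refine ⟨1, ?_⟩
    rw [hy, hζ.toInteger_isPrimitiveRoot.pow_eq_one]
    simp
  | algebraMap n =>
    refine ⟨n ^ p, ?_⟩
    simp
  | add y z _ _ hy hz =>
    obtain ⟨m, hm⟩ := hy
    obtain ⟨n, hn⟩ := hz
    obtain ⟨r, hr⟩ := exists_add_pow_prime_eq hp.out y z
    refine ⟨m + n, ?_⟩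
    rw [hr]
    have : y ^ p + z ^ p + (p : 𝓞 K) * y * z * r - ((m + n : ℤ) : 𝓞 K) =
        (y ^ p - m) + (z ^ p - n) + (p : 𝓞 K) * (y * z * r) := by
      push_cast; ring
    rw [this]
    exact dvd_add (dvd_add hm hn) (dvd_mul_right _ _)
  | mul y z _ _ hy hz =>
    obtain ⟨m, hm⟩ := hy
    obtain ⟨n, hn⟩ := hz
    refine ⟨m * n, ?_⟩
    have : (y * z) ^ p - ((m * n : ℤ) : 𝓞 K) = (y ^ p - m) * z ^ p + m * (z ^ p - n) := by
      push_cast; ring
    rw [this]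
    exact dvd_add (Dvd.dvd.mul_right hm _) (Dvd.dvd.mul_left hn _)

include hζ in
theorem h28_card_quot : Nat.card (𝓞 K ⧸ Ideal.span {hζ.toInteger - 1}) = p := by
  rw [← Submodule.cardQuot_apply, ← Ideal.absNorm_apply]
  have hK : IsCyclotomicExtension {p ^ (0 + 1)} ℚ K := by rwa [zero_add, pow_one]
  have hζ' : IsPrimitiveRoot ζ (p ^ (0 + 1)) := by rwa [zero_add, pow_one]
  exact IsCyclotomicExtension.Rat.absNorm_span_zeta_sub_one p 0 hζ'

/-- Case II of Fermat's Last Theorem in the `p`-th cyclotomic integers, assuming that they form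
a principal ideal domain and that Kummer's lemma holds. -/
theorem h28_caseII_cyclo (hp2 : p ≠ 2) [IsPrincipalIdealRing (𝓞 K)]
    (hK : ∀ u : (𝓞 K)ˣ, (∃ m : ℤ, (p : 𝓞 K) ∣ (u : 𝓞 K) - m) → ∃ v : (𝓞 K)ˣ, u = v ^ p) :
    ∀ n : ℕ, 1 ≤ n → ∀ (a b c : 𝓞 K) (u : (𝓞 K)ˣ), IsCoprime a b → ¬ hζ.toInteger - 1 ∣ c →
      a ^ p + b ^ p ≠ u * ((hζ.toInteger - 1) ^ n * c) ^ p :=
  h28_noSol hp.out hp2 hζ.toInteger_isPrimitiveRoot hζ.zeta_sub_one_prime'
    (IsCyclotomicExtension.Rat.associated_zeta_sub_one_pow_prime p hζ) (h28_card_quot hζ)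
    (h28_exists_int_sub_pow_dvd hζ) hK

include hζ in
/-- Integer Case II when `p ∣ c`. -/
theorem h28_caseII_int_of_dvd_c (hp2 : p ≠ 2) [IsPrincipalIdealRing (𝓞 K)]
    (hK : ∀ u : (𝓞 K)ˣ, (∃ m : ℤ, (p : 𝓞 K) ∣ (u : 𝓞 K) - m) → ∃ v : (𝓞 K)ˣ, u = v ^ p)
    {a b c : ℤ} (hab : IsCoprime a b) (h : a ^ p + b ^ p = c ^ p) (hc0 : c ≠ 0)
    (hpc : (p : ℤ) ∣ c) : False := by
  have hfin : FiniteMultiplicity (p : ℤ) c := by
    rw [Int.finiteMultiplicity_iff]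
    exact ⟨by simpa using hp.out.ne_one, hc0⟩
  obtain ⟨c₀, hc₀, hndvd⟩ := hfin.exists_eq_pow_mul_and_not_dvd
  set k := multiplicity (p : ℤ) c with hk
  have hk1 : 1 ≤ k := by
    by_contra hlt
    have hk0 : k = 0 := by omega
    rw [hk0, pow_zero, one_mul] at hc₀
    exact hndvd (hc₀ ▸ hpc)
  obtain ⟨v, hv⟩ := IsCyclotomicExtension.Rat.associated_zeta_sub_one_pow_prime p hζ
  have hcR : (c : 𝓞 K) = ((v ^ k : (𝓞 K)ˣ) : 𝓞 K) * ((hζ.toInteger - 1) ^ ((p - 1) * k) * c₀) := by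
    rw [hc₀]
    push_cast
    rw [← hv, mul_pow, ← pow_mul]
    ring
  have hndvd' : ¬ hζ.toInteger - 1 ∣ (c₀ : 𝓞 K) := by
    rwa [IsCyclotomicExtension.Rat.zeta_sub_one_dvd_intCast_iff' p hζ]
  have hn : 1 ≤ (p - 1) * k := by
    have : 1 ≤ p - 1 := by have := hp.out.two_le; omega
    exact Nat.mul_pos this hk1
  have heq : (a : 𝓞 K) ^ p + (b : 𝓞 K) ^ p =
      (((v ^ k) ^ p : (𝓞 K)ˣ) : 𝓞 K) * ((hζ.toInteger - 1) ^ ((p - 1) * k) * c₀) ^ p := by
    have := congrArg (Int.cast : ℤ → 𝓞 K) h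
    push_cast at this
    rw [this, hcR, mul_pow]
    push_cast
    ring
  exact h28_caseII_cyclo hζ hp2 hK _ hn a b c₀ _ hab.intCast hndvd' heq

include hζ in
/-- Integer Case II: no coprime solution of `a ^ p + b ^ p = c ^ p` with `p ∣ a * b * c`. -/
theorem h28_caseII_int (hp2 : p ≠ 2) [IsPrincipalIdealRing (𝓞 K)]
    (hK : ∀ u : (𝓞 K)ˣ, (∃ m : ℤ, (p : 𝓞 K) ∣ (u : 𝓞 K) - m) → ∃ v : (𝓞 K)ˣ, u = v ^ p)
    {a b c : ℤ} (hab : IsCoprime a b) (h : a ^ p + b ^ p = c ^ p) (habc : a * b * c ≠ 0)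
    (hdvd : (p : ℤ) ∣ a * b * c) : False := by
  have hodd : Odd p := hp.out.odd_of_ne_two hp2
  have hpos : 0 < p := hp.out.pos
  have hpZ : Prime (p : ℤ) := Nat.prime_iff_prime_int.mp hp.out
  have ha0 : a ≠ 0 := fun h0 => habc (by rw [h0]; ring)
  have hb0 : b ≠ 0 := fun h0 => habc (by rw [h0]; ring)
  have hc0 : c ≠ 0 := fun h0 => habc (by rw [h0]; ring)
  -- `b` and `c` are coprime, `a` and `c` are coprime
  have hbc : IsCoprime c b := by
    refine isCoprime_of_prime_dvd (fun h0 => hc0 h0.1) (fun z hz hzc hzb => ?_)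
    have hza : z ∣ a := by
      have : z ∣ a ^ p := by
        have e : a ^ p = c ^ p - b ^ p := by rw [← h]; ring
        rw [e]
        exact dvd_sub (dvd_pow hzc hpos.ne') (dvd_pow hzb hpos.ne')
      exact hz.dvd_of_dvd_pow this
    exact hz.not_isUnit (hab.isUnit_of_dvd' hza hzb)
  have hac : IsCoprime a c := by
    refine isCoprime_of_prime_dvd (fun h0 => hc0 h0.2) (fun z hz hza hzc => ?_)
    have hzb : z ∣ b := by
      have : z ∣ b ^ p := by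
        have e : b ^ p = c ^ p - a ^ p := by rw [← h]; ring
        rw [e]
        exact dvd_sub (dvd_pow hzc hpos.ne') (dvd_pow hza hpos.ne')
      exact hz.dvd_of_dvd_pow this
    exact hz.not_isUnit (hab.isUnit_of_dvd' hza hzb)
  rcases hpZ.dvd_or_dvd hdvd with hd | hd
  · rcases hpZ.dvd_or_dvd hd with hd | hd
    · -- `p ∣ a`
      have e : (-c) ^ p + b ^ p = (-a) ^ p := by
        rw [hodd.neg_pow, hodd.neg_pow, ← h]; ring
      exact h28_caseII_int_of_dvd_c hζ hp2 hK hbc.neg_left e (neg_ne_zero.mpr ha0)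
        ((dvd_neg).mpr hd)
    · -- `p ∣ b`
      have e : a ^ p + (-c) ^ p = (-b) ^ p := by
        rw [hodd.neg_pow, hodd.neg_pow, ← h]; ring
      exact h28_caseII_int_of_dvd_c hζ hp2 hK hac.neg_right e (neg_ne_zero.mpr hb0)
        ((dvd_neg).mpr hd)
  · exact h28_caseII_int_of_dvd_c hζ hp2 hK hab h hc0 hd

end Cyclo

end Fermat.Agent.FLTP
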