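import Mathlib
import Fermat.Agent.FLTP.KummerGen

namespace Fermat.Agent.FLTP

open Polynomial NumberField

section abstract

theorem h30_exists_pow_eq_of_linearIndependent {p : ℕ} [Fact p.Prime] {E V : Type*} [CommGroup E]
    [AddCommGroup V] [Module (ZMod p) V] {m : ℕ} (gen : Fin m → E)
    (hgen : Subgroup.closure (Set.range gen) = ⊤) (Ψ : E →* Multiplicative V) (g : Fin m → E)
    (hg : LinearIndependent (ZMod p) fun j => Multiplicative.toAdd (Ψ (g j))) (u : E)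
    (hu : Ψ u = 1) : ∃ v : E, u = v ^ p := by
  classical
  have hex : ∀ x : E, ∃ a : Fin m → ℤ, x = ∏ i, gen i ^ a i := fun x =>
    Subgroup.exists_of_mem_closure_range gen x (hgen ▸ Subgroup.mem_top x)
  let Lc : (Fin m → ZMod p) →ₗ[ZMod p] V :=
    Fintype.linearCombination (ZMod p) fun i => Multiplicative.toAdd (Ψ (gen i))
  have hLc : ∀ (x : E) (a : Fin m → ℤ), x = ∏ i, gen i ^ a i →
      Multiplicative.toAdd (Ψ x) = Lc fun i => (a i : ZMod p) := by
    intro x a hx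
    rw [hx, map_prod, toAdd_prod, Fintype.linearCombination_apply]
    refine Finset.sum_congr rfl fun i _ => ?_
    rw [map_zpow, toAdd_zpow, Int.cast_smul_eq_zsmul]
  choose e he using fun j => hex (g j)
  let cj : Fin m → (Fin m → ZMod p) := fun j i => (e j i : ZMod p)
  have hcj : LinearIndependent (ZMod p) cj := by
    apply LinearIndependent.of_comp Lc
    have : (Lc ∘ cj) = fun j => Multiplicative.toAdd (Ψ (g j)) := by
      funext j
      exact (hLc (g j) (e j) (he j)).symm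
    rw [this]
    exact hg
  have hspan : Submodule.span (ZMod p) (Set.range cj) = ⊤ :=
    hcj.span_eq_top_of_card_eq_finrank' (by simp)
  obtain ⟨a, ha⟩ := hex u
  have hmem : (fun i => (a i : ZMod p)) ∈ Submodule.span (ZMod p) (Set.range cj) := by
    rw [hspan]; exact Submodule.mem_top
  obtain ⟨t, ht⟩ := (Submodule.mem_span_range_iff_exists_fun (ZMod p)).mp hmem
  have h0 : Lc (fun i => (a i : ZMod p)) = 0 := by
    rw [← hLc u a ha, hu]; rfl
  have h1 : ∑ j, t j • Multiplicative.toAdd (Ψ (g j)) = 0 := by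
    rw [← h0, ← ht, map_sum]
    refine Finset.sum_congr rfl fun j _ => ?_
    rw [map_smul, hLc (g j) (e j) (he j)]
  have ht0 : ∀ j, t j = 0 := Fintype.linearIndependent_iff.mp hg t h1
  have ha0 : ∀ i, (a i : ZMod p) = 0 := by
    intro i
    have := congrFun ht i
    simp only [ht0, zero_smul, Finset.sum_const_zero] at this
    simpa using this.symm
  have hdvd : ∀ i, (p : ℤ) ∣ a i := fun i =>
    (ZMod.intCast_zmod_eq_zero_iff_dvd (a i) p).mp (ha0 i)
  choose b hb using hdvd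
  refine ⟨∏ i, gen i ^ b i, ?_⟩
  rw [ha, ← Finset.prod_pow]
  refine Finset.prod_congr rfl fun i _ => ?_
  rw [hb i, mul_comm, zpow_mul, zpow_natCast]

theorem h30_linearIndependent_of_sum {R M : Type*} [Ring R] [AddCommGroup M] [Module R M]
    (m : ℕ) (w : ℕ → M)
    (h : ∀ c : ℕ → R, ∑ a ∈ Finset.Icc 1 m, c a • w a = 0 → ∀ a ∈ Finset.Icc 1 m, c a = 0) :
    LinearIndependent R (fun j : Fin m => w (j + 1)) := by
  rw [Fintype.linearIndependent_iff]
  intro t ht j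
  let c : ℕ → R := fun a => if h : a - 1 < m then t ⟨a - 1, h⟩ else 0
  have hc : ∀ j : Fin m, c (j + 1) = t j := by
    intro j
    simp [c]
  have hsum : ∑ a ∈ Finset.Icc 1 m, c a • w a = 0 := by
    rw [← ht]
    have h1 : ∑ j : Fin m, t j • w (j + 1) = ∑ i ∈ Finset.range m, c (i + 1) • w (i + 1) := by
      rw [← Fin.sum_univ_eq_sum_range (fun i => c (i + 1) • w (i + 1)) m]
      refine Finset.sum_congr rfl fun j _ => ?_
      rw [hc]
    rw [h1, Finset.range_eq_Ico, Finset.sum_Ico_add' (fun a => c a • w a) 0 m 1]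
    rfl
  have := h c hsum (j + 1) (by rw [Finset.mem_Icc]; omega)
  rw [hc] at this
  exact this

end abstract

section dlog

variable (p : ℕ) [Fact p.Prime]

abbrev h30A : Type := (ZMod p)[X] ⧸ Ideal.span {(X : (ZMod p)[X]) ^ (p - 2)}

abbrev h30T : Type := TrivSqZeroExt (h30A p) (h30A p)

noncomputable abbrev h30mk : (ZMod p)[X] →+* h30A p :=
  Ideal.Quotient.mk (Ideal.span {(X : (ZMod p)[X]) ^ (p - 2)})

theorem h30_natCast_A : (p : h30A p) = 0 := by
  have h : ((p : (ZMod p)[X])) = 0 := by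
    rw [← map_natCast (C : ZMod p →+* (ZMod p)[X]), ZMod.natCast_self, map_zero]
  rw [← map_natCast (h30mk p), h, map_zero]

theorem h30_mk_X_pow : (h30mk p X) ^ (p - 2) = 0 := by
  rw [← map_pow]
  exact Ideal.Quotient.eq_zero_iff_mem.mpr (Ideal.subset_span rfl)

theorem h30_natCast_T : (p : h30T p) = 0 := by
  apply TrivSqZeroExt.ext
  · rw [TrivSqZeroExt.fst_natCast, h30_natCast_A]; rfl
  · rw [TrivSqZeroExt.snd_natCast]; rfl

noncomputable def h30y : h30T p :=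
  TrivSqZeroExt.inl (h30mk p (1 + X)) + TrivSqZeroExt.inr (h30mk p (1 + X))

theorem h30_y_sub_one_pow : (h30y p - 1) ^ (p - 1) = 0 := by
  have hp : p.Prime := Fact.out
  have h2 : 2 ≤ p := hp.two_le
  have hfst : (h30y p - 1).fst = h30mk p X := by
    simp [h30y]
  apply TrivSqZeroExt.ext
  · rw [TrivSqZeroExt.fst_pow, hfst]
    have : p - 1 = (p - 2) + 1 := by omega
    rw [this, pow_succ, h30_mk_X_pow, zero_mul]; rfl
  · rw [TrivSqZeroExt.snd_pow, hfst]
    have : (p - 1).pred = p - 2 := by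
      rw [Nat.pred_eq_sub_one]; omega
    rw [this, h30_mk_X_pow]
    simp

theorem h30_cyclotomic_zmod : cyclotomic p (ZMod p) = (X - 1) ^ (p - 1) := by
  have h := cyclotomic_mul_prime_pow_eq (ZMod p) (p := p) (m := 1)
    (by simpa using (Fact.out : p.Prime).one_lt.ne') (k := 1) one_pos
  simpa using h

theorem h30_aeval_y : aeval (h30y p) (cyclotomic p ℤ) = 0 := by
  let f : ZMod p →+* h30T p :=
    (TrivSqZeroExt.inlHom (h30A p) (h30A p)).comp (algebraMap (ZMod p) (h30A p))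
  have h1 : aeval (h30y p) (cyclotomic p ℤ) = eval (h30y p) (cyclotomic p (h30T p)) := by
    rw [aeval_def, eval₂_eq_eval_map, map_cyclotomic]
  rw [h1, ← map_cyclotomic p f, h30_cyclotomic_zmod]
  rw [Polynomial.map_pow, Polynomial.map_sub, Polynomial.map_X, Polynomial.map_one]
  rw [eval_pow (R := h30T p), eval_sub, eval_X, eval_one]
  exact h30_y_sub_one_pow p

variable (K : Type) [Field K] [NumberField K] [IsCyclotomicExtension {p} ℚ K]

theorem h30_zeta_spec : IsPrimitiveRoot (IsCyclotomicExtension.zeta p ℚ K) p :=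
  IsCyclotomicExtension.zeta_spec p ℚ K

noncomputable def h30ζ : 𝓞 K := (h30_zeta_spec p K).toInteger

theorem h30_minpoly_gen :
    minpoly ℤ (h30_zeta_spec p K).integralPowerBasis.gen = cyclotomic p ℤ := by
  rw [IsPrimitiveRoot.integralPowerBasis_gen, ← RingOfIntegers.minpoly_coe]
  exact (cyclotomic_eq_minpoly (h30_zeta_spec p K) (Fact.out : p.Prime).pos).symm

theorem h30_aeval_y_minpoly :
    aeval (h30y p) (minpoly ℤ (h30_zeta_spec p K).integralPowerBasis.gen) = 0 := by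
  rw [h30_minpoly_gen]
  exact h30_aeval_y p

noncomputable def h30Θ : 𝓞 K →ₐ[ℤ] h30T p :=
  (h30_zeta_spec p K).integralPowerBasis.lift (h30y p) (h30_aeval_y_minpoly p K)

theorem h30Θ_ζ : h30Θ p K (h30ζ p K) = h30y p := by
  have h := PowerBasis.lift_gen (h30_zeta_spec p K).integralPowerBasis (h30y p)
    (h30_aeval_y_minpoly p K)
  rw [IsPrimitiveRoot.integralPowerBasis_gen] at h
  exact h

theorem h30Θ_units_fst (u : (𝓞 K)ˣ) :
    (h30Θ p K (u : 𝓞 K)).fst * (h30Θ p K ((u⁻¹ : (𝓞 K)ˣ) : 𝓞 K)).fst = 1 := by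
  have h : h30Θ p K (u : 𝓞 K) * h30Θ p K ((u⁻¹ : (𝓞 K)ˣ) : 𝓞 K) = 1 := by
    rw [← map_mul, ← Units.val_mul, mul_inv_cancel, Units.val_one, map_one]
  have h2 := congrArg TrivSqZeroExt.fst h
  rw [TrivSqZeroExt.fst_mul] at h2
  exact h2

noncomputable def h30dlog : (𝓞 K)ˣ →* Multiplicative (h30A p) where
  toFun u := Multiplicative.ofAdd
    ((h30Θ p K (u : 𝓞 K)).snd * (h30Θ p K ((u⁻¹ : (𝓞 K)ˣ) : 𝓞 K)).fst)
  map_one' := by
    simp
  map_mul' u v := by
    rw [← ofAdd_add]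
    congr 1
    have hu := h30Θ_units_fst p K u
    have hv := h30Θ_units_fst p K v
    rw [mul_inv, Units.val_mul, Units.val_mul, map_mul, map_mul, TrivSqZeroExt.snd_mul,
      TrivSqZeroExt.fst_mul]
    simp only [smul_eq_mul, MulOpposite.smul_eq_mul_unop, MulOpposite.unop_op]
    linear_combination
      ((h30Θ p K (v : 𝓞 K)).snd * (h30Θ p K ((v⁻¹ : (𝓞 K)ˣ) : 𝓞 K)).fst) * hu +
      ((h30Θ p K (u : 𝓞 K)).snd * (h30Θ p K ((u⁻¹ : (𝓞 K)ˣ) : 𝓞 K)).fst) * hv

theorem h30dlog_apply (u : (𝓞 K)ˣ) :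
    Multiplicative.toAdd (h30dlog p K u) =
      (h30Θ p K (u : 𝓞 K)).snd * (h30Θ p K ((u⁻¹ : (𝓞 K)ˣ) : 𝓞 K)).fst := rfl

theorem h30dlog_mul_fst (u : (𝓞 K)ˣ) :
    (h30Θ p K (u : 𝓞 K)).fst * Multiplicative.toAdd (h30dlog p K u) = (h30Θ p K (u : 𝓞 K)).snd := by
  rw [h30dlog_apply]
  linear_combination (h30Θ p K (u : 𝓞 K)).snd * h30Θ_units_fst p K u

theorem h30dlog_eq_one_of_int (u : (𝓞 K)ˣ) (n : ℤ) (h : (p : 𝓞 K) ∣ (u : 𝓞 K) - n) :
    h30dlog p K u = 1 := by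
  obtain ⟨r, hr⟩ := h
  have hu : (u : 𝓞 K) = n + p * r := by rw [← hr]; ring
  have h1 : h30Θ p K (u : 𝓞 K) = (n : h30T p) := by
    rw [hu, map_add, map_mul, map_intCast, map_natCast, h30_natCast_T, zero_mul, add_zero]
  have h2 : (h30Θ p K (u : 𝓞 K)).snd = 0 := by
    rw [h1, TrivSqZeroExt.snd_intCast]
  apply Multiplicative.toAdd.injective
  rw [h30dlog_apply, h2, zero_mul]
  rfl

theorem h30_fst_y_pow (i : ℕ) : (h30y p ^ i).fst = h30mk p ((1 + X) ^ i) := by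
  rw [TrivSqZeroExt.fst_pow, map_pow]
  simp [h30y]

theorem h30_snd_y_pow (i : ℕ) :
    (h30y p ^ i).snd = h30mk p ((i : (ZMod p)[X]) * (1 + X) ^ i) := by
  rw [TrivSqZeroExt.snd_pow, map_mul, map_natCast, map_pow]
  have hf : (h30y p).fst = h30mk p (1 + X) := by simp [h30y]
  have hs : (h30y p).snd = h30mk p (1 + X) := by simp [h30y]
  rw [hf, hs]
  cases i with
  | zero => simp
  | succ j =>
    rw [Nat.pred_succ, smul_eq_mul, ← pow_succ, nsmul_eq_mul]

theorem h30Θ_geom_fst (a : ℕ) :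
    (h30Θ p K (∑ i ∈ Finset.range a, h30ζ p K ^ i)).fst =
      h30mk p (∑ i ∈ Finset.range a, (1 + X) ^ i) := by
  rw [map_sum, map_sum]
  have : ∀ x : Finset ℕ, (∑ i ∈ x, h30Θ p K (h30ζ p K ^ i)).fst =
      ∑ i ∈ x, (h30Θ p K (h30ζ p K ^ i)).fst := by
    intro x
    exact map_sum (TrivSqZeroExt.fstHom (h30A p) (h30A p) (h30A p)) _ _
  rw [this]
  refine Finset.sum_congr rfl fun i _ => ?_
  rw [map_pow, h30Θ_ζ, h30_fst_y_pow]

theorem h30Θ_geom_snd (a : ℕ) :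
    (h30Θ p K (∑ i ∈ Finset.range a, h30ζ p K ^ i)).snd =
      h30mk p (∑ i ∈ Finset.range a, (i : (ZMod p)[X]) * (1 + X) ^ i) := by
  rw [map_sum, map_sum]
  have : ∀ x : Finset ℕ, (∑ i ∈ x, h30Θ p K (h30ζ p K ^ i)).snd =
      ∑ i ∈ x, (h30Θ p K (h30ζ p K ^ i)).snd := by
    intro x
    exact map_sum (TrivSqZeroExt.sndHom (h30A p) (h30A p)) _ _
  rw [this]
  refine Finset.sum_congr rfl fun i _ => ?_
  rw [map_pow, h30Θ_ζ, h30_snd_y_pow]

theorem h30ζ_isUnit : IsUnit (h30ζ p K) :=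
  (h30_zeta_spec p K).toInteger_isPrimitiveRoot.isUnit (Fact.out : p.Prime).ne_zero

theorem h30_geom_isUnit (a : ℕ) (ha1 : 1 ≤ a) (hap : a < p) :
    IsUnit (∑ i ∈ Finset.range a, h30ζ p K ^ i) := by
  have hp : p.Prime := Fact.out
  refine (h30_zeta_spec p K).toInteger_isPrimitiveRoot.geom_sum_isUnit hp.two_le ?_
  exact (Nat.coprime_comm.mp ((Nat.Prime.coprime_iff_not_dvd hp).mpr
    (Nat.not_dvd_of_pos_of_lt ha1 hap)))

open Classical in
noncomputable def h30G (a : ℕ) : (𝓞 K)ˣ :=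
  if a = 1 then (h30ζ_isUnit p K).unit
  else if h : IsUnit (∑ i ∈ Finset.range a, h30ζ p K ^ i) then h.unit else 1

noncomputable def h30w (a : ℕ) : h30A p := Multiplicative.toAdd (h30dlog p K (h30G p K a))

theorem h30w_one : h30w p K 1 = 1 := by
  unfold h30w h30G
  rw [if_pos rfl, h30dlog_apply]
  have h1 : (((h30ζ_isUnit p K).unit : (𝓞 K)ˣ) : 𝓞 K) = h30ζ p K := IsUnit.unit_spec _
  have h2 := h30Θ_units_fst p K (h30ζ_isUnit p K).unit
  rw [h1, h30Θ_ζ] at h2 ⊢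
  have hs : (h30y p).snd = (h30y p).fst := by simp [h30y]
  rw [hs]
  exact h2

theorem h30w_geom (a : ℕ) (ha2 : 2 ≤ a) (hap : a < p) :
    h30mk p (∑ i ∈ Finset.range a, (1 + X) ^ i) * h30w p K a =
      h30mk p (∑ i ∈ Finset.range a, (i : (ZMod p)[X]) * (1 + X) ^ i) := by
  have hu := h30_geom_isUnit p K a (by omega) hap
  have hG : ((h30G p K a : (𝓞 K)ˣ) : 𝓞 K) = ∑ i ∈ Finset.range a, h30ζ p K ^ i := by
    unfold h30G
    rw [if_neg (by omega), dif_pos hu]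
    exact IsUnit.unit_spec _
  have h := h30dlog_mul_fst p K (h30G p K a)
  rw [hG, h30Θ_geom_fst, h30Θ_geom_snd] at h
  exact h

theorem h30_kummer_of_cert (hp : p ≠ 2)
    (hcert : ∀ w : ℕ → h30A p, w 1 = 1 →
      (∀ a ∈ Finset.Icc 2 ((p - 1) / 2),
        h30mk p (∑ i ∈ Finset.range a, (1 + X) ^ i) * w a =
          h30mk p (∑ i ∈ Finset.range a, (i : (ZMod p)[X]) * (1 + X) ^ i)) →
      LinearIndependent (ZMod p) (fun j : Fin ((p - 1) / 2) => w (j + 1)))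
    (u : (𝓞 K)ˣ) (hu : ∃ n : ℤ, (p : 𝓞 K) ∣ (u : 𝓞 K) - n) : ∃ v : (𝓞 K)ˣ, u = v ^ p := by
  have hpp : p.Prime := Fact.out
  obtain ⟨gen, hgen⟩ := exists_units_generators p hp K
  obtain ⟨n, hn⟩ := hu
  have hind := hcert (h30w p K) (h30w_one p K) (fun a ha => by
    rw [Finset.mem_Icc] at ha
    exact h30w_geom p K a ha.1 (by omega))
  exact h30_exists_pow_eq_of_linearIndependent (p := p) gen hgen (h30dlog p K)
    (fun j : Fin ((p - 1) / 2) => h30G p K (j + 1)) hind u (h30dlog_eq_one_of_int p K u n hn)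

theorem h30_kummer_of_cert_sum (hp : p ≠ 2)
    (hcert : ∀ w : ℕ → h30A p, w 1 = 1 →
      (∀ a ∈ Finset.Icc 2 ((p - 1) / 2),
        h30mk p (∑ i ∈ Finset.range a, (1 + X) ^ i) * w a =
          h30mk p (∑ i ∈ Finset.range a, (i : (ZMod p)[X]) * (1 + X) ^ i)) →
      ∀ c : ℕ → ZMod p, ∑ a ∈ Finset.Icc 1 ((p - 1) / 2), c a • w a = 0 →
        ∀ a ∈ Finset.Icc 1 ((p - 1) / 2), c a = 0)
    (u : (𝓞 K)ˣ) (hu : ∃ n : ℤ, (p : 𝓞 K) ∣ (u : 𝓞 K) - n) : ∃ v : (𝓞 K)ˣ, u = v ^ p :=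
  h30_kummer_of_cert p K hp
    (fun w h1 h2 => h30_linearIndependent_of_sum _ w (hcert w h1 h2)) u hu

end dlog

end Fermat.Agent.FLTP
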