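import Mathlib

set_option autoImplicit false

namespace Fermat.Agent.FLTP

open Module

/-- Auxiliary form of `kummer_abstract`, with the quotient `E / E^p` given abstractly. -/
theorem kummer_abstract_aux (p : ℕ) [Fact p.Prime] {E V W : Type*} [CommGroup E] [AddCommGroup V]
    [Module (ZMod p) V] [AddCommGroup W] [Module (ZMod p) W]
    (π : Additive E →+ W) (hπ : Function.Surjective π)
    (hker : ∀ x : Additive E, π x = 0 → ∃ v : Additive E, x = p • v)
    (fbar : W →+ V) (Ψ : E →* Multiplicative V)
    (hfbar : ∀ x : E, fbar (π (Additive.ofMul x)) = (Ψ x).toAdd)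
    {ι κ : Type*} [Fintype ι] [Fintype κ] (s : ι → E)
    (hs : Subgroup.closure (Set.range s) = ⊤) (g : κ → E)
    (hg : LinearIndependent (ZMod p) (fun j => (Ψ (g j)).toAdd))
    (hcard : Fintype.card ι ≤ Fintype.card κ) (u : E) (hu : Ψ u = 1) :
    ∃ v : E, u = v ^ p := by
  classical
  let fl : W →ₗ[ZMod p] V := AddMonoidHom.toZModLinearMap p fbar
  have hfl : ∀ x : E, fl (π (Additive.ofMul x)) = (Ψ x).toAdd := hfbar
  -- generators
  let b : ι → W := fun i => π (Additive.ofMul (s i))
  have hb : Submodule.span (ZMod p) (Set.range b) = ⊤ := by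
    rw [eq_top_iff]
    rintro w -
    obtain ⟨x, rfl⟩ := hπ w
    have hx : Additive.toMul x ∈ Subgroup.closure (Set.range s) := by rw [hs]; trivial
    have key : ∀ y : E, y ∈ Subgroup.closure (Set.range s) →
        π (Additive.ofMul y) ∈ Submodule.span (ZMod p) (Set.range b) := by
      intro y hy
      induction hy using Subgroup.closure_induction with
      | mem y hy =>
        obtain ⟨i, rfl⟩ := hy
        exact Submodule.subset_span ⟨i, rfl⟩
      | one => simp
      | mul y z _ _ hy hz =>
        rw [ofMul_mul, map_add]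
        exact Submodule.add_mem _ hy hz
      | inv y _ hy =>
        rw [ofMul_inv, map_neg]
        exact Submodule.neg_mem _ hy
    exact key _ hx
  have hfin : Module.Finite (ZMod p) W := by
    refine ⟨?_⟩
    rw [← hb]
    exact Submodule.fg_span (Set.finite_range b)
  have hrank : finrank (ZMod p) W ≤ Fintype.card ι := by
    rw [← finrank_top (ZMod p) W, ← hb]
    exact finrank_range_le_card b
  -- the independent family
  let c : κ → W := fun j => π (Additive.ofMul (g j))
  have hc : LinearIndependent (ZMod p) c := by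
    refine LinearIndependent.of_comp fl ?_
    have : (fl ∘ c) = fun j => (Ψ (g j)).toAdd := funext fun j => hfl (g j)
    rw [this]
    exact hg
  have hcard' : Fintype.card κ = finrank (ZMod p) W :=
    le_antisymm hc.fintype_card_le_finrank (hrank.trans hcard)
  have hcspan : Submodule.span (ZMod p) (Set.range c) = ⊤ :=
    hc.span_eq_top_of_card_eq_finrank' hcard'
  have hu' : π (Additive.ofMul u) ∈ Submodule.span (ZMod p) (Set.range c) := by
    rw [hcspan]; trivial
  obtain ⟨a, ha⟩ := (Submodule.mem_span_range_iff_exists_fun (ZMod p)).mp hu'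
  have h0 : ∑ j, a j • (Ψ (g j)).toAdd = 0 := by
    have h1 := congrArg fl ha
    rw [map_sum, hfl, hu] at h1
    simp only [map_smul, c, hfl] at h1
    exact h1
  have ha0 : ∀ j, a j = 0 := Fintype.linearIndependent_iff.mp hg a h0
  have hu0 : π (Additive.ofMul u) = 0 := by
    rw [← ha]
    simp [ha0]
  obtain ⟨v, hv⟩ := hker _ hu0
  refine ⟨Additive.toMul v, ?_⟩
  rw [← toMul_nsmul, ← hv]
  rfl

/-- Abstract counting lemma behind Kummer's lemma: if a commutative group `E` is generated by
at most as many elements as there are elements `g j` whose images under a homomorphism `Ψ` to an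
`𝔽_p`-vector space are linearly independent, then the kernel of `Ψ` consists of `p`-th powers. -/
theorem kummer_abstract (p : ℕ) [Fact p.Prime] {E V : Type*} [CommGroup E] [AddCommGroup V]
    [Module (ZMod p) V] {ι κ : Type*} [Fintype ι] [Fintype κ] (s : ι → E)
    (hs : Subgroup.closure (Set.range s) = ⊤) (Ψ : E →* Multiplicative V) (g : κ → E)
    (hg : LinearIndependent (ZMod p) (fun j => (Ψ (g j)).toAdd))
    (hcard : Fintype.card ι ≤ Fintype.card κ) (u : E) (hu : Ψ u = 1) :
    ∃ v : E, u = v ^ p := by
  -- the quotient `E / E^p`, written additively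
  let N : AddSubgroup (Additive E) := (nsmulAddMonoidHom (α := Additive E) p).range
  have hW : ∀ w : Additive E ⧸ N, p • w = 0 := by
    intro w
    induction w using QuotientAddGroup.induction_on with
    | H x =>
      rw [← QuotientAddGroup.mk_nsmul]
      exact (QuotientAddGroup.eq_zero_iff _).mpr ⟨x, rfl⟩
  let _inst : Module (ZMod p) (Additive E ⧸ N) := AddCommGroup.zmodModule hW
  let f : Additive E →+ V := MonoidHom.toAdditiveLeft Ψ
  have hf : N ≤ f.ker := by
    rintro _ ⟨x, rfl⟩
    rw [AddMonoidHom.mem_ker]
    change f (p • x) = 0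
    rw [map_nsmul]
    exact ZModModule.char_nsmul_eq_zero p (f x)
  refine kummer_abstract_aux p (QuotientAddGroup.mk' N) (QuotientAddGroup.mk'_surjective N) ?_
    (QuotientAddGroup.lift N f hf) Ψ (fun x => rfl) s hs g hg hcard u hu
  intro x hx
  obtain ⟨v, hv⟩ := (QuotientAddGroup.eq_zero_iff _).mp hx
  exact ⟨v, hv.symm⟩

end Fermat.Agent.FLTP
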