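import Mathlib
import Fermat.Agent.FLTP.KummerGen
import Fermat.Agent.FLTP.KummerAbstract
import Fermat.Agent.FLTP.H9CaseII

set_option autoImplicit false

namespace Fermat.Agent.FLTP

open NumberField

section Jets

variable {R : Type*} [CommRing R]

/-- `(c, a)` is an `n`-jet of `x` with respect to `lam`. -/
def h43_Jet (lam : R) (n : ℕ) (x : R) (c a : ℤ) : Prop :=
  ∃ s : R, x = c + a * lam ^ n + lam ^ (n + 1) * s

lemma h43_jet_iff (lam : R) (n : ℕ) (x : R) (c a : ℤ) :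
    h43_Jet lam n x c a ↔ lam ^ (n + 1) ∣ x - c - a * lam ^ n := by
  constructor
  · rintro ⟨s, hs⟩
    exact ⟨s, by rw [hs]; ring⟩
  · rintro ⟨s, hs⟩
    exact ⟨s, by linear_combination hs⟩

lemma h43_jet_mul {lam : R} {n : ℕ} (hn : 1 ≤ n) {x y : R} {c a c' a' : ℤ}
    (hx : h43_Jet lam n x c a) (hy : h43_Jet lam n y c' a') :
    h43_Jet lam n (x * y) (c * c') (a * c' + a' * c) := by
  obtain ⟨k, rfl⟩ : ∃ k, n = k + 1 := ⟨n - 1, by omega⟩
  obtain ⟨s, rfl⟩ := hx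
  obtain ⟨t, rfl⟩ := hy
  refine ⟨s * (c' + a' * lam ^ (k + 1) + lam ^ (k + 1 + 1) * t) +
    (c + a * lam ^ (k + 1)) * t + a * a' * lam ^ k, ?_⟩
  push_cast
  ring

lemma h43_jet_one (lam : R) (n : ℕ) : h43_Jet lam n (1 : R) 1 0 :=
  ⟨0, by simp⟩

lemma h43_jet_pow {lam : R} {n : ℕ} (hn : 1 ≤ n) {x : R} {c a : ℤ}
    (hx : h43_Jet lam n x c a) (k : ℕ) :
    h43_Jet lam n (x ^ (k + 1)) (c ^ (k + 1)) ((k + 1) * a * c ^ k) := by
  induction k with
  | zero => simpa using hx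
  | succ k ih =>
    have h := h43_jet_mul hn ih hx
    rw [pow_succ x (k + 1)]
    convert h using 1
    · ring
    · push_cast; ring

end Jets

section Indep

variable {R : Type*} [CommRing R] [IsDomain R] {p : ℕ} {lam : R}

/-- The key independence statement: units with jets at pairwise distinct levels are independent
modulo units congruent to a rational integer modulo `p`. -/
theorem h43_indep (hp : p.Prime) (hlam : Prime lam)
    (hpow : ∀ x : R, ∃ n : ℤ, (p : R) ∣ x ^ p - n)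
    (hassoc : Associated (lam ^ (p - 1)) (p : R))
    (hdvd : ∀ n : ℤ, lam ∣ (n : R) ↔ (p : ℤ) ∣ n)
    {ι : Type*} [Fintype ι] [DecidableEq ι] (w : ι → Rˣ) (n : ι → ℕ) (c a : ι → ℤ)
    (hinj : Function.Injective n) (h1 : ∀ i, 1 ≤ n i) (h2 : ∀ i, n i + 2 ≤ p)
    (ha : ∀ i, ¬ (p : ℤ) ∣ a i)
    (hw : ∀ i, h43_Jet lam (n i) (w i : R) (c i) (a i))
    (e : ι → ℕ) (he : ∃ k : ℤ, (p : R) ∣ (∏ i, (w i : R) ^ e i) - k) :
    ∀ i, p ∣ e i := by
  classical
  have hpZ : Prime (p : ℤ) := Nat.prime_iff_prime_int.1 hp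
  have hlam0 : lam ≠ 0 := hlam.ne_zero
  -- `lam ^ N ∣ p` for `N ≤ p - 1`
  have hlamp : ∀ N : ℕ, N + 1 ≤ p → lam ^ N ∣ (p : R) := by
    intro N hN
    exact (pow_dvd_pow lam (by omega : N ≤ p - 1)).trans hassoc.dvd
  -- units are not divisible by `lam`
  have hunit : ∀ u : R, IsUnit u → ¬ lam ∣ u := fun u hu h => hlam.not_isUnit (isUnit_of_dvd_unit h hu)
  -- if a unit is congruent to an integer mod `lam`, the integer is prime to `p`
  have hunit_int : ∀ (u : R) (k : ℤ), IsUnit u → lam ∣ u - k → ¬ (p : ℤ) ∣ k := by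
    intro u k hu hk hpk
    apply hunit u hu
    have := dvd_add hk ((hdvd k).2 hpk)
    simpa using this
  by_contra hcon
  push Not at hcon
  obtain ⟨i0, hi0⟩ := hcon
  set s : Finset ι := Finset.univ.filter (fun i => ¬ p ∣ e i) with hs
  have hsne : s.Nonempty := ⟨i0, by simp [hs, hi0]⟩
  obtain ⟨j, hjs, hjmin⟩ := Finset.exists_min_image s n hsne
  have hje : ¬ p ∣ e j := by simpa [hs] using hjs
  set N := n j with hN
  have hN1 : 1 ≤ N := h1 j
  have hN2 : N + 2 ≤ p := h2 j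
  -- all other factors are congruent to integers modulo `lam ^ (N + 1)`
  have hother : ∀ i, i ≠ j → ∃ k : ℤ, lam ^ (N + 1) ∣ (w i : R) ^ e i - k := by
    intro i hij
    by_cases hpe : p ∣ e i
    · obtain ⟨f, hf⟩ := hpe
      obtain ⟨k, hk⟩ := hpow ((w i : R) ^ f)
      refine ⟨k, ?_⟩
      rw [hf, mul_comm, pow_mul]
      exact (hlamp (N + 1) (by omega)).trans hk
    · have his : i ∈ s := by simp [hs, hpe]
      have hle : N ≤ n i := hjmin i his
      have hne : n i ≠ N := fun h => hij (hinj h)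
      have hlt : N + 1 ≤ n i := by omega
      obtain ⟨t, ht⟩ := hw i
      have hd : lam ^ (N + 1) ∣ (w i : R) - c i := by
        have e1 : (w i : R) - c i = lam ^ (n i) * (a i + lam * t) := by
          rw [ht]; ring
        rw [e1]
        exact Dvd.dvd.mul_right (pow_dvd_pow lam hlt) _
      refine ⟨c i ^ e i, ?_⟩
      push_cast
      exact hd.trans (sub_dvd_pow_sub_pow _ _ _)
  -- the product of the other factors
  have hprod : ∀ t : Finset ι, j ∉ t →
      ∃ k : ℤ, lam ^ (N + 1) ∣ (∏ i ∈ t, (w i : R) ^ e i) - k := by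
    intro t
    induction t using Finset.induction_on with
    | empty => intro _; exact ⟨1, by simp⟩
    | insert i t hit ih =>
      intro hj
      rw [Finset.mem_insert, not_or] at hj
      obtain ⟨k1, hk1⟩ := hother i (fun h => hj.1 h.symm)
      obtain ⟨k2, hk2⟩ := ih hj.2
      refine ⟨k1 * k2, ?_⟩
      rw [Finset.prod_insert hit]
      have e1 : (w i : R) ^ e i * (∏ i ∈ t, (w i : R) ^ e i) - ((k1 * k2 : ℤ) : R) =
          ((w i : R) ^ e i - k1) * (∏ i ∈ t, (w i : R) ^ e i) +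
            k1 * ((∏ i ∈ t, (w i : R) ^ e i) - k2) := by
        push_cast; ring
      rw [e1]
      exact dvd_add (Dvd.dvd.mul_right hk1 _) (Dvd.dvd.mul_left hk2 _)
  obtain ⟨C, hC⟩ := hprod (Finset.univ.erase j) (Finset.notMem_erase j _)
  set y : R := ∏ i ∈ Finset.univ.erase j, (w i : R) ^ e i with hy
  have hyunit : IsUnit y := by
    rw [hy]
    exact Finset.prod_induction _ IsUnit (fun _ _ => IsUnit.mul) isUnit_one
      (fun i _ => (Units.isUnit (w i)).pow _)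
  have hCp : ¬ (p : ℤ) ∣ C :=
    hunit_int y C hyunit ((dvd_pow_self lam (by omega : N + 1 ≠ 0)).trans hC)
  -- the distinguished factor
  obtain ⟨f, hf⟩ : ∃ f, e j = f + 1 := ⟨e j - 1, by
    have : e j ≠ 0 := fun h => hje (by simp [h])
    omega⟩
  have hxjet := h43_jet_pow hN1 (hw j) f
  have hcj : ¬ (p : ℤ) ∣ c j := by
    obtain ⟨t, ht⟩ := hw j
    refine hunit_int (w j : R) (c j) (Units.isUnit _) ?_
    have e1 : (w j : R) - c j = lam * (a j * lam ^ (N - 1) + lam ^ N * t) := by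
      rw [ht]
      have : lam ^ N = lam * lam ^ (N - 1) := by
        rw [← pow_succ']; congr 1; omega
      rw [pow_succ]
      linear_combination (a j : R) * this
    rw [e1]
    exact dvd_mul_right _ _
  set A : ℤ := (f + 1) * a j * c j ^ f with hA
  have hAp : ¬ (p : ℤ) ∣ A := by
    rw [hA]
    intro h
    rcases hpZ.dvd_or_dvd h with h | h
    · rcases hpZ.dvd_or_dvd h with h | h
      · apply hje
        rw [hf]
        exact_mod_cast h
      · exact ha j h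
    · exact hcj (hpZ.dvd_of_dvd_pow h)
  -- total product
  have htot : (∏ i, (w i : R) ^ e i) = (w j : R) ^ (f + 1) * y := by
    rw [hy, ← hf, Finset.mul_prod_erase Finset.univ (fun i => (w i : R) ^ e i) (Finset.mem_univ j)]
  obtain ⟨k, hk⟩ := he
  rw [htot] at hk
  obtain ⟨sx, hsx⟩ := hxjet
  obtain ⟨ty, hty⟩ := hC
  have hk' : lam ^ (N + 1) ∣ (w j : R) ^ (f + 1) * y - k := (hlamp (N + 1) (by omega)).trans hk
  -- `x * y = c^(f+1) * C + A * C * lam^N + lam^(N+1) * (...)`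
  have hexp : (w j : R) ^ (f + 1) * y - k =
      ((c j ^ (f + 1) * C - k : ℤ) : R) + ((A * C : ℤ) : R) * lam ^ N +
        lam ^ (N + 1) * (sx * y + ((c j : R) ^ (f + 1) + (A : R) * lam ^ N) * ty) := by
    have hy' : y = C + lam ^ (N + 1) * ty := by linear_combination hty
    rw [hsx]
    push_cast
    rw [hA]
    push_cast
    linear_combination ((c j : R) ^ (f + 1) + ((f : R) + 1) * (a j : R) * (c j : R) ^ f * lam ^ N) * hy'
  rw [hexp] at hk'
  have hk2 : lam ^ (N + 1) ∣ ((c j ^ (f + 1) * C - k : ℤ) : R) + ((A * C : ℤ) : R) * lam ^ N :=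
    (dvd_add_left (dvd_mul_right _ _)).1 hk'
  have hk3 : lam ∣ ((c j ^ (f + 1) * C - k : ℤ) : R) := by
    have h3 : lam ∣ ((c j ^ (f + 1) * C - k : ℤ) : R) + ((A * C : ℤ) : R) * lam ^ N :=
      (dvd_pow_self lam (by omega : N + 1 ≠ 0)).trans hk2
    exact (dvd_add_left (Dvd.dvd.mul_left (dvd_pow_self lam (by omega : N ≠ 0)) _)).1 h3
  have hk4 : (p : ℤ) ∣ c j ^ (f + 1) * C - k := (hdvd _).1 hk3
  have hk5 : lam ^ (N + 1) ∣ ((c j ^ (f + 1) * C - k : ℤ) : R) := by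
    obtain ⟨q, hq⟩ := hk4
    rw [hq]
    push_cast
    exact Dvd.dvd.mul_right (hlamp (N + 1) (by omega)) _
  have hk6 : lam ^ (N + 1) ∣ ((A * C : ℤ) : R) * lam ^ N := (dvd_add_right hk5).1 hk2
  have hk7 : lam ∣ ((A * C : ℤ) : R) := by
    rw [pow_succ, mul_comm ((A * C : ℤ) : R)] at hk6
    exact (mul_dvd_mul_iff_left (pow_ne_zero N hlam0)).1 hk6
  have hk8 : (p : ℤ) ∣ A * C := (hdvd _).1 hk7
  rcases hpZ.dvd_or_dvd hk8 with h | h
  · exact hAp h
  · exact hCp h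

end Indep

section Main

variable {R : Type*} [CommRing R]

/-- Units congruent to a rational integer modulo `p`. -/
def h43_intSubgroup (p : ℕ) (hp : p.Prime) (hpR : ¬ IsUnit (p : R)) : Subgroup Rˣ where
  carrier := {u | ∃ k : ℤ, (p : R) ∣ (u : R) - k}
  mul_mem' := by
    rintro u v ⟨k, hk⟩ ⟨l, hl⟩
    refine ⟨k * l, ?_⟩
    have e1 : ((u * v : Rˣ) : R) - ((k * l : ℤ) : R) = ((u : R) - k) * v + k * ((v : R) - l) := by
      push_cast; ring
    rw [e1]
    exact dvd_add (Dvd.dvd.mul_right hk _) (Dvd.dvd.mul_left hl _)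
  one_mem' := ⟨1, by simp⟩
  inv_mem' := by
    rintro u ⟨k, hk⟩
    have hpZ : Prime (p : ℤ) := Nat.prime_iff_prime_int.1 hp
    have hpk : ¬ (p : ℤ) ∣ k := by
      intro h
      apply hpR
      obtain ⟨q, hq⟩ := h
      have h2 : (p : R) ∣ (u : R) := by
        have := dvd_add hk (show (p : R) ∣ (k : R) from ⟨q, by rw [hq]; push_cast; ring⟩)
        simpa using this
      exact isUnit_of_dvd_unit h2 (Units.isUnit u)
    have hcop : IsCoprime k (p : ℤ) := (hpZ.coprime_iff_not_dvd.2 hpk).symm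
    obtain ⟨x, y, hxy⟩ := hcop
    refine ⟨x, ?_⟩
    obtain ⟨q, hq⟩ := hk
    have hxy' : (x : R) * k + y * p = 1 := by exact_mod_cast congrArg (Int.cast : ℤ → R) hxy
    refine ⟨((u⁻¹ : Rˣ) : R) * (y - q * x), ?_⟩
    have hu : (u : R) * ((u⁻¹ : Rˣ) : R) = 1 := by simp
    have hk' : (k : R) = u - p * q := by linear_combination -hq
    rw [hk'] at hxy'
    linear_combination (x : R) * hu - ((u⁻¹ : Rˣ) : R) * hxy'

lemma h43_mem_intSubgroup {p : ℕ} (hp : p.Prime) (hpR : ¬ IsUnit (p : R)) (u : Rˣ) :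
    u ∈ h43_intSubgroup p hp hpR ↔ ∃ k : ℤ, (p : R) ∣ (u : R) - k := Iff.rfl

variable [IsDomain R]

/-- Kummer's lemma from units with jets at pairwise distinct levels. -/
theorem h43_kummer_of_jets {p : ℕ} {lam : R} (hp : p.Prime) (hlam : Prime lam)
    (hpow : ∀ x : R, ∃ n : ℤ, (p : R) ∣ x ^ p - n)
    (hassoc : Associated (lam ^ (p - 1)) (p : R))
    (hdvd : ∀ n : ℤ, lam ∣ (n : R) ↔ (p : ℤ) ∣ n)
    {κ ι : Type*} [Fintype κ] [Fintype ι] [DecidableEq ι]
    (s : κ → Rˣ) (hs : Subgroup.closure (Set.range s) = ⊤)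
    (hcard : Fintype.card κ ≤ Fintype.card ι)
    (w : ι → Rˣ) (n : ι → ℕ) (c a : ι → ℤ)
    (hinj : Function.Injective n) (h1 : ∀ i, 1 ≤ n i) (h2 : ∀ i, n i + 2 ≤ p)
    (ha : ∀ i, ¬ (p : ℤ) ∣ a i)
    (hw : ∀ i, h43_Jet lam (n i) (w i : R) (c i) (a i))
    (u : Rˣ) (hu : ∃ k : ℤ, (p : R) ∣ (u : R) - k) : ∃ v : Rˣ, u = v ^ p := by
  classical
  have : Fact p.Prime := ⟨hp⟩
  have hpR : ¬ IsUnit (p : R) := by
    intro h
    have h1 : lam ∣ (p : R) :=
      (dvd_pow_self lam (by have := hp.two_le; omega : p - 1 ≠ 0)).trans hassoc.dvd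
    exact hlam.not_isUnit (isUnit_of_dvd_unit h1 h)
  let H : Subgroup Rˣ := h43_intSubgroup p hp hpR
  let H' : AddSubgroup (Additive Rˣ) := H.toAddSubgroup
  have hW : ∀ x : Additive Rˣ ⧸ H', p • x = 0 := by
    intro x
    induction x using QuotientAddGroup.induction_on with
    | H x =>
      rw [← QuotientAddGroup.mk_nsmul]
      refine (QuotientAddGroup.eq_zero_iff _).mpr ?_
      change (Additive.toMul x) ^ p ∈ H
      obtain ⟨k, hk⟩ := hpow ((Additive.toMul x : Rˣ) : R)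
      exact ⟨k, by simpa using hk⟩
  let _inst : Module (ZMod p) (Additive Rˣ ⧸ H') := AddCommGroup.zmodModule hW
  let Ψ : Rˣ →* Multiplicative (Additive Rˣ ⧸ H') :=
    AddMonoidHom.toMultiplicativeRight (QuotientAddGroup.mk' H')
  have hΨ : ∀ x : Rˣ, Ψ x = 1 ↔ x ∈ H := by
    intro x
    change Multiplicative.ofAdd (QuotientAddGroup.mk' H' (Additive.ofMul x)) = 1 ↔ _
    rw [ofAdd_eq_one, QuotientAddGroup.mk'_apply, QuotientAddGroup.eq_zero_iff]
    rfl
  refine kummer_abstract (E := Rˣ) (V := Additive Rˣ ⧸ H') p s hs Ψ w ?_ hcard u ((hΨ u).2 hu)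
  rw [Fintype.linearIndependent_iff]
  intro g hg i
  have hsum : (∑ j, g j • (Ψ (w j)).toAdd) = (Ψ (∏ j, w j ^ (g j).val)).toAdd := by
    rw [map_prod, toAdd_prod]
    refine Finset.sum_congr rfl fun j _ => ?_
    rw [map_pow, toAdd_pow]
    conv_lhs => rw [← ZMod.natCast_zmod_val (g j)]
    rw [Nat.cast_smul_eq_nsmul]
  rw [hsum] at hg
  have hmem : (∏ j, w j ^ (g j).val) ∈ H := (hΨ _).1 (by rw [← ofAdd_toAdd (Ψ _), hg]; rfl)
  obtain ⟨k, hk⟩ := hmem
  have hk' : (p : R) ∣ (∏ j, (w j : R) ^ (g j).val) - k := by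
    simpa [Units.coe_prod] using hk
  have hdiv := h43_indep hp hlam hpow hassoc hdvd w n c a hinj h1 h2 ha hw
    (fun j => (g j).val) ⟨k, hk'⟩ i
  rw [← ZMod.natCast_zmod_val (g i)]
  exact (ZMod.natCast_eq_zero_iff _ _).2 hdiv

end Main

section Cyclo

variable {p : ℕ} [hp : Fact p.Prime] {K : Type} [Field K] [NumberField K]
  [hK : IsCyclotomicExtension {p} ℚ K] {ζ : K} (hζ : IsPrimitiveRoot ζ p)

include hζ in
/-- Kummer's lemma for the `p`-th cyclotomic field from a certificate: `(p - 1) / 2` units with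
jets at pairwise distinct levels in `[1, p - 2]`. -/
theorem h43_kummer_of_levels (hp2 : p ≠ 2) {ι : Type} [Fintype ι] [DecidableEq ι]
    (hcard : (p - 1) / 2 ≤ Fintype.card ι)
    (w : ι → (𝓞 K)ˣ) (n : ι → ℕ) (c a : ι → ℤ)
    (hinj : Function.Injective n) (h1 : ∀ i, 1 ≤ n i) (h2 : ∀ i, n i + 2 ≤ p)
    (ha : ∀ i, ¬ (p : ℤ) ∣ a i)
    (hw : ∀ i, ∃ x : 𝓞 K, (w i : 𝓞 K) =
      c i + a i * (hζ.toInteger - 1) ^ (n i) + (hζ.toInteger - 1) ^ (n i + 1) * x)
    (u : (𝓞 K)ˣ) (hu : ∃ k : ℤ, (p : 𝓞 K) ∣ (u : 𝓞 K) - k) : ∃ v : (𝓞 K)ˣ, u = v ^ p := by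
  obtain ⟨s, hs⟩ := exists_units_generators p hp2 K
  exact h43_kummer_of_jets hp.out hζ.zeta_sub_one_prime' (h9_exists_int_pow_sub_dvd hζ)
    (IsCyclotomicExtension.Rat.associated_zeta_sub_one_pow_prime p hζ)
    (fun _ => IsCyclotomicExtension.Rat.zeta_sub_one_dvd_intCast_iff' p hζ)
    s hs (by simpa using hcard) w n c a hinj h1 h2 ha hw u hu

end Cyclo

end Fermat.Agent.FLTP
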