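import Mathlib
import Fermat.Agent.FLTP.H43Kummer

set_option autoImplicit false

namespace Fermat.Agent.FLTP

open NumberField

lemma h43_cert11_inv0 {R : Type*} [CommRing R] (η : R) (h : 1 + η + η ^ 2 + η ^ 3 + η ^ 4 + η ^ 5 + η ^ 6 + η ^ 7 + η ^ 8 + η ^ 9 + η ^ 10 = 0) :
    (η) * (-1 - η - η ^ 2 - η ^ 3 - η ^ 4 - η ^ 5 - η ^ 6 - η ^ 7 - η ^ 8 - η ^ 9) = 1 := by
  linear_combination (-1) * h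

lemma h43_cert11_jet0 {R : Type*} [CommRing R] (η : R) (h : 1 + η + η ^ 2 + η ^ 3 + η ^ 4 + η ^ 5 + η ^ 6 + η ^ 7 + η ^ 8 + η ^ 9 + η ^ 10 = 0) :
    η = (((1) : ℤ) : R) + (((1) : ℤ) : R) * (η - 1) ^ 1 +
      (η - 1) ^ (1 + 1) * (0) := by
  push_cast
  linear_combination (0) * h

lemma h43_cert11_inv1 {R : Type*} [CommRing R] (η : R) (h : 1 + η + η ^ 2 + η ^ 3 + η ^ 4 + η ^ 5 + η ^ 6 + η ^ 7 + η ^ 8 + η ^ 9 + η ^ 10 = 0) :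
    (-1 - η ^ 2 + η ^ 3 + η ^ 5 + η ^ 6 + η ^ 8 - η ^ 9) * (2 - 3 * η ^ 2 - 3 * η ^ 3 - η ^ 4 + η ^ 5 + η ^ 6 - η ^ 7 - 3 * η ^ 8 - 3 * η ^ 9) = 1 := by
  linear_combination (-3 + 3 * η + η ^ 2 + 4 * η ^ 3 - η ^ 4 - 3 * η ^ 5 - 2 * η ^ 6 - 3 * η ^ 7 + 3 * η ^ 8) * h

lemma h43_cert11_jet1 {R : Type*} [CommRing R] (η : R) (h : 1 + η + η ^ 2 + η ^ 3 + η ^ 4 + η ^ 5 + η ^ 6 + η ^ 7 + η ^ 8 + η ^ 9 + η ^ 10 = 0) :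
    -1 - η ^ 2 + η ^ 3 + η ^ 5 + η ^ 6 + η ^ 8 - η ^ 9 = (((1) : ℤ) : R) + (((-3) : ℤ) : R) * (η - 1) ^ 2 +
      (η - 1) ^ (2 + 1) * (-5 - 6 * η - 5 * η ^ 2 - 3 * η ^ 3 + 3 * η ^ 5 + 5 * η ^ 6 + 6 * η ^ 7 + 5 * η ^ 8 + 3 * η ^ 9) := by
  push_cast
  linear_combination (-4 + 7 * η - 3 * η ^ 2) * h

lemma h43_cert11_inv2 {R : Type*} [CommRing R] (η : R) (h : 1 + η + η ^ 2 + η ^ 3 + η ^ 4 + η ^ 5 + η ^ 6 + η ^ 7 + η ^ 8 + η ^ 9 + η ^ 10 = 0) :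
    (1 + η ^ 2 - η ^ 3 + η ^ 4 + η ^ 7 - η ^ 8 + η ^ 9) * (-3 + 2 * η ^ 2 - 2 * η ^ 3 - 3 * η ^ 4 + η ^ 5 + η ^ 6 - 3 * η ^ 7 - 2 * η ^ 8 + 2 * η ^ 9) = 1 := by
  linear_combination (-4 + 4 * η - η ^ 2 + 2 * η ^ 3 - 5 * η ^ 4 + η ^ 5 + 5 * η ^ 6 - 6 * η ^ 7 + 2 * η ^ 8) * h

lemma h43_cert11_jet2 {R : Type*} [CommRing R] (η : R) (h : 1 + η + η ^ 2 + η ^ 3 + η ^ 4 + η ^ 5 + η ^ 6 + η ^ 7 + η ^ 8 + η ^ 9 + η ^ 10 = 0) :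
    1 + η ^ 2 - η ^ 3 + η ^ 4 + η ^ 7 - η ^ 8 + η ^ 9 = (((3) : ℤ) : R) + (((4) : ℤ) : R) * (η - 1) ^ 4 +
      (η - 1) ^ (4 + 1) * (5 + 4 * η + η ^ 2 - 3 * η ^ 3 - 7 * η ^ 4 - 10 * η ^ 5 - 11 * η ^ 6 - 10 * η ^ 7 - 7 * η ^ 8 - 3 * η ^ 9) := by
  push_cast
  linear_combination (-1 - 4 * η + 13 * η ^ 2 - 11 * η ^ 3 + 3 * η ^ 4) * h

lemma h43_cert11_inv3 {R : Type*} [CommRing R] (η : R) (h : 1 + η + η ^ 2 + η ^ 3 + η ^ 4 + η ^ 5 + η ^ 6 + η ^ 7 + η ^ 8 + η ^ 9 + η ^ 10 = 0) :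
    (3 + 2 * η ^ 3 - 2 * η ^ 4 + η ^ 5 + η ^ 6 - 2 * η ^ 7 + 2 * η ^ 8) * (-16 + 11 * η ^ 2 - 8 * η ^ 3 - 14 * η ^ 4 + 7 * η ^ 5 + 7 * η ^ 6 - 14 * η ^ 7 - 8 * η ^ 8 + 11 * η ^ 9) = 1 := by
  linear_combination (-49 + 49 * η + 33 * η ^ 2 - 89 * η ^ 3 + 46 * η ^ 4 + 37 * η ^ 5 - 60 * η ^ 6 + 22 * η ^ 7) * h

lemma h43_cert11_jet3 {R : Type*} [CommRing R] (η : R) (h : 1 + η + η ^ 2 + η ^ 3 + η ^ 4 + η ^ 5 + η ^ 6 + η ^ 7 + η ^ 8 + η ^ 9 + η ^ 10 = 0) :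
    3 + 2 * η ^ 3 - 2 * η ^ 4 + η ^ 5 + η ^ 6 - 2 * η ^ 7 + 2 * η ^ 8 = (((5) : ℤ) : R) + (((-1) : ℤ) : R) * (η - 1) ^ 6 +
      (η - 1) ^ (6 + 1) * (1 + 8 * η + 18 * η ^ 2 + 28 * η ^ 3 + 35 * η ^ 4 + 37 * η ^ 5 + 33 * η ^ 6 + 24 * η ^ 7 + 13 * η ^ 8 + 4 * η ^ 9) := by
  push_cast
  linear_combination (-5 * η + 3 * η ^ 2 + 19 * η ^ 3 - 32 * η ^ 4 + 19 * η ^ 5 - 4 * η ^ 6) * h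

lemma h43_cert11_inv4 {R : Type*} [CommRing R] (η : R) (h : 1 + η + η ^ 2 + η ^ 3 + η ^ 4 + η ^ 5 + η ^ 6 + η ^ 7 + η ^ 8 + η ^ 9 + η ^ 10 = 0) :
    (9 - 4 * η ^ 2 + 4 * η ^ 3 + 2 * η ^ 4 + η ^ 5 + η ^ 6 + 2 * η ^ 7 + 4 * η ^ 8 - 4 * η ^ 9) * (-108 + 289 * η ^ 2 + 668 * η ^ 3 + 1016 * η ^ 4 + 1223 * η ^ 5 + 1223 * η ^ 6 + 1016 * η ^ 7 + 668 * η ^ 8 + 289 * η ^ 9) = 1 := by
  linear_combination (-973 + 973 * η + 3033 * η ^ 2 + 2547 * η ^ 3 + 2192 * η ^ 4 + 1611 * η ^ 5 + 702 * η ^ 6 - 360 * η ^ 7 - 1156 * η ^ 8) * h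

lemma h43_cert11_jet4 {R : Type*} [CommRing R] (η : R) (h : 1 + η + η ^ 2 + η ^ 3 + η ^ 4 + η ^ 5 + η ^ 6 + η ^ 7 + η ^ 8 + η ^ 9 + η ^ 10 = 0) :
    9 - 4 * η ^ 2 + 4 * η ^ 3 + 2 * η ^ 4 + η ^ 5 + η ^ 6 + 2 * η ^ 7 + 4 * η ^ 8 - 4 * η ^ 9 = (((4) : ℤ) : R) + (((1) : ℤ) : R) * (η - 1) ^ 8 +
      (η - 1) ^ (8 + 1) * (-46 - 115 * η - 184 * η ^ 2 - 231 * η ^ 3 - 241 * η ^ 4 - 211 * η ^ 5 - 151 * η ^ 6 - 80 * η ^ 7 - 20 * η ^ 8 + 10 * η ^ 9) := by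
  push_cast
  linear_combination (-42 + 349 * η - 1144 * η ^ 2 + 2046 * η ^ 3 - 2199 * η ^ 4 + 1451 * η ^ 5 - 570 * η ^ 6 + 120 * η ^ 7 - 10 * η ^ 8) * h

theorem h43_kummer_eleven (K : Type) [Field K] [NumberField K]
    [IsCyclotomicExtension {11} ℚ K] :
    ∀ u : (𝓞 K)ˣ, (∃ n : ℤ, ((11 : ℕ) : 𝓞 K) ∣ (u : 𝓞 K) - n) → ∃ v : (𝓞 K)ˣ, u = v ^ 11 := by
  have : Fact (Nat.Prime 11) := ⟨by norm_num⟩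
  have hζ := IsCyclotomicExtension.zeta_spec 11 ℚ K
  have hΦ : 1 + hζ.toInteger + hζ.toInteger ^ 2 + hζ.toInteger ^ 3 + hζ.toInteger ^ 4 + hζ.toInteger ^ 5 + hζ.toInteger ^ 6 + hζ.toInteger ^ 7 + hζ.toInteger ^ 8 + hζ.toInteger ^ 9 + hζ.toInteger ^ 10 = 0 := by
    have h := hζ.toInteger_isPrimitiveRoot.geom_sum_eq_zero (by norm_num)
    simp only [Finset.sum_range_succ, Finset.sum_range_zero] at h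
    linear_combination h
  let w0 : (𝓞 K)ˣ := Units.mkOfMulEqOne _ _ (h43_cert11_inv0 hζ.toInteger hΦ)
  let w1 : (𝓞 K)ˣ := Units.mkOfMulEqOne _ _ (h43_cert11_inv1 hζ.toInteger hΦ)
  let w2 : (𝓞 K)ˣ := Units.mkOfMulEqOne _ _ (h43_cert11_inv2 hζ.toInteger hΦ)
  let w3 : (𝓞 K)ˣ := Units.mkOfMulEqOne _ _ (h43_cert11_inv3 hζ.toInteger hΦ)
  let w4 : (𝓞 K)ˣ := Units.mkOfMulEqOne _ _ (h43_cert11_inv4 hζ.toInteger hΦ)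
  refine h43_kummer_of_levels hζ (by norm_num) (ι := Fin 5) (by simp)
    ![w0, w1, w2, w3, w4] ![1, 2, 4, 6, 8] ![1, 1, 3, 5, 4] ![1, -3, 4, -1, 1] ?_ ?_ ?_ ?_ ?_
  · decide
  · decide
  · decide
  · decide
  · intro i
    fin_cases i
    · exact ⟨_, h43_cert11_jet0 hζ.toInteger hΦ⟩
    · exact ⟨_, h43_cert11_jet1 hζ.toInteger hΦ⟩
    · exact ⟨_, h43_cert11_jet2 hζ.toInteger hΦ⟩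
    · exact ⟨_, h43_cert11_jet3 hζ.toInteger hΦ⟩
    · exact ⟨_, h43_cert11_jet4 hζ.toInteger hΦ⟩

end Fermat.Agent.FLTP
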