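import Mathlib
import Fermat.Agent.FLTP.H43Kummer

set_option autoImplicit false

namespace Fermat.Agent.FLTP

open NumberField

lemma h43_cert13_inv0 {R : Type*} [CommRing R] (η : R) (h : 1 + η + η ^ 2 + η ^ 3 + η ^ 4 + η ^ 5 + η ^ 6 + η ^ 7 + η ^ 8 + η ^ 9 + η ^ 10 + η ^ 11 + η ^ 12 = 0) :
    (η) * (-1 - η - η ^ 2 - η ^ 3 - η ^ 4 - η ^ 5 - η ^ 6 - η ^ 7 - η ^ 8 - η ^ 9 - η ^ 10 - η ^ 11) = 1 := by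
  linear_combination (-1) * h

lemma h43_cert13_jet0 {R : Type*} [CommRing R] (η : R) (h : 1 + η + η ^ 2 + η ^ 3 + η ^ 4 + η ^ 5 + η ^ 6 + η ^ 7 + η ^ 8 + η ^ 9 + η ^ 10 + η ^ 11 + η ^ 12 = 0) :
    η = (((1) : ℤ) : R) + (((1) : ℤ) : R) * (η - 1) ^ 1 +
      (η - 1) ^ (1 + 1) * (0) := by
  push_cast
  linear_combination (0) * h

lemma h43_cert13_inv1 {R : Type*} [CommRing R] (η : R) (h : 1 + η + η ^ 2 + η ^ 3 + η ^ 4 + η ^ 5 + η ^ 6 + η ^ 7 + η ^ 8 + η ^ 9 + η ^ 10 + η ^ 11 + η ^ 12 = 0) :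
    (1 + η ^ 2 - η ^ 3 - η ^ 5 - η ^ 6 - η ^ 7 - η ^ 8 - η ^ 10 + η ^ 11) * (1 - 2 * η ^ 2 - 2 * η ^ 3 - η ^ 6 - η ^ 7 - 2 * η ^ 10 - 2 * η ^ 11) = 1 := by
  linear_combination (-η ^ 2 - 2 * η ^ 3 + η ^ 4 + η ^ 5 + η ^ 6 + 2 * η ^ 8 + 2 * η ^ 9 - 2 * η ^ 10) * h

lemma h43_cert13_jet1 {R : Type*} [CommRing R] (η : R) (h : 1 + η + η ^ 2 + η ^ 3 + η ^ 4 + η ^ 5 + η ^ 6 + η ^ 7 + η ^ 8 + η ^ 9 + η ^ 10 + η ^ 11 + η ^ 12 = 0) :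
    1 + η ^ 2 - η ^ 3 - η ^ 5 - η ^ 6 - η ^ 7 - η ^ 8 - η ^ 10 + η ^ 11 = (((-3) : ℤ) : R) + (((-1) : ℤ) : R) * (η - 1) ^ 2 +
      (η - 1) ^ (2 + 1) * (4 + 7 * η + 7 * η ^ 2 + 5 * η ^ 3 + η ^ 4 - 4 * η ^ 5 - 9 * η ^ 6 - 13 * η ^ 7 - 15 * η ^ 8 - 15 * η ^ 9 - 12 * η ^ 10 - 7 * η ^ 11) := by
  push_cast
  linear_combination (9 - 16 * η + 7 * η ^ 2) * h

lemma h43_cert13_inv2 {R : Type*} [CommRing R] (η : R) (h : 1 + η + η ^ 2 + η ^ 3 + η ^ 4 + η ^ 5 + η ^ 6 + η ^ 7 + η ^ 8 + η ^ 9 + η ^ 10 + η ^ 11 + η ^ 12 = 0) :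
    (η ^ 4 + η ^ 6 + η ^ 7 + η ^ 9) * (1 - η ^ 2 - η ^ 3 - η ^ 10 - η ^ 11) = 1 := by
  linear_combination (-1 + η + η ^ 4 - η ^ 5 - η ^ 8) * h

lemma h43_cert13_jet2 {R : Type*} [CommRing R] (η : R) (h : 1 + η + η ^ 2 + η ^ 3 + η ^ 4 + η ^ 5 + η ^ 6 + η ^ 7 + η ^ 8 + η ^ 9 + η ^ 10 + η ^ 11 + η ^ 12 = 0) :
    η ^ 4 + η ^ 6 + η ^ 7 + η ^ 9 = (((4) : ℤ) : R) + (((-5) : ℤ) : R) * (η - 1) ^ 4 +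
      (η - 1) ^ (4 + 1) * (6 + 8 * η + η ^ 2 - 13 * η ^ 3 - 31 * η ^ 4 - 49 * η ^ 5 - 63 * η ^ 6 - 70 * η ^ 7 - 68 * η ^ 8 - 57 * η ^ 9 - 39 * η ^ 10 - 18 * η ^ 11) := by
  push_cast
  linear_combination (7 - 49 * η + 93 * η ^ 2 - 69 * η ^ 3 + 18 * η ^ 4) * h

lemma h43_cert13_inv3 {R : Type*} [CommRing R] (η : R) (h : 1 + η + η ^ 2 + η ^ 3 + η ^ 4 + η ^ 5 + η ^ 6 + η ^ 7 + η ^ 8 + η ^ 9 + η ^ 10 + η ^ 11 + η ^ 12 = 0) :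
    (-1 + η ^ 2 + η ^ 5 + η ^ 6 + η ^ 7 + η ^ 8 + η ^ 11) * (2 + η ^ 2 + η ^ 5 + η ^ 6 + η ^ 7 + η ^ 8 + η ^ 11) = 1 := by
  linear_combination (-3 + 3 * η + η ^ 2 - η ^ 3 + η ^ 4 + 2 * η ^ 7 - η ^ 9 + η ^ 10) * h

lemma h43_cert13_jet3 {R : Type*} [CommRing R] (η : R) (h : 1 + η + η ^ 2 + η ^ 3 + η ^ 4 + η ^ 5 + η ^ 6 + η ^ 7 + η ^ 8 + η ^ 9 + η ^ 10 + η ^ 11 + η ^ 12 = 0) :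
    -1 + η ^ 2 + η ^ 5 + η ^ 6 + η ^ 7 + η ^ 8 + η ^ 11 = (((5) : ℤ) : R) + (((4) : ℤ) : R) * (η - 1) ^ 6 +
      (η - 1) ^ (6 + 1) * (-8 + 30 * η + 109 * η ^ 2 + 211 * η ^ 3 + 313 * η ^ 4 + 392 * η ^ 5 + 430 * η ^ 6 + 418 * η ^ 7 + 358 * η ^ 8 + 263 * η ^ 9 + 155 * η ^ 10 + 60 * η ^ 11) := by
  push_cast
  linear_combination (-18 + 128 * η - 438 * η ^ 2 + 766 * η ^ 3 - 703 * η ^ 4 + 325 * η ^ 5 - 60 * η ^ 6) * h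

lemma h43_cert13_inv4 {R : Type*} [CommRing R] (η : R) (h : 1 + η + η ^ 2 + η ^ 3 + η ^ 4 + η ^ 5 + η ^ 6 + η ^ 7 + η ^ 8 + η ^ 9 + η ^ 10 + η ^ 11 + η ^ 12 = 0) :
    (-4 + 7 * η ^ 2 + 3 * η ^ 3 - 3 * η ^ 4 - η ^ 5 + 7 * η ^ 6 + 7 * η ^ 7 - η ^ 8 - 3 * η ^ 9 + 3 * η ^ 10 + 7 * η ^ 11) * (42 - 11 * η ^ 2 + 38 * η ^ 3 + 14 * η ^ 4 - 17 * η ^ 5 + 28 * η ^ 6 + 28 * η ^ 7 - 17 * η ^ 8 + 14 * η ^ 9 + 38 * η ^ 10 - 11 * η ^ 11) = 1 := by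
  linear_combination (-169 + 169 * η + 338 * η ^ 2 - 364 * η ^ 3 - 233 * η ^ 4 + 518 * η ^ 5 + 168 * η ^ 6 - 425 * η ^ 7 + 12 * η ^ 8 + 310 * η ^ 9 - 77 * η ^ 10) * h

lemma h43_cert13_jet4 {R : Type*} [CommRing R] (η : R) (h : 1 + η + η ^ 2 + η ^ 3 + η ^ 4 + η ^ 5 + η ^ 6 + η ^ 7 + η ^ 8 + η ^ 9 + η ^ 10 + η ^ 11 + η ^ 12 = 0) :
    -4 + 7 * η ^ 2 + 3 * η ^ 3 - 3 * η ^ 4 - η ^ 5 + 7 * η ^ 6 + 7 * η ^ 7 - η ^ 8 - 3 * η ^ 9 + 3 * η ^ 10 + 7 * η ^ 11 = (((-4) : ℤ) : R) + (((1) : ℤ) : R) * (η - 1) ^ 8 +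
      (η - 1) ^ (8 + 1) * (-23 - 77 * η - 149 * η ^ 2 - 221 * η ^ 3 - 275 * η ^ 4 - 299 * η ^ 5 - 289 * η ^ 6 - 248 * η ^ 7 - 185 * η ^ 8 - 114 * η ^ 9 - 51 * η ^ 10 - 10 * η ^ 11) := by
  push_cast
  linear_combination (-24 + 162 * η - 443 * η ^ 2 + 644 * η ^ 3 - 492 * η ^ 4 + 140 * η ^ 5 + 54 * η ^ 6 - 49 * η ^ 7 + 10 * η ^ 8) * h

lemma h43_cert13_inv5 {R : Type*} [CommRing R] (η : R) (h : 1 + η + η ^ 2 + η ^ 3 + η ^ 4 + η ^ 5 + η ^ 6 + η ^ 7 + η ^ 8 + η ^ 9 + η ^ 10 + η ^ 11 + η ^ 12 = 0) :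
    (62 - 105 * η ^ 2 - 46 * η ^ 3 + 60 * η ^ 4 + 31 * η ^ 5 - 81 * η ^ 6 - 81 * η ^ 7 + 31 * η ^ 8 + 60 * η ^ 9 - 46 * η ^ 10 - 105 * η ^ 11) * (31 - 77 * η ^ 2 - 136 * η ^ 3 - 112 * η ^ 4 - 31 * η ^ 5 + 29 * η ^ 6 + 29 * η ^ 7 - 31 * η ^ 8 - 112 * η ^ 9 - 136 * η ^ 10 - 77 * η ^ 11) = 1 := by
  linear_combination (1921 - 1921 * η - 8029 * η ^ 2 - 1829 * η ^ 3 + 12859 * η ^ 4 + 13860 * η ^ 5 - 4178 * η ^ 6 - 15536 * η ^ 7 - 4426 * η ^ 8 + 9737 * η ^ 9 + 8085 * η ^ 10) * h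

lemma h43_cert13_jet5 {R : Type*} [CommRing R] (η : R) (h : 1 + η + η ^ 2 + η ^ 3 + η ^ 4 + η ^ 5 + η ^ 6 + η ^ 7 + η ^ 8 + η ^ 9 + η ^ 10 + η ^ 11 + η ^ 12 = 0) :
    62 - 105 * η ^ 2 - 46 * η ^ 3 + 60 * η ^ 4 + 31 * η ^ 5 - 81 * η ^ 6 - 81 * η ^ 7 + 31 * η ^ 8 + 60 * η ^ 9 - 46 * η ^ 10 - 105 * η ^ 11 = (((1) : ℤ) : R) + (((-5) : ℤ) : R) * (η - 1) ^ 10 +
      (η - 1) ^ (10 + 1) * (190 + 435 * η + 680 * η ^ 2 + 875 * η ^ 3 + 971 * η ^ 4 + 939 * η ^ 5 + 789 * η ^ 6 + 563 * η ^ 7 + 312 * η ^ 8 + 86 * η ^ 9 - 64 * η ^ 10 - 96 * η ^ 11) := by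
  push_cast
  linear_combination (256 - 1961 * η + 8170 * η ^ 2 - 21141 * η ^ 3 + 35457 * η ^ 4 - 40057 * η ^ 5 + 30945 * η ^ 6 - 16176 * η ^ 7 + 5482 * η ^ 8 - 1088 * η ^ 9 + 96 * η ^ 10) * h

theorem h43_kummer_thirteen (K : Type) [Field K] [NumberField K]
    [IsCyclotomicExtension {13} ℚ K] :
    ∀ u : (𝓞 K)ˣ, (∃ n : ℤ, ((13 : ℕ) : 𝓞 K) ∣ (u : 𝓞 K) - n) → ∃ v : (𝓞 K)ˣ, u = v ^ 13 := by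
  have : Fact (Nat.Prime 13) := ⟨by norm_num⟩
  have hζ := IsCyclotomicExtension.zeta_spec 13 ℚ K
  have hΦ : 1 + hζ.toInteger + hζ.toInteger ^ 2 + hζ.toInteger ^ 3 + hζ.toInteger ^ 4 + hζ.toInteger ^ 5 + hζ.toInteger ^ 6 + hζ.toInteger ^ 7 + hζ.toInteger ^ 8 + hζ.toInteger ^ 9 + hζ.toInteger ^ 10 + hζ.toInteger ^ 11 + hζ.toInteger ^ 12 = 0 := by
    have h := hζ.toInteger_isPrimitiveRoot.geom_sum_eq_zero (by norm_num)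
    simp only [Finset.sum_range_succ, Finset.sum_range_zero] at h
    linear_combination h
  let w0 : (𝓞 K)ˣ := Units.mkOfMulEqOne _ _ (h43_cert13_inv0 hζ.toInteger hΦ)
  let w1 : (𝓞 K)ˣ := Units.mkOfMulEqOne _ _ (h43_cert13_inv1 hζ.toInteger hΦ)
  let w2 : (𝓞 K)ˣ := Units.mkOfMulEqOne _ _ (h43_cert13_inv2 hζ.toInteger hΦ)
  let w3 : (𝓞 K)ˣ := Units.mkOfMulEqOne _ _ (h43_cert13_inv3 hζ.toInteger hΦ)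
  let w4 : (𝓞 K)ˣ := Units.mkOfMulEqOne _ _ (h43_cert13_inv4 hζ.toInteger hΦ)
  let w5 : (𝓞 K)ˣ := Units.mkOfMulEqOne _ _ (h43_cert13_inv5 hζ.toInteger hΦ)
  refine h43_kummer_of_levels hζ (by norm_num) (ι := Fin 6) (by simp)
    ![w0, w1, w2, w3, w4, w5] ![1, 2, 4, 6, 8, 10] ![1, -3, 4, 5, -4, 1] ![1, -1, -5, 4, 1, -5] ?_ ?_ ?_ ?_ ?_
  · decide
  · decide
  · decide
  · decide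
  · intro i
    fin_cases i
    · exact ⟨_, h43_cert13_jet0 hζ.toInteger hΦ⟩
    · exact ⟨_, h43_cert13_jet1 hζ.toInteger hΦ⟩
    · exact ⟨_, h43_cert13_jet2 hζ.toInteger hΦ⟩
    · exact ⟨_, h43_cert13_jet3 hζ.toInteger hΦ⟩
    · exact ⟨_, h43_cert13_jet4 hζ.toInteger hΦ⟩
    · exact ⟨_, h43_cert13_jet5 hζ.toInteger hΦ⟩

end Fermat.Agent.FLTP
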