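import Mathlib
import Fermat.Agent.FLTP.H43Kummer

set_option autoImplicit false

namespace Fermat.Agent.FLTP

open NumberField

lemma h43_cert5_inv0 {R : Type*} [CommRing R] (η : R) (h : 1 + η + η ^ 2 + η ^ 3 + η ^ 4 = 0) :
    (η) * (-1 - η - η ^ 2 - η ^ 3) = 1 := by
  linear_combination (-1) * h

lemma h43_cert5_jet0 {R : Type*} [CommRing R] (η : R) (h : 1 + η + η ^ 2 + η ^ 3 + η ^ 4 = 0) :
    η = (((1) : ℤ) : R) + (((1) : ℤ) : R) * (η - 1) ^ 1 +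
      (η - 1) ^ (1 + 1) * (0) := by
  push_cast
  linear_combination (0) * h

lemma h43_cert5_inv1 {R : Type*} [CommRing R] (η : R) (h : 1 + η + η ^ 2 + η ^ 3 + η ^ 4 = 0) :
    (1 + η ^ 2 + η ^ 3) * (η ^ 2 + η ^ 3) = 1 := by
  linear_combination (-1 + η + η ^ 2) * h

lemma h43_cert5_jet1 {R : Type*} [CommRing R] (η : R) (h : 1 + η + η ^ 2 + η ^ 3 + η ^ 4 = 0) :
    1 + η ^ 2 + η ^ 3 = (((-2) : ℤ) : R) + (((-1) : ℤ) : R) * (η - 1) ^ 2 +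
      (η - 1) ^ (2 + 1) * (-1 - η - η ^ 2 - η ^ 3) := by
  push_cast
  linear_combination (3 - 3 * η + η ^ 2) * h

theorem h43_kummer_five (K : Type) [Field K] [NumberField K]
    [IsCyclotomicExtension {5} ℚ K] :
    ∀ u : (𝓞 K)ˣ, (∃ n : ℤ, ((5 : ℕ) : 𝓞 K) ∣ (u : 𝓞 K) - n) → ∃ v : (𝓞 K)ˣ, u = v ^ 5 := by
  have : Fact (Nat.Prime 5) := ⟨by norm_num⟩
  have hζ := IsCyclotomicExtension.zeta_spec 5 ℚ K
  have hΦ : 1 + hζ.toInteger + hζ.toInteger ^ 2 + hζ.toInteger ^ 3 + hζ.toInteger ^ 4 = 0 := by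
    have h := hζ.toInteger_isPrimitiveRoot.geom_sum_eq_zero (by norm_num)
    simp only [Finset.sum_range_succ, Finset.sum_range_zero] at h
    linear_combination h
  let w0 : (𝓞 K)ˣ := Units.mkOfMulEqOne _ _ (h43_cert5_inv0 hζ.toInteger hΦ)
  let w1 : (𝓞 K)ˣ := Units.mkOfMulEqOne _ _ (h43_cert5_inv1 hζ.toInteger hΦ)
  refine h43_kummer_of_levels hζ (by norm_num) (ι := Fin 2) (by simp)
    ![w0, w1] ![1, 2] ![1, -2] ![1, -1] ?_ ?_ ?_ ?_ ?_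
  · decide
  · decide
  · decide
  · decide
  · intro i
    fin_cases i
    · exact ⟨_, h43_cert5_jet0 hζ.toInteger hΦ⟩
    · exact ⟨_, h43_cert5_jet1 hζ.toInteger hΦ⟩

end Fermat.Agent.FLTP
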