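import Mathlib
import Fermat.Agent.FLTP.H43Kummer

set_option autoImplicit false

namespace Fermat.Agent.FLTP

open NumberField

lemma h43_cert7_inv0 {R : Type*} [CommRing R] (η : R) (h : 1 + η + η ^ 2 + η ^ 3 + η ^ 4 + η ^ 5 + η ^ 6 = 0) :
    (η) * (-1 - η - η ^ 2 - η ^ 3 - η ^ 4 - η ^ 5) = 1 := by
  linear_combination (-1) * h

lemma h43_cert7_jet0 {R : Type*} [CommRing R] (η : R) (h : 1 + η + η ^ 2 + η ^ 3 + η ^ 4 + η ^ 5 + η ^ 6 = 0) :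
    η = (((1) : ℤ) : R) + (((1) : ℤ) : R) * (η - 1) ^ 1 +
      (η - 1) ^ (1 + 1) * (0) := by
  push_cast
  linear_combination (0) * h

lemma h43_cert7_inv1 {R : Type*} [CommRing R] (η : R) (h : 1 + η + η ^ 2 + η ^ 3 + η ^ 4 + η ^ 5 + η ^ 6 = 0) :
    (-1 - η ^ 2 - η ^ 5) * (η ^ 3 + η ^ 4) = 1 := by
  linear_combination (-1 + η - η ^ 3) * h

lemma h43_cert7_jet1 {R : Type*} [CommRing R] (η : R) (h : 1 + η + η ^ 2 + η ^ 3 + η ^ 4 + η ^ 5 + η ^ 6 = 0) :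
    -1 - η ^ 2 - η ^ 5 = (((-3) : ℤ) : R) + (((3) : ℤ) : R) * (η - 1) ^ 2 +
      (η - 1) ^ (2 + 1) * (3 + 2 * η + η ^ 2 - η ^ 4 - η ^ 5) := by
  push_cast
  linear_combination (2 - 3 * η + η ^ 2) * h

lemma h43_cert7_inv2 {R : Type*} [CommRing R] (η : R) (h : 1 + η + η ^ 2 + η ^ 3 + η ^ 4 + η ^ 5 + η ^ 6 = 0) :
    (2 - η ^ 2 + 2 * η ^ 3 + 2 * η ^ 4 - η ^ 5) * (-4 - 3 * η ^ 2 - η ^ 3 - η ^ 4 - 3 * η ^ 5) = 1 := by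
  linear_combination (-9 + 9 * η - 2 * η ^ 2 - 8 * η ^ 3 + 3 * η ^ 4) * h

lemma h43_cert7_jet2 {R : Type*} [CommRing R] (η : R) (h : 1 + η + η ^ 2 + η ^ 3 + η ^ 4 + η ^ 5 + η ^ 6 = 0) :
    2 - η ^ 2 + 2 * η ^ 3 + 2 * η ^ 4 - η ^ 5 = (((-3) : ℤ) : R) + (((-3) : ℤ) : R) * (η - 1) ^ 4 +
      (η - 1) ^ (4 + 1) * (-2 - η + η ^ 3 + η ^ 4) := by
  push_cast
  linear_combination (6 - 9 * η + 5 * η ^ 2 - η ^ 3) * h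

theorem h43_kummer_seven (K : Type) [Field K] [NumberField K]
    [IsCyclotomicExtension {7} ℚ K] :
    ∀ u : (𝓞 K)ˣ, (∃ n : ℤ, ((7 : ℕ) : 𝓞 K) ∣ (u : 𝓞 K) - n) → ∃ v : (𝓞 K)ˣ, u = v ^ 7 := by
  have : Fact (Nat.Prime 7) := ⟨by norm_num⟩
  have hζ := IsCyclotomicExtension.zeta_spec 7 ℚ K
  have hΦ : 1 + hζ.toInteger + hζ.toInteger ^ 2 + hζ.toInteger ^ 3 + hζ.toInteger ^ 4 + hζ.toInteger ^ 5 + hζ.toInteger ^ 6 = 0 := by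
    have h := hζ.toInteger_isPrimitiveRoot.geom_sum_eq_zero (by norm_num)
    simp only [Finset.sum_range_succ, Finset.sum_range_zero] at h
    linear_combination h
  let w0 : (𝓞 K)ˣ := Units.mkOfMulEqOne _ _ (h43_cert7_inv0 hζ.toInteger hΦ)
  let w1 : (𝓞 K)ˣ := Units.mkOfMulEqOne _ _ (h43_cert7_inv1 hζ.toInteger hΦ)
  let w2 : (𝓞 K)ˣ := Units.mkOfMulEqOne _ _ (h43_cert7_inv2 hζ.toInteger hΦ)
  refine h43_kummer_of_levels hζ (by norm_num) (ι := Fin 3) (by simp)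
    ![w0, w1, w2] ![1, 2, 4] ![1, -3, -3] ![1, 3, -3] ?_ ?_ ?_ ?_ ?_
  · decide
  · decide
  · decide
  · decide
  · intro i
    fin_cases i
    · exact ⟨_, h43_cert7_jet0 hζ.toInteger hΦ⟩
    · exact ⟨_, h43_cert7_jet1 hζ.toInteger hΦ⟩
    · exact ⟨_, h43_cert7_jet2 hζ.toInteger hΦ⟩

end Fermat.Agent.FLTP
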