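import Mathlib

open Polynomial

namespace Fermat.Agent.FLTP

lemma h47_smul_mk_eleven (c : ZMod 11) (f : (ZMod 11)[X]) :
    c • (Ideal.Quotient.mk (Ideal.span {(X : (ZMod 11)[X]) ^ 9}) f) = Ideal.Quotient.mk (Ideal.span {(X : (ZMod 11)[X]) ^ 9}) (C c * f) := by
  rw [← smul_eq_C_mul]; rfl

lemma h47_char_poly_eleven : (11 : (ZMod 11)[X]) = 0 := by
  have h : ((11 : ℕ) : (ZMod 11)[X]) = 0 := by
    rw [← map_natCast (C : ZMod 11 →+* (ZMod 11)[X]), ZMod.natCast_self, map_zero]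
  exact_mod_cast h

lemma h47_w_eleven_2 (w : (ZMod 11)[X] ⧸ Ideal.span {(X : (ZMod 11)[X]) ^ 9})
    (h : Ideal.Quotient.mk (Ideal.span {(X : (ZMod 11)[X]) ^ 9}) (∑ i ∈ Finset.range 2, (1 + X) ^ i) * w =
      Ideal.Quotient.mk (Ideal.span {(X : (ZMod 11)[X]) ^ 9}) (∑ i ∈ Finset.range 2, (i : (ZMod 11)[X]) * (1 + X) ^ i)) :
    w = Ideal.Quotient.mk (Ideal.span {(X : (ZMod 11)[X]) ^ 9}) (C 6 + C 3 * X + C 4 * X ^ 2 + C 9 * X ^ 3 + C 1 * X ^ 4 + C 5 * X ^ 5 + C 3 * X ^ 6 + C 4 * X ^ 7 + C 9 * X ^ 8) := by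
  have hp := h47_char_poly_eleven
  have e1 : Ideal.Quotient.mk (Ideal.span {(X : (ZMod 11)[X]) ^ 9}) (6 + 8 * X + 7 * X ^ 2 + 2 * X ^ 3 + 10 * X ^ 4 + 6 * X ^ 5 + 8 * X ^ 6 + 7 * X ^ 7 + 2 * X ^ 8) *
      Ideal.Quotient.mk (Ideal.span {(X : (ZMod 11)[X]) ^ 9}) (∑ i ∈ Finset.range 2, (1 + X) ^ i) = 1 := by
    rw [← map_mul, ← map_one (Ideal.Quotient.mk (Ideal.span {(X : (ZMod 11)[X]) ^ 9})), Ideal.Quotient.eq, Ideal.mem_span_singleton]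
    refine ⟨2, ?_⟩
    simp only [Finset.sum_range_succ, Finset.sum_range_zero]
    linear_combination (1 + 2 * X + 2 * X ^ 2 + X ^ 3 + 2 * X ^ 4 + 2 * X ^ 5 + 2 * X ^ 6 + 2 * X ^ 7 + X ^ 8) * hp
  have e2 : Ideal.Quotient.mk (Ideal.span {(X : (ZMod 11)[X]) ^ 9}) (6 + 8 * X + 7 * X ^ 2 + 2 * X ^ 3 + 10 * X ^ 4 + 6 * X ^ 5 + 8 * X ^ 6 + 7 * X ^ 7 + 2 * X ^ 8) *
      Ideal.Quotient.mk (Ideal.span {(X : (ZMod 11)[X]) ^ 9}) (∑ i ∈ Finset.range 2, (i : (ZMod 11)[X]) * (1 + X) ^ i) =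
      Ideal.Quotient.mk (Ideal.span {(X : (ZMod 11)[X]) ^ 9}) (C 6 + C 3 * X + C 4 * X ^ 2 + C 9 * X ^ 3 + C 1 * X ^ 4 + C 5 * X ^ 5 + C 3 * X ^ 6 + C 4 * X ^ 7 + C 9 * X ^ 8) := by
    rw [← map_mul, Ideal.Quotient.eq, Ideal.mem_span_singleton]
    refine ⟨2, ?_⟩
    simp only [Finset.sum_range_succ, Finset.sum_range_zero, map_ofNat, map_one, Nat.cast_zero,
      Nat.cast_one, Nat.cast_ofNat]
    linear_combination (X + X ^ 2 + X ^ 4 + X ^ 5 + X ^ 6 + X ^ 7) * hp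
  calc w = (Ideal.Quotient.mk (Ideal.span {(X : (ZMod 11)[X]) ^ 9}) (6 + 8 * X + 7 * X ^ 2 + 2 * X ^ 3 + 10 * X ^ 4 + 6 * X ^ 5 + 8 * X ^ 6 + 7 * X ^ 7 + 2 * X ^ 8) *
        Ideal.Quotient.mk (Ideal.span {(X : (ZMod 11)[X]) ^ 9}) (∑ i ∈ Finset.range 2, (1 + X) ^ i)) * w := by rw [e1, one_mul]
    _ = Ideal.Quotient.mk (Ideal.span {(X : (ZMod 11)[X]) ^ 9}) (6 + 8 * X + 7 * X ^ 2 + 2 * X ^ 3 + 10 * X ^ 4 + 6 * X ^ 5 + 8 * X ^ 6 + 7 * X ^ 7 + 2 * X ^ 8) *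
        (Ideal.Quotient.mk (Ideal.span {(X : (ZMod 11)[X]) ^ 9}) (∑ i ∈ Finset.range 2, (1 + X) ^ i) * w) := by ring
    _ = _ := by rw [h, e2]

lemma h47_w_eleven_3 (w : (ZMod 11)[X] ⧸ Ideal.span {(X : (ZMod 11)[X]) ^ 9})
    (h : Ideal.Quotient.mk (Ideal.span {(X : (ZMod 11)[X]) ^ 9}) (∑ i ∈ Finset.range 3, (1 + X) ^ i) * w =
      Ideal.Quotient.mk (Ideal.span {(X : (ZMod 11)[X]) ^ 9}) (∑ i ∈ Finset.range 3, (i : (ZMod 11)[X]) * (1 + X) ^ i)) :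
    w = Ideal.Quotient.mk (Ideal.span {(X : (ZMod 11)[X]) ^ 9}) (C 1 + C 8 * X + C 7 * X ^ 2 + C 5 * X ^ 3 + C 2 * X ^ 5 + C 9 * X ^ 6 + C 5 * X ^ 7 + C 3 * X ^ 8) := by
  have hp := h47_char_poly_eleven
  have e1 : Ideal.Quotient.mk (Ideal.span {(X : (ZMod 11)[X]) ^ 9}) (4 + 7 * X + 10 * X ^ 2 + 6 * X ^ 3 + 9 * X ^ 4 + 8 * X ^ 6 + 3 * X ^ 7 + 9 * X ^ 8) *
      Ideal.Quotient.mk (Ideal.span {(X : (ZMod 11)[X]) ^ 9}) (∑ i ∈ Finset.range 3, (1 + X) ^ i) = 1 := by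
    rw [← map_mul, ← map_one (Ideal.Quotient.mk (Ideal.span {(X : (ZMod 11)[X]) ^ 9})), Ideal.Quotient.eq, Ideal.mem_span_singleton]
    refine ⟨30 + 9 * X, ?_⟩
    simp only [Finset.sum_range_succ, Finset.sum_range_zero]
    linear_combination (1 + 3 * X + 5 * X ^ 2 + 5 * X ^ 3 + 5 * X ^ 4 + 3 * X ^ 5 + 3 * X ^ 6 + 3 * X ^ 7 + 4 * X ^ 8) * hp
  have e2 : Ideal.Quotient.mk (Ideal.span {(X : (ZMod 11)[X]) ^ 9}) (4 + 7 * X + 10 * X ^ 2 + 6 * X ^ 3 + 9 * X ^ 4 + 8 * X ^ 6 + 3 * X ^ 7 + 9 * X ^ 8) *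
      Ideal.Quotient.mk (Ideal.span {(X : (ZMod 11)[X]) ^ 9}) (∑ i ∈ Finset.range 3, (i : (ZMod 11)[X]) * (1 + X) ^ i) =
      Ideal.Quotient.mk (Ideal.span {(X : (ZMod 11)[X]) ^ 9}) (C 1 + C 8 * X + C 7 * X ^ 2 + C 5 * X ^ 3 + C 2 * X ^ 5 + C 9 * X ^ 6 + C 5 * X ^ 7 + C 3 * X ^ 8) := by
    rw [← map_mul, Ideal.Quotient.eq, Ideal.mem_span_singleton]
    refine ⟨51 + 18 * X, ?_⟩
    simp only [Finset.sum_range_succ, Finset.sum_range_zero, map_ofNat, map_one, Nat.cast_zero,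
      Nat.cast_one, Nat.cast_ofNat]
    linear_combination (1 + 3 * X + 6 * X ^ 2 + 7 * X ^ 3 + 7 * X ^ 4 + 5 * X ^ 5 + 3 * X ^ 6 + 4 * X ^ 7 + 5 * X ^ 8) * hp
  calc w = (Ideal.Quotient.mk (Ideal.span {(X : (ZMod 11)[X]) ^ 9}) (4 + 7 * X + 10 * X ^ 2 + 6 * X ^ 3 + 9 * X ^ 4 + 8 * X ^ 6 + 3 * X ^ 7 + 9 * X ^ 8) *
        Ideal.Quotient.mk (Ideal.span {(X : (ZMod 11)[X]) ^ 9}) (∑ i ∈ Finset.range 3, (1 + X) ^ i)) * w := by rw [e1, one_mul]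
    _ = Ideal.Quotient.mk (Ideal.span {(X : (ZMod 11)[X]) ^ 9}) (4 + 7 * X + 10 * X ^ 2 + 6 * X ^ 3 + 9 * X ^ 4 + 8 * X ^ 6 + 3 * X ^ 7 + 9 * X ^ 8) *
        (Ideal.Quotient.mk (Ideal.span {(X : (ZMod 11)[X]) ^ 9}) (∑ i ∈ Finset.range 3, (1 + X) ^ i) * w) := by ring
    _ = _ := by rw [h, e2]

lemma h47_w_eleven_4 (w : (ZMod 11)[X] ⧸ Ideal.span {(X : (ZMod 11)[X]) ^ 9})
    (h : Ideal.Quotient.mk (Ideal.span {(X : (ZMod 11)[X]) ^ 9}) (∑ i ∈ Finset.range 4, (1 + X) ^ i) * w =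
      Ideal.Quotient.mk (Ideal.span {(X : (ZMod 11)[X]) ^ 9}) (∑ i ∈ Finset.range 4, (i : (ZMod 11)[X]) * (1 + X) ^ i)) :
    w = Ideal.Quotient.mk (Ideal.span {(X : (ZMod 11)[X]) ^ 9}) (C 7 + C 4 * X + C 9 * X ^ 2 + C 9 * X ^ 3 + C 4 * X ^ 4 + C 2 * X ^ 5 + C 10 * X ^ 6 + C 4 * X ^ 7) := by
  have hp := h47_char_poly_eleven
  have e1 : Ideal.Quotient.mk (Ideal.span {(X : (ZMod 11)[X]) ^ 9}) (3 + X + X ^ 2 + 5 * X ^ 3 + 5 * X ^ 4 + X ^ 5 + 6 * X ^ 6 + 8 * X ^ 7 + X ^ 8) *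
      Ideal.Quotient.mk (Ideal.span {(X : (ZMod 11)[X]) ^ 9}) (∑ i ∈ Finset.range 4, (1 + X) ^ i) = 1 := by
    rw [← map_mul, ← map_one (Ideal.Quotient.mk (Ideal.span {(X : (ZMod 11)[X]) ^ 9})), Ideal.Quotient.eq, Ideal.mem_span_singleton]
    refine ⟨44 + 12 * X + X ^ 2, ?_⟩
    simp only [Finset.sum_range_succ, Finset.sum_range_zero]
    linear_combination (1 + 2 * X + 2 * X ^ 2 + 3 * X ^ 3 + 5 * X ^ 4 + 5 * X ^ 5 + 5 * X ^ 6 + 7 * X ^ 7 + 7 * X ^ 8) * hp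
  have e2 : Ideal.Quotient.mk (Ideal.span {(X : (ZMod 11)[X]) ^ 9}) (3 + X + X ^ 2 + 5 * X ^ 3 + 5 * X ^ 4 + X ^ 5 + 6 * X ^ 6 + 8 * X ^ 7 + X ^ 8) *
      Ideal.Quotient.mk (Ideal.span {(X : (ZMod 11)[X]) ^ 9}) (∑ i ∈ Finset.range 4, (i : (ZMod 11)[X]) * (1 + X) ^ i) =
      Ideal.Quotient.mk (Ideal.span {(X : (ZMod 11)[X]) ^ 9}) (C 7 + C 4 * X + C 9 * X ^ 2 + C 9 * X ^ 3 + C 4 * X ^ 4 + C 2 * X ^ 5 + C 10 * X ^ 6 + C 4 * X ^ 7) := by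
    rw [← map_mul, Ideal.Quotient.eq, Ideal.mem_span_singleton]
    refine ⟨120 + 35 * X + 3 * X ^ 2, ?_⟩
    simp only [Finset.sum_range_succ, Finset.sum_range_zero, map_ofNat, map_one, Nat.cast_zero,
      Nat.cast_one, Nat.cast_ofNat]
    linear_combination (1 + 4 * X + 4 * X ^ 2 + 5 * X ^ 3 + 10 * X ^ 4 + 12 * X ^ 5 + 10 * X ^ 6 + 14 * X ^ 7 + 17 * X ^ 8) * hp
  calc w = (Ideal.Quotient.mk (Ideal.span {(X : (ZMod 11)[X]) ^ 9}) (3 + X + X ^ 2 + 5 * X ^ 3 + 5 * X ^ 4 + X ^ 5 + 6 * X ^ 6 + 8 * X ^ 7 + X ^ 8) *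
        Ideal.Quotient.mk (Ideal.span {(X : (ZMod 11)[X]) ^ 9}) (∑ i ∈ Finset.range 4, (1 + X) ^ i)) * w := by rw [e1, one_mul]
    _ = Ideal.Quotient.mk (Ideal.span {(X : (ZMod 11)[X]) ^ 9}) (3 + X + X ^ 2 + 5 * X ^ 3 + 5 * X ^ 4 + X ^ 5 + 6 * X ^ 6 + 8 * X ^ 7 + X ^ 8) *
        (Ideal.Quotient.mk (Ideal.span {(X : (ZMod 11)[X]) ^ 9}) (∑ i ∈ Finset.range 4, (1 + X) ^ i) * w) := by ring
    _ = _ := by rw [h, e2]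

lemma h47_w_eleven_5 (w : (ZMod 11)[X] ⧸ Ideal.span {(X : (ZMod 11)[X]) ^ 9})
    (h : Ideal.Quotient.mk (Ideal.span {(X : (ZMod 11)[X]) ^ 9}) (∑ i ∈ Finset.range 5, (1 + X) ^ i) * w =
      Ideal.Quotient.mk (Ideal.span {(X : (ZMod 11)[X]) ^ 9}) (∑ i ∈ Finset.range 5, (i : (ZMod 11)[X]) * (1 + X) ^ i)) :
    w = Ideal.Quotient.mk (Ideal.span {(X : (ZMod 11)[X]) ^ 9}) (C 2 + C 2 * X + C 10 * X ^ 2 + C 2 * X ^ 3 + C 3 * X ^ 4 + C 6 * X ^ 5) := by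
  have hp := h47_char_poly_eleven
  have e1 : Ideal.Quotient.mk (Ideal.span {(X : (ZMod 11)[X]) ^ 9}) (9 + 4 * X + 7 * X ^ 2 + 2 * X ^ 3 + 7 * X ^ 4 + 5 * X ^ 5 + 10 * X ^ 6) *
      Ideal.Quotient.mk (Ideal.span {(X : (ZMod 11)[X]) ^ 9}) (∑ i ∈ Finset.range 5, (1 + X) ^ i) = 1 := by
    rw [← map_mul, ← map_one (Ideal.Quotient.mk (Ideal.span {(X : (ZMod 11)[X]) ^ 9})), Ideal.Quotient.eq, Ideal.mem_span_singleton]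
    refine ⟨55 + 10 * X, ?_⟩
    simp only [Finset.sum_range_succ, Finset.sum_range_zero]
    linear_combination (4 + 10 * X + 15 * X ^ 2 + 15 * X ^ 3 + 14 * X ^ 4 + 14 * X ^ 5 + 17 * X ^ 6 + 17 * X ^ 7 + 12 * X ^ 8) * hp
  have e2 : Ideal.Quotient.mk (Ideal.span {(X : (ZMod 11)[X]) ^ 9}) (9 + 4 * X + 7 * X ^ 2 + 2 * X ^ 3 + 7 * X ^ 4 + 5 * X ^ 5 + 10 * X ^ 6) *
      Ideal.Quotient.mk (Ideal.span {(X : (ZMod 11)[X]) ^ 9}) (∑ i ∈ Finset.range 5, (i : (ZMod 11)[X]) * (1 + X) ^ i) =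
      Ideal.Quotient.mk (Ideal.span {(X : (ZMod 11)[X]) ^ 9}) (C 2 + C 2 * X + C 10 * X ^ 2 + C 2 * X ^ 3 + C 3 * X ^ 4 + C 6 * X ^ 5) := by
    rw [← map_mul, Ideal.Quotient.eq, Ideal.mem_span_singleton]
    refine ⟨210 + 40 * X, ?_⟩
    simp only [Finset.sum_range_succ, Finset.sum_range_zero, map_ofNat, map_one, Nat.cast_zero,
      Nat.cast_one, Nat.cast_ofNat]
    linear_combination (8 + 28 * X + 45 * X ^ 2 + 49 * X ^ 3 + 44 * X ^ 4 + 43 * X ^ 5 + 51 * X ^ 6 + 56 * X ^ 7 + 43 * X ^ 8) * hp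
  calc w = (Ideal.Quotient.mk (Ideal.span {(X : (ZMod 11)[X]) ^ 9}) (9 + 4 * X + 7 * X ^ 2 + 2 * X ^ 3 + 7 * X ^ 4 + 5 * X ^ 5 + 10 * X ^ 6) *
        Ideal.Quotient.mk (Ideal.span {(X : (ZMod 11)[X]) ^ 9}) (∑ i ∈ Finset.range 5, (1 + X) ^ i)) * w := by rw [e1, one_mul]
    _ = Ideal.Quotient.mk (Ideal.span {(X : (ZMod 11)[X]) ^ 9}) (9 + 4 * X + 7 * X ^ 2 + 2 * X ^ 3 + 7 * X ^ 4 + 5 * X ^ 5 + 10 * X ^ 6) *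
        (Ideal.Quotient.mk (Ideal.span {(X : (ZMod 11)[X]) ^ 9}) (∑ i ∈ Finset.range 5, (1 + X) ^ i) * w) := by ring
    _ = _ := by rw [h, e2]

theorem h47_kcert_indep_eleven (w : ℕ → (ZMod 11)[X] ⧸ Ideal.span {(X : (ZMod 11)[X]) ^ 9}) (h1 : w 1 = 1)
    (h : ∀ a ∈ Finset.Icc 2 5, Ideal.Quotient.mk _ (∑ i ∈ Finset.range a, (1 + X) ^ i) * w a =
      Ideal.Quotient.mk _ (∑ i ∈ Finset.range a, (i : (ZMod 11)[X]) * (1 + X) ^ i))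
    (c : ℕ → ZMod 11) (hc : ∑ a ∈ Finset.Icc 1 5, c a • w a = 0) :
    ∀ a ∈ Finset.Icc 1 5, c a = 0 := by
  have hp : (11 : ZMod 11) = 0 := by decide
  have hw1 : w 1 = Ideal.Quotient.mk (Ideal.span {(X : (ZMod 11)[X]) ^ 9}) 1 := by rw [h1, map_one]
  have hw2 := h47_w_eleven_2 (w 2) (h 2 (by decide))
  have hw3 := h47_w_eleven_3 (w 3) (h 3 (by decide))
  have hw4 := h47_w_eleven_4 (w 4) (h 4 (by decide))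
  have hw5 := h47_w_eleven_5 (w 5) (h 5 (by decide))
  have hset : Finset.Icc 1 5 = ({1, 2, 3, 4, 5} : Finset ℕ) := by decide
  rw [hset] at hc ⊢
  have hc' : Ideal.Quotient.mk (Ideal.span {(X : (ZMod 11)[X]) ^ 9}) (C (c 1) * 1 + C (c 2) * (C 6 + C 3 * X + C 4 * X ^ 2 + C 9 * X ^ 3 + C 1 * X ^ 4 + C 5 * X ^ 5 + C 3 * X ^ 6 + C 4 * X ^ 7 + C 9 * X ^ 8) + C (c 3) * (C 1 + C 8 * X + C 7 * X ^ 2 + C 5 * X ^ 3 + C 2 * X ^ 5 + C 9 * X ^ 6 + C 5 * X ^ 7 + C 3 * X ^ 8) + C (c 4) * (C 7 + C 4 * X + C 9 * X ^ 2 + C 9 * X ^ 3 + C 4 * X ^ 4 + C 2 * X ^ 5 + C 10 * X ^ 6 + C 4 * X ^ 7) + C (c 5) * (C 2 + C 2 * X + C 10 * X ^ 2 + C 2 * X ^ 3 + C 3 * X ^ 4 + C 6 * X ^ 5)) = 0 := by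
    rw [← hc]
    rw [Finset.sum_insert (by decide), Finset.sum_insert (by decide), Finset.sum_insert (by decide), Finset.sum_insert (by decide), Finset.sum_singleton]
    rw [hw1, hw2, hw3, hw4, hw5]
    simp only [h47_smul_mk_eleven]
    simp only [map_add, add_assoc]
  rw [Ideal.Quotient.eq_zero_iff_mem, Ideal.mem_span_singleton, Polynomial.X_pow_dvd_iff] at hc'
  have e0 := hc' 0 (by norm_num)
  have e1 := hc' 1 (by norm_num)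
  have e2 := hc' 2 (by norm_num)
  have e3 := hc' 3 (by norm_num)
  have e4 := hc' 4 (by norm_num)
  have e5 := hc' 5 (by norm_num)
  have e6 := hc' 6 (by norm_num)
  have e7 := hc' 7 (by norm_num)
  have e8 := hc' 8 (by norm_num)
  simp [coeff_C, coeff_X, coeff_X_pow, coeff_one] at e0 e1 e2 e3 e4 e5 e6 e7 e8
  have hc1 : c 1 = 0 := by linear_combination 1 * e0 + 9 * e3 + 4 * e5 + 9 * e7 - (13 * c 2 + 9 * c 3 + 12 * c 4 + 4 * c 5) * hp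
  have hc2 : c 2 = 0 := by linear_combination 6 * e1 + 9 * e3 + 6 * e5 + 1 * e7 - (12 * c 2 + 10 * c 3 + 11 * c 4 + 6 * c 5) * hp
  have hc3 : c 3 = 0 := by linear_combination 7 * e1 + 8 * e3 + 6 * e5 + 5 * e7 - (13 * c 2 + 12 * c 3 + 12 * c 4 + 6 * c 5) * hp
  have hc4 : c 4 = 0 := by linear_combination 10 * e1 + 3 * e3 + 3 * e5 + 4 * e7 - (8 * c 2 + 11 * c 3 + 8 * c 4 + 4 * c 5) * hp
  have hc5 : c 5 = 0 := by linear_combination 4 * e1 + 9 * e3 + 5 * e5 + 9 * e7 - (14 * c 2 + 12 * c 3 + 13 * c 4 + 5 * c 5) * hp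
  intro a ha
  simp only [Finset.mem_insert, Finset.mem_singleton] at ha
  rcases ha with rfl | rfl | rfl | rfl | rfl
  · exact hc1
  · exact hc2
  · exact hc3
  · exact hc4
  · exact hc5

end Fermat.Agent.FLTP
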