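import Mathlib

open Polynomial

namespace Fermat.Agent.FLTP

lemma h47_smul_mk_thirteen (c : ZMod 13) (f : (ZMod 13)[X]) :
    c • (Ideal.Quotient.mk (Ideal.span {(X : (ZMod 13)[X]) ^ 11}) f) = Ideal.Quotient.mk (Ideal.span {(X : (ZMod 13)[X]) ^ 11}) (C c * f) := by
  rw [← smul_eq_C_mul]; rfl

lemma h47_char_poly_thirteen : (13 : (ZMod 13)[X]) = 0 := by
  have h : ((13 : ℕ) : (ZMod 13)[X]) = 0 := by
    rw [← map_natCast (C : ZMod 13 →+* (ZMod 13)[X]), ZMod.natCast_self, map_zero]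
  exact_mod_cast h

lemma h47_w_thirteen_2 (w : (ZMod 13)[X] ⧸ Ideal.span {(X : (ZMod 13)[X]) ^ 11})
    (h : Ideal.Quotient.mk (Ideal.span {(X : (ZMod 13)[X]) ^ 11}) (∑ i ∈ Finset.range 2, (1 + X) ^ i) * w =
      Ideal.Quotient.mk (Ideal.span {(X : (ZMod 13)[X]) ^ 11}) (∑ i ∈ Finset.range 2, (i : (ZMod 13)[X]) * (1 + X) ^ i)) :
    w = Ideal.Quotient.mk (Ideal.span {(X : (ZMod 13)[X]) ^ 11}) (C 7 + C 10 * X + C 8 * X ^ 2 + C 9 * X ^ 3 + C 2 * X ^ 4 + C 12 * X ^ 5 + C 7 * X ^ 6 + C 3 * X ^ 7 + C 5 * X ^ 8 + C 4 * X ^ 9 + C 11 * X ^ 10) := by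
  have hp := h47_char_poly_thirteen
  have e1 : Ideal.Quotient.mk (Ideal.span {(X : (ZMod 13)[X]) ^ 11}) (7 + 3 * X + 5 * X ^ 2 + 4 * X ^ 3 + 11 * X ^ 4 + X ^ 5 + 6 * X ^ 6 + 10 * X ^ 7 + 8 * X ^ 8 + 9 * X ^ 9 + 2 * X ^ 10) *
      Ideal.Quotient.mk (Ideal.span {(X : (ZMod 13)[X]) ^ 11}) (∑ i ∈ Finset.range 2, (1 + X) ^ i) = 1 := by
    rw [← map_mul, ← map_one (Ideal.Quotient.mk (Ideal.span {(X : (ZMod 13)[X]) ^ 11})), Ideal.Quotient.eq, Ideal.mem_span_singleton]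
    refine ⟨2, ?_⟩
    simp only [Finset.sum_range_succ, Finset.sum_range_zero]
    linear_combination (1 + X + X ^ 2 + X ^ 3 + 2 * X ^ 4 + X ^ 5 + X ^ 6 + 2 * X ^ 7 + 2 * X ^ 8 + 2 * X ^ 9 + X ^ 10) * hp
  have e2 : Ideal.Quotient.mk (Ideal.span {(X : (ZMod 13)[X]) ^ 11}) (7 + 3 * X + 5 * X ^ 2 + 4 * X ^ 3 + 11 * X ^ 4 + X ^ 5 + 6 * X ^ 6 + 10 * X ^ 7 + 8 * X ^ 8 + 9 * X ^ 9 + 2 * X ^ 10) *
      Ideal.Quotient.mk (Ideal.span {(X : (ZMod 13)[X]) ^ 11}) (∑ i ∈ Finset.range 2, (i : (ZMod 13)[X]) * (1 + X) ^ i) =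
      Ideal.Quotient.mk (Ideal.span {(X : (ZMod 13)[X]) ^ 11}) (C 7 + C 10 * X + C 8 * X ^ 2 + C 9 * X ^ 3 + C 2 * X ^ 4 + C 12 * X ^ 5 + C 7 * X ^ 6 + C 3 * X ^ 7 + C 5 * X ^ 8 + C 4 * X ^ 9 + C 11 * X ^ 10) := by
    rw [← map_mul, Ideal.Quotient.eq, Ideal.mem_span_singleton]
    refine ⟨2, ?_⟩
    simp only [Finset.sum_range_succ, Finset.sum_range_zero, map_ofNat, map_one, Nat.cast_zero,
      Nat.cast_one, Nat.cast_ofNat]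
    linear_combination (X ^ 4 + X ^ 7 + X ^ 8 + X ^ 9) * hp
  calc w = (Ideal.Quotient.mk (Ideal.span {(X : (ZMod 13)[X]) ^ 11}) (7 + 3 * X + 5 * X ^ 2 + 4 * X ^ 3 + 11 * X ^ 4 + X ^ 5 + 6 * X ^ 6 + 10 * X ^ 7 + 8 * X ^ 8 + 9 * X ^ 9 + 2 * X ^ 10) *
        Ideal.Quotient.mk (Ideal.span {(X : (ZMod 13)[X]) ^ 11}) (∑ i ∈ Finset.range 2, (1 + X) ^ i)) * w := by rw [e1, one_mul]
    _ = Ideal.Quotient.mk (Ideal.span {(X : (ZMod 13)[X]) ^ 11}) (7 + 3 * X + 5 * X ^ 2 + 4 * X ^ 3 + 11 * X ^ 4 + X ^ 5 + 6 * X ^ 6 + 10 * X ^ 7 + 8 * X ^ 8 + 9 * X ^ 9 + 2 * X ^ 10) *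
        (Ideal.Quotient.mk (Ideal.span {(X : (ZMod 13)[X]) ^ 11}) (∑ i ∈ Finset.range 2, (1 + X) ^ i) * w) := by ring
    _ = _ := by rw [h, e2]

lemma h47_w_thirteen_3 (w : (ZMod 13)[X] ⧸ Ideal.span {(X : (ZMod 13)[X]) ^ 11})
    (h : Ideal.Quotient.mk (Ideal.span {(X : (ZMod 13)[X]) ^ 11}) (∑ i ∈ Finset.range 3, (1 + X) ^ i) * w =
      Ideal.Quotient.mk (Ideal.span {(X : (ZMod 13)[X]) ^ 11}) (∑ i ∈ Finset.range 3, (i : (ZMod 13)[X]) * (1 + X) ^ i)) :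
    w = Ideal.Quotient.mk (Ideal.span {(X : (ZMod 13)[X]) ^ 11}) (C 1 + C 5 * X + C 4 * X ^ 2 + C 3 * X ^ 3 + C 12 * X ^ 5 + C 1 * X ^ 6 + C 8 * X ^ 7 + C 9 * X ^ 8 + C 10 * X ^ 9) := by
  have hp := h47_char_poly_thirteen
  have e1 : Ideal.Quotient.mk (Ideal.span {(X : (ZMod 13)[X]) ^ 11}) (9 + 4 * X + 6 * X ^ 2 + 10 * X ^ 3 + X ^ 4 + 4 * X ^ 6 + 9 * X ^ 7 + 7 * X ^ 8 + 3 * X ^ 9 + 12 * X ^ 10) *
      Ideal.Quotient.mk (Ideal.span {(X : (ZMod 13)[X]) ^ 11}) (∑ i ∈ Finset.range 3, (1 + X) ^ i) = 1 := by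
    rw [← map_mul, ← map_one (Ideal.Quotient.mk (Ideal.span {(X : (ZMod 13)[X]) ^ 11})), Ideal.Quotient.eq, Ideal.mem_span_singleton]
    refine ⟨39 + 12 * X, ?_⟩
    simp only [Finset.sum_range_succ, Finset.sum_range_zero]
    linear_combination (2 + 3 * X + 3 * X ^ 2 + 4 * X ^ 3 + 3 * X ^ 4 + X ^ 5 + X ^ 6 + 3 * X ^ 7 + 4 * X ^ 8 + 3 * X ^ 9 + 4 * X ^ 10) * hp
  have e2 : Ideal.Quotient.mk (Ideal.span {(X : (ZMod 13)[X]) ^ 11}) (9 + 4 * X + 6 * X ^ 2 + 10 * X ^ 3 + X ^ 4 + 4 * X ^ 6 + 9 * X ^ 7 + 7 * X ^ 8 + 3 * X ^ 9 + 12 * X ^ 10) *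
      Ideal.Quotient.mk (Ideal.span {(X : (ZMod 13)[X]) ^ 11}) (∑ i ∈ Finset.range 3, (i : (ZMod 13)[X]) * (1 + X) ^ i) =
      Ideal.Quotient.mk (Ideal.span {(X : (ZMod 13)[X]) ^ 11}) (C 1 + C 5 * X + C 4 * X ^ 2 + C 3 * X ^ 3 + C 12 * X ^ 5 + C 1 * X ^ 6 + C 8 * X ^ 7 + C 9 * X ^ 8 + C 10 * X ^ 9) := by
    rw [← map_mul, Ideal.Quotient.eq, Ideal.mem_span_singleton]
    refine ⟨66 + 24 * X, ?_⟩
    simp only [Finset.sum_range_succ, Finset.sum_range_zero, map_ofNat, map_one, Nat.cast_zero,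
      Nat.cast_one, Nat.cast_ofNat]
    linear_combination (2 + 4 * X + 4 * X ^ 2 + 5 * X ^ 3 + 5 * X ^ 4 + X ^ 5 + X ^ 6 + 3 * X ^ 7 + 5 * X ^ 8 + 4 * X ^ 9 + 5 * X ^ 10) * hp
  calc w = (Ideal.Quotient.mk (Ideal.span {(X : (ZMod 13)[X]) ^ 11}) (9 + 4 * X + 6 * X ^ 2 + 10 * X ^ 3 + X ^ 4 + 4 * X ^ 6 + 9 * X ^ 7 + 7 * X ^ 8 + 3 * X ^ 9 + 12 * X ^ 10) *
        Ideal.Quotient.mk (Ideal.span {(X : (ZMod 13)[X]) ^ 11}) (∑ i ∈ Finset.range 3, (1 + X) ^ i)) * w := by rw [e1, one_mul]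
    _ = Ideal.Quotient.mk (Ideal.span {(X : (ZMod 13)[X]) ^ 11}) (9 + 4 * X + 6 * X ^ 2 + 10 * X ^ 3 + X ^ 4 + 4 * X ^ 6 + 9 * X ^ 7 + 7 * X ^ 8 + 3 * X ^ 9 + 12 * X ^ 10) *
        (Ideal.Quotient.mk (Ideal.span {(X : (ZMod 13)[X]) ^ 11}) (∑ i ∈ Finset.range 3, (1 + X) ^ i) * w) := by ring
    _ = _ := by rw [h, e2]

lemma h47_w_thirteen_4 (w : (ZMod 13)[X] ⧸ Ideal.span {(X : (ZMod 13)[X]) ^ 11})
    (h : Ideal.Quotient.mk (Ideal.span {(X : (ZMod 13)[X]) ^ 11}) (∑ i ∈ Finset.range 4, (1 + X) ^ i) * w =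
      Ideal.Quotient.mk (Ideal.span {(X : (ZMod 13)[X]) ^ 11}) (∑ i ∈ Finset.range 4, (i : (ZMod 13)[X]) * (1 + X) ^ i)) :
    w = Ideal.Quotient.mk (Ideal.span {(X : (ZMod 13)[X]) ^ 11}) (C 8 + C 11 * X + C 1 * X ^ 2 + C 9 * X ^ 3 + C 12 * X ^ 4 + C 2 * X ^ 5 + C 12 * X ^ 6 + C 3 * X ^ 7 + C 9 * X ^ 8) := by
  have hp := h47_char_poly_thirteen
  have e1 : Ideal.Quotient.mk (Ideal.span {(X : (ZMod 13)[X]) ^ 11}) (10 + 11 * X + 6 * X ^ 2 + 10 * X ^ 3 + 12 * X ^ 4 + 3 * X ^ 5 + 7 * X ^ 6 + 3 * X ^ 7 + 4 * X ^ 8 + 12 * X ^ 9) *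
      Ideal.Quotient.mk (Ideal.span {(X : (ZMod 13)[X]) ^ 11}) (∑ i ∈ Finset.range 4, (1 + X) ^ i) = 1 := by
    rw [← map_mul, ← map_one (Ideal.Quotient.mk (Ideal.span {(X : (ZMod 13)[X]) ^ 11})), Ideal.Quotient.eq, Ideal.mem_span_singleton]
    refine ⟨52 + 12 * X, ?_⟩
    simp only [Finset.sum_range_succ, Finset.sum_range_zero]
    linear_combination (3 + 8 * X + 10 * X ^ 2 + 10 * X ^ 3 + 11 * X ^ 4 + 10 * X ^ 5 + 8 * X ^ 6 + 6 * X ^ 7 + 5 * X ^ 8 + 7 * X ^ 9 + 7 * X ^ 10) * hp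
  have e2 : Ideal.Quotient.mk (Ideal.span {(X : (ZMod 13)[X]) ^ 11}) (10 + 11 * X + 6 * X ^ 2 + 10 * X ^ 3 + 12 * X ^ 4 + 3 * X ^ 5 + 7 * X ^ 6 + 3 * X ^ 7 + 4 * X ^ 8 + 12 * X ^ 9) *
      Ideal.Quotient.mk (Ideal.span {(X : (ZMod 13)[X]) ^ 11}) (∑ i ∈ Finset.range 4, (i : (ZMod 13)[X]) * (1 + X) ^ i) =
      Ideal.Quotient.mk (Ideal.span {(X : (ZMod 13)[X]) ^ 11}) (C 8 + C 11 * X + C 1 * X ^ 2 + C 9 * X ^ 3 + C 12 * X ^ 4 + C 2 * X ^ 5 + C 12 * X ^ 6 + C 3 * X ^ 7 + C 9 * X ^ 8) := by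
    rw [← map_mul, Ideal.Quotient.eq, Ideal.mem_span_singleton]
    refine ⟨144 + 36 * X, ?_⟩
    simp only [Finset.sum_range_succ, Finset.sum_range_zero, map_ofNat, map_one, Nat.cast_zero,
      Nat.cast_one, Nat.cast_ofNat]
    linear_combination (4 + 15 * X + 23 * X ^ 2 + 22 * X ^ 3 + 23 * X ^ 4 + 24 * X ^ 5 + 18 * X ^ 6 + 14 * X ^ 7 + 11 * X ^ 8 + 14 * X ^ 9 + 17 * X ^ 10) * hp
  calc w = (Ideal.Quotient.mk (Ideal.span {(X : (ZMod 13)[X]) ^ 11}) (10 + 11 * X + 6 * X ^ 2 + 10 * X ^ 3 + 12 * X ^ 4 + 3 * X ^ 5 + 7 * X ^ 6 + 3 * X ^ 7 + 4 * X ^ 8 + 12 * X ^ 9) *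
        Ideal.Quotient.mk (Ideal.span {(X : (ZMod 13)[X]) ^ 11}) (∑ i ∈ Finset.range 4, (1 + X) ^ i)) * w := by rw [e1, one_mul]
    _ = Ideal.Quotient.mk (Ideal.span {(X : (ZMod 13)[X]) ^ 11}) (10 + 11 * X + 6 * X ^ 2 + 10 * X ^ 3 + 12 * X ^ 4 + 3 * X ^ 5 + 7 * X ^ 6 + 3 * X ^ 7 + 4 * X ^ 8 + 12 * X ^ 9) *
        (Ideal.Quotient.mk (Ideal.span {(X : (ZMod 13)[X]) ^ 11}) (∑ i ∈ Finset.range 4, (1 + X) ^ i) * w) := by ring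
    _ = _ := by rw [h, e2]

lemma h47_w_thirteen_5 (w : (ZMod 13)[X] ⧸ Ideal.span {(X : (ZMod 13)[X]) ^ 11})
    (h : Ideal.Quotient.mk (Ideal.span {(X : (ZMod 13)[X]) ^ 11}) (∑ i ∈ Finset.range 5, (1 + X) ^ i) * w =
      Ideal.Quotient.mk (Ideal.span {(X : (ZMod 13)[X]) ^ 11}) (∑ i ∈ Finset.range 5, (i : (ZMod 13)[X]) * (1 + X) ^ i)) :
    w = Ideal.Quotient.mk (Ideal.span {(X : (ZMod 13)[X]) ^ 11}) (C 2 + C 2 * X + C 12 * X ^ 2 + C 5 * X ^ 3 + C 6 * X ^ 4 + C 2 * X ^ 5 + C 2 * X ^ 7 + C 11 * X ^ 8 + C 10 * X ^ 9 + C 8 * X ^ 10) := by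
  have hp := h47_char_poly_thirteen
  have e1 : Ideal.Quotient.mk (Ideal.span {(X : (ZMod 13)[X]) ^ 11}) (8 + 10 * X + 3 * X ^ 2 + 5 * X ^ 3 + X ^ 4 + 9 * X ^ 5 + 3 * X ^ 6 + 3 * X ^ 8 + 10 * X ^ 9 + 2 * X ^ 10) *
      Ideal.Quotient.mk (Ideal.span {(X : (ZMod 13)[X]) ^ 11}) (∑ i ∈ Finset.range 5, (1 + X) ^ i) = 1 := by
    rw [← map_mul, ← map_one (Ideal.Quotient.mk (Ideal.span {(X : (ZMod 13)[X]) ^ 11})), Ideal.Quotient.eq, Ideal.mem_span_singleton]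
    refine ⟨135 + 73 * X + 20 * X ^ 2 + 2 * X ^ 3, ?_⟩
    simp only [Finset.sum_range_succ, Finset.sum_range_zero]
    linear_combination (3 + 10 * X + 15 * X ^ 2 + 15 * X ^ 3 + 11 * X ^ 4 + 10 * X ^ 5 + 11 * X ^ 6 + 10 * X ^ 7 + 7 * X ^ 8 + 8 * X ^ 9 + 11 * X ^ 10) * hp
  have e2 : Ideal.Quotient.mk (Ideal.span {(X : (ZMod 13)[X]) ^ 11}) (8 + 10 * X + 3 * X ^ 2 + 5 * X ^ 3 + X ^ 4 + 9 * X ^ 5 + 3 * X ^ 6 + 3 * X ^ 8 + 10 * X ^ 9 + 2 * X ^ 10) *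
      Ideal.Quotient.mk (Ideal.span {(X : (ZMod 13)[X]) ^ 11}) (∑ i ∈ Finset.range 5, (i : (ZMod 13)[X]) * (1 + X) ^ i) =
      Ideal.Quotient.mk (Ideal.span {(X : (ZMod 13)[X]) ^ 11}) (C 2 + C 2 * X + C 12 * X ^ 2 + C 5 * X ^ 3 + C 6 * X ^ 4 + C 2 * X ^ 5 + C 2 * X ^ 7 + C 11 * X ^ 8 + C 10 * X ^ 9 + C 8 * X ^ 10) := by
    rw [← map_mul, Ideal.Quotient.eq, Ideal.mem_span_singleton]
    refine ⟨467 + 272 * X + 78 * X ^ 2 + 8 * X ^ 3, ?_⟩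
    simp only [Finset.sum_range_succ, Finset.sum_range_zero, map_ofNat, map_one, Nat.cast_zero,
      Nat.cast_one, Nat.cast_ofNat]
    linear_combination (6 + 26 * X + 46 * X ^ 2 + 49 * X ^ 3 + 37 * X ^ 4 + 30 * X ^ 5 + 34 * X ^ 6 + 34 * X ^ 7 + 23 * X ^ 8 + 21 * X ^ 9 + 33 * X ^ 10) * hp
  calc w = (Ideal.Quotient.mk (Ideal.span {(X : (ZMod 13)[X]) ^ 11}) (8 + 10 * X + 3 * X ^ 2 + 5 * X ^ 3 + X ^ 4 + 9 * X ^ 5 + 3 * X ^ 6 + 3 * X ^ 8 + 10 * X ^ 9 + 2 * X ^ 10) *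
        Ideal.Quotient.mk (Ideal.span {(X : (ZMod 13)[X]) ^ 11}) (∑ i ∈ Finset.range 5, (1 + X) ^ i)) * w := by rw [e1, one_mul]
    _ = Ideal.Quotient.mk (Ideal.span {(X : (ZMod 13)[X]) ^ 11}) (8 + 10 * X + 3 * X ^ 2 + 5 * X ^ 3 + X ^ 4 + 9 * X ^ 5 + 3 * X ^ 6 + 3 * X ^ 8 + 10 * X ^ 9 + 2 * X ^ 10) *
        (Ideal.Quotient.mk (Ideal.span {(X : (ZMod 13)[X]) ^ 11}) (∑ i ∈ Finset.range 5, (1 + X) ^ i) * w) := by ring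
    _ = _ := by rw [h, e2]

lemma h47_w_thirteen_6 (w : (ZMod 13)[X] ⧸ Ideal.span {(X : (ZMod 13)[X]) ^ 11})
    (h : Ideal.Quotient.mk (Ideal.span {(X : (ZMod 13)[X]) ^ 11}) (∑ i ∈ Finset.range 6, (1 + X) ^ i) * w =
      Ideal.Quotient.mk (Ideal.span {(X : (ZMod 13)[X]) ^ 11}) (∑ i ∈ Finset.range 6, (i : (ZMod 13)[X]) * (1 + X) ^ i)) :
    w = Ideal.Quotient.mk (Ideal.span {(X : (ZMod 13)[X]) ^ 11}) (C 9 + C 4 * X + C 11 * X ^ 2 + C 11 * X ^ 3 + C 4 * X ^ 4 + C 10 * X ^ 5 + C 7 * X ^ 6) := by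
  have hp := h47_char_poly_thirteen
  have e1 : Ideal.Quotient.mk (Ideal.span {(X : (ZMod 13)[X]) ^ 11}) (11 + 5 * X + 5 * X ^ 2 + 4 * X ^ 3 + 4 * X ^ 4 + 5 * X ^ 5 + 6 * X ^ 6 + 12 * X ^ 7) *
      Ideal.Quotient.mk (Ideal.span {(X : (ZMod 13)[X]) ^ 11}) (∑ i ∈ Finset.range 6, (1 + X) ^ i) = 1 := by
    rw [← map_mul, ← map_one (Ideal.Quotient.mk (Ideal.span {(X : (ZMod 13)[X]) ^ 11})), Ideal.Quotient.eq, Ideal.mem_span_singleton]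
    refine ⟨78 + 12 * X, ?_⟩
    simp only [Finset.sum_range_succ, Finset.sum_range_zero]
    linear_combination (5 + 15 * X + 25 * X ^ 2 + 28 * X ^ 3 + 25 * X ^ 4 + 22 * X ^ 5 + 22 * X ^ 6 + 27 * X ^ 7 + 31 * X ^ 8 + 28 * X ^ 9 + 17 * X ^ 10) * hp
  have e2 : Ideal.Quotient.mk (Ideal.span {(X : (ZMod 13)[X]) ^ 11}) (11 + 5 * X + 5 * X ^ 2 + 4 * X ^ 3 + 4 * X ^ 4 + 5 * X ^ 5 + 6 * X ^ 6 + 12 * X ^ 7) *
      Ideal.Quotient.mk (Ideal.span {(X : (ZMod 13)[X]) ^ 11}) (∑ i ∈ Finset.range 6, (i : (ZMod 13)[X]) * (1 + X) ^ i) =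
      Ideal.Quotient.mk (Ideal.span {(X : (ZMod 13)[X]) ^ 11}) (C 9 + C 4 * X + C 11 * X ^ 2 + C 11 * X ^ 3 + C 4 * X ^ 4 + C 10 * X ^ 5 + C 7 * X ^ 6) := by
    rw [← map_mul, Ideal.Quotient.eq, Ideal.mem_span_singleton]
    refine ⟨378 + 60 * X, ?_⟩
    simp only [Finset.sum_range_succ, Finset.sum_range_zero, map_ofNat, map_one, Nat.cast_zero,
      Nat.cast_one, Nat.cast_ofNat]
    linear_combination (12 + 52 * X + 98 * X ^ 2 + 116 * X ^ 3 + 105 * X ^ 4 + 90 * X ^ 5 + 88 * X ^ 6 + 104 * X ^ 7 + 127 * X ^ 8 + 123 * X ^ 9 + 79 * X ^ 10) * hp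
  calc w = (Ideal.Quotient.mk (Ideal.span {(X : (ZMod 13)[X]) ^ 11}) (11 + 5 * X + 5 * X ^ 2 + 4 * X ^ 3 + 4 * X ^ 4 + 5 * X ^ 5 + 6 * X ^ 6 + 12 * X ^ 7) *
        Ideal.Quotient.mk (Ideal.span {(X : (ZMod 13)[X]) ^ 11}) (∑ i ∈ Finset.range 6, (1 + X) ^ i)) * w := by rw [e1, one_mul]
    _ = Ideal.Quotient.mk (Ideal.span {(X : (ZMod 13)[X]) ^ 11}) (11 + 5 * X + 5 * X ^ 2 + 4 * X ^ 3 + 4 * X ^ 4 + 5 * X ^ 5 + 6 * X ^ 6 + 12 * X ^ 7) *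
        (Ideal.Quotient.mk (Ideal.span {(X : (ZMod 13)[X]) ^ 11}) (∑ i ∈ Finset.range 6, (1 + X) ^ i) * w) := by ring
    _ = _ := by rw [h, e2]

theorem h47_kcert_indep_thirteen (w : ℕ → (ZMod 13)[X] ⧸ Ideal.span {(X : (ZMod 13)[X]) ^ 11}) (h1 : w 1 = 1)
    (h : ∀ a ∈ Finset.Icc 2 6, Ideal.Quotient.mk _ (∑ i ∈ Finset.range a, (1 + X) ^ i) * w a =
      Ideal.Quotient.mk _ (∑ i ∈ Finset.range a, (i : (ZMod 13)[X]) * (1 + X) ^ i))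
    (c : ℕ → ZMod 13) (hc : ∑ a ∈ Finset.Icc 1 6, c a • w a = 0) :
    ∀ a ∈ Finset.Icc 1 6, c a = 0 := by
  have hp : (13 : ZMod 13) = 0 := by decide
  have hw1 : w 1 = Ideal.Quotient.mk (Ideal.span {(X : (ZMod 13)[X]) ^ 11}) 1 := by rw [h1, map_one]
  have hw2 := h47_w_thirteen_2 (w 2) (h 2 (by decide))
  have hw3 := h47_w_thirteen_3 (w 3) (h 3 (by decide))
  have hw4 := h47_w_thirteen_4 (w 4) (h 4 (by decide))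
  have hw5 := h47_w_thirteen_5 (w 5) (h 5 (by decide))
  have hw6 := h47_w_thirteen_6 (w 6) (h 6 (by decide))
  have hset : Finset.Icc 1 6 = ({1, 2, 3, 4, 5, 6} : Finset ℕ) := by decide
  rw [hset] at hc ⊢
  have hc' : Ideal.Quotient.mk (Ideal.span {(X : (ZMod 13)[X]) ^ 11}) (C (c 1) * 1 + C (c 2) * (C 7 + C 10 * X + C 8 * X ^ 2 + C 9 * X ^ 3 + C 2 * X ^ 4 + C 12 * X ^ 5 + C 7 * X ^ 6 + C 3 * X ^ 7 + C 5 * X ^ 8 + C 4 * X ^ 9 + C 11 * X ^ 10) + C (c 3) * (C 1 + C 5 * X + C 4 * X ^ 2 + C 3 * X ^ 3 + C 12 * X ^ 5 + C 1 * X ^ 6 + C 8 * X ^ 7 + C 9 * X ^ 8 + C 10 * X ^ 9) + C (c 4) * (C 8 + C 11 * X + C 1 * X ^ 2 + C 9 * X ^ 3 + C 12 * X ^ 4 + C 2 * X ^ 5 + C 12 * X ^ 6 + C 3 * X ^ 7 + C 9 * X ^ 8) + C (c 5) * (C 2 + C 2 * X + C 12 * X ^ 2 + C 5 * X ^ 3 + C 6 * X ^ 4 + C 2 * X ^ 5 + C 2 * X ^ 7 + C 11 * X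 ^ 8 + C 10 * X ^ 9 + C 8 * X ^ 10) + C (c 6) * (C 9 + C 4 * X + C 11 * X ^ 2 + C 11 * X ^ 3 + C 4 * X ^ 4 + C 10 * X ^ 5 + C 7 * X ^ 6)) = 0 := by
    rw [← hc]
    rw [Finset.sum_insert (by decide), Finset.sum_insert (by decide), Finset.sum_insert (by decide), Finset.sum_insert (by decide), Finset.sum_insert (by decide), Finset.sum_singleton]
    rw [hw1, hw2, hw3, hw4, hw5, hw6]
    simp only [h47_smul_mk_thirteen]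
    simp only [map_add, add_assoc]
  rw [Ideal.Quotient.eq_zero_iff_mem, Ideal.mem_span_singleton, Polynomial.X_pow_dvd_iff] at hc'
  have e0 := hc' 0 (by norm_num)
  have e1 := hc' 1 (by norm_num)
  have e2 := hc' 2 (by norm_num)
  have e3 := hc' 3 (by norm_num)
  have e4 := hc' 4 (by norm_num)
  have e5 := hc' 5 (by norm_num)
  have e6 := hc' 6 (by norm_num)
  have e7 := hc' 7 (by norm_num)
  have e8 := hc' 8 (by norm_num)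
  have e9 := hc' 9 (by norm_num)
  have e10 := hc' 10 (by norm_num)
  simp [coeff_C, coeff_X, coeff_X_pow, coeff_one] at e0 e1 e2 e3 e4 e5 e6 e7 e8 e9 e10
  have hc1 : c 1 = 0 := by linear_combination 1 * e0 + 10 * e1 + 9 * e3 + 6 * e5 + 12 * e7 + 4 * e9 - (24 * c 2 + 22 * c 3 + 19 * c 4 + 11 * c 5 + 16 * c 6) * hp
  have hc2 : c 2 = 0 := by linear_combination 7 * e1 + 6 * e3 + 1 * e5 + 12 * e7 + 6 * e9 - (15 * c 2 + 17 * c 3 + 13 * c 4 + 10 * c 5 + 8 * c 6) * hp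
  have hc3 : c 3 = 0 := by linear_combination 6 * e1 + 1 * e3 + 3 * e5 + 12 * e7 + 7 * e9 - (13 * c 2 + 18 * c 3 + 9 * c 4 + 9 * c 5 + 5 * c 6) * hp
  have hc4 : c 4 = 0 := by linear_combination 8 * e1 + 4 * e3 + 8 * e5 + 10 * e7 + 11 * e9 - (22 * c 2 + 26 * c 3 + 13 * c 4 + 14 * c 5 + 12 * c 6) * hp
  have hc5 : c 5 = 0 := by linear_combination 12 * e1 + 7 * e3 + 7 * e5 + 4 * e7 + 5 * e9 - (23 * c 2 + 19 * c 3 + 17 * c 4 + 10 * c 5 + 15 * c 6) * hp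
  have hc6 : c 6 = 0 := by linear_combination 9 * e1 + 5 * e3 + 4 * e5 + 10 * e7 + 2 * e9 - (17 * c 2 + 16 * c 3 + 14 * c 4 + 7 * c 5 + 10 * c 6) * hp
  intro a ha
  simp only [Finset.mem_insert, Finset.mem_singleton] at ha
  rcases ha with rfl | rfl | rfl | rfl | rfl | rfl
  · exact hc1
  · exact hc2
  · exact hc3
  · exact hc4
  · exact hc5
  · exact hc6

end Fermat.Agent.FLTP
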