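import Mathlib

open Polynomial

namespace Fermat.Agent.FLTP

lemma h47_smul_mk_five (c : ZMod 5) (f : (ZMod 5)[X]) :
    c • (Ideal.Quotient.mk (Ideal.span {(X : (ZMod 5)[X]) ^ 3}) f) = Ideal.Quotient.mk (Ideal.span {(X : (ZMod 5)[X]) ^ 3}) (C c * f) := by
  rw [← smul_eq_C_mul]; rfl

lemma h47_char_poly_five : (5 : (ZMod 5)[X]) = 0 := by
  have h : ((5 : ℕ) : (ZMod 5)[X]) = 0 := by
    rw [← map_natCast (C : ZMod 5 →+* (ZMod 5)[X]), ZMod.natCast_self, map_zero]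
  exact_mod_cast h

lemma h47_w_five_2 (w : (ZMod 5)[X] ⧸ Ideal.span {(X : (ZMod 5)[X]) ^ 3})
    (h : Ideal.Quotient.mk (Ideal.span {(X : (ZMod 5)[X]) ^ 3}) (∑ i ∈ Finset.range 2, (1 + X) ^ i) * w =
      Ideal.Quotient.mk (Ideal.span {(X : (ZMod 5)[X]) ^ 3}) (∑ i ∈ Finset.range 2, (i : (ZMod 5)[X]) * (1 + X) ^ i)) :
    w = Ideal.Quotient.mk (Ideal.span {(X : (ZMod 5)[X]) ^ 3}) (C 3 + C 4 * X + C 3 * X ^ 2) := by
  have hp := h47_char_poly_five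
  have e1 : Ideal.Quotient.mk (Ideal.span {(X : (ZMod 5)[X]) ^ 3}) (3 + X + 2 * X ^ 2) *
      Ideal.Quotient.mk (Ideal.span {(X : (ZMod 5)[X]) ^ 3}) (∑ i ∈ Finset.range 2, (1 + X) ^ i) = 1 := by
    rw [← map_mul, ← map_one (Ideal.Quotient.mk (Ideal.span {(X : (ZMod 5)[X]) ^ 3})), Ideal.Quotient.eq, Ideal.mem_span_singleton]
    refine ⟨2, ?_⟩
    simp only [Finset.sum_range_succ, Finset.sum_range_zero]
    linear_combination (1 + X + X ^ 2) * hp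
  have e2 : Ideal.Quotient.mk (Ideal.span {(X : (ZMod 5)[X]) ^ 3}) (3 + X + 2 * X ^ 2) *
      Ideal.Quotient.mk (Ideal.span {(X : (ZMod 5)[X]) ^ 3}) (∑ i ∈ Finset.range 2, (i : (ZMod 5)[X]) * (1 + X) ^ i) =
      Ideal.Quotient.mk (Ideal.span {(X : (ZMod 5)[X]) ^ 3}) (C 3 + C 4 * X + C 3 * X ^ 2) := by
    rw [← map_mul, Ideal.Quotient.eq, Ideal.mem_span_singleton]
    refine ⟨2, ?_⟩
    simp only [Finset.sum_range_succ, Finset.sum_range_zero, map_ofNat, map_one, Nat.cast_zero,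
      Nat.cast_one, Nat.cast_ofNat]
    linear_combination (0) * hp
  calc w = (Ideal.Quotient.mk (Ideal.span {(X : (ZMod 5)[X]) ^ 3}) (3 + X + 2 * X ^ 2) *
        Ideal.Quotient.mk (Ideal.span {(X : (ZMod 5)[X]) ^ 3}) (∑ i ∈ Finset.range 2, (1 + X) ^ i)) * w := by rw [e1, one_mul]
    _ = Ideal.Quotient.mk (Ideal.span {(X : (ZMod 5)[X]) ^ 3}) (3 + X + 2 * X ^ 2) *
        (Ideal.Quotient.mk (Ideal.span {(X : (ZMod 5)[X]) ^ 3}) (∑ i ∈ Finset.range 2, (1 + X) ^ i) * w) := by ring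
    _ = _ := by rw [h, e2]

theorem h47_kcert_indep_five (w : ℕ → (ZMod 5)[X] ⧸ Ideal.span {(X : (ZMod 5)[X]) ^ 3}) (h1 : w 1 = 1)
    (h : ∀ a ∈ Finset.Icc 2 2, Ideal.Quotient.mk _ (∑ i ∈ Finset.range a, (1 + X) ^ i) * w a =
      Ideal.Quotient.mk _ (∑ i ∈ Finset.range a, (i : (ZMod 5)[X]) * (1 + X) ^ i))
    (c : ℕ → ZMod 5) (hc : ∑ a ∈ Finset.Icc 1 2, c a • w a = 0) :
    ∀ a ∈ Finset.Icc 1 2, c a = 0 := by
  have hp : (5 : ZMod 5) = 0 := by decide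
  have hw1 : w 1 = Ideal.Quotient.mk (Ideal.span {(X : (ZMod 5)[X]) ^ 3}) 1 := by rw [h1, map_one]
  have hw2 := h47_w_five_2 (w 2) (h 2 (by decide))
  have hset : Finset.Icc 1 2 = ({1, 2} : Finset ℕ) := by decide
  rw [hset] at hc ⊢
  have hc' : Ideal.Quotient.mk (Ideal.span {(X : (ZMod 5)[X]) ^ 3}) (C (c 1) * 1 + C (c 2) * (C 3 + C 4 * X + C 3 * X ^ 2)) = 0 := by
    rw [← hc]
    rw [Finset.sum_insert (by decide), Finset.sum_singleton]
    rw [hw1, hw2]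
    simp only [h47_smul_mk_five]
    simp only [map_add, add_assoc]
  rw [Ideal.Quotient.eq_zero_iff_mem, Ideal.mem_span_singleton, Polynomial.X_pow_dvd_iff] at hc'
  have e0 := hc' 0 (by norm_num)
  have e1 := hc' 1 (by norm_num)
  have e2 := hc' 2 (by norm_num)
  simp [coeff_C, coeff_X, coeff_X_pow, coeff_one] at e0 e1 e2
  have hc1 : c 1 = 0 := by linear_combination 1 * e0 + 3 * e1 - (3 * c 2) * hp
  have hc2 : c 2 = 0 := by linear_combination 4 * e1 - (3 * c 2) * hp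
  intro a ha
  simp only [Finset.mem_insert, Finset.mem_singleton] at ha
  rcases ha with rfl | rfl
  · exact hc1
  · exact hc2

end Fermat.Agent.FLTP
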