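import Mathlib

set_option autoImplicit false

namespace Fermat.Agent.FLTP

open Polynomial

/-- Coefficient extraction in `(ZMod p)[X] ⧸ (X ^ n)`: a scalar killing `X ^ (n - 1)` is zero. -/
theorem h9_kcert_coeff (p n : ℕ) [Fact p.Prime] (hn : 0 < n) (e : ZMod p)
    (h : algebraMap (ZMod p) ((ZMod p)[X] ⧸ Ideal.span {(X : (ZMod p)[X]) ^ n}) e *
      (Ideal.Quotient.mk (Ideal.span {(X : (ZMod p)[X]) ^ n}) X) ^ (n - 1) = 0) : e = 0 := by
  have h1 : algebraMap (ZMod p) ((ZMod p)[X] ⧸ Ideal.span {(X : (ZMod p)[X]) ^ n}) e =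
      Ideal.Quotient.mk (Ideal.span {(X : (ZMod p)[X]) ^ n}) (C e) := rfl
  rw [h1, ← map_pow, ← map_mul, Ideal.Quotient.eq_zero_iff_mem, Ideal.mem_span_singleton] at h
  by_contra he
  have hdeg : (C e * X ^ (n - 1) : (ZMod p)[X]).degree < ((X : (ZMod p)[X]) ^ n).degree := by
    rw [degree_C_mul_X_pow _ he, degree_X_pow]
    exact_mod_cast Nat.sub_lt hn one_pos
  have h2 := eq_zero_of_dvd_of_degree_lt h hdeg
  rw [mul_eq_zero, C_eq_zero] at h2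
  rcases h2 with h2 | h2
  · exact he h2
  · exact pow_ne_zero _ X_ne_zero h2

theorem h9_kcert_smul (p n : ℕ) (c : ZMod p)
    (a : (ZMod p)[X] ⧸ Ideal.span {(X : (ZMod p)[X]) ^ n}) :
    c • a = algebraMap (ZMod p) ((ZMod p)[X] ⧸ Ideal.span {(X : (ZMod p)[X]) ^ n}) c * a :=
  Algebra.smul_def c a

theorem h9_kcert_indep_five (w : ℕ → ((ZMod 5)[X] ⧸ Ideal.span {(X : (ZMod 5)[X]) ^ 3})) (h1 : w 1 = 1)
    (h : ∀ a ∈ Finset.Icc 2 2, Ideal.Quotient.mk _ (∑ i ∈ Finset.range a, (1 + X) ^ i) * w a =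
      Ideal.Quotient.mk _ (∑ i ∈ Finset.range a, (i : (ZMod 5)[X]) * (1 + X) ^ i))
    (c : ℕ → ZMod 5) (hc : ∑ a ∈ Finset.Icc 1 2, c a • w a = 0) :
    ∀ a ∈ Finset.Icc 1 2, c a = 0 := by
  have hp0 : (5 : ZMod 5) = 0 := by decide
  have : Fact (Nat.Prime 5) := ⟨by norm_num⟩
  set x : ((ZMod 5)[X] ⧸ Ideal.span {(X : (ZMod 5)[X]) ^ 3}) := Ideal.Quotient.mk _ X with hxdef
  have hx : x ^ 3 = 0 := by
    rw [hxdef, ← map_pow, Ideal.Quotient.eq_zero_iff_mem]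
    exact Ideal.subset_span rfl
  have hp : (5 : ((ZMod 5)[X] ⧸ Ideal.span {(X : (ZMod 5)[X]) ^ 3})) = 0 := by
    have h2 := congrArg (algebraMap (ZMod 5) ((ZMod 5)[X] ⧸ Ideal.span {(X : (ZMod 5)[X]) ^ 3})) hp0
    rwa [map_ofNat, map_zero] at h2
  have hs2 : ((1 + x) ^ 0 + (1 + x) ^ 1) * w 2 = (0) * (1 + x) ^ 0 + (1) * (1 + x) ^ 1 := by
    have h2 := h 2 (by decide)
    simp only [Finset.sum_range_succ, Finset.sum_range_zero, map_add, map_mul, map_pow, map_one,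
      map_natCast, map_zero, map_ofNat, Nat.cast_zero, Nat.cast_one, Nat.cast_ofNat, zero_add, ← hxdef] at h2
    linear_combination h2
  have hw2 : w 2 = (3) + (4) * x + (3) * x ^ 2 := by
    linear_combination ((3) + x + (2) * x ^ 2) * hs2 - w 2 * (((2)) * hx + ((1) + x + x ^ 2) * hp) + ((2)) * hx + (0) * hp
  have hIcc : Finset.Icc 1 2 = {1, 2} := by decide
  rw [hIcc]
  simp (decide := true) only [hIcc, Finset.sum_insert, Finset.mem_insert, Finset.mem_singleton,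
    Finset.sum_singleton, not_false_eq_true, h9_kcert_smul] at hc
  rw [h1, hw2] at hc
  have E0 : c 1 + 3 * c 2 = 0 := by
    apply h9_kcert_coeff 5 3 (by norm_num)
    rw [← hxdef]
    simp only [map_add, map_mul, map_ofNat, map_zero, zero_mul]
    linear_combination x ^ 2 * hc - (algebraMap (ZMod 5) ((ZMod 5)[X] ⧸ Ideal.span {(X : (ZMod 5)[X]) ^ 3}) (c 2) * ((4) + (3) * x)) * hx
  have E0' : algebraMap (ZMod 5) ((ZMod 5)[X] ⧸ Ideal.span {(X : (ZMod 5)[X]) ^ 3}) (c 1) + 3 * algebraMap (ZMod 5) ((ZMod 5)[X] ⧸ Ideal.span {(X : (ZMod 5)[X]) ^ 3}) (c 2) = 0 := by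
    have h2 := congrArg (algebraMap (ZMod 5) ((ZMod 5)[X] ⧸ Ideal.span {(X : (ZMod 5)[X]) ^ 3})) E0
    simpa only [map_add, map_mul, map_ofNat, map_zero] using h2
  have E1 : 4 * c 2 = 0 := by
    apply h9_kcert_coeff 5 3 (by norm_num)
    rw [← hxdef]
    simp only [map_add, map_mul, map_ofNat, map_zero, zero_mul]
    linear_combination x ^ 1 * hc - x ^ 1 * E0' - (algebraMap (ZMod 5) ((ZMod 5)[X] ⧸ Ideal.span {(X : (ZMod 5)[X]) ^ 3}) (c 2) * ((3))) * hx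
  have E1' : 4 * algebraMap (ZMod 5) ((ZMod 5)[X] ⧸ Ideal.span {(X : (ZMod 5)[X]) ^ 3}) (c 2) = 0 := by
    have h2 := congrArg (algebraMap (ZMod 5) ((ZMod 5)[X] ⧸ Ideal.span {(X : (ZMod 5)[X]) ^ 3})) E1
    simpa only [map_add, map_mul, map_ofNat, map_zero] using h2
  have C1 : c 1 = 0 := by
    linear_combination 1 * E0 + 3 * E1 - ((3) * c 2) * hp0
  have C2 : c 2 = 0 := by
    linear_combination 4 * E1 - ((3) * c 2) * hp0
  intro a ha
  simp only [Finset.mem_insert, Finset.mem_singleton] at ha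
  rcases ha with rfl | rfl
  · exact C1
  · exact C2

theorem h9_kcert_indep_seven (w : ℕ → ((ZMod 7)[X] ⧸ Ideal.span {(X : (ZMod 7)[X]) ^ 5})) (h1 : w 1 = 1)
    (h : ∀ a ∈ Finset.Icc 2 3, Ideal.Quotient.mk _ (∑ i ∈ Finset.range a, (1 + X) ^ i) * w a =
      Ideal.Quotient.mk _ (∑ i ∈ Finset.range a, (i : (ZMod 7)[X]) * (1 + X) ^ i))
    (c : ℕ → ZMod 7) (hc : ∑ a ∈ Finset.Icc 1 3, c a • w a = 0) :
    ∀ a ∈ Finset.Icc 1 3, c a = 0 := by
  have hp0 : (7 : ZMod 7) = 0 := by decide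
  have : Fact (Nat.Prime 7) := ⟨by norm_num⟩
  set x : ((ZMod 7)[X] ⧸ Ideal.span {(X : (ZMod 7)[X]) ^ 5}) := Ideal.Quotient.mk _ X with hxdef
  have hx : x ^ 5 = 0 := by
    rw [hxdef, ← map_pow, Ideal.Quotient.eq_zero_iff_mem]
    exact Ideal.subset_span rfl
  have hp : (7 : ((ZMod 7)[X] ⧸ Ideal.span {(X : (ZMod 7)[X]) ^ 5})) = 0 := by
    have h2 := congrArg (algebraMap (ZMod 7) ((ZMod 7)[X] ⧸ Ideal.span {(X : (ZMod 7)[X]) ^ 5})) hp0
    rwa [map_ofNat, map_zero] at h2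
  have hs2 : ((1 + x) ^ 0 + (1 + x) ^ 1) * w 2 = (0) * (1 + x) ^ 0 + (1) * (1 + x) ^ 1 := by
    have h2 := h 2 (by decide)
    simp only [Finset.sum_range_succ, Finset.sum_range_zero, map_add, map_mul, map_pow, map_one,
      map_natCast, map_zero, map_ofNat, Nat.cast_zero, Nat.cast_one, Nat.cast_ofNat, zero_add, ← hxdef] at h2
    linear_combination h2
  have hw2 : w 2 = (4) + (2) * x + (6) * x ^ 2 + (4) * x ^ 3 + (5) * x ^ 4 := by
    linear_combination ((4) + (5) * x + x ^ 2 + (3) * x ^ 3 + (2) * x ^ 4) * hs2 - w 2 * (((2)) * hx + ((1) + (2) * x + x ^ 2 + x ^ 3 + x ^ 4) * hp) + ((2)) * hx + (x) * hp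
  have hs3 : ((1 + x) ^ 0 + (1 + x) ^ 1 + (1 + x) ^ 2) * w 3 = (0) * (1 + x) ^ 0 + (1) * (1 + x) ^ 1 + (2) * (1 + x) ^ 2 := by
    have h2 := h 3 (by decide)
    simp only [Finset.sum_range_succ, Finset.sum_range_zero, map_add, map_mul, map_pow, map_one,
      map_natCast, map_zero, map_ofNat, Nat.cast_zero, Nat.cast_one, Nat.cast_ofNat, zero_add, ← hxdef] at h2
    linear_combination h2
  have hw3 : w 3 = (1) + (3) * x + (2) * x ^ 2 + (4) * x ^ 3 := by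
    linear_combination ((5) + (2) * x + x ^ 2 + (3) * x ^ 3 + (6) * x ^ 4) * hs3 - w 3 * (((21) + (6) * x) * hx + ((2) + (3) * x + (2) * x ^ 2 + (2) * x ^ 3 + (4) * x ^ 4) * hp) + ((36) + (12) * x) * hx + ((2) + (4) * x + (3) * x ^ 2 + (2) * x ^ 3 + (5) * x ^ 4) * hp
  have hIcc : Finset.Icc 1 3 = {1, 2, 3} := by decide
  rw [hIcc]
  simp (decide := true) only [hIcc, Finset.sum_insert, Finset.mem_insert, Finset.mem_singleton,
    Finset.sum_singleton, not_false_eq_true, h9_kcert_smul] at hc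
  rw [h1, hw2, hw3] at hc
  have E0 : c 1 + 4 * c 2 + c 3 = 0 := by
    apply h9_kcert_coeff 7 5 (by norm_num)
    rw [← hxdef]
    simp only [map_add, map_mul, map_ofNat, map_zero, zero_mul]
    linear_combination x ^ 4 * hc - (algebraMap (ZMod 7) ((ZMod 7)[X] ⧸ Ideal.span {(X : (ZMod 7)[X]) ^ 5}) (c 2) * ((2) + (6) * x + (4) * x ^ 2 + (5) * x ^ 3) + algebraMap (ZMod 7) ((ZMod 7)[X] ⧸ Ideal.span {(X : (ZMod 7)[X]) ^ 5}) (c 3) * ((3) + (2) * x + (4) * x ^ 2)) * hx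
  have E0' : algebraMap (ZMod 7) ((ZMod 7)[X] ⧸ Ideal.span {(X : (ZMod 7)[X]) ^ 5}) (c 1) + 4 * algebraMap (ZMod 7) ((ZMod 7)[X] ⧸ Ideal.span {(X : (ZMod 7)[X]) ^ 5}) (c 2) + algebraMap (ZMod 7) ((ZMod 7)[X] ⧸ Ideal.span {(X : (ZMod 7)[X]) ^ 5}) (c 3) = 0 := by
    have h2 := congrArg (algebraMap (ZMod 7) ((ZMod 7)[X] ⧸ Ideal.span {(X : (ZMod 7)[X]) ^ 5})) E0
    simpa only [map_add, map_mul, map_ofNat, map_zero] using h2
  have E1 : 2 * c 2 + 3 * c 3 = 0 := by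
    apply h9_kcert_coeff 7 5 (by norm_num)
    rw [← hxdef]
    simp only [map_add, map_mul, map_ofNat, map_zero, zero_mul]
    linear_combination x ^ 3 * hc - x ^ 3 * E0' - (algebraMap (ZMod 7) ((ZMod 7)[X] ⧸ Ideal.span {(X : (ZMod 7)[X]) ^ 5}) (c 2) * ((6) + (4) * x + (5) * x ^ 2) + algebraMap (ZMod 7) ((ZMod 7)[X] ⧸ Ideal.span {(X : (ZMod 7)[X]) ^ 5}) (c 3) * ((2) + (4) * x)) * hx
  have E1' : 2 * algebraMap (ZMod 7) ((ZMod 7)[X] ⧸ Ideal.span {(X : (ZMod 7)[X]) ^ 5}) (c 2) + 3 * algebraMap (ZMod 7) ((ZMod 7)[X] ⧸ Ideal.span {(X : (ZMod 7)[X]) ^ 5}) (c 3) = 0 := by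
    have h2 := congrArg (algebraMap (ZMod 7) ((ZMod 7)[X] ⧸ Ideal.span {(X : (ZMod 7)[X]) ^ 5})) E1
    simpa only [map_add, map_mul, map_ofNat, map_zero] using h2
  have E2 : 6 * c 2 + 2 * c 3 = 0 := by
    apply h9_kcert_coeff 7 5 (by norm_num)
    rw [← hxdef]
    simp only [map_add, map_mul, map_ofNat, map_zero, zero_mul]
    linear_combination x ^ 2 * hc - x ^ 2 * E0' - x ^ 3 * E1' - (algebraMap (ZMod 7) ((ZMod 7)[X] ⧸ Ideal.span {(X : (ZMod 7)[X]) ^ 5}) (c 2) * ((4) + (5) * x) + algebraMap (ZMod 7) ((ZMod 7)[X] ⧸ Ideal.span {(X : (ZMod 7)[X]) ^ 5}) (c 3) * ((4))) * hx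
  have E2' : 6 * algebraMap (ZMod 7) ((ZMod 7)[X] ⧸ Ideal.span {(X : (ZMod 7)[X]) ^ 5}) (c 2) + 2 * algebraMap (ZMod 7) ((ZMod 7)[X] ⧸ Ideal.span {(X : (ZMod 7)[X]) ^ 5}) (c 3) = 0 := by
    have h2 := congrArg (algebraMap (ZMod 7) ((ZMod 7)[X] ⧸ Ideal.span {(X : (ZMod 7)[X]) ^ 5})) E2
    simpa only [map_add, map_mul, map_ofNat, map_zero] using h2
  have E3 : 4 * c 2 + 4 * c 3 = 0 := by
    apply h9_kcert_coeff 7 5 (by norm_num)
    rw [← hxdef]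
    simp only [map_add, map_mul, map_ofNat, map_zero, zero_mul]
    linear_combination x ^ 1 * hc - x ^ 1 * E0' - x ^ 2 * E1' - x ^ 3 * E2' - (algebraMap (ZMod 7) ((ZMod 7)[X] ⧸ Ideal.span {(X : (ZMod 7)[X]) ^ 5}) (c 2) * ((5))) * hx
  have E3' : 4 * algebraMap (ZMod 7) ((ZMod 7)[X] ⧸ Ideal.span {(X : (ZMod 7)[X]) ^ 5}) (c 2) + 4 * algebraMap (ZMod 7) ((ZMod 7)[X] ⧸ Ideal.span {(X : (ZMod 7)[X]) ^ 5}) (c 3) = 0 := by
    have h2 := congrArg (algebraMap (ZMod 7) ((ZMod 7)[X] ⧸ Ideal.span {(X : (ZMod 7)[X]) ^ 5})) E3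
    simpa only [map_add, map_mul, map_ofNat, map_zero] using h2
  have C1 : c 1 = 0 := by
    linear_combination 1 * E0 + 3 * E1 + 1 * E3 - ((2) * c 2 + (2) * c 3) * hp0
  have C2 : c 2 = 0 := by
    linear_combination 6 * E1 + 6 * E3 - ((5) * c 2 + (6) * c 3) * hp0
  have C3 : c 3 = 0 := by
    linear_combination 1 * E1 + 3 * E3 - ((2) * c 2 + (2) * c 3) * hp0
  intro a ha
  simp only [Finset.mem_insert, Finset.mem_singleton] at ha
  rcases ha with rfl | rfl | rfl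
  · exact C1
  · exact C2
  · exact C3

end Fermat.Agent.FLTP
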