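import Mathlib

set_option autoImplicit false

namespace Fermat.Agent.FLTP

open Polynomial

/-- The truncated polynomial ring `F_p[X]/(X^(p-2))`. -/
abbrev kcertA (p : ℕ) : Type := (ZMod p)[X] ⧸ Ideal.span {(X : (ZMod p)[X]) ^ (p - 2)}

/-- `S_a(1+X) = ∑_{i<a} (1+X)^i`. -/
noncomputable def kcertS (p a : ℕ) : (ZMod p)[X] := ∑ i ∈ Finset.range a, (1 + X) ^ i

/-- `D_a(1+X) = ∑_{i<a} i (1+X)^i`. -/
noncomputable def kcertD (p a : ℕ) : (ZMod p)[X] :=
  ∑ i ∈ Finset.range a, (i : (ZMod p)[X]) * (1 + X) ^ i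

theorem kcert_coeff_eq_zero {R : Type*} [CommRing R] (n : ℕ) (s : Finset ℕ) (c : ℕ → R)
    (M : ℕ → ℕ → R)
    (h : Ideal.Quotient.mk (Ideal.span {(X : R[X]) ^ n})
      (∑ a ∈ s, C (c a) * ∑ k ∈ Finset.range n, C (M a k) * X ^ k) = 0) :
    ∀ k < n, ∑ a ∈ s, c a * M a k = 0 := by
  intro k hk
  rw [Ideal.Quotient.eq_zero_iff_mem, Ideal.mem_span_singleton, Polynomial.X_pow_dvd_iff] at h
  have h1 := h k hk
  rw [Polynomial.finsetSum_coeff] at h1
  rw [← h1]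
  refine Finset.sum_congr rfl fun a _ => ?_
  rw [Polynomial.coeff_C_mul, Polynomial.finsetSum_coeff]
  congr 1
  simp only [Polynomial.coeff_C_mul, Polynomial.coeff_X_pow]
  rw [Finset.sum_eq_single k]
  · simp
  · intro b _ hb
    simp [Ne.symm hb]
  · intro hk'
    exact absurd (Finset.mem_range.mpr hk) hk'

theorem kcert_eq_zero_of_rightInverse {R : Type*} [CommRing R] (n : ℕ) (s : Finset ℕ) (c : ℕ → R)
    (M N : ℕ → ℕ → R)
    (hMN : ∀ a ∈ s, ∀ b ∈ s, ∑ k ∈ Finset.range n, M a k * N k b = if a = b then 1 else 0)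
    (h : ∀ k < n, ∑ a ∈ s, c a * M a k = 0) : ∀ b ∈ s, c b = 0 := by
  intro b hb
  have h2 : ∑ k ∈ Finset.range n, (∑ a ∈ s, c a * M a k) * N k b = 0 := by
    refine Finset.sum_eq_zero fun k hk => ?_
    rw [h k (Finset.mem_range.mp hk), zero_mul]
  simp only [Finset.sum_mul] at h2
  rw [Finset.sum_comm] at h2
  have h3 : ∑ a ∈ s, ∑ k ∈ Finset.range n, c a * M a k * N k b =
      ∑ a ∈ s, c a * (if a = b then 1 else 0) := by
    refine Finset.sum_congr rfl fun a ha => ?_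
    rw [← hMN a ha b hb, Finset.mul_sum]
    refine Finset.sum_congr rfl fun k _ => ?_
    ring
  rw [h3] at h2
  simpa [Finset.sum_ite_eq', hb] using h2

theorem kcert_mk_eq (p n : ℕ) (f g G H : (ZMod p)[X])
    (hfg : f = g + X ^ n * G + (p : (ZMod p)[X]) * H) :
    Ideal.Quotient.mk (Ideal.span {(X : (ZMod p)[X]) ^ n}) f = Ideal.Quotient.mk _ g := by
  rw [Ideal.Quotient.eq, Ideal.mem_span_singleton]
  refine ⟨G, ?_⟩
  have hp0 : ((p : ℕ) : (ZMod p)[X]) = 0 := CharP.cast_eq_zero _ p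
  rw [hfg, hp0]
  ring

/-- Generic glue: a common multiplier `P`, explicit low parts with coefficient table `M`, and a
right inverse table `N` give linear independence. -/
theorem kcert_indep_of_cert (p m : ℕ) (w : ℕ → kcertA p) (c : ℕ → ZMod p) (P : (ZMod p)[X])
    (M N : ℕ → ℕ → ZMod p)
    (hw : ∀ a ∈ Finset.Icc 1 m, Ideal.Quotient.mk _ P * w a =
      Ideal.Quotient.mk _ (∑ k ∈ Finset.range (p - 2), C (M a k) * X ^ k))
    (hMN : ∀ a ∈ Finset.Icc 1 m, ∀ b ∈ Finset.Icc 1 m,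
      ∑ k ∈ Finset.range (p - 2), M a k * N k b = if a = b then 1 else 0)
    (hc : ∑ a ∈ Finset.Icc 1 m, c a • w a = 0) : ∀ a ∈ Finset.Icc 1 m, c a = 0 := by
  apply kcert_eq_zero_of_rightInverse (p - 2) (Finset.Icc 1 m) c M N hMN
  apply kcert_coeff_eq_zero
  have h2 : Ideal.Quotient.mk (Ideal.span {(X : (ZMod p)[X]) ^ (p - 2)}) P *
      ∑ a ∈ Finset.Icc 1 m, c a • w a = 0 := by rw [hc, mul_zero]
  rw [Finset.mul_sum] at h2
  rw [map_sum, ← h2]
  refine Finset.sum_congr rfl fun a ha => ?_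
  have h3 : ∀ (r : ZMod p) (v : kcertA p),
      r • v = Ideal.Quotient.mk (Ideal.span {(X : (ZMod p)[X]) ^ (p - 2)}) (C r) * v := by
    intro r v
    induction v using Quotient.inductionOn' with
    | h f =>
      show Ideal.Quotient.mk (Ideal.span {(X : (ZMod p)[X]) ^ (p - 2)}) (r • f) =
        Ideal.Quotient.mk (Ideal.span {(X : (ZMod p)[X]) ^ (p - 2)}) (C r * f)
      rw [Polynomial.smul_eq_C_mul]
  rw [map_mul, ← hw a ha, h3 (c a) (w a)]
  ring

end Fermat.Agent.FLTP
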