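import Mathlib
import Fermat.Agent.FLTP.KummerAbstract
import Fermat.Agent.FLTP.KummerGen

set_option autoImplicit false

namespace Fermat.Agent.FLTP

open Polynomial NumberField TrivSqZeroExt

/-- The truncated polynomial ring `𝔽_p[X] / (X ^ (p - 2))`. -/
abbrev kdA (p : ℕ) : Type := (ZMod p)[X] ⧸ Ideal.span {(X : (ZMod p)[X]) ^ (p - 2)}

/-- The class of `X` in `kdA p`. -/
noncomputable def kdx (p : ℕ) : kdA p := Ideal.Quotient.mk _ X

theorem kdx_pow (p : ℕ) : kdx p ^ (p - 2) = 0 := by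
  rw [kdx, ← map_pow]
  exact Ideal.Quotient.eq_zero_iff_mem.mpr (Ideal.mem_span_singleton_self _)

theorem kdA_natCast (p : ℕ) : (p : kdA p) = 0 := by
  have h : ((p : ℕ) : (ZMod p)[X]) = 0 := by
    rw [← Polynomial.C_eq_natCast, ZMod.natCast_self, map_zero]
  have h2 := congrArg (Ideal.Quotient.mk (Ideal.span {(X : (ZMod p)[X]) ^ (p - 2)})) h
  rwa [map_natCast, map_zero] at h2

/-- The point `(1 + X) (1 + ε)` of the dual numbers over `kdA p`. -/
noncomputable def kdz (p : ℕ) : TrivSqZeroExt (kdA p) (kdA p) :=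
  inl (1 + kdx p) + inr (1 + kdx p)

theorem kdz_fst (p : ℕ) : (kdz p).fst = 1 + kdx p := by simp [kdz]

theorem kdz_snd (p : ℕ) : (kdz p).snd = 1 + kdx p := by simp [kdz]

theorem kdz_pow_fst (p i : ℕ) : (kdz p ^ i).fst = (1 + kdx p) ^ i := by
  rw [fst_pow, kdz_fst]

theorem kdz_pow_snd (p i : ℕ) : (kdz p ^ i).snd = (i : kdA p) * (1 + kdx p) ^ i := by
  induction i with
  | zero => simp
  | succ i ih =>
    rw [pow_succ, snd_mul, ih, kdz_pow_fst, kdz_fst, kdz_snd]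
    simp only [smul_eq_mul, MulOpposite.smul_eq_mul_unop, MulOpposite.unop_op]
    push_cast
    ring

theorem kdz_root (p : ℕ) [Fact p.Prime] (hp : p ≠ 2) :
    aeval (kdz p) (cyclotomic p ℤ) = 0 := by
  have hpp : p.Prime := Fact.out
  have h3 : 3 ≤ p := by
    have := hpp.two_le
    omega
  let φ : ZMod p →+* TrivSqZeroExt (kdA p) (kdA p) :=
    (inlHom (kdA p) (kdA p)).comp (algebraMap (ZMod p) (kdA p))
  have h1 : cyclotomic p (TrivSqZeroExt (kdA p) (kdA p)) = (X - 1) ^ (p - 1) := by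
    rw [← map_cyclotomic p φ]
    have h2 : cyclotomic p (ZMod p) = (X - 1) ^ (p - 1) := by
      have := cyclotomic_mul_prime_eq_pow_of_not_dvd (ZMod p) (p := p) (n := 1)
        (by simpa using hpp.one_lt.ne')
      rwa [one_mul, cyclotomic_one] at this
    rw [h2]
    simp
  rw [aeval_def, eval₂_eq_eval_map, map_cyclotomic, h1]
  rw [@eval_pow (TrivSqZeroExt (kdA p) (kdA p)) _, eval_sub, eval_X, eval_one]
  have hz : kdz p - 1 = inl (kdx p) + inr (1 + kdx p) := by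
    ext <;> simp [kdz]
  rw [hz]
  have hx1 : kdx p ^ (p - 1) = 0 := by
    have : p - 1 = (p - 2) + 1 := by omega
    rw [this, pow_succ, kdx_pow, zero_mul]
  ext
  · simp [hx1]
  · rw [snd_pow]
    have h4 : (p - 1).pred = p - 2 := by
      rw [Nat.pred_eq_sub_one]; omega
    rw [h4]
    simp [kdx_pow]

variable (p : ℕ) [Fact p.Prime] (K : Type) [Field K] [NumberField K]
  [IsCyclotomicExtension {p} ℚ K]

omit [Fact p.Prime] in
theorem kd_minpoly_toInteger [NeZero p] :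
    minpoly ℤ (IsCyclotomicExtension.zeta_spec p ℚ K).toInteger = cyclotomic p ℤ := by
  rw [cyclotomic_eq_minpoly (IsCyclotomicExtension.zeta_spec p ℚ K) (NeZero.pos p),
    ← NumberField.RingOfIntegers.minpoly_coe]
  rfl

/-- The primitive root of unity in the ring of integers. -/
noncomputable def kdeta : 𝓞 K :=
  haveI : NeZero p := ⟨(Fact.out : p.Prime).ne_zero⟩
  (IsCyclotomicExtension.zeta_spec p ℚ K).toInteger

theorem kdeta_isPrimitiveRoot : IsPrimitiveRoot (kdeta p K) p := by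
  have : NeZero p := ⟨(Fact.out : p.Prime).ne_zero⟩
  exact (IsCyclotomicExtension.zeta_spec p ℚ K).toInteger_isPrimitiveRoot

/-- The ring homomorphism `𝓞 K → 𝔽_p[X]/(X^(p-2))[ε]` sending `ζ` to `(1 + X)(1 + ε)`. -/
noncomputable def kdTheta (hp : p ≠ 2) : 𝓞 K →ₐ[ℤ] TrivSqZeroExt (kdA p) (kdA p) :=
  haveI : NeZero p := ⟨(Fact.out : p.Prime).ne_zero⟩
  (IsCyclotomicExtension.zeta_spec p ℚ K).integralPowerBasis.lift (kdz p) (by
    rw [IsPrimitiveRoot.integralPowerBasis_gen, kd_minpoly_toInteger]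
    exact kdz_root p hp)

theorem kdTheta_eta (hp : p ≠ 2) : kdTheta p K hp (kdeta p K) = kdz p := by
  have : NeZero p := ⟨(Fact.out : p.Prime).ne_zero⟩
  have hgen : kdeta p K = (IsCyclotomicExtension.zeta_spec p ℚ K).integralPowerBasis.gen :=
    (IsPrimitiveRoot.integralPowerBasis_gen _).symm
  rw [hgen]
  exact PowerBasis.lift_gen _ _ _

theorem kdTheta_natCast_p (hp : p ≠ 2) : kdTheta p K hp (p : 𝓞 K) = 0 := by
  rw [map_natCast, ← inl_natCast, kdA_natCast, inl_zero]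

theorem kdTheta_fst_mul_inv (hp : p ≠ 2) (u : (𝓞 K)ˣ) :
    (kdTheta p K hp (u : 𝓞 K)).fst * (kdTheta p K hp ((u⁻¹ : (𝓞 K)ˣ) : 𝓞 K)).fst = 1 := by
  rw [← fst_mul, ← map_mul, Units.mul_inv, map_one, fst_one]

/-- The logarithmic derivative on units. -/
noncomputable def kdlog (hp : p ≠ 2) : (𝓞 K)ˣ →* Multiplicative (kdA p) where
  toFun u := Multiplicative.ofAdd
    ((kdTheta p K hp (u : 𝓞 K)).snd * (kdTheta p K hp ((u⁻¹ : (𝓞 K)ˣ) : 𝓞 K)).fst)
  map_one' := by simp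
  map_mul' u v := by
    rw [← ofAdd_add]
    congr 1
    have h1 := kdTheta_fst_mul_inv p K hp u
    have h2 := kdTheta_fst_mul_inv p K hp v
    rw [mul_inv, Units.val_mul, Units.val_mul, map_mul, map_mul, snd_mul, fst_mul]
    simp only [smul_eq_mul, MulOpposite.smul_eq_mul_unop, MulOpposite.unop_op]
    linear_combination ((kdTheta p K hp (v : 𝓞 K)).snd *
      (kdTheta p K hp ((v⁻¹ : (𝓞 K)ˣ) : 𝓞 K)).fst) * h1 +
      ((kdTheta p K hp (u : 𝓞 K)).snd * (kdTheta p K hp ((u⁻¹ : (𝓞 K)ˣ) : 𝓞 K)).fst) * h2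

theorem kdlog_apply (hp : p ≠ 2) (u : (𝓞 K)ˣ) :
    (kdlog p K hp u).toAdd =
      (kdTheta p K hp (u : 𝓞 K)).snd * (kdTheta p K hp ((u⁻¹ : (𝓞 K)ˣ) : 𝓞 K)).fst := rfl

theorem kdTheta_fst_mul_kdlog (hp : p ≠ 2) (u : (𝓞 K)ˣ) :
    (kdTheta p K hp (u : 𝓞 K)).fst * (kdlog p K hp u).toAdd = (kdTheta p K hp (u : 𝓞 K)).snd := by
  rw [kdlog_apply]
  linear_combination (kdTheta p K hp (u : 𝓞 K)).snd * kdTheta_fst_mul_inv p K hp u

theorem kdlog_eq_one_of_dvd (hp : p ≠ 2) (u : (𝓞 K)ˣ)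
    (h : ∃ n : ℤ, (p : 𝓞 K) ∣ (u : 𝓞 K) - n) : kdlog p K hp u = 1 := by
  obtain ⟨n, w, hw⟩ := h
  have hu : (u : 𝓞 K) = n + p * w := by rw [← hw]; ring
  have h1 : (kdTheta p K hp (u : 𝓞 K)).snd = 0 := by
    rw [hu, map_add, map_mul, kdTheta_natCast_p, zero_mul, add_zero, map_intCast, snd_intCast]
  apply Multiplicative.toAdd.injective
  rw [kdlog_apply, h1, zero_mul]
  rfl

theorem kdTheta_geom_fst (hp : p ≠ 2) (a : ℕ) :
    (kdTheta p K hp (∑ i ∈ Finset.range a, kdeta p K ^ i)).fst =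
      Ideal.Quotient.mk (Ideal.span {(X : (ZMod p)[X]) ^ (p - 2)})
        (∑ i ∈ Finset.range a, (1 + X) ^ i) := by
  rw [map_sum, fst_sum, map_sum]
  refine Finset.sum_congr rfl fun i _ => ?_
  rw [map_pow, kdTheta_eta, kdz_pow_fst, map_pow, map_add, map_one]
  rfl

theorem kdTheta_geom_snd (hp : p ≠ 2) (a : ℕ) :
    (kdTheta p K hp (∑ i ∈ Finset.range a, kdeta p K ^ i)).snd =
      Ideal.Quotient.mk (Ideal.span {(X : (ZMod p)[X]) ^ (p - 2)})
        (∑ i ∈ Finset.range a, (i : (ZMod p)[X]) * (1 + X) ^ i) := by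
  rw [map_sum, snd_sum, map_sum]
  refine Finset.sum_congr rfl fun i _ => ?_
  rw [map_pow, kdTheta_eta, kdz_pow_snd, map_mul, map_natCast, map_pow, map_add, map_one]
  rfl

/-- The units used in the certificate: `kdG 1 = ζ` and `kdG a = 1 + ζ + ... + ζ^(a-1)`. -/
noncomputable def kdG (a : ℕ) : (𝓞 K)ˣ :=
  if a = 1 then ((kdeta_isPrimitiveRoot p K).isUnit (Fact.out : p.Prime).ne_zero).unit
  else if h : a.Coprime p then
    ((kdeta_isPrimitiveRoot p K).geom_sum_isUnit (Fact.out : p.Prime).two_le h).unit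
  else 1

theorem kdG_one : ((kdG p K 1 : (𝓞 K)ˣ) : 𝓞 K) = kdeta p K := by
  simp [kdG]

theorem kdG_coe {a : ℕ} (ha1 : a ≠ 1) (ha : a.Coprime p) :
    ((kdG p K a : (𝓞 K)ˣ) : 𝓞 K) = ∑ i ∈ Finset.range a, kdeta p K ^ i := by
  rw [kdG, if_neg ha1, dif_pos ha]
  rfl

theorem kdlog_kdG_one (hp : p ≠ 2) : (kdlog p K hp (kdG p K 1)).toAdd = 1 := by
  have h1 := kdTheta_fst_mul_inv p K hp (kdG p K 1)
  rw [kdlog_apply]
  rw [kdG_one, kdTheta_eta, kdz_fst] at h1
  rw [kdG_one, kdTheta_eta, kdz_snd]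
  exact h1

theorem kdlog_kdG_geom (hp : p ≠ 2) {a : ℕ} (ha1 : a ≠ 1) (ha : a.Coprime p) :
    Ideal.Quotient.mk (Ideal.span {(X : (ZMod p)[X]) ^ (p - 2)})
        (∑ i ∈ Finset.range a, (1 + X) ^ i) * (kdlog p K hp (kdG p K a)).toAdd =
      Ideal.Quotient.mk (Ideal.span {(X : (ZMod p)[X]) ^ (p - 2)})
        (∑ i ∈ Finset.range a, (i : (ZMod p)[X]) * (1 + X) ^ i) := by
  have h := kdTheta_fst_mul_kdlog p K hp (kdG p K a)
  rw [kdG_coe p K ha1 ha, kdTheta_geom_fst, kdTheta_geom_snd] at h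
  exact h

/-- **Kummer's lemma from a certificate**: if the logarithmic derivatives of the cyclotomic
units `ζ`, `1 + ζ`, ..., `1 + ζ + ... + ζ^((p-3)/2)` are linearly independent over `𝔽_p` (stated
as a property of the truncated polynomial ring only), then every unit congruent to a rational
integer modulo `p` is a `p`-th power. -/
theorem kummer_of_cert (hp : p ≠ 2)
    (hcert : ∀ w : ℕ → (ZMod p)[X] ⧸ Ideal.span {(X : (ZMod p)[X]) ^ (p - 2)}, w 1 = 1 →
      (∀ a ∈ Finset.Icc 2 ((p - 1) / 2),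
        Ideal.Quotient.mk _ (∑ i ∈ Finset.range a, (1 + X) ^ i) * w a =
          Ideal.Quotient.mk _ (∑ i ∈ Finset.range a, (i : (ZMod p)[X]) * (1 + X) ^ i)) →
      ∀ c : ℕ → ZMod p, ∑ a ∈ Finset.Icc 1 ((p - 1) / 2), c a • w a = 0 →
        ∀ a ∈ Finset.Icc 1 ((p - 1) / 2), c a = 0) :
    ∀ u : (𝓞 K)ˣ, (∃ n : ℤ, (p : 𝓞 K) ∣ (u : 𝓞 K) - n) → ∃ v : (𝓞 K)ˣ, u = v ^ p := by
  intro u hu
  have hpp : p.Prime := Fact.out
  obtain ⟨s, hs⟩ := exists_units_generators p hp K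
  let w : ℕ → kdA p := fun a => (kdlog p K hp (kdG p K a)).toAdd
  have hw1 : w 1 = 1 := kdlog_kdG_one p K hp
  have hw : ∀ a ∈ Finset.Icc 2 ((p - 1) / 2),
      Ideal.Quotient.mk (Ideal.span {(X : (ZMod p)[X]) ^ (p - 2)})
          (∑ i ∈ Finset.range a, (1 + X) ^ i) * w a =
        Ideal.Quotient.mk (Ideal.span {(X : (ZMod p)[X]) ^ (p - 2)})
          (∑ i ∈ Finset.range a, (i : (ZMod p)[X]) * (1 + X) ^ i) := by
    intro a ha
    rw [Finset.mem_Icc] at ha
    have ha1 : a ≠ 1 := by omega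
    have hap : a.Coprime p := by
      rw [Nat.coprime_comm]
      refine (Nat.Prime.coprime_iff_not_dvd hpp).mpr fun hdvd => ?_
      have := Nat.le_of_dvd (by omega) hdvd
      omega
    exact kdlog_kdG_geom p K hp ha1 hap
  have key := hcert w hw1 hw
  have hLI : LinearIndependent (ZMod p)
      (fun j : Fin ((p - 1) / 2) => (kdlog p K hp (kdG p K (j + 1))).toAdd) := by
    rw [Fintype.linearIndependent_iff]
    intro c' hc' j
    let c : ℕ → ZMod p := fun a => if h : a - 1 < (p - 1) / 2 then c' ⟨a - 1, h⟩ else 0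
    have hc : ∀ j : Fin ((p - 1) / 2), c (j + 1) = c' j := by
      intro j
      have hj : (j : ℕ) + 1 - 1 < (p - 1) / 2 := by
        rw [Nat.add_sub_cancel]; exact j.2
      simp only [c, dif_pos hj]
      congr 1
    have hsum : ∑ a ∈ Finset.Icc 1 ((p - 1) / 2), c a • w a = 0 := by
      rw [← hc']
      rw [← Finset.Ico_add_one_right_eq_Icc, ← Finset.sum_Ico_add' (fun a => c a • w a) 0 _ 1,
        Nat.Ico_zero_eq_range, ← Fin.sum_univ_eq_sum_range (fun a => c (a + 1) • w (a + 1))]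
      refine Finset.sum_congr rfl fun j _ => ?_
      rw [hc]
    have h0 := key c hsum (j + 1) (by
      rw [Finset.mem_Icc]
      have := j.2
      omega)
    rw [hc] at h0
    exact h0
  exact kummer_abstract p s hs (kdlog p K hp) (fun j : Fin ((p - 1) / 2) => kdG p K (j + 1)) hLI
    le_rfl u (kdlog_eq_one_of_dvd p K hp u hu)

end Fermat.Agent.FLTP
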