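import Mathlib

set_option autoImplicit false

open NumberField Polynomial

namespace Fermat.Agent.FLTP

section h76

variable {p : ℕ} [hp : Fact p.Prime] {K : Type} [Field K] [NumberField K]
  [IsCyclotomicExtension {p} ℚ K] {ζ : K} (hζ : IsPrimitiveRoot ζ p)

include hζ in
theorem h76_pow_congr_int (x : 𝓞 K) : ∃ m : ℤ, (p : 𝓞 K) ∣ x ^ p - (m : 𝓞 K) := by
  obtain ⟨f, rfl⟩ := hζ.integralPowerBasis.exists_eq_aeval' x
  rw [hζ.integralPowerBasis_gen]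
  induction f using Polynomial.induction_on with
  | C a => exact ⟨a ^ p, by simp⟩
  | add f g hf hg =>
    obtain ⟨m1, h1⟩ := hf
    obtain ⟨m2, h2⟩ := hg
    obtain ⟨r, hr⟩ := exists_add_pow_prime_eq hp.out (aeval hζ.toInteger f) (aeval hζ.toInteger g)
    refine ⟨m1 + m2, ?_⟩
    rw [map_add, hr]
    push_cast
    have : aeval hζ.toInteger f ^ p + aeval hζ.toInteger g ^ p +
        (p : 𝓞 K) * aeval hζ.toInteger f * aeval hζ.toInteger g * r - ((m1 : 𝓞 K) + m2)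
        = (aeval hζ.toInteger f ^ p - m1) + (aeval hζ.toInteger g ^ p - m2) +
        (p : 𝓞 K) * (aeval hζ.toInteger f * aeval hζ.toInteger g * r) := by ring
    rw [this]
    exact dvd_add (dvd_add h1 h2) (dvd_mul_right _ _)
  | monomial n a h =>
    refine ⟨a ^ p, ?_⟩
    have h1 : hζ.toInteger ^ p = 1 := hζ.toInteger_isPrimitiveRoot.pow_eq_one
    have : (aeval hζ.toInteger (C a * X ^ (n + 1))) ^ p = ((a ^ p : ℤ) : 𝓞 K) := by
      simp only [map_mul, aeval_C, map_pow, aeval_X, mul_pow]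
      rw [← pow_mul, mul_comm (n + 1) p, pow_mul, h1, one_pow, mul_one]
      simp
    rw [this, sub_self]
    exact dvd_zero _


theorem h76_step [IsPrincipalIdealRing (𝓞 K)] (hp2 : p ≠ 2)
    (hk : ∀ u : (𝓞 K)ˣ, (∃ n : ℤ, (p : 𝓞 K) ∣ (u : 𝓞 K) - n) → ∃ v : (𝓞 K)ˣ, u = v ^ p)
    (n : ℕ) (hn : 1 ≤ n) (x y z : 𝓞 K) (u : (𝓞 K)ˣ)
    (hy : ¬ (hζ.toInteger - 1) ∣ y)
    (hz : ¬ (hζ.toInteger - 1) ∣ z)
    (hxy : IsCoprime x y) (h : x ^ p + y ^ p = u * ((hζ.toInteger - 1) ^ n * z) ^ p) :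
    2 ≤ n ∧ ∃ (x' y' z' : 𝓞 K) (u' : (𝓞 K)ˣ),
      ¬ (hζ.toInteger - 1) ∣ y' ∧ ¬ (hζ.toInteger - 1) ∣ z' ∧ IsCoprime x' y' ∧
      x' ^ p + y' ^ p = u' * ((hζ.toInteger - 1) ^ (n - 1) * z') ^ p := by
  classical
  have hlam : Prime (hζ.toInteger - 1) := hζ.zeta_sub_one_prime'
  have hassoc := IsCyclotomicExtension.Rat.associated_zeta_sub_one_pow_prime p hζ
  have hint : ∀ k : ℤ, hζ.toInteger - 1 ∣ (k : 𝓞 K) ↔ (p : ℤ) ∣ k := fun k =>
    IsCyclotomicExtension.Rat.zeta_sub_one_dvd_intCast_iff' p hζ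
  have hfinq := hζ.finite_quotient_toInteger_sub_one hp.out.one_lt
  have hcardq0 := hζ.card_quotient_toInteger_sub_one
  have hnorm := hζ.norm_toInteger_sub_one_of_prime_ne_two' hp2
  have hη := hζ.toInteger_isPrimitiveRoot
  have hF2 : ∀ μ ∈ nthRootsFinset p (1 : 𝓞 K), ∀ ν ∈ nthRootsFinset p (1 : 𝓞 K), μ ≠ ν →
      Associated (hζ.toInteger - 1) (μ - ν) := fun μ hμ ν hν hne =>
    hη.nthRootsFinset_pairwise_associated_sub_one_sub_of_prime hp.out hμ hν hne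
  have hF1 : ∀ μ ∈ nthRootsFinset p (1 : 𝓞 K), ∀ ν ∈ nthRootsFinset p (1 : 𝓞 K),
      hζ.toInteger - 1 ∣ μ - ν := fun μ hμ ν hν => hη.sub_one_dvd_sub hp.out hμ hν
  have hodd : Odd p := hp.out.odd_of_ne_two hp2
  have hp3 : 3 ≤ p := by have := hp.out.two_le; omega
  have hcard : (nthRootsFinset p (1 : 𝓞 K)).card = p := hη.card_nthRootsFinset
  have hprod : x ^ p + y ^ p = ∏ μ ∈ nthRootsFinset p (1 : 𝓞 K), (x + μ * y) :=
    hη.pow_add_pow_eq_prod_add_mul x y hodd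
  generalize hζ.toInteger - 1 = lam at *
  generalize nthRootsFinset p (1 : 𝓞 K) = S at *
  have hlam0 : lam ≠ 0 := hlam.ne_zero
  -- Step 1
  have hdiv : ∀ μ ∈ S, ∃ w, x + μ * y = lam * w := by
    have h1 : lam ∣ ∏ μ ∈ S, (x + μ * y) := by
      rw [← hprod, h]
      exact dvd_mul_of_dvd_right (dvd_pow (dvd_mul_of_dvd_left (dvd_pow_self lam (by omega)) z)
        hp.out.ne_zero) _
    obtain ⟨μ0, hμ0, hμ0d⟩ := hlam.exists_mem_finset_dvd h1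
    intro μ hμ
    have h2 : lam ∣ μ - μ0 := hF1 μ hμ μ0 hμ0
    have h3 : x + μ * y = (x + μ0 * y) + (μ - μ0) * y := by ring
    rw [h3]
    exact dvd_add hμ0d (dvd_mul_of_dvd_left h2 y)
  choose! w hw using hdiv
  have key : ∀ μ ∈ S, ∀ ν ∈ S, μ ≠ ν → ∃ ε : (𝓞 K)ˣ, μ - ν = lam * ε ∧ w μ - w ν = ε * y ∧
      ν * w μ - μ * w ν = -(ε * x) := by
    intro μ hμ ν hν hne
    obtain ⟨ε, hε⟩ := hF2 μ hμ ν hν hne
    refine ⟨ε, hε.symm, ?_, ?_⟩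
    · apply mul_left_cancel₀ hlam0
      calc lam * (w μ - w ν) = (x + μ * y) - (x + ν * y) := by rw [hw μ hμ, hw ν hν]; ring
        _ = (μ - ν) * y := by ring
        _ = lam * (ε * y) := by rw [← hε]; ring
    · apply mul_left_cancel₀ hlam0
      calc lam * (ν * w μ - μ * w ν) = ν * (x + μ * y) - μ * (x + ν * y) := by
            rw [hw μ hμ, hw ν hν]; ring
        _ = -((μ - ν) * x) := by ring
        _ = lam * (-(ε * x)) := by rw [← hε]; ring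
  have hnd : ∀ μ ∈ S, ∀ ν ∈ S, μ ≠ ν → ¬ lam ∣ w μ - w ν := by
    intro μ hμ ν hν hne hd
    obtain ⟨ε, -, h2, -⟩ := key μ hμ ν hν hne
    rw [h2] at hd
    exact hy ((ε.isUnit.dvd_mul_left).mp hd)
  have hcop : ∀ μ ∈ S, ∀ ν ∈ S, μ ≠ ν → IsCoprime (w μ) (w ν) := by
    intro μ hμ ν hν hne
    obtain ⟨ε, -, h2, h3⟩ := key μ hμ ν hν hne
    obtain ⟨r, s, hrs⟩ := hxy
    refine ⟨(-(r * ν) + s) * (ε⁻¹ : (𝓞 K)ˣ), (r * μ - s) * (ε⁻¹ : (𝓞 K)ˣ), ?_⟩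
    have h4 : (-(r * ν) + s) * (ε⁻¹ : (𝓞 K)ˣ) * w μ + (r * μ - s) * (ε⁻¹ : (𝓞 K)ˣ) * w ν
        = (ε⁻¹ : (𝓞 K)ˣ) * (-(r * (ν * w μ - μ * w ν)) + s * (w μ - w ν)) := by ring
    rw [h4, h2, h3]
    have h5 : ((ε⁻¹ : (𝓞 K)ˣ) : 𝓞 K) * (-(r * -(↑ε * x)) + s * (↑ε * y))
        = (((ε⁻¹ : (𝓞 K)ˣ) : 𝓞 K) * ε) * (r * x + s * y) := by ring
    rw [h5, hrs, Units.inv_mul, one_mul]
  -- Step 4: pigeonhole
  have hex : ∃ μ1 ∈ S, lam ∣ w μ1 := by
    by_contra hcon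
    push Not at hcon
    let _ := Fintype.ofFinite (𝓞 K ⧸ Ideal.span {lam})
    have hcardq : Fintype.card (𝓞 K ⧸ Ideal.span {lam}) = p := by
      rw [← Nat.card_eq_fintype_card, hcardq0, hnorm]
      simp
    let f : 𝓞 K → 𝓞 K ⧸ Ideal.span {lam} := fun μ => Ideal.Quotient.mk _ (w μ)
    have hmaps : ∀ μ ∈ S, f μ ∈ (Finset.univ.erase (0 : 𝓞 K ⧸ Ideal.span {lam})) := by
      intro μ hμ
      rw [Finset.mem_erase]
      refine ⟨?_, Finset.mem_univ _⟩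
      intro h0
      exact hcon μ hμ (Ideal.mem_span_singleton.1 (Ideal.Quotient.eq_zero_iff_mem.1 h0))
    have hlt : (Finset.univ.erase (0 : 𝓞 K ⧸ Ideal.span {lam})).card < S.card := by
      rw [Finset.card_erase_of_mem (Finset.mem_univ _), Finset.card_univ, hcardq, hcard]
      have := hp.out.pos
      omega
    obtain ⟨μ, hμ, ν, hν, hne, hf⟩ := Finset.exists_ne_map_eq_of_card_lt_of_maps_to hlt hmaps
    apply hnd μ hμ ν hν hne
    have h0 : Ideal.Quotient.mk (Ideal.span {lam}) (w μ - w ν) = 0 := by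
      rw [map_sub]
      exact sub_eq_zero.2 hf
    exact Ideal.mem_span_singleton.1 (Ideal.Quotient.eq_zero_iff_mem.1 h0)
  obtain ⟨μ1, hμ1, hμ1d⟩ := hex
  -- Step 5
  obtain ⟨m, rfl⟩ : ∃ m, n = m + 1 := ⟨n - 1, by omega⟩
  have hprodw : ∏ μ ∈ S, w μ = u * (lam ^ m * z) ^ p := by
    apply mul_left_cancel₀ (pow_ne_zero p hlam0)
    calc lam ^ p * ∏ μ ∈ S, w μ = ∏ μ ∈ S, (lam * w μ) := by
          rw [Finset.prod_mul_distrib, Finset.prod_const, hcard]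
      _ = ∏ μ ∈ S, (x + μ * y) := Finset.prod_congr rfl (fun μ hμ => (hw μ hμ).symm)
      _ = u * (lam ^ (m + 1) * z) ^ p := by rw [← hprod, h]
      _ = lam ^ p * (u * (lam ^ m * z) ^ p) := by ring
  -- Step 6
  have hm : 1 ≤ m := by
    by_contra hm0
    have hm0 : m = 0 := by omega
    subst hm0
    rw [pow_zero, one_mul] at hprodw
    have h1 : lam ∣ ∏ μ ∈ S, w μ := dvd_trans hμ1d (Finset.dvd_prod_of_mem w hμ1)
    rw [hprodw] at h1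
    exact hz (hlam.dvd_of_dvd_pow ((u.isUnit.dvd_mul_left).mp h1))
  refine ⟨by omega, ?_⟩
  simp only [Nat.add_sub_cancel]
  -- Step 7
  have hnot : ∀ μ ∈ S, μ ≠ μ1 → ¬ lam ∣ w μ := by
    intro μ hμ hne hd
    exact hnd μ hμ μ1 hμ1 hne (dvd_sub hd hμ1d)
  have hsplit : w μ1 * ∏ μ ∈ S.erase μ1, w μ = u * (lam ^ m * z) ^ p := by
    rw [Finset.mul_prod_erase S w hμ1, hprodw]
  have hP1nd : ¬ lam ∣ ∏ μ ∈ S.erase μ1, w μ := by
    intro hd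
    obtain ⟨μ, hμ, hμd⟩ := hlam.exists_mem_finset_dvd hd
    rw [Finset.mem_erase] at hμ
    exact hnot μ hμ.2 hμ.1 hμd
  have hcop1 : IsCoprime (w μ1) (∏ μ ∈ S.erase μ1, w μ) := by
    apply IsCoprime.prod_right
    intro μ hμ
    rw [Finset.mem_erase] at hμ
    exact hcop μ1 hμ1 μ hμ.2 (Ne.symm hμ.1)
  generalize (∏ μ ∈ S.erase μ1, w μ) = P1 at hsplit hP1nd hcop1
  have hpowdvd : lam ^ (m * p) ∣ w μ1 := by
    apply hlam.pow_dvd_of_dvd_mul_right _ hP1nd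
    rw [hsplit]
    exact Dvd.intro (u * z ^ p) (by ring)
  obtain ⟨t, ht⟩ := hpowdvd
  have htP : t * P1 = u * z ^ p := by
    apply mul_left_cancel₀ (pow_ne_zero (m * p) hlam0)
    calc lam ^ (m * p) * (t * P1) = w μ1 * P1 := by rw [ht]; ring
      _ = u * (lam ^ m * z) ^ p := hsplit
      _ = lam ^ (m * p) * (u * z ^ p) := by ring
  have htnd : ¬ lam ∣ t := by
    intro hd
    have h1 : lam ∣ t * P1 := dvd_mul_of_dvd_left hd _
    rw [htP] at h1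
    exact hz (hlam.dvd_of_dvd_pow ((u.isUnit.dvd_mul_left).mp h1))
  have hcopt : IsCoprime t P1 := by
    rw [ht] at hcop1
    exact hcop1.of_mul_left_right
  obtain ⟨c0, hc0⟩ : ∃ c0, Associated (c0 ^ p) t := by
    apply exists_associated_pow_of_associated_pow_mul hcopt (c := z)
    rw [htP]
    exact ⟨u, mul_comm _ _⟩
  obtain ⟨e0, he0⟩ := hc0
  have hc0nd : ¬ lam ∣ c0 := fun hd =>
    htnd (he0 ▸ dvd_mul_of_dvd_left (dvd_pow hd hp.out.ne_zero) _)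
  have hw1 : w μ1 = e0 * (lam ^ m * c0) ^ p := by
    rw [ht, ← he0]; ring
  -- Step 8
  have hfac : ∀ β ∈ S, ∃ (r : 𝓞 K) (e : (𝓞 K)ˣ), w β = e * r ^ p := by
    intro β hβ
    have hsplitβ : w β * ∏ μ ∈ S.erase β, w μ = u * (lam ^ m * z) ^ p := by
      rw [Finset.mul_prod_erase S w hβ, hprodw]
    have hcopβ : IsCoprime (w β) (∏ μ ∈ S.erase β, w μ) := by
      apply IsCoprime.prod_right
      intro μ hμ
      rw [Finset.mem_erase] at hμ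
      exact hcop β hβ μ hμ.2 (Ne.symm hμ.1)
    obtain ⟨r, e, hr⟩ := exists_associated_pow_of_associated_pow_mul hcopβ
      (c := lam ^ m * z) (k := p) (by rw [hsplitβ]; exact ⟨u, mul_comm _ _⟩)
    exact ⟨r, e, by rw [← hr]; ring⟩
  have hcard2 : 1 < (S.erase μ1).card := by
    rw [Finset.card_erase_of_mem hμ1, hcard]; omega
  obtain ⟨β, hβ', γ, hγ', hβγ⟩ := Finset.one_lt_card.mp hcard2
  rw [Finset.mem_erase] at hβ' hγ'
  obtain ⟨hβ1, hβ⟩ := hβ'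
  obtain ⟨hγ1, hγ⟩ := hγ'
  obtain ⟨rβ, eβ, hrβ⟩ := hfac β hβ
  obtain ⟨rγ, eγ, hrγ⟩ := hfac γ hγ
  have hrγnd : ¬ lam ∣ rγ := fun hd =>
    hnot γ hγ hγ1 (hrγ ▸ dvd_mul_of_dvd_right (dvd_pow hd hp.out.ne_zero) _)
  have hcoprr : IsCoprime rβ rγ := by
    have h1 := hcop β hβ γ hγ hβγ
    rw [hrβ, hrγ] at h1
    have h2 : IsCoprime (rβ ^ p) (rγ ^ p) :=
      (isCoprime_mul_unit_left_left eβ.isUnit _ _).mp
        ((isCoprime_mul_unit_left_right eγ.isUnit _ _).mp h1)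
    exact (IsCoprime.pow_iff hp.out.pos hp.out.pos).mp h2
  -- Step 9
  obtain ⟨ε1, hε1, -, -⟩ := key β hβ γ hγ hβγ
  obtain ⟨ε2, hε2, -, -⟩ := key γ hγ μ1 hμ1 hγ1
  obtain ⟨ε3, hε3, -, -⟩ := key μ1 hμ1 β hβ (Ne.symm hβ1)
  have hrel : (ε1 : 𝓞 K) * w μ1 + ε2 * w β + ε3 * w γ = 0 := by
    apply mul_left_cancel₀ hlam0
    apply mul_left_cancel₀ hlam0
    calc lam * (lam * (ε1 * w μ1 + ε2 * w β + ε3 * w γ))
        = (lam * ε1) * (lam * w μ1) + (lam * ε2) * (lam * w β) + (lam * ε3) * (lam * w γ) := by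
          ring
      _ = (β - γ) * (x + μ1 * y) + (γ - μ1) * (x + β * y) + (μ1 - β) * (x + γ * y) := by
          rw [← hε1, ← hε2, ← hε3, ← hw μ1 hμ1, ← hw β hβ, ← hw γ hγ]
      _ = 0 := by ring
      _ = lam * (lam * 0) := by ring
  rw [hw1, hrβ, hrγ] at hrel
  set d : (𝓞 K)ˣ := ε2 * eβ with hd
  set κ : (𝓞 K)ˣ := ε3 * eγ * d⁻¹ with hκdef
  set u' : (𝓞 K)ˣ := -(ε1 * e0 * d⁻¹) with hu'def
  have hdd : (d : 𝓞 K) * ((d⁻¹ : (𝓞 K)ˣ) : 𝓞 K) = 1 := Units.mul_inv d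
  have hmain : rβ ^ p + κ * rγ ^ p = u' * (lam ^ m * c0) ^ p := by
    have h1 : (d : 𝓞 K) * (rβ ^ p + κ * rγ ^ p - u' * (lam ^ m * c0) ^ p) = 0 := by
      simp only [hκdef, hu'def, Units.val_mul, Units.val_neg]
      have hd' : (d : 𝓞 K) = ε2 * eβ := by simp [hd]
      linear_combination hrel + (ε3 * eγ * rγ ^ p + ε1 * e0 * (lam ^ m * c0) ^ p) * hdd
        + (rβ ^ p) * hd'
    have h2 := (mul_eq_zero.mp h1).resolve_left d.ne_zero
    exact sub_eq_zero.mp h2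
  -- Step 10
  have hpdvd : (p : 𝓞 K) ∣ (lam ^ m * c0) ^ p := by
    have h1 : (p : 𝓞 K) ∣ lam ^ (p - 1) := hassoc.symm.dvd
    have h2 : lam ^ (p - 1) ∣ (lam ^ m * c0) ^ p := by
      rw [mul_pow, ← pow_mul]
      refine dvd_mul_of_dvd_left (pow_dvd_pow lam ?_) _
      calc p - 1 ≤ p := Nat.sub_le _ _
        _ = 1 * p := (one_mul p).symm
        _ ≤ m * p := Nat.mul_le_mul_right p hm
    exact h1.trans h2
  obtain ⟨m1, hm1⟩ := h76_pow_congr_int hζ rβ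
  obtain ⟨m2, hm2⟩ := h76_pow_congr_int hζ rγ
  have hpm : (p : 𝓞 K) ∣ (m1 : 𝓞 K) + κ * m2 := by
    have h3 : (p : 𝓞 K) ∣ rβ ^ p + κ * rγ ^ p := by
      rw [hmain]; exact dvd_mul_of_dvd_right hpdvd _
    have h4 : (m1 : 𝓞 K) + κ * m2 = (rβ ^ p + κ * rγ ^ p) - (rβ ^ p - m1) - κ * (rγ ^ p - m2) := by
      ring
    rw [h4]
    exact dvd_sub (dvd_sub h3 hm1) (dvd_mul_of_dvd_right hm2 _)
  have hpm2 : ¬ (p : ℤ) ∣ m2 := by
    intro hdv
    have h4 : lam ∣ (m2 : 𝓞 K) := (hint m2).mpr hdv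
    have h5 : lam ∣ (p : 𝓞 K) := by
      have := (hint (p : ℤ)).mpr dvd_rfl
      simpa using this
    have h6 : lam ∣ rγ ^ p := by
      have h7 : rγ ^ p = (rγ ^ p - m2) + m2 := by ring
      rw [h7]; exact dvd_add (h5.trans hm2) h4
    exact hrγnd (hlam.dvd_of_dvd_pow h6)
  obtain ⟨s, t', hst⟩ : IsCoprime (m2 : ℤ) (p : ℤ) := by
    have hpp : Prime (p : ℤ) := Nat.prime_iff_prime_int.mp hp.out
    exact (hpp.coprime_iff_not_dvd.mpr hpm2).symm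
  have hκ : (p : 𝓞 K) ∣ (κ : 𝓞 K) - ((-(s * m1) : ℤ) : 𝓞 K) := by
    have hst' : (s : 𝓞 K) * m2 + t' * p = 1 := by
      exact_mod_cast congrArg (Int.cast : ℤ → 𝓞 K) hst
    have h8 : (κ : 𝓞 K) - ((-(s * m1) : ℤ) : 𝓞 K)
        = s * ((m1 : 𝓞 K) + κ * m2) + (p : 𝓞 K) * (κ * t') := by
      push_cast
      linear_combination (-(κ : 𝓞 K)) * hst'
    rw [h8]
    exact dvd_add (dvd_mul_of_dvd_right hpm _) (dvd_mul_right _ _)
  obtain ⟨v, hv⟩ := hk κ ⟨-(s * m1), hκ⟩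
  refine ⟨rβ, v * rγ, c0, u', ?_, hc0nd, ?_, ?_⟩
  · intro hdv
    exact hrγnd ((v.isUnit.dvd_mul_left).mp hdv)
  · exact (isCoprime_mul_unit_left_right v.isUnit _ _).mpr hcoprr
  · rw [mul_pow, ← Units.val_pow_eq_pow_val, ← hv]
    exact hmain

theorem h76_noSol [IsPrincipalIdealRing (𝓞 K)] (hp2 : p ≠ 2)
    (hk : ∀ u : (𝓞 K)ˣ, (∃ n : ℤ, (p : 𝓞 K) ∣ (u : 𝓞 K) - n) → ∃ v : (𝓞 K)ˣ, u = v ^ p)
    (n : ℕ) (hn : 1 ≤ n) (x y z : 𝓞 K) (u : (𝓞 K)ˣ)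
    (hy : ¬ (hζ.toInteger - 1) ∣ y) (hz : ¬ (hζ.toInteger - 1) ∣ z)
    (hxy : IsCoprime x y) : x ^ p + y ^ p ≠ u * ((hζ.toInteger - 1) ^ n * z) ^ p := by
  induction n generalizing x y z u with
  | zero => omega
  | succ n ih =>
    intro h
    obtain ⟨h2, x', y', z', u', hy', hz', hxy', h'⟩ :=
      h76_step hζ hp2 hk (n + 1) hn x y z u hy hz hxy h
    simp only [Nat.add_sub_cancel] at h'
    exact ih (by omega) x' y' z' u' hy' hz' hxy' h'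

include hζ in
theorem h76_caseII_dvd_c [IsPrincipalIdealRing (𝓞 K)] (hp2 : p ≠ 2)
    (hk : ∀ u : (𝓞 K)ˣ, (∃ n : ℤ, (p : 𝓞 K) ∣ (u : 𝓞 K) - n) → ∃ v : (𝓞 K)ˣ, u = v ^ p)
    (a b c : ℤ) (hab : IsCoprime a b) (h : a ^ p + b ^ p = c ^ p) (hc0 : c ≠ 0)
    (hdvd : (p : ℤ) ∣ c) : False := by
  have hpp : Prime (p : ℤ) := Nat.prime_iff_prime_int.mp hp.out
  have hint : ∀ k : ℤ, hζ.toInteger - 1 ∣ (k : 𝓞 K) ↔ (p : ℤ) ∣ k := fun k =>
    IsCyclotomicExtension.Rat.zeta_sub_one_dvd_intCast_iff' p hζ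
  have hb : ¬ (p : ℤ) ∣ b := by
    intro hb
    have ha : (p : ℤ) ∣ a := by
      apply hpp.dvd_of_dvd_pow (n := p)
      have h1 : a ^ p = c ^ p - b ^ p := by linarith
      rw [h1]
      exact dvd_sub (dvd_pow hdvd hp.out.ne_zero) (dvd_pow hb hp.out.ne_zero)
    exact hpp.not_isUnit (hab.isUnit_of_dvd' ha hb)
  have hfin : FiniteMultiplicity (p : ℤ) c := by
    rw [Int.finiteMultiplicity_iff]
    refine ⟨?_, hc0⟩
    simpa using hp.out.ne_one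
  obtain ⟨c', hc', hc'nd⟩ := hfin.exists_eq_pow_mul_and_not_dvd
  set k := multiplicity (p : ℤ) c with hkdef
  have hk1 : 1 ≤ k := by
    by_contra hk0
    have hk0 : k = 0 := by omega
    rw [hk0, pow_zero, one_mul] at hc'
    exact hc'nd (hc' ▸ hdvd)
  obtain ⟨w, hw⟩ := IsCyclotomicExtension.Rat.associated_zeta_sub_one_pow_prime p hζ
  have hn : 1 ≤ (p - 1) * k := by
    have := hp.out.two_le
    exact Nat.mul_pos (by omega) hk1
  refine h76_noSol hζ hp2 hk ((p - 1) * k) hn (a : 𝓞 K) (b : 𝓞 K) (c' : 𝓞 K) (w ^ (k * p))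
    (fun hd => hb ((hint b).mp hd)) (fun hd => hc'nd ((hint c').mp hd)) hab.intCast ?_
  have h1 : ((a : 𝓞 K)) ^ p + (b : 𝓞 K) ^ p = ((c : ℤ) : 𝓞 K) ^ p := by
    exact_mod_cast congrArg (Int.cast : ℤ → 𝓞 K) h
  rw [h1, hc']
  push_cast
  rw [← hw]
  ring

end h76

/-- Case II of Fermat's Last Theorem for an odd prime `p` such that the ring of integers of the
`p`-th cyclotomic field is a PID and Kummer's lemma holds. -/
theorem h76_caseII (p : ℕ) [Fact p.Prime] (hp2 : p ≠ 2) (K : Type) [Field K] [NumberField K]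
    [IsCyclotomicExtension {p} ℚ K] (hpid : IsPrincipalIdealRing (NumberField.RingOfIntegers K))
    (hk : ∀ u : (NumberField.RingOfIntegers K)ˣ,
      (∃ n : ℤ, (p : NumberField.RingOfIntegers K) ∣ (u : NumberField.RingOfIntegers K) - n) →
        ∃ v : (NumberField.RingOfIntegers K)ˣ, u = v ^ p)
    (a b c : ℤ) (hab : IsCoprime a b) (h : a ^ p + b ^ p = c ^ p) (habc : a * b * c ≠ 0)
    (hdvd : (p : ℤ) ∣ a * b * c) : False := by
  have hζ := IsCyclotomicExtension.zeta_spec p ℚ K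
  have hprime : p.Prime := Fact.out
  have hodd : Odd p := hprime.odd_of_ne_two hp2
  have hpp : Prime (p : ℤ) := Nat.prime_iff_prime_int.mp hprime
  have ha0 : a ≠ 0 := fun h0 => habc (by simp [h0])
  have hb0 : b ≠ 0 := fun h0 => habc (by simp [h0])
  have hc0 : c ≠ 0 := fun h0 => habc (by simp [h0])
  have hppos : 0 < p := hprime.pos
  obtain ⟨q, hq⟩ : ∃ q, p = q + 1 := ⟨p - 1, by omega⟩
  rcases hpp.dvd_or_dvd hdvd with hd | hd
  · rcases hpp.dvd_or_dvd hd with hd | hd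
    · -- p ∣ a : c ^ p + (-b) ^ p = a ^ p
      refine h76_caseII_dvd_c hζ hp2 hk c (-b) a ?_ ?_ ha0 hd
      · have h1 : IsCoprime (a ^ p) b := hab.pow_left
        have h2 : a ^ p = c ^ p + b * (-(b ^ q)) := by rw [hq] at h ⊢; linear_combination h
        rw [h2] at h1
        exact ((IsCoprime.pow_left_iff hppos).mp h1.of_add_mul_left_left).neg_right
      · rw [hodd.neg_pow]; linarith
    · -- p ∣ b : c ^ p + (-a) ^ p = b ^ p
      refine h76_caseII_dvd_c hζ hp2 hk c (-a) b ?_ ?_ hb0 hd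
      · have h1 : IsCoprime (b ^ p) a := hab.symm.pow_left
        have h2 : b ^ p = c ^ p + a * (-(a ^ q)) := by rw [hq] at h ⊢; linear_combination h
        rw [h2] at h1
        exact ((IsCoprime.pow_left_iff hppos).mp h1.of_add_mul_left_left).neg_right
      · rw [hodd.neg_pow]; linarith
  · exact h76_caseII_dvd_c hζ hp2 hk a b c hab h hc0 hd

end Fermat.Agent.FLTP
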